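/-
S13 / GAL (helper26): generic Galois-theoretic glue for the mod-`n` representation on
`E[n](ℚ̄)` in the prelude's language.

* `exists_finite_fixing`: if `E[n](ℚ̄)` is finite, some finite extension `M/ℚ` has
  `Gal(ℚ̄/M)` acting trivially on it.
* `trivOnQuot N`, `trivOn N`: the subgroups of `Gal(ℚ̄/ℚ)` acting trivially on `V/N`, resp. `N`;
  they are normal for Galois-stable `N`, and contain `Gal(ℚ̄/M)`.
* `exists_rat_of_fixed`: a point fixed by all of `Gal(ℚ̄/ℚ)` has rational coordinates.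
* `exists_liesOverPrime`: every prime has a valuation subring of `ℚ̄` above it.
* `hasCofixedLine_of_trivOnQuot_eq_top`: the final packaging.
-/
import Mathlib
import Fermat.Prelude.Def_FLTPrelim_FreyPackage
import Fermat.Prelude.Def_FLTPrelim_GaloisRep
import Fermat.Prelude.Def_FLTPrelim_Ramification
import Fermat.Prelude.Def_FLTPrelim_CofixedLine

set_option autoImplicit false

open WeierstrassCurve WeierstrassCurve.Affine WeierstrassCurve.Affine.Point

namespace Fermat.Agent.S13.Gal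

local notation "Qbar" => AlgebraicClosure ℚ
local notation "GQ" => (AlgebraicClosure ℚ) ≃ₐ[ℚ] (AlgebraicClosure ℚ)

theorem isAlgebraic_Qbar : Algebra.IsAlgebraic ℚ Qbar := AlgebraicClosure.isAlgebraic ℚ

theorem isAlgClosure_Qbar : IsAlgClosure ℚ Qbar :=
  haveI := isAlgebraic_Qbar
  ⟨inferInstance, inferInstance⟩

theorem isGalois_Qbar : IsGalois ℚ Qbar :=
  haveI := isAlgClosure_Qbar
  inferInstance

attribute [local instance] isAlgebraic_Qbar isAlgClosure_Qbar isGalois_Qbar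

variable {W' : Affine ℚ}

/-! ### Coordinates of a point -/

/-- The set of coordinates of a point. -/
def coordSet (P : (W'⁄Qbar).Point) : Set Qbar :=
  match P with
  | .zero => ∅
  | .some x y _ => {x, y}

theorem finite_coordSet (P : (W'⁄Qbar).Point) : (coordSet P).Finite := by
  cases P with
  | zero => exact Set.finite_empty
  | some x y h => exact Set.toFinite {x, y}

theorem smul_eq_self_of_coordSet (σ : GQ) (P : (W'⁄Qbar).Point)
    (h : ∀ c ∈ coordSet P, σ c = c) : σ • P = P := by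
  cases P with
  | zero => rfl
  | some x y hxy =>
    have hx : σ x = x := h x (by simp [coordSet])
    have hy : σ y = y := h y (by simp [coordSet])
    rw [algEquiv_smul_def, Point.map_some]
    simp only [Point.some.injEq]
    exact ⟨hx, hy⟩

theorem mem_coordSet_of_smul_eq_self (σ : GQ) (P : (W'⁄Qbar).Point) (h : σ • P = P) :
    ∀ c ∈ coordSet P, σ c = c := by
  cases P with
  | zero => intro c hc; simp [coordSet] at hc
  | some x y hxy =>
    rw [algEquiv_smul_def, Point.map_some] at h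
    simp only [Point.some.injEq] at h
    intro c hc
    simp only [coordSet, Set.mem_insert_iff, Set.mem_singleton_iff] at hc
    rcases hc with rfl | rfl
    · exact h.1
    · exact h.2

/-! ### A finite field of definition -/

/-- If `E[n](ℚ̄)` is finite, there is a finite extension `M/ℚ` such that `Gal(ℚ̄/M)` acts trivially
on it. -/
theorem exists_finite_fixing (n : ℕ) [Finite (Submodule.torsionBy ℤ (W'⁄Qbar).Point n)] :
    ∃ M : IntermediateField ℚ Qbar, FiniteDimensional ℚ M ∧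
      ∀ σ ∈ M.fixingSubgroup, ∀ x : Submodule.torsionBy ℤ (W'⁄Qbar).Point n, σ • x = x := by
  classical
  set T : Set Qbar := ⋃ x : Submodule.torsionBy ℤ (W'⁄Qbar).Point n,
    coordSet (x : (W'⁄Qbar).Point) with hT
  have hTfin : T.Finite := Set.finite_iUnion fun x => finite_coordSet _
  have : Finite T := hTfin
  refine ⟨IntermediateField.adjoin ℚ T,
    IntermediateField.finiteDimensional_adjoin (fun x _ => Algebra.IsIntegral.isIntegral x), ?_⟩
  intro σ hσ x
  apply Subtype.ext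
  show σ • (x : (W'⁄Qbar).Point) = x
  apply smul_eq_self_of_coordSet
  intro c hc
  have hcT : c ∈ T := Set.mem_iUnion.mpr ⟨x, hc⟩
  have hcM : c ∈ IntermediateField.adjoin ℚ T := IntermediateField.subset_adjoin ℚ T hcT
  exact (IntermediateField.mem_fixingSubgroup_iff _ σ).mp hσ c hcM

/-! ### The subgroups acting trivially on `N` and on `V/N` -/

section Subgroups

variable {n : ℕ} (N : Submodule (ZMod n) (Submodule.torsionBy ℤ (W'⁄Qbar).Point n))

/-- The subgroup of `Gal(ℚ̄/ℚ)` acting trivially on `V/N`. -/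
def trivOnQuot : Subgroup GQ where
  carrier := {σ | ∀ x : Submodule.torsionBy ℤ (W'⁄Qbar).Point n, σ • x - x ∈ N}
  one_mem' := fun x => by simp
  mul_mem' := fun {σ τ} hσ hτ x => by
    have h : (σ * τ) • x - x = (σ • (τ • x) - τ • x) + (τ • x - x) := by
      rw [mul_smul]; abel
    rw [h]
    exact N.add_mem (hσ (τ • x)) (hτ x)
  inv_mem' := fun {σ} hσ x => by
    have h : σ⁻¹ • x - x = -(σ • (σ⁻¹ • x) - σ⁻¹ • x) := by
      rw [smul_inv_smul]; abel
    rw [h]
    exact N.neg_mem (hσ (σ⁻¹ • x))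

theorem mem_trivOnQuot {σ : GQ} :
    σ ∈ trivOnQuot N ↔ ∀ x : Submodule.torsionBy ℤ (W'⁄Qbar).Point n, σ • x - x ∈ N := Iff.rfl

/-- The subgroup of `Gal(ℚ̄/ℚ)` acting trivially on `N`. -/
def trivOn : Subgroup GQ where
  carrier := {σ | ∀ x ∈ N, σ • x = x}
  one_mem' := fun x _ => by simp
  mul_mem' := fun {σ τ} hσ hτ x hx => by
    rw [mul_smul, hτ x hx, hσ x hx]
  inv_mem' := fun {σ} hσ x hx => by
    rw [inv_smul_eq_iff, hσ x hx]

theorem mem_trivOn {σ : GQ} : σ ∈ trivOn N ↔ ∀ x ∈ N, σ • x = x := Iff.rfl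

variable {N}

theorem inv_smul_mem_of_stable (hN : IsGaloisStable ℚ N) (τ : GQ)
    {x : Submodule.torsionBy ℤ (W'⁄Qbar).Point n} (hx : x ∈ N) : τ⁻¹ • x ∈ N :=
  hN τ⁻¹ x hx

theorem trivOnQuot_normal (hN : IsGaloisStable ℚ N) : (trivOnQuot N).Normal := by
  refine ⟨fun σ hσ τ x => ?_⟩
  have h : (τ * σ * τ⁻¹) • x - x = τ • (σ • (τ⁻¹ • x) - τ⁻¹ • x) := by
    rw [smul_sub, mul_smul, mul_smul, smul_inv_smul]
  rw [h]
  exact hN τ _ (hσ (τ⁻¹ • x))

theorem trivOn_normal (hN : IsGaloisStable ℚ N) : (trivOn N).Normal := by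
  refine ⟨fun σ hσ τ x hx => ?_⟩
  rw [mul_smul, mul_smul, hσ _ (hN τ⁻¹ x hx), smul_inv_smul]

theorem fixingSubgroup_le_trivOnQuot {M : IntermediateField ℚ Qbar}
    (hM : ∀ σ ∈ M.fixingSubgroup, ∀ x : Submodule.torsionBy ℤ (W'⁄Qbar).Point n, σ • x = x) :
    M.fixingSubgroup ≤ trivOnQuot N := by
  intro σ hσ x
  rw [hM σ hσ x, sub_self]
  exact N.zero_mem

theorem fixingSubgroup_le_trivOn {M : IntermediateField ℚ Qbar}
    (hM : ∀ σ ∈ M.fixingSubgroup, ∀ x : Submodule.torsionBy ℤ (W'⁄Qbar).Point n, σ • x = x) :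
    M.fixingSubgroup ≤ trivOn N :=
  fun σ hσ x _ => hM σ hσ x

/-- Final packaging: a proper nonzero stable `N` with `Gal(ℚ̄/ℚ)` acting trivially on `V/N`. -/
theorem hasCofixedLine_of_trivOnQuot_eq_top (hN : IsGaloisStable ℚ N) (h0 : N ≠ ⊥) (h1 : N ≠ ⊤)
    (htop : trivOnQuot N = ⊤) : HasGaloisStableCofixedLine (K := Qbar) ℚ W' n :=
  ⟨N, hN, h0, h1, fun σ x => (mem_trivOnQuot N).mp (by rw [htop]; exact Subgroup.mem_top σ) x⟩

end Subgroups

/-! ### Rationality of fixed points -/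

theorem mem_range_of_fixed {c : Qbar} (h : ∀ σ : GQ, σ c = c) :
    c ∈ Set.range (algebraMap ℚ Qbar) :=
  (InfiniteGalois.mem_range_algebraMap_iff_fixed (k := ℚ) (K := Qbar) c).mpr h

/-- A point fixed by all of `Gal(ℚ̄/ℚ)` has rational coordinates. -/
theorem exists_rat_of_fixed {x y : Qbar} (hxy : (W'⁄Qbar).Nonsingular x y)
    (h : ∀ σ : GQ, σ • (Point.some x y hxy : (W'⁄Qbar).Point) = Point.some x y hxy) :
    ∃ x₀ y₀ : ℚ, x = algebraMap ℚ Qbar x₀ ∧ y = algebraMap ℚ Qbar y₀ := by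
  have hx : ∀ σ : GQ, σ x = x := fun σ =>
    mem_coordSet_of_smul_eq_self σ _ (h σ) x (by simp [coordSet])
  have hy : ∀ σ : GQ, σ y = y := fun σ =>
    mem_coordSet_of_smul_eq_self σ _ (h σ) y (by simp [coordSet])
  obtain ⟨x₀, hx₀⟩ := mem_range_of_fixed hx
  obtain ⟨y₀, hy₀⟩ := mem_range_of_fixed hy
  exact ⟨x₀, y₀, hx₀.symm, hy₀.symm⟩

/-- A point fixed by all of `Gal(ℚ̄/ℚ)` comes from a `ℚ`-point. -/
theorem exists_ratPoint_of_fixed (P : (W'⁄Qbar).Point) (h : ∀ σ : GQ, σ • P = P) :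
    ∃ Q : (W'⁄ℚ).Point, Point.map (W' := W') (Algebra.ofId ℚ Qbar) Q = P := by
  cases P with
  | zero => exact ⟨0, rfl⟩
  | some x y hxy =>
    obtain ⟨x₀, y₀, rfl, rfl⟩ := exists_rat_of_fixed hxy h
    have hns : (W'⁄ℚ).Nonsingular x₀ y₀ :=
      (W'.baseChange_nonsingular (Algebra.ofId ℚ Qbar).injective x₀ y₀).mp hxy
    exact ⟨Point.some x₀ y₀ hns, rfl⟩

/-! ### Valuation subrings over a prime -/

/-- Every prime number has a valuation subring of `ℚ̄` above it. -/
theorem exists_liesOverPrime (q : ℕ) (hq : q.Prime) :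
    ∃ A : ValuationSubring Qbar, A.LiesOverPrime q := by
  let Z : Subring Qbar := (algebraMap ℤ Qbar).range
  let I : Ideal Z := Ideal.span {⟨(q : Qbar), ⟨(q : ℤ), by simp⟩⟩}
  have hI : I ≠ ⊤ := by
    intro htop
    have h1 : (1 : Z) ∈ I := by rw [htop]; exact Submodule.mem_top
    obtain ⟨⟨a, ⟨m, rfl⟩⟩, ha⟩ := Ideal.mem_span_singleton'.mp h1
    have h2 := congrArg (Subtype.val) ha
    simp only [Subring.coe_mul, Subring.coe_one] at h2
    have h3 : ((m * q : ℤ) : Qbar) = ((1 : ℤ) : Qbar) := by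
      push_cast
      simpa using h2
    have h4 : m * (q : ℤ) = 1 := by exact_mod_cast (algebraMap ℤ Qbar).injective_int h3
    have h5 : (q : ℤ) ∣ 1 := Dvd.intro_left m h4
    have h6 : q ∣ 1 := by exact_mod_cast h5
    exact hq.one_lt.ne' (Nat.dvd_one.mp h6)
  obtain ⟨B, -, hB⟩ := Ideal.image_subset_nonunits_valuationSubring I hI
  refine ⟨B, hB ⟨⟨(q : Qbar), ⟨(q : ℤ), by simp⟩⟩, Ideal.subset_span rfl, rfl⟩⟩

/-! ### Unfolding reducibility; lines -/

/-- Unfolding `¬ GaloisRepIsIrreducible`. -/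
theorem not_irreducible_iff (n : ℕ) :
    ¬ GaloisRepIsIrreducible (K := Qbar) ℚ W' n ↔
      (¬ Nontrivial (Submodule.torsionBy ℤ (W'⁄Qbar).Point n)) ∨
        ∃ N : Submodule (ZMod n) (Submodule.torsionBy ℤ (W'⁄Qbar).Point n),
          IsGaloisStable ℚ N ∧ N ≠ ⊥ ∧ N ≠ ⊤ := by
  unfold GaloisRepIsIrreducible
  rw [not_and_or]
  refine or_congr Iff.rfl ?_
  constructor
  · intro h
    by_contra hcon
    apply h
    intro N hN
    by_contra hN'
    rw [not_or] at hN'
    exact hcon ⟨N, hN, hN'.1, hN'.2⟩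
  · rintro ⟨N, hN, h0, h1⟩ h
    rcases h N hN with h | h
    · exact h0 h
    · exact h1 h

/-- The Galois action commutes with the `ZMod n`-module structure. -/
theorem smul_zmod_smul {n : ℕ} (σ : GQ) (c : ZMod n)
    (x : Submodule.torsionBy ℤ (W'⁄Qbar).Point n) : σ • (c • x) = c • (σ • x) := by
  obtain ⟨m, rfl⟩ := ZMod.intCast_surjective c
  rw [Int.cast_smul_eq_zsmul, Int.cast_smul_eq_zsmul]
  exact map_zsmul (DistribSMul.toAddMonoidHom
    (Submodule.torsionBy ℤ (W'⁄Qbar).Point n) σ) m x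

theorem mem_trivOn_span_singleton {n : ℕ} (P₀ : Submodule.torsionBy ℤ (W'⁄Qbar).Point n)
    (σ : GQ) : σ ∈ trivOn (Submodule.span (ZMod n) {P₀}) ↔ σ • P₀ = P₀ := by
  constructor
  · intro h
    exact h P₀ (Submodule.subset_span rfl)
  · intro h x hx
    obtain ⟨c, rfl⟩ := Submodule.mem_span_singleton.mp hx
    rw [smul_zmod_smul, h]

/-- If `Gal(ℚ̄/ℚ)` acts trivially on the line spanned by `P₀`, then `P₀` is a rational point. -/
theorem exists_ratPoint_of_trivOn_eq_top {n : ℕ}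
    (P₀ : Submodule.torsionBy ℤ (W'⁄Qbar).Point n)
    (h : trivOn (Submodule.span (ZMod n) {P₀}) = ⊤) :
    ∃ Q : (W'⁄ℚ).Point, Point.map (W' := W') (Algebra.ofId ℚ Qbar) Q = (P₀ : (W'⁄Qbar).Point) := by
  apply exists_ratPoint_of_fixed
  intro σ
  have hσ : σ ∈ trivOn (Submodule.span (ZMod n) {P₀}) := by rw [h]; exact Subgroup.mem_top σ
  have := (mem_trivOn_span_singleton P₀ σ).mp hσ
  exact congrArg Subtype.val this

/-! ### Linear algebra in dimension `≤ 2` -/

section LinAlg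

variable {k V : Type*} [Field k] [AddCommGroup V] [Module k V] [FiniteDimensional k V]

theorem finrank_eq_one_of_proper (h2 : Module.finrank k V ≤ 2) (N : Submodule k V) (h0 : N ≠ ⊥)
    (h1 : N ≠ ⊤) : Module.finrank k N = 1 := by
  have hlt : Module.finrank k N < Module.finrank k V := Submodule.finrank_lt h1
  have hpos : 0 < Module.finrank k N := by
    rw [Module.finrank_pos_iff]
    exact (Submodule.nontrivial_iff_ne_bot).mpr h0
  omega

/-- A proper nonzero subspace of a space of dimension `≤ 2` is a line. -/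
theorem exists_eq_span_singleton (h2 : Module.finrank k V ≤ 2) (N : Submodule k V) (h0 : N ≠ ⊥)
    (h1 : N ≠ ⊤) : ∃ v : V, v ≠ 0 ∧ N = Submodule.span k {v} := by
  have h := finrank_eq_one_of_proper h2 N h0 h1
  obtain ⟨⟨v, hvN⟩, hv0, hv⟩ := finrank_eq_one_iff'.mp h
  refine ⟨v, fun h => hv0 (Subtype.ext h), le_antisymm ?_ ?_⟩
  · intro w hw
    obtain ⟨c, hc⟩ := hv ⟨w, hw⟩
    rw [Submodule.mem_span_singleton]
    exact ⟨c, congrArg Subtype.val hc⟩
  · rw [Submodule.span_singleton_le_iff_mem]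
    exact hvN

/-- In dimension `≤ 2`, a proper subspace containing a nonzero subspace is equal to it. -/
theorem eq_of_le_of_ne_top (h2 : Module.finrank k V ≤ 2) {N N' : Submodule k V} (h0 : N ≠ ⊥)
    (hle : N ≤ N') (h1' : N' ≠ ⊤) : N' = N := by
  have h0' : N' ≠ ⊥ := fun h => h0 (le_bot_iff.mp (h ▸ hle))
  have h1 : N ≠ ⊤ := fun h => h1' (top_le_iff.mp (h ▸ hle))
  have hN := finrank_eq_one_of_proper h2 N h0 h1
  have hN' := finrank_eq_one_of_proper h2 N' h0' h1'
  exact (Submodule.eq_of_le_of_finrank_eq hle (by rw [hN, hN'])).symm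

omit [FiniteDimensional k V] in
/-- A line is contained in a subspace or meets it trivially. -/
theorem le_or_inf_eq_bot_of_span_singleton (v : V) (N' : Submodule k V) :
    Submodule.span k {v} ≤ N' ∨ Submodule.span k {v} ⊓ N' = ⊥ := by
  by_cases hv : v ∈ N'
  · left
    rw [Submodule.span_singleton_le_iff_mem]
    exact hv
  · right
    rw [Submodule.eq_bot_iff]
    rintro w ⟨hw1, hw2⟩
    obtain ⟨c, rfl⟩ := Submodule.mem_span_singleton.mp hw1
    by_cases hc : c = 0
    · rw [hc, zero_smul]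
    · exfalso
      apply hv
      have : v = c⁻¹ • (c • v) := by rw [smul_smul, inv_mul_cancel₀ hc, one_smul]
      rw [this]
      exact N'.smul_mem _ hw2

end LinAlg

end Fermat.Agent.S13.Gal
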