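/-
S13 (Frey `E[p]` reducible ⇒ Galois-stable cofixed line): INTERFACE of the packages.
Blueprint: team DB `blueprints` id = 7 (owner helper4).  No `sorry` in this file.

Every package statement is a `Prop`-valued `def` here (`…Stmt`).  A package proves
`theorem <name> : Fermat.Agent.S13.<…Stmt>` in its own file `Fermat/Agent/S13/<Pkg>.lean`
(importing this file), and `Fermat/Agent/S13/Assembly.lean` proves S13 from the `…Stmt`s.
-/
import Mathlib
import Fermat.Prelude.Def_FLTPrelim_CofixedLine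
import Fermat.Prelude.Def_FLTPrelim_Ramification
import Fermat.Agent.S05.Defs

set_option autoImplicit false

open WeierstrassCurve WeierstrassCurve.Affine WeierstrassCurve.Affine.Point Polynomial

namespace Fermat.Agent.S13

/-- `ℚ̄`. -/
abbrev Qb : Type := AlgebraicClosure ℚ

/-- The absolute Galois group of `ℚ`. -/
abbrev GQ : Type := Qb ≃ₐ[ℚ] Qb

open Fermat.Agent.S05 (IsOrd IsU IsInertial IsIntegralW E1 poleSet)

/-- The output of package [T]: a "`p`-division polynomial" `θ` (monic, degree `p²-1`, roots = the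
`x`-coordinates of the nonzero `p`-torsion points, all roots at least double, and `p²θ` integral
over every valuation ring over which the curve is integral and in which `1, …, p-1` are units).
OPTIONAL: only `TCountStmt` and `MassStmt` are consumed by the assembly. -/
structure IsDivPoly {K : Type*} [Field K] [DecidableEq K] (W : Affine K) (p : ℕ) (θ : K[X]) :
    Prop where
  monic : θ.Monic
  natDegree_eq : θ.natDegree = p ^ 2 - 1
  root_iff : ∀ {x y : K} (h : W.Nonsingular x y),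
    (p : ℤ) • (Point.some x y h) = 0 ↔ θ.IsRoot x
  sq_dvd : ∀ x₀ : K, θ.IsRoot x₀ → (X - C x₀) ^ 2 ∣ θ
  integral : ∀ (A : ValuationSubring K) (ord : K → ℚ), IsOrd A ord → IsIntegralW W A →
    (∀ k : ℕ, 0 < k → k < p → IsU ord (k : K)) → ∀ i : ℕ, (p : K) ^ 2 * θ.coeff i ∈ A

/-! ### [T] torsion structure (stated over `ℚ̄`; prove it for any algebraically closed field of
characteristic `0`) -/

/-- [T] existence of the division polynomial. -/
def TDivPolyStmt : Prop :=
  ∀ (W : Affine Qb), W.Δ ≠ 0 → ∀ p : ℕ, p.Prime → p ≠ 2 → ∃ θ : Qb[X], IsDivPoly W p θ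

/-- [T-C] `E[p]` is finite, nonzero, of cardinality `< p³`. -/
def TCountStmt : Prop :=
  ∀ (W : Affine Qb), W.Δ ≠ 0 → ∀ p : ℕ, p.Prime → p ≠ 2 →
    Finite (Submodule.torsionBy ℤ W.Point p) ∧ Nontrivial (Submodule.torsionBy ℤ W.Point p) ∧
      Nat.card (Submodule.torsionBy ℤ W.Point p) < p ^ 3

/-! ### [MASS] -/

/-- [MASS] if all of `E[p]` lies in the kernel of reduction, no nonzero `p`-torsion point has all
its multiples as deep as `2·ord p/(p-1)`. -/
def MassStmt : Prop :=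
  ∀ (W : Affine Qb) (A : ValuationSubring Qb) (ord : Qb → ℚ), IsOrd A ord →
    IsIntegralW W A → W.Δ ≠ 0 → ∀ p : ℕ, p.Prime → p ≠ 2 → 0 < ord (p : Qb) →
    (∀ k : ℕ, 0 < k → k < p → IsU ord (k : Qb)) →
    (∀ Q : W.Point, (p : ℤ) • Q = 0 → Q ∈ E1 W ord) →
    ∀ P₀ : W.Point, P₀ ≠ 0 → (p : ℤ) • P₀ = 0 →
    (∀ k : ℕ, 0 < k → k < p → ∀ (x y : Qb) (h : W.Nonsingular x y),
      (k : ℤ) • P₀ = Point.some x y h → ord x ≤ -2 * ord (p : Qb) / (p - 1)) → False

/-! ### [TAME] -/

/-- [TAME] a point of the kernel of reduction whose Galois orbit has at most `m` elements is at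
least `2/m` deep. -/
def TameStmt : Prop :=
  ∀ (W : Affine ℚ) (A : ValuationSubring Qb) (ord : Qb → ℚ), IsOrd A ord →
    ∀ q : ℕ, q.Prime → (∀ x : ℚ, x ≠ 0 → ord (algebraMap ℚ Qb x) = padicValRat q x) →
    IsIntegralW (W⁄Qb) A →
    ∀ (x y : Qb) (h : (W⁄Qb).Nonsingular x y) (m : ℕ), 0 < m →
    (Set.range fun σ : GQ => σ • (Point.some x y h : (W⁄Qb).Point)).Finite →
    (Set.range fun σ : GQ => σ • (Point.some x y h : (W⁄Qb).Point)).ncard ≤ m →
    x ≠ 0 → ord x < 0 → ord x ≤ -2 / m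

/-! ### [MINK] -/

/-- [MINK] a normal subgroup of `G_ℚ` containing the fixing subgroup of a finite extension and,
for every prime, the inertia group of at least one valuation ring over it, is everything. -/
def MinkStmt : Prop :=
  ∀ (S : Subgroup GQ), S.Normal → ∀ (M : IntermediateField ℚ Qb), FiniteDimensional ℚ M →
    M.fixingSubgroup ≤ S →
    (∀ q : ℕ, q.Prime → ∃ A : ValuationSubring Qb, A.LiesOverPrime q ∧
      A.inertiaSubgroupIn ℚ ≤ S) → S = ⊤

/-! ### [GAL] -/

/-- [GAL-a] every prime has a valuation ring of `ℚ̄` over it. -/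
def GalLiesOverStmt : Prop :=
  ∀ q : ℕ, q.Prime → ∃ A : ValuationSubring Qb, A.LiesOverPrime q

/-- [GAL-b] a finite torsion module is defined over a finite extension. -/
def GalFieldStmt : Prop :=
  ∀ (W : Affine ℚ) (n : ℕ), Finite (Submodule.torsionBy ℤ (W⁄Qb).Point n) →
    ∃ M : IntermediateField ℚ Qb, FiniteDimensional ℚ M ∧
      ∀ σ ∈ M.fixingSubgroup, ∀ x : Submodule.torsionBy ℤ (W⁄Qb).Point n, σ • x = x

/-- [GAL-c] a Galois-fixed point has rational coordinates. -/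
def GalRationalStmt : Prop :=
  ∀ (W : Affine ℚ) (x y : Qb) (h : (W⁄Qb).Nonsingular x y),
    (∀ σ : GQ, σ • (Point.some x y h : (W⁄Qb).Point) = Point.some x y h) →
    ∃ x₀ y₀ : ℚ, x = algebraMap ℚ Qb x₀ ∧ y = algebraMap ℚ Qb y₀

/-! ### [LP] the prime `p` -/

/-- [LP] inertia at `p` moves `p`-torsion points of the Frey curve into the kernel of reduction. -/
def LPStmt : Prop :=
  ∀ (P : FreyPackage) (A : ValuationSubring Qb), A.LiesOverPrime P.p →
    ∀ ord : Qb → ℚ, IsOrd A ord →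
    (∀ x : ℚ, x ≠ 0 → ord (algebraMap ℚ Qb x) = padicValRat P.p x) →
    ∀ σ : GQ, σ ∈ A.inertiaSubgroupIn ℚ →
    ∀ Q : (P.freyCurve⁄Qb).Point, (P.p : ℤ) • Q = 0 → σ • Q - Q ∈ E1 (P.freyCurve⁄Qb) ord

/-- [LP-int] the Frey curve is integral at every valuation ring of `ℚ̄`, with `Δ ≠ 0`. -/
def FreyIntegralStmt : Prop :=
  ∀ (P : FreyPackage), (P.freyCurve⁄Qb).Δ ≠ 0 ∧
    ∀ A : ValuationSubring Qb, IsIntegralW (P.freyCurve⁄Qb) A

/-! ### [L2] the prime `2` -/

/-- [L2a] inertia at `2` acts unipotently on `E[p]`. -/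
def L2UnipotentStmt : Prop :=
  ∀ (P : FreyPackage) (A : ValuationSubring Qb), A.LiesOverPrime 2 →
    ∀ σ : GQ, σ ∈ A.inertiaSubgroupIn ℚ →
    ∀ Q : (P.freyCurve⁄Qb).Point, (P.p : ℤ) • Q = 0 → σ • (σ • Q - Q) = σ • Q - Q

/-- [L2b] the Frey curve has no rational point of order `p`. -/
def L2NoRationalStmt : Prop :=
  ∀ (P : FreyPackage) (x₀ y₀ : ℚ)
    (h : (P.freyCurve⁄Qb).Nonsingular (algebraMap ℚ Qb x₀) (algebraMap ℚ Qb y₀)),
    (P.p : ℤ) • (Point.some _ _ h : (P.freyCurve⁄Qb).Point) ≠ 0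

end Fermat.Agent.S13
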