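/-
S13 (blueprint 7, helper4), package LP = LP-good + LP-mult — helper48.

At a place `A` of `ℚ̄` above the exponent `p = P.p` of a Frey package, every inertial `σ` moves every
`p`-torsion point of the Frey curve by an element of the kernel of reduction:
`σ • Q - Q ∈ E1 (P.freyCurve⁄ℚ̄) ord`   (`frey_smul_sub_mem_E1`).

* good reduction (`p ∤ abc`): S05 package F (`smul_sub_mem_E1_of`), which never used that `p` is a
  unit; holds for EVERY point (`good_smul_sub_mem_E1`);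
* multiplicative reduction (`p ∣ abc`): S05 package I (`MM.unram_of_mult_core`) with the
  torsion-freeness input `hE` deleted (`mult_core`, `mult_smul_sub_mem_E1`);
* `LPGoodStmt`, `LPMultStmt`, `frey_smul_sub_mem_E1_of`: the case analysis of S05/Frey.lean at `q = p`.
Complete (all proofs closed).
-/
import Fermat.Agent.S05.Final

set_option autoImplicit false

namespace Fermat.Agent.S13.LP48

open WeierstrassCurve WeierstrassCurve.Affine Fermat.Agent.S05 Fermat.Agent.S05.MM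

section abstract

variable {K : Type*} [Field K] [DecidableEq K] {A : ValuationSubring K} {ord : K → ℚ}
variable {k : Type*} [Field k] [Algebra k K] (W : Affine k)

/-- Good reduction: an inertial automorphism moves EVERY point by an element of `E₁`
(no hypothesis relating `p` and the residue characteristic). -/
theorem good_smul_sub_mem_E1 (hord : IsOrd A ord) (h2 : IsU ord (2 : K))
    (hW : IsIntegralW (W⁄K) A) (hΔ : IsU ord (W⁄K).Δ)
    (σ : K ≃ₐ[k] K) (hσ : IsInertial A σ) (P : (W⁄K).Point) :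
    σ • P - P ∈ E1 (W⁄K) ord := by
  have hPcase : P ∈ E1 (W⁄K) ord ∨ ∃ (x y : K) (h : (W⁄K).Nonsingular x y),
      P = Point.some x y h ∧ IsNsInt (W⁄K) A ord x y := by
    rcases P with _ | ⟨x, y, h⟩
    · exact Or.inl (Or.inl rfl)
    · by_cases hx : x ∈ A
      · exact Or.inr ⟨x, y, h, rfl, hx, F_y_mem (W⁄K) hW h.1 hx,
          F_isU_of_good (W⁄K) hord h2 hW hΔ h.1 hx⟩
      · exact Or.inl (Or.inr ⟨x, y, h, rfl, F_E1_of_not_mem hord hx⟩)
  exact smul_sub_mem_E1_of W hord h2 hW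
    (fun hP hQ => E1_add_mem (W⁄K) hord h2 hW hP hQ) (fun hP => E1_neg_mem (W⁄K) hP) σ hσ hPcase

/-- S05 package I core, with the torsion-freeness hypothesis `hE` removed: the conclusion becomes
`σ • P - P ∈ E₁` (valid also when `p` is NOT a unit of `A`). -/
theorem mult_core (hord : IsOrd A ord) (h2 : IsU ord (2 : K))
    (hW : IsIntegralW (W⁄K) A) (hΔ : (W⁄K).Δ ≠ 0)
    (hsq : ∀ x : K, ∃ y : K, y ^ 2 = x)
    {p : ℕ} (hp : p.Prime) (hp2 : p ≠ 2)
    {r g ε : k} (hrA : algebraMap k K r ∈ A) (hr : Fpoly (W⁄K) (algebraMap k K r) = 0)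
    (hα : alpha4 (W⁄K) (algebraMap k K r) = algebraMap k K (ε * g ^ p))
    (hβ : IsU ord (beta2 (W⁄K) (algebraMap k K r)))
    (hε : IsU ord (algebraMap k K ε)) (hg0 : g ≠ 0) (hg : 0 < ord (algebraMap k K g))
    (σ : K ≃ₐ[k] K) (hσ : IsInertial A σ)
    (hF : ∀ Q : (W⁄K).Point, (Q ∈ E1 (W⁄K) ord ∨
        ∃ (x y : K) (hxy : (W⁄K).Nonsingular x y), Q = Point.some x y hxy ∧
          x ∈ A ∧ y ∈ A ∧ (IsU ord (Yc (W⁄K) x y) ∨ IsU ord (Fder (W⁄K) x))) →
        σ • Q - Q ∈ E1 (W⁄K) ord)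
    (hH : ∀ Q : (W⁄K).Point, (p : ℤ) • Q = 0 → ∃ j : ℤ,
        (p : ℚ) * wPt ord (ord (alpha4 (W⁄K) (algebraMap k K r))) (algebraMap k K r) Q
          = 2 * ord (alpha4 (W⁄K) (algebraMap k K r)) * j)
    (hK : ∀ {x₁ y₁ x₂ y₂ : K} (h₁ : (W⁄K).Nonsingular x₁ y₁) (h₂ : (W⁄K).Nonsingular x₂ y₂),
        x₁ ≠ x₂ →
        wPt ord (ord (alpha4 (W⁄K) (algebraMap k K r))) (algebraMap k K r) (Point.some x₁ y₁ h₁) =
          wPt ord (ord (alpha4 (W⁄K) (algebraMap k K r))) (algebraMap k K r)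
            (Point.some x₂ y₂ h₂) →
        (wPt ord (ord (alpha4 (W⁄K) (algebraMap k K r))) (algebraMap k K r)
            (Point.some x₁ y₁ h₁ + Point.some x₂ y₂ h₂) = 0 ∨
         wPt ord (ord (alpha4 (W⁄K) (algebraMap k K r))) (algebraMap k K r)
            (Point.some x₁ y₁ h₁ - Point.some x₂ y₂ h₂) = 0))
    {P : (W⁄K).Point} (hpP : (p : ℤ) • P = 0) : σ • P - P ∈ E1 (W⁄K) ord := by
  -- notation
  set rK : K := algebraMap k K r with hrK
  set gK : K := algebraMap k K g with hgK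
  set εK : K := algebraMap k K ε with hεK
  set α : K := alpha4 (W⁄K) rK with hαdef
  set h : ℚ := ord α with hh_def
  have hgK0 : gK ≠ 0 := (map_ne_zero (algebraMap k K)).mpr hg0
  have hα' : α = εK * gK ^ p := by rw [hα, map_mul, map_pow]
  have hα0 : α ≠ 0 := by
    rw [hα']; exact mul_ne_zero hε.1 (pow_ne_zero _ hgK0)
  have hp0 : (p : ℚ) ≠ 0 := by exact_mod_cast hp.ne_zero
  have hppos : (0 : ℚ) < p := by exact_mod_cast hp.pos
  have hh_eq : h = p * ord gK := by
    rw [hh_def, hα', hord.map_mul hε.1 (pow_ne_zero _ hgK0), hε.2, ord_pow hord hgK0, zero_add]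
  have hh : 0 < h := by rw [hh_eq]; positivity
  have h2K : (2 : K) ≠ 0 := h2.1
  -- final step
  have fin : ∀ R : (W⁄K).Point, wPt ord h rK R = 0 → σ • R - R = σ • P - P →
      σ • P - P ∈ E1 (W⁄K) ord := by
    intro R hR hRP
    have h1 := hF R (E0_of_wPt_zero (W⁄K) hord h2 hW hh hrA hr hα0 rfl hR)
    rw [hRP] at h1
    exact h1
  by_cases hs0 : wPt ord h rK P = 0
  · exact fin P hs0 rfl
  -- now `s > 0`
  rcases P with _ | ⟨x, y, hxy⟩
  · exact absurd rfl hs0
  obtain ⟨j, hj⟩ := hH _ hpP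
  set s : ℚ := wPt ord h rK (Point.some x y hxy) with hs_def
  have hs_w : s = wK ord h (x - rK) := rfl
  have hs_pos : 0 < s := lt_of_le_of_ne (hs_w ▸ wK_nonneg _ hh) (Ne.symm hs0)
  have hs_le : s ≤ h := hs_w ▸ wK_le _ hh
  -- s = 2 j ord g
  have hs_eq : s = 2 * j * ord gK := by
    have : (p : ℚ) * s = p * (2 * j * ord gK) := by rw [hj, hh_eq]; ring
    exact mul_left_cancel₀ hp0 this
  have hj_pos : 0 < j := by
    have : (0 : ℚ) < j := by
      by_contra hcon
      have hj' : (j : ℚ) ≤ 0 := not_lt.mp hcon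
      have : 2 * (j : ℚ) * ord gK ≤ 0 := by
        have := mul_nonpos_of_nonpos_of_nonneg hj' hg.le
        linarith
      linarith
    exact_mod_cast this
  have hj_le : 2 * j ≤ p := by
    have : (2 * j : ℚ) ≤ p := by
      have h3 : 2 * (j : ℚ) * ord gK ≤ p * ord gK := by rw [← hs_eq, ← hh_eq]; exact hs_le
      exact le_of_mul_le_mul_right h3 hg
    exact_mod_cast this
  have hj_lt : 2 * j < p := by
    rcases lt_or_eq_of_le hj_le with h3 | h3
    · exact h3
    · exfalso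
      have hodd := hp.eq_two_or_odd'.resolve_left hp2
      have : Odd (p : ℤ) := by exact_mod_cast hodd
      rw [← h3] at this
      exact (Int.not_odd_iff_even.mpr (even_two_mul j)) this
  obtain ⟨n, rfl⟩ := Int.eq_ofNat_of_zero_le hj_pos.le
  have hn_pos : 0 < n := by exact_mod_cast hj_pos
  have hn_lt : 2 * n < p := by exact_mod_cast hj_lt
  obtain ⟨m, hm⟩ : ∃ m : ℕ, p = 2 * n + m := ⟨p - 2 * n, by omega⟩
  have hm_pos : 0 < m := by omega
  -- ξ'
  set ξ' : K := gK ^ (2 * n) with hξ'_def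
  have hξ'0 : ξ' ≠ 0 := pow_ne_zero _ hgK0
  have hξ'ord : ord ξ' = s := by
    rw [hξ'_def, ord_pow hord hgK0, hs_eq]; push_cast; ring
  have hs_lt : s < h := by
    rw [hs_eq, hh_eq]
    have : (2 * (n : ℤ) : ℚ) < p := by exact_mod_cast hj_lt
    have := mul_lt_mul_of_pos_right this hg
    push_cast at this ⊢
    linarith
  have hξ'm : ξ' ∈ A.nonunits := by
    rw [mem_nonunits_iff hord hξ'0, hξ'ord]; exact hs_pos
  -- gK^m
  have hgm0 : gK ^ m ≠ 0 := pow_ne_zero _ hgK0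
  have hgm_m : gK ^ m ∈ A.nonunits := by
    rw [mem_nonunits_iff hord hgm0, ord_pow hord hgK0]
    have : (0 : ℚ) < m := by exact_mod_cast hm_pos
    positivity
  have hαξ : α = εK * gK ^ m * ξ' := by
    rw [hα', hξ'_def, hm, pow_add]; ring
  -- constants of the base-changed curve
  have hb₂ : (W⁄K).b₂ = algebraMap k K W.b₂ := by
    simp [WeierstrassCurve.baseChange]
  have ha₁ : (W⁄K).a₁ = algebraMap k K W.a₁ := by
    simp [WeierstrassCurve.baseChange]
  have ha₃ : (W⁄K).a₃ = algebraMap k K W.a₃ := by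
    simp [WeierstrassCurve.baseChange]
  have h2A : (2 : K) ∈ A := IsU.mem hord h2
  have h4A : (4 : K) ∈ A := by
    have : (4 : K) = 2 * 2 := by norm_num
    rw [this]; exact A.mul_mem _ _ h2A h2A
  -- η
  set η₀ : k := 4 * g ^ (2 * n) + (W.b₂ + 12 * r) + 4 * (ε * g ^ m) with hη₀
  set η : K := algebraMap k K η₀ with hη_def
  have hη_eq : η = beta2 (W⁄K) rK + (4 * ξ' + 4 * (εK * gK ^ m)) := by
    rw [hη_def, hη₀]
    unfold beta2
    rw [hb₂]
    simp only [map_add, map_mul, map_pow, map_ofNat]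
    ring
  have hηU : IsU ord η := by
    rw [hη_eq]
    apply isU_add_nonunit hord hβ
    exact add_mem (mul_mem_nonunits h4A hξ'm)
      (mul_mem_nonunits h4A (mul_mem_nonunits (IsU.mem hord hε) hgm_m))
  -- θ = sqrt η
  obtain ⟨θ, hθ⟩ := hsq η
  have hθ0 : θ ≠ 0 := by
    rintro rfl
    rw [zero_pow two_ne_zero] at hθ
    exact hηU.1 hθ.symm
  have hθU : IsU ord θ := by
    refine ⟨hθ0, ?_⟩
    have := ord_pow hord hθ0 2
    rw [hθ, hηU.2] at this
    push_cast at this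
    linarith
  have hσθ : σ θ = θ := by
    have h1 : σ θ ^ 2 = θ ^ 2 := by
      rw [← map_pow, hθ, hη_def, σ.commutes]
    have h3 : (σ θ - θ) * (σ θ + θ) = 0 := by linear_combination h1
    rcases mul_eq_zero.mp h3 with h4 | h4
    · exact sub_eq_zero.mp h4
    · exfalso
      have h5 := (hσ θ (IsU.mem hord hθU)).2
      have h6 : σ θ - θ = -(2 * θ) := by linear_combination h4
      rw [h6] at h5
      have h7 : IsU ord (2 * θ) := isU_mul hord h2 hθU
      rw [isU_iff hord] at h7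
      rw [ValuationSubring.mem_nonunits_iff, Valuation.map_neg, h7] at h5
      exact lt_irrefl _ h5
  -- the point P'
  set x' : K := rK + ξ' with hx'_def
  set y' : K := (ξ' * θ - (W⁄K).a₁ * x' - (W⁄K).a₃) / 2 with hy'_def
  have hYc' : Yc (W⁄K) x' y' = ξ' * θ := by
    unfold Yc
    rw [hy'_def]
    field_simp
    ring
  have hx'r : x' - rK = ξ' := by rw [hx'_def]; ring
  have heq' : (W⁄K).toAffine.Equation x' y' := by
    apply equation_of_Yc_sq (W⁄K) h2K
    rw [hYc', Fpoly_shift' (W⁄K) h2K hr, hx'r, mul_pow, hθ, hη_eq]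
    rw [show alpha4 (W⁄K) rK = α from rfl, hαξ]
    ring
  have hns' : (W⁄K).toAffine.Nonsingular x' y' :=
    (Affine.equation_iff_nonsingular_of_Δ_ne_zero hΔ).mp heq'
  have hσx' : σ x' = x' := by
    have : x' = algebraMap k K (r + g ^ (2 * n)) := by
      rw [hx'_def, hξ'_def, map_add, map_pow]
    rw [this, σ.commutes]
  have hσξ' : σ ξ' = ξ' := by
    have : ξ' = algebraMap k K (g ^ (2 * n)) := by
      rw [hξ'_def, map_pow]
    rw [this, σ.commutes]
  have hσy' : σ y' = y' := by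
    rw [hy'_def, map_div₀, map_sub, map_sub, map_mul, map_mul, hσx', hσξ', hσθ, ha₁, ha₃,
      σ.commutes, σ.commutes, map_ofNat]
  have hσP' : σ • (Point.some x' y' hns') = Point.some x' y' hns' := by
    rw [Point.algEquiv_smul_def, Point.map_some]
    simp only [Point.some.injEq]
    exact ⟨hσx', hσy'⟩
  have hwP' : wPt ord h rK (Point.some x' y' hns') = s := by
    show wK ord h (x' - rK) = s
    rw [hx'r, wK_of_lt hξ'0 (hξ'ord ▸ hs_pos) (hξ'ord ▸ hs_lt), hξ'ord]
  by_cases hxx : x = x'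
  · -- same x-coordinate: P = ± P'
    rcases Affine.Y_eq_of_X_eq hxy.1 heq' hxx with hy | hy
    · have : Point.some x y hxy = Point.some x' y' hns' := by
        simp only [Point.some.injEq]
        exact ⟨hxx, hy⟩
      rw [this, hσP', sub_self]
      exact Or.inl rfl
    · have : Point.some x y hxy = - Point.some x' y' hns' := by
        rw [Point.neg_some]
        simp only [Point.some.injEq]
        exact ⟨hxx, hy⟩
      rw [this, smul_neg, hσP', sub_self]
      exact Or.inl rfl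
  · rcases hK hxy hns' hxx hwP'.symm with h0 | h0
    · refine fin _ h0 ?_
      rw [smul_add, hσP']
      abel
    · refine fin _ h0 ?_
      rw [smul_sub, hσP']
      abel


/-- Multiplicative reduction with `ord α₄ ∈ p · ord(k^×)`: an inertial automorphism moves every
`p`-torsion point by an element of `E₁`; `p` need NOT be a unit of `A`. -/
theorem mult_smul_sub_mem_E1 (hord : IsOrd A ord) (h2 : IsU ord (2 : K))
    (hW : IsIntegralW (W⁄K) A) (hΔ : (W⁄K).Δ ≠ 0) (hsq : ∀ x : K, ∃ y : K, y ^ 2 = x)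
    {p : ℕ} (hp : p.Prime) (hp2 : p ≠ 2)
    {r g ε : k} (hrA : algebraMap k K r ∈ A) (hr : Fpoly (W⁄K) (algebraMap k K r) = 0)
    (hβ : IsU ord (beta2 (W⁄K) (algebraMap k K r)))
    (hα : alpha4 (W⁄K) (algebraMap k K r) = algebraMap k K (ε * g ^ p))
    (hε : IsU ord (algebraMap k K ε)) (hg0 : g ≠ 0) (hg : 0 < ord (algebraMap k K g))
    (σ : K ≃ₐ[k] K) (hσ : IsInertial A σ)
    {P : (W⁄K).Point} (hpP : (p : ℤ) • P = 0) : σ • P - P ∈ E1 (W⁄K) ord := by
  have hgK0 : algebraMap k K g ≠ 0 := (map_ne_zero (algebraMap k K)).mpr hg0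
  have hα0 : alpha4 (W⁄K) (algebraMap k K r) ≠ 0 := by
    rw [hα, map_mul, map_pow]; exact mul_ne_zero hε.1 (pow_ne_zero _ hgK0)
  have hh : 0 < ord (alpha4 (W⁄K) (algebraMap k K r)) := by
    rw [hα, map_mul, map_pow, hord.map_mul hε.1 (pow_ne_zero _ hgK0), hε.2,
      hord.ord_pow hgK0, zero_add]
    have : (0 : ℚ) < p := by exact_mod_cast hp.pos
    positivity
  refine mult_core W hord h2 hW hΔ hsq hp hp2 hrA hr hα hβ hε hg0 hg σ hσ ?_ ?_ ?_ hpP
  · intro Q hQ
    exact smul_sub_mem_E1_of W hord h2 hW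
      (fun hP hQ => E1_add_mem (W⁄K) hord h2 hW hP hQ) (fun hP => E1_neg_mem (W⁄K) hP) σ hσ hQ
  · intro Q hpQ
    exact HCore.torsion_w (Fin.gKField hord h2) (Fin.gKDbl hord h2) (Fin.gKTwo hord h2) (W⁄K) h2 hh
      hr hβ hα0 rfl hp hp2 hpQ
  · intro x₁ y₁ x₂ y₂ h₁ h₂ hx hst
    have key := HCore.K_points (Fin.gKField hord h2) (W⁄K) h2 hh hr hβ hα0 rfl h₁ h₂ hx
    simp only at key
    rw [hst, sub_self, abs_zero] at key
    rcases key with ⟨-, h⟩ | ⟨h, -⟩
    · exact Or.inr h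
    · exact Or.inl h

end abstract

section frey

local notation "K" => AlgebraicClosure ℚ

/-- abstract good-reduction statement for `k = ℚ`, `K = ℚ̄` (no hypothesis on `p`). -/
def LPGoodStmt : Prop :=
  ∀ (W : Affine ℚ) (A : ValuationSubring K) (ord : K → ℚ), IsOrd A ord → IsU ord (2 : K) →
    IsIntegralW (W⁄K) A → IsU ord (W⁄K).Δ →
    ∀ σ : K ≃ₐ[ℚ] K, IsInertial A σ →
    ∀ Q : (W⁄K).Point, σ • Q - Q ∈ E1 (W⁄K) ord

/-- abstract multiplicative-reduction statement for `k = ℚ`, `K = ℚ̄` (`p` not nec. a unit). -/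
def LPMultStmt : Prop :=
  ∀ (W : Affine ℚ) (A : ValuationSubring K) (ord : K → ℚ), IsOrd A ord → IsU ord (2 : K) →
    IsIntegralW (W⁄K) A → (W⁄K).Δ ≠ 0 →
    ∀ p : ℕ, p.Prime → p ≠ 2 →
    ∀ r g ε : ℚ, algebraMap ℚ K r ∈ A → Fpoly (W⁄K) (algebraMap ℚ K r) = 0 →
    IsU ord (beta2 (W⁄K) (algebraMap ℚ K r)) →
    alpha4 (W⁄K) (algebraMap ℚ K r) = algebraMap ℚ K (ε * g ^ p) →
    IsU ord (algebraMap ℚ K ε) → g ≠ 0 → 0 < ord (algebraMap ℚ K g) →
    ∀ σ : K ≃ₐ[ℚ] K, IsInertial A σ →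
    ∀ Q : (W⁄K).Point, (p : ℤ) • Q = 0 → σ • Q - Q ∈ E1 (W⁄K) ord

theorem lpGoodStmt : LPGoodStmt := by
  intro W A ord hord h2 hW hΔ σ hσ Q
  exact good_smul_sub_mem_E1 W hord h2 hW hΔ σ hσ Q

theorem lpMultStmt : LPMultStmt := by
  intro W A ord hord h2 hW hΔ p hp hp2 r g ε hrA hr hβ hα hε hg0 hg σ hσ Q hQ
  exact mult_smul_sub_mem_E1 W hord h2 hW hΔ
    (fun x => IsAlgClosed.exists_pow_nat_eq x (by norm_num)) hp hp2 hrA hr hβ hα hε hg0 hg σ hσ hQ

/-- The case analysis of `S05.frey_unramified_of` at an arbitrary odd prime `q` (in particular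
`q = P.p`): an inertial `σ` at a place above `q` moves every `P.p`-torsion point of the Frey curve
by an element of `E₁`. -/
theorem frey_smul_sub_mem_E1_of (hGood : LPGoodStmt) (hMult : LPMultStmt)
    (P : FreyPackage) {q : ℕ} (hq : q.Prime) (hq2 : q ≠ 2)
    {A : ValuationSubring K} {ord : K → ℚ} (hord : IsOrd A ord)
    (hQ : ∀ x : ℚ, x ≠ 0 → ord (algebraMap ℚ K x) = padicValRat q x)
    {σ : K ≃ₐ[ℚ] K} (hin : IsInertial A σ)
    {x : (P.freyCurve⁄K).Point} (hx : ((P.p : ℕ) : ℤ) • x = 0) :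
    σ • x - x ∈ E1 (P.freyCurve⁄K) ord := by
  have hW : IsIntegralW (P.freyCurve⁄K) A := J_integral hord hq hq2 hQ
  have hp2 : P.p ≠ 2 := by have := P.hp5; omega
  have h2 : IsU ord (2 : K) := by
    have h := J_isU_int_div hq hQ (ord := ord) 2 1
      (by
        intro h
        have h' : q ∣ 2 := by exact_mod_cast h
        exact hq2 ((Nat.prime_dvd_prime_iff_eq hq Nat.prime_two).1 h'))
      (by simpa using hq.one_lt.ne')
    simpa using h
  have hn16 : ¬ q ∣ 2 ^ 4 := J_not_dvd_two_pow hq hq2 4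
  have hn256 : ¬ q ∣ 2 ^ 8 := J_not_dvd_two_pow hq hq2 8
  have hn4 : ¬ q ∣ 2 ^ 2 := J_not_dvd_two_pow hq hq2 2
  have hn1 : ¬ q ∣ 1 := by simpa using hq.one_lt.ne'
  have hΔ0 : (P.freyCurve⁄K).Δ ≠ 0 := by
    rw [J_bc_Δ]
    simp only [ne_eq, map_eq_zero, frA, frB, frC]
    have := P.ha0; have := P.hb0; have := P.hc0
    positivity
  by_cases ha : (q : ℤ) ∣ P.a
  · -- q ∣ a : r = 0, g = a, ε = -b^p/16
    have hb : ¬ (q : ℤ) ∣ P.b := fun hb => J_coprime_aux hq P.hgcdab ha hb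
    refine hMult P.freyCurve A ord hord h2 hW hΔ0 P.p P.pp hp2
      0 (P.a : ℚ) (-(frB P) / 16) ?_ ?_ ?_ ?_ ?_ ?_ ?_ σ hin x hx
    · simp
    · simp [Fpoly, J_bc_b₆]
    · have h := J_isU_int_div hq hQ (ord := ord) (P.b ^ P.p - P.a ^ P.p) 1 ?_ hn1
      · have e : beta2 (P.freyCurve⁄K) (algebraMap ℚ K 0) =
            algebraMap ℚ K (((P.b ^ P.p - P.a ^ P.p : ℤ) : ℚ) / ((1 : ℕ) : ℚ)) := by
          rw [beta2, J_bc_b₂, map_zero, mul_zero, add_zero]
          congr 1; simp [frA, frB]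
        rw [e]; exact h
      · intro h
        have h1 : (q : ℤ) ∣ P.a ^ P.p := dvd_pow ha P.hp0
        have h2 : (q : ℤ) ∣ P.b ^ P.p := by
          have := dvd_add h h1
          simpa using this
        exact J_not_dvd_pow hq _ hb h2
    · rw [alpha4, J_bc_b₂, J_bc_b₄, map_zero]
      have : ((2 : K)) = algebraMap ℚ K 2 := by simp
      rw [this, zero_mul, add_zero, zero_pow (by norm_num), mul_zero, add_zero, ← map_div₀]
      congr 1
      simp only [frA, frB]; ring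
    · have h := J_isU_int_div hq hQ (ord := ord) (-(P.b ^ P.p)) (2 ^ 4) ?_ hn16
      · have e : algebraMap ℚ K (-(frB P) / 16) =
            algebraMap ℚ K (((-(P.b ^ P.p) : ℤ) : ℚ) / ((2 ^ 4 : ℕ) : ℚ)) := by
          congr 1; simp only [frB]; push_cast; ring
        rw [e]; exact h
      · rw [dvd_neg]; exact J_not_dvd_pow hq _ hb
    · exact_mod_cast P.ha0
    · rw [hQ _ (by exact_mod_cast P.ha0)]
      have := J_padicValRat_int_pos hq P.a P.ha0 ha
      exact_mod_cast this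
  by_cases hb : (q : ℤ) ∣ P.b
  · -- q ∣ b : r = 0, g = b, ε = -a^p/16
    refine hMult P.freyCurve A ord hord h2 hW hΔ0 P.p P.pp hp2
      0 (P.b : ℚ) (-(frA P) / 16) ?_ ?_ ?_ ?_ ?_ ?_ ?_ σ hin x hx
    · simp
    · simp [Fpoly, J_bc_b₆]
    · have h := J_isU_int_div hq hQ (ord := ord) (P.b ^ P.p - P.a ^ P.p) 1 ?_ hn1
      · have e : beta2 (P.freyCurve⁄K) (algebraMap ℚ K 0) =
            algebraMap ℚ K (((P.b ^ P.p - P.a ^ P.p : ℤ) : ℚ) / ((1 : ℕ) : ℚ)) := by
          rw [beta2, J_bc_b₂, map_zero, mul_zero, add_zero]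
          congr 1; simp [frA, frB]
        rw [e]; exact h
      · intro h
        have h1 : (q : ℤ) ∣ P.b ^ P.p := dvd_pow hb P.hp0
        have h2 : (q : ℤ) ∣ P.a ^ P.p := by
          have := dvd_sub h1 h
          simpa using this
        exact J_not_dvd_pow hq _ ha h2
    · rw [alpha4, J_bc_b₂, J_bc_b₄, map_zero]
      have : ((2 : K)) = algebraMap ℚ K 2 := by simp
      rw [this, zero_mul, add_zero, zero_pow (by norm_num), mul_zero, add_zero, ← map_div₀]
      congr 1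
      simp only [frA, frB]; ring
    · have h := J_isU_int_div hq hQ (ord := ord) (-(P.a ^ P.p)) (2 ^ 4) ?_ hn16
      · have e : algebraMap ℚ K (-(frA P) / 16) =
            algebraMap ℚ K (((-(P.a ^ P.p) : ℤ) : ℚ) / ((2 ^ 4 : ℕ) : ℚ)) := by
          congr 1; simp only [frA]; push_cast; ring
        rw [e]; exact h
      · rw [dvd_neg]; exact J_not_dvd_pow hq _ ha
    · exact_mod_cast P.hb0
    · rw [hQ _ (by exact_mod_cast P.hb0)]
      have := J_padicValRat_int_pos hq P.b P.hb0 hb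
      exact_mod_cast this
  by_cases hc : (q : ℤ) ∣ P.c
  · -- q ∣ c : r = a^p/4, g = c, ε = a^p/16
    have hFLT : P.a ^ P.p + P.b ^ P.p = P.c ^ P.p := P.hFLT
    have hAB := frA_add_frB P
    refine hMult P.freyCurve A ord hord h2 hW hΔ0 P.p P.pp hp2
      (frA P / 4) (P.c : ℚ) (frA P / 16) ?_ ?_ ?_ ?_ ?_ ?_ ?_ σ hin x hx
    · have h := J_int_div_mem hord hq hQ (P.a ^ P.p) (2 ^ 2) hn4
      have e : algebraMap ℚ K (frA P / 4) =
          algebraMap ℚ K (((P.a ^ P.p : ℤ) : ℚ) / ((2 ^ 2 : ℕ) : ℚ)) := by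
        congr 1; simp only [frA]; push_cast; ring
      rw [e]; exact h
    · rw [Fpoly, J_bc_b₂, J_bc_b₄, J_bc_b₆]
      have h4 : ((4 : K)) = algebraMap ℚ K 4 := by simp
      have h2' : ((2 : K)) = algebraMap ℚ K 2 := by simp
      rw [h4, h2', ← map_pow, ← map_pow, ← map_mul, ← map_mul, ← map_mul, ← map_mul,
        ← map_add, ← map_add, add_zero]
      rw [show (4 : ℚ) * (frA P / 4) ^ 3 + (frB P - frA P) * (frA P / 4) ^ 2 +
        2 * (-(frA P * frB P) / 8) * (frA P / 4) = 0 by ring, map_zero]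
    · have h := J_isU_int_div hq hQ (ord := ord) (P.b ^ P.p + 2 * P.a ^ P.p) 1 ?_ hn1
      · have e : beta2 (P.freyCurve⁄K) (algebraMap ℚ K (frA P / 4)) =
            algebraMap ℚ K (((P.b ^ P.p + 2 * P.a ^ P.p : ℤ) : ℚ) / ((1 : ℕ) : ℚ)) := by
          rw [beta2, J_bc_b₂]
          have h12 : ((12 : K)) = algebraMap ℚ K 12 := by simp
          rw [h12, ← map_mul, ← map_add]
          congr 1; simp only [frA, frB]; push_cast; ring
        rw [e]; exact h
      · intro h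
        have h1 : (q : ℤ) ∣ P.c ^ P.p := dvd_pow hc P.hp0
        have h2 : (q : ℤ) ∣ P.a ^ P.p := by
          have := dvd_sub h h1
          rw [← hFLT] at this
          have e : P.b ^ P.p + 2 * P.a ^ P.p - (P.a ^ P.p + P.b ^ P.p) = P.a ^ P.p := by ring
          rwa [e] at this
        exact J_not_dvd_pow hq _ ha h2
    · rw [alpha4, J_bc_b₂, J_bc_b₄]
      have h6 : ((6 : K)) = algebraMap ℚ K 6 := by simp
      have h2' : ((2 : K)) = algebraMap ℚ K 2 := by simp
      rw [h6, h2', ← map_pow, ← map_mul, ← map_mul, ← map_add, ← map_add, ← map_div₀]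
      congr 1
      have hC : (P.c : ℚ) ^ P.p = frA P + frB P := by rw [hAB]; rfl
      rw [hC]; ring
    · have h := J_isU_int_div hq hQ (ord := ord) (P.a ^ P.p) (2 ^ 4) ?_ hn16
      · have e : algebraMap ℚ K (frA P / 16) =
            algebraMap ℚ K (((P.a ^ P.p : ℤ) : ℚ) / ((2 ^ 4 : ℕ) : ℚ)) := by
          congr 1; simp only [frA]; push_cast; ring
        rw [e]; exact h
      · exact J_not_dvd_pow hq _ ha
    · exact_mod_cast P.hc0
    · rw [hQ _ (by exact_mod_cast P.hc0)]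
      have := J_padicValRat_int_pos hq P.c P.hc0 hc
      exact_mod_cast this
  · -- good reduction
    refine hGood P.freyCurve A ord hord h2 hW ?_ σ hin x
    have h := J_isU_int_div hq hQ (ord := ord) ((P.a ^ P.p * P.b ^ P.p * P.c ^ P.p) ^ 2)
      (2 ^ 8) ?_ hn256
    · have e : (P.freyCurve⁄K).Δ = algebraMap ℚ K
          ((((P.a ^ P.p * P.b ^ P.p * P.c ^ P.p) ^ 2 : ℤ) : ℚ) / ((2 ^ 8 : ℕ) : ℚ)) := by
        rw [J_bc_Δ]; congr 1; simp only [frA, frB, frC]; push_cast; ring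
      rw [e]; exact h
    · apply J_not_dvd_pow hq
      intro h
      have hpr := Nat.prime_iff_prime_int.1 hq
      rcases hpr.dvd_mul.1 h with h | h
      · rcases hpr.dvd_mul.1 h with h | h
        · exact J_not_dvd_pow hq _ ha h
        · exact J_not_dvd_pow hq _ hb h
      · exact J_not_dvd_pow hq _ hc h


/-- **Package LP.**  For every odd prime `q` (in particular `q = P.p`), every place `A` of `ℚ̄` above
`q` with its normalised valuation `ord`, every inertial `σ` and every `P.p`-torsion point `x` of the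
Frey curve: `σ • x - x` lies in the kernel of reduction `E₁(A)`. -/
theorem frey_smul_sub_mem_E1 (P : FreyPackage) {q : ℕ} (hq : q.Prime) (hq2 : q ≠ 2)
    {A : ValuationSubring K} {ord : K → ℚ} (hord : IsOrd A ord)
    (hQ : ∀ x : ℚ, x ≠ 0 → ord (algebraMap ℚ K x) = padicValRat q x)
    {σ : K ≃ₐ[ℚ] K} (hin : IsInertial A σ)
    {x : (P.freyCurve⁄K).Point} (hx : ((P.p : ℕ) : ℤ) • x = 0) :
    σ • x - x ∈ E1 (P.freyCurve⁄K) ord :=
  frey_smul_sub_mem_E1_of lpGoodStmt lpMultStmt P hq hq2 hord hQ hin hx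

/-- Prelude-shaped version at `q = P.p`: `σ` in the Prelude inertia subgroup of a place `A` above
`P.p`, `x` in the `P.p`-torsion submodule; `ord` any normalised valuation of `A`. -/
theorem frey_inertia_smul_sub_mem_E1 (P : FreyPackage)
    {A : ValuationSubring K} {ord : K → ℚ} (hord : IsOrd A ord)
    (hQ : ∀ x : ℚ, x ≠ 0 → ord (algebraMap ℚ K x) = padicValRat P.p x)
    {σ : K ≃ₐ[ℚ] K} (hσ : σ ∈ A.inertiaSubgroupIn ℚ)
    (x : Submodule.torsionBy ℤ (P.freyCurve⁄K).Point P.p) :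
    σ • (x : (P.freyCurve⁄K).Point) - x ∈ E1 (P.freyCurve⁄K) ord :=
  frey_smul_sub_mem_E1 P P.pp (by have := P.hp5; omega) hord hQ (isInertial_of_mem A σ hσ)
    ((Submodule.mem_torsionBy_iff _ _).1 x.2)

/-- Existence form: at every place above `P.p` there is a normalised valuation (the `ord` of
`S05.exists_ord`) for which the conclusion holds. -/
theorem exists_ord_frey_inertia_smul_sub_mem_E1 (P : FreyPackage)
    (A : ValuationSubring K) (hA : A.LiesOverPrime P.p) :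
    ∃ ord : K → ℚ, IsOrd A ord ∧
      (∀ x : ℚ, x ≠ 0 → ord (algebraMap ℚ K x) = padicValRat P.p x) ∧
      ∀ σ ∈ A.inertiaSubgroupIn ℚ, ∀ x : Submodule.torsionBy ℤ (P.freyCurve⁄K).Point P.p,
        σ • (x : (P.freyCurve⁄K).Point) - x ∈ E1 (P.freyCurve⁄K) ord := by
  obtain ⟨ord, hord, hQ⟩ := exists_ord A P.pp hA
  exact ⟨ord, hord, hQ, fun σ hσ x => frey_inertia_smul_sub_mem_E1 P hord hQ hσ x⟩

end frey

end Fermat.Agent.S13.LP48
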