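/-
S13 (blueprint 7, owner helper4), package TAME (helper14).

`K` an algebraic extension of `ℚ` with a `ℚ`-valued valuation `ord` (S05 `IsOrd`) extending the
`q`-adic valuation.  Value group index ≤ degree, in the only form needed:

* `exists_mul_ord_int` : a nonzero root `x` of a nonzero `P ∈ ℚ[X]` has `e * ord x ∈ ℤ` for some
  `1 ≤ e ≤ natDegree P`;
* `inv_le_neg_ord`     : if moreover `ord x < 0` then `1 / natDegree P ≤ - ord x`;
* `natDegree_minpoly_le_card` : an element of a finite Galois-stable set `S` has degree `≤ #S`;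
* `two_div_card_le_neg_ord_x` : for a finite Galois-stable set `T` of points of `W⁄K`
  (`W` over `ℚ`) closed under negation and without 2-torsion, every `x`-coordinate with a pole
  satisfies `2 / #T ≤ - ord x`;
* `two_ord_y` : on an integral Weierstrass curve, `ord x < 0 ⇒ 2 ord y = 3 ord x`;
* `tame : TameStmt` : the Interface statement (orbit of the point of size `≤ m ⇒ ord x ≤ -2/m`).
No sorry.
-/
import Mathlib
import Fermat.Agent.S05.Defs
import Fermat.Agent.S05.OrdApi
import Fermat.Agent.S05.OrdConstruct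
import Fermat.Prelude.Def_FLTPrelim_GaloisRep
import Fermat.Agent.S13.Interface

set_option autoImplicit false

open Polynomial WeierstrassCurve WeierstrassCurve.Affine

namespace Fermat.Agent.S13.Tame

open Fermat.Agent.S05

section value

variable {K : Type*} [Field K] {A : ValuationSubring K} {ord : K → ℚ}

/-- equal valuations give equal `ord`. -/
theorem ord_eq_of_valuation_eq (hord : IsOrd A ord) {x y : K} (hx : x ≠ 0) (hy : y ≠ 0)
    (h : A.valuation x = A.valuation y) : ord x = ord y := by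
  have hxy : x / y ≠ 0 := div_ne_zero hx hy
  have hyx : y / x ≠ 0 := div_ne_zero hy hx
  have hvy : A.valuation y ≠ 0 := (Valuation.ne_zero_iff _).2 hy
  have hvx : A.valuation x ≠ 0 := (Valuation.ne_zero_iff _).2 hx
  have h1 : x / y ∈ A := by
    rw [← A.valuation_le_one_iff, map_div₀, h, div_self hvy]
  have h2 : y / x ∈ A := by
    rw [← A.valuation_le_one_iff, map_div₀, h, div_self hvy]
  have e1 := hord.nonneg_of_mem hxy h1
  have e2 := hord.nonneg_of_mem hyx h2
  rw [hord.ord_div hx hy] at e1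
  rw [hord.ord_div hy hx] at e2
  linarith

variable [Algebra ℚ K]

/-- **Value group index ≤ degree.**  A nonzero root of a nonzero rational polynomial `P` has
`e * ord x ∈ ℤ` for some `1 ≤ e ≤ natDegree P`. -/
theorem exists_mul_ord_int (hord : IsOrd A ord) {q : ℕ}
    (hQ : ∀ c : ℚ, c ≠ 0 → ord (algebraMap ℚ K c) = padicValRat q c)
    {x : K} (hx : x ≠ 0) {P : ℚ[X]} (hP : P ≠ 0) (hPx : aeval x P = 0) :
    ∃ e : ℕ, 1 ≤ e ∧ e ≤ P.natDegree ∧ ∃ m : ℤ, (e : ℚ) * ord x = m := by
  classical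
  rw [aeval_eq_sum_range] at hPx
  set f : ℕ → K := fun i => P.coeff i • x ^ i with hf
  have hfne : ∀ i, f i ≠ 0 → P.coeff i ≠ 0 := by
    intro i hi h0
    apply hi
    simp [hf, h0]
  have hne : ∃ i ∈ Finset.range (P.natDegree + 1), f i ≠ 0 := by
    refine ⟨P.natDegree, Finset.self_mem_range_succ _, ?_⟩
    simp only [hf, Algebra.smul_def]
    refine mul_ne_zero ?_ (pow_ne_zero _ hx)
    rw [Ne, map_eq_zero]
    exact leadingCoeff_ne_zero.2 hP
  obtain ⟨i, hi, j, hj, hij, hfi, hfj, hv⟩ :=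
    OrdC.B_exists_eq_val_of_sum_eq_zero A (Finset.range (P.natDegree + 1)) f hPx hne
  have hordf : ∀ i, f i ≠ 0 → ord (f i) = padicValRat q (P.coeff i) + i * ord x := by
    intro i hi
    have hc : algebraMap ℚ K (P.coeff i) ≠ 0 := by
      rw [Ne, map_eq_zero]; exact hfne i hi
    simp only [hf, Algebra.smul_def]
    rw [hord.map_mul hc (pow_ne_zero _ hx), hQ _ (hfne i hi), hord.ord_pow hx]
  have hoe : ord (f i) = ord (f j) := ord_eq_of_valuation_eq hord hfi hfj hv
  rw [hordf i hfi, hordf j hfj] at hoe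
  have hi' : i ≤ P.natDegree := Nat.lt_succ_iff.mp (Finset.mem_range.mp hi)
  have hj' : j ≤ P.natDegree := Nat.lt_succ_iff.mp (Finset.mem_range.mp hj)
  rcases lt_or_gt_of_ne hij with h | h
  · refine ⟨j - i, Nat.sub_pos_of_lt h, (Nat.sub_le j i).trans hj',
      padicValRat q (P.coeff i) - padicValRat q (P.coeff j), ?_⟩
    rw [Nat.cast_sub h.le]
    push_cast
    linarith
  · refine ⟨i - j, Nat.sub_pos_of_lt h, (Nat.sub_le i j).trans hi',
      padicValRat q (P.coeff j) - padicValRat q (P.coeff i), ?_⟩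
    rw [Nat.cast_sub h.le]
    push_cast
    linarith

/-- A pole of a root of `P` has order at least `1 / natDegree P`. -/
theorem inv_le_neg_ord (hord : IsOrd A ord) {q : ℕ}
    (hQ : ∀ c : ℚ, c ≠ 0 → ord (algebraMap ℚ K c) = padicValRat q c)
    {x : K} (hx : x ≠ 0) {P : ℚ[X]} (hP : P ≠ 0) (hPx : aeval x P = 0) (hneg : ord x < 0) :
    1 / (P.natDegree : ℚ) ≤ - ord x := by
  obtain ⟨e, he1, hed, m, hm⟩ := exists_mul_ord_int hord hQ hx hP hPx
  have he0 : (0 : ℚ) < e := by exact_mod_cast he1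
  have hd0 : (0 : ℚ) < P.natDegree := lt_of_lt_of_le he0 (by exact_mod_cast hed)
  have hmneg : (m : ℚ) < 0 := by
    rw [← hm]; exact mul_neg_of_pos_of_neg he0 hneg
  have hm1 : m ≤ -1 := by
    have : m < 0 := by exact_mod_cast hmneg
    omega
  have hm1' : (m : ℚ) ≤ -1 := by exact_mod_cast hm1
  have h1 : 1 ≤ (e : ℚ) * (- ord x) := by
    have : (e : ℚ) * (- ord x) = - m := by rw [← hm]; ring
    rw [this]; linarith
  have h2 : (e : ℚ) * (- ord x) ≤ (P.natDegree : ℚ) * (- ord x) := by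
    apply mul_le_mul_of_nonneg_right (by exact_mod_cast hed)
    linarith
  rw [div_le_iff₀ hd0]
  linarith

end value

section galois

variable {K : Type*} [Field K] [Algebra ℚ K] [Normal ℚ K]

/-- An element of a finite Galois-stable set `S` has degree at most `#S` over `ℚ`. -/
theorem natDegree_minpoly_le_card (S : Finset K)
    (hS : ∀ σ : K ≃ₐ[ℚ] K, ∀ z ∈ S, σ z ∈ S) {x : K} (hx : x ∈ S) :
    (minpoly ℚ x).natDegree ≤ S.card := by
  classical
  have halg : IsAlgebraic ℚ x := (Normal.isIntegral (F := ℚ) (K := K) inferInstance x).isAlgebraic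
  have hint : IsIntegral ℚ x := halg.isIntegral
  have hsep : (minpoly ℚ x).Separable := (minpoly.irreducible hint).separable
  have hsplit : Splits ((minpoly ℚ x).map (algebraMap ℚ K)) := Normal.splits inferInstance x
  rw [← card_rootSet_eq_natDegree hsep hsplit, ← Set.toFinset_card]
  apply Finset.card_le_card
  intro y hy
  rw [Set.mem_toFinset, mem_rootSet] at hy
  obtain ⟨σ, hσ⟩ := minpoly.exists_algEquiv_of_root' halg hy.2
  rw [← hσ]
  exact hS σ x hx

end galois

section points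

variable {K : Type*} [Field K] [Algebra ℚ K] [DecidableEq K] {W : Affine ℚ}

/-- the `x`-coordinate of a point (junk value `0` at the origin). -/
def xc : (W⁄K).Point → K
  | .zero => 0
  | .some x _ _ => x

omit [DecidableEq K] in
@[simp] theorem xc_some {x y : K} (h : (W⁄K).Nonsingular x y) :
    xc (Affine.Point.some x y h : (W⁄K).Point) = x := rfl

omit [DecidableEq K] in
theorem xc_neg (P : (W⁄K).Point) : xc (-P) = xc P := by
  cases P <;> rfl

theorem xc_smul (σ : K ≃ₐ[ℚ] K) (P : (W⁄K).Point) : xc (σ • P) = σ (xc P) := by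
  cases P with
  | zero => exact (map_zero σ).symm
  | some x y h => rfl

variable [Normal ℚ K] {A : ValuationSubring K} {ord : K → ℚ}

/-- **TAME.** `T` a finite set of points of `W⁄K` (`W` over `ℚ`), stable under `Gal(K/ℚ)` and
under negation, without points of order `≤ 2`.  Then every `x`-coordinate of a point of `T`
with a pole at the place has `2 / #T ≤ - ord x`. -/
theorem two_div_card_le_neg_ord_x (hord : IsOrd A ord) {q : ℕ}
    (hQ : ∀ c : ℚ, c ≠ 0 → ord (algebraMap ℚ K c) = padicValRat q c)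
    (T : Finset (W⁄K).Point)
    (hT : ∀ σ : K ≃ₐ[ℚ] K, ∀ P ∈ T, σ • P ∈ T)
    (hneg : ∀ P ∈ T, -P ∈ T) (hne : ∀ P ∈ T, -P ≠ P)
    {x y : K} (h : (W⁄K).Nonsingular x y) (hP : Affine.Point.some x y h ∈ T)
    (hx0 : x ≠ 0) (hx : ord x < 0) :
    2 / (T.card : ℚ) ≤ - ord x := by
  classical
  set S : Finset K := T.image xc with hSdef
  have hxS : x ∈ S := Finset.mem_image.mpr ⟨_, hP, rfl⟩
  have hSstab : ∀ σ : K ≃ₐ[ℚ] K, ∀ z ∈ S, σ z ∈ S := by
    intro σ z hz
    obtain ⟨Q, hQT, rfl⟩ := Finset.mem_image.mp hz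
    rw [← xc_smul]
    exact Finset.mem_image.mpr ⟨_, hT σ Q hQT, rfl⟩
  have hcard : 2 * S.card ≤ T.card := by
    apply Finset.mul_card_image_le_card
    intro b hb
    obtain ⟨Q, hQT, rfl⟩ := Finset.mem_image.mp hb
    have h1 : Q ∈ T.filter (fun a => xc a = xc Q) := Finset.mem_filter.mpr ⟨hQT, rfl⟩
    have h2 : -Q ∈ T.filter (fun a => xc a = xc Q) :=
      Finset.mem_filter.mpr ⟨hneg Q hQT, xc_neg Q⟩
    have hsub : ({Q, -Q} : Finset (W⁄K).Point) ⊆ T.filter (fun a => xc a = xc Q) := by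
      intro R hR
      rcases Finset.mem_insert.mp hR with rfl | hR
      · exact h1
      · rw [Finset.mem_singleton.mp hR]; exact h2
    calc 2 = ({Q, -Q} : Finset (W⁄K).Point).card := by
          rw [Finset.card_pair (hne Q hQT).symm]
      _ ≤ _ := Finset.card_le_card hsub
  have hdeg : (minpoly ℚ x).natDegree ≤ S.card := natDegree_minpoly_le_card S hSstab hxS
  have hint : IsIntegral ℚ x := Normal.isIntegral (F := ℚ) (K := K) inferInstance x
  have hP0 : minpoly ℚ x ≠ 0 := minpoly.ne_zero hint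
  have hd1 : 0 < (minpoly ℚ x).natDegree := minpoly.natDegree_pos hint
  have key := inv_le_neg_ord hord hQ hx0 hP0 (minpoly.aeval ℚ x) hx
  have hTpos : (0 : ℚ) < T.card := by
    have : 0 < T.card := Finset.card_pos.mpr ⟨_, hP⟩
    exact_mod_cast this
  have hdq : (0 : ℚ) < (minpoly ℚ x).natDegree := by exact_mod_cast hd1
  have h2d : (2 : ℚ) * (minpoly ℚ x).natDegree ≤ T.card := by
    have : 2 * (minpoly ℚ x).natDegree ≤ T.card :=
      (Nat.mul_le_mul_left 2 hdeg).trans hcard
    exact_mod_cast this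
  calc 2 / (T.card : ℚ) ≤ 1 / ((minpoly ℚ x).natDegree : ℚ) := by
        rw [div_le_div_iff₀ hTpos hdq]
        linarith
    _ ≤ - ord x := key

/-- **TAME for a stable line.**  `N` a Galois-stable subgroup of order `p` (odd prime) of
`E[p]`; a nonzero point of `N` whose `x`-coordinate has a pole satisfies
`2 / (p - 1) ≤ - ord x`. -/
theorem line_two_div_le_neg_ord_x (hord : IsOrd A ord) {q : ℕ}
    (hQ : ∀ c : ℚ, c ≠ 0 → ord (algebraMap ℚ K c) = padicValRat q c)
    {p : ℕ} (hp : p.Prime) (hp2 : p ≠ 2)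
    (N : Submodule (ZMod p) (Submodule.torsionBy ℤ (W⁄K).Point p))
    (hN : Affine.Point.IsGaloisStable ℚ N) (hcard : Nat.card N = p)
    (Q : Submodule.torsionBy ℤ (W⁄K).Point p) (hQN : Q ∈ N)
    {x y : K} (h : (W⁄K).Nonsingular x y)
    (hQxy : (Q : (W⁄K).Point) = Affine.Point.some x y h)
    (hx0 : x ≠ 0) (hx : ord x < 0) :
    2 / ((p : ℚ) - 1) ≤ - ord x := by
  classical
  have : Finite N := Nat.finite_of_card_ne_zero (by rw [hcard]; exact hp.ne_zero)
  let _ : Fintype N := Fintype.ofFinite N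
  let ι : N → (W⁄K).Point := fun n => ((n : Submodule.torsionBy ℤ (W⁄K).Point p) : (W⁄K).Point)
  have hι : Function.Injective ι := fun a b hab => Subtype.ext (Subtype.ext hab)
  set T : Finset (W⁄K).Point := (Finset.univ.filter (fun n : N => n ≠ 0)).image ι with hTdef
  have hTcard : T.card = p - 1 := by
    rw [hTdef, Finset.card_image_of_injective _ hι, Finset.filter_ne' Finset.univ (0 : N),
      Finset.card_erase_of_mem (Finset.mem_univ _), Finset.card_univ, ← Nat.card_eq_fintype_card,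
      hcard]
  have hmemT : ∀ P : (W⁄K).Point, P ∈ T ↔ ∃ n : N, n ≠ 0 ∧ ι n = P := by
    intro P
    rw [hTdef, Finset.mem_image]
    constructor
    · rintro ⟨n, hn, rfl⟩
      exact ⟨n, (Finset.mem_filter.mp hn).2, rfl⟩
    · rintro ⟨n, hn, rfl⟩
      exact ⟨n, Finset.mem_filter.mpr ⟨Finset.mem_univ _, hn⟩, rfl⟩
  have hT : ∀ σ : K ≃ₐ[ℚ] K, ∀ P ∈ T, σ • P ∈ T := by
    intro σ P hP
    obtain ⟨n, hn, rfl⟩ := (hmemT P).mp hP
    refine (hmemT _).mpr ⟨⟨σ • (n : Submodule.torsionBy ℤ (W⁄K).Point p), hN σ _ n.2⟩, ?_, rfl⟩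
    intro h0
    apply hn
    have h1 : σ • (n : Submodule.torsionBy ℤ (W⁄K).Point p) = 0 := congrArg Subtype.val h0
    have h1' : Affine.Point.map (W' := W) σ.toAlgHom (ι n) = 0 := congrArg Subtype.val h1
    have h3 : ι n = 0 :=
      Affine.Point.map_injective (W' := W) σ.toAlgHom
        (h1'.trans (Affine.Point.map_zero (W' := W) σ.toAlgHom).symm)
    have h2 : (n : Submodule.torsionBy ℤ (W⁄K).Point p) = 0 := Subtype.ext h3
    exact Subtype.ext h2
  have hneg : ∀ P ∈ T, -P ∈ T := by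
    intro P hP
    obtain ⟨n, hn, rfl⟩ := (hmemT P).mp hP
    exact (hmemT _).mpr ⟨-n, neg_ne_zero.mpr hn, rfl⟩
  have hne : ∀ P ∈ T, -P ≠ P := by
    intro P hP hPP
    obtain ⟨n, hn, rfl⟩ := (hmemT P).mp hP
    apply hn
    have hpn : (p : ℤ) • ι n = 0 := by
      have := (n : Submodule.torsionBy ℤ (W⁄K).Point p).2
      rwa [Submodule.mem_torsionBy_iff] at this
    have h2n : (2 : ℤ) • ι n = 0 := by
      rw [two_smul]
      nth_rewrite 1 [← hPP]
      exact neg_add_cancel _
    have hcop : IsCoprime (2 : ℤ) (p : ℤ) := by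
      have : Nat.Coprime 2 p := (Nat.coprime_primes Nat.prime_two hp).mpr (Ne.symm hp2)
      exact_mod_cast Nat.isCoprime_iff_coprime.mpr this
    obtain ⟨a, b, hab⟩ := hcop
    have : ι n = 0 := by
      calc ι n = (1 : ℤ) • ι n := (one_smul _ _).symm
        _ = (a * 2 + b * p) • ι n := by rw [hab]
        _ = a • (2 : ℤ) • ι n + b • (p : ℤ) • ι n := by rw [add_smul, mul_smul, mul_smul]
        _ = 0 := by rw [h2n, hpn, smul_zero, smul_zero, add_zero]
    exact hι this
  have hQ0 : (⟨Q, hQN⟩ : N) ≠ 0 := by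
    intro h0
    have h1 : Q = 0 := congrArg Subtype.val h0
    rw [h1] at hQxy
    exact Affine.Point.some_ne_zero h hQxy.symm
  have hPT : Affine.Point.some x y h ∈ T := (hmemT _).mpr ⟨⟨Q, hQN⟩, hQ0, hQxy⟩
  have key := two_div_card_le_neg_ord_x hord hQ T hT hneg hne h hPT hx0 hx
  rw [hTcard, Nat.cast_sub hp.one_le, Nat.cast_one] at key
  exact key

end points

section weierstrass

variable {K : Type*} [Field K] {A : ValuationSubring K} {ord : K → ℚ}

/-- On an integral Weierstrass curve, a point whose `x`-coordinate has a pole has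
`2 ord y = 3 ord x`. -/
theorem two_ord_y (hord : IsOrd A ord) (W : Affine K) (hW : IsIntegralW W A) {x y : K}
    (h : W.Equation x y) (hx0 : x ≠ 0) (hx : ord x < 0) : y ≠ 0 ∧ 2 * ord y = 3 * ord x := by
  obtain ⟨h1, h2, h3, h4, h6⟩ := hW
  rw [Affine.equation_iff] at h
  have hco : ∀ {a : K}, a ∈ A → a ≠ 0 → 0 ≤ ord a := fun ha ha0 => hord.nonneg_of_mem ha0 ha
  set r : K := W.a₂ * x ^ 2 + W.a₄ * x + W.a₆ with hr
  set d : K := W.a₁ * x + W.a₃ with hd
  have hx3 : x ^ 3 ≠ 0 := pow_ne_zero 3 hx0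
  have hordx3 : ord (x ^ 3) = 3 * ord x := by rw [hord.ord_pow hx0]; norm_num
  have hr_ge : r ≠ 0 → 2 * ord x ≤ ord r := by
    intro hr0
    refine hord.le_ord_add_of_le' hr0 (fun h12 => ?_) (fun h6' => ?_)
    · refine hord.le_ord_add_of_le' h12 (fun ha => ?_) (fun hb => ?_)
      · have ha2 : W.a₂ ≠ 0 := left_ne_zero_of_mul ha
        rw [hord.map_mul ha2 (pow_ne_zero 2 hx0), hord.ord_pow hx0]
        have := hco h2 ha2
        push_cast
        linarith
      · have ha4 : W.a₄ ≠ 0 := left_ne_zero_of_mul hb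
        rw [hord.map_mul ha4 hx0]
        have := hco h4 ha4
        linarith
    · have := hco h6 h6'
      linarith
  have hlt : r ≠ 0 → ord (x ^ 3) < ord r := by
    intro hr0
    rw [hordx3]
    have := hr_ge hr0
    linarith
  have hRHS : ord (x ^ 3 + r) = 3 * ord x := by
    rw [hord.ord_add_of_lt' hx3 hlt, hordx3]
  have hRHS0 : x ^ 3 + r ≠ 0 := by
    rcases eq_or_ne r 0 with h0 | h0
    · rw [h0, add_zero]; exact hx3
    · exact hord.add_ne_zero_of_lt (hlt h0)
  have hfac : y * (y + d) = x ^ 3 + r := by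
    rw [hr, hd]; linear_combination h
  have hy0 : y ≠ 0 := by
    intro h0
    rw [h0, zero_mul] at hfac
    exact hRHS0 hfac.symm
  have hyd0 : y + d ≠ 0 := by
    intro h0
    rw [h0, mul_zero] at hfac
    exact hRHS0 hfac.symm
  have hsum : ord y + ord (y + d) = 3 * ord x := by
    rw [← hord.map_mul hy0 hyd0, hfac, hRHS]
  have hd_ge : d ≠ 0 → ord x ≤ ord d := by
    intro hd0
    refine hord.le_ord_add_of_le' hd0 (fun ha => ?_) (fun hb => ?_)
    · have ha1 : W.a₁ ≠ 0 := left_ne_zero_of_mul ha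
      rw [hord.map_mul ha1 hx0]
      have := hco h1 ha1
      linarith
    · have := hco h3 hb
      linarith
  refine ⟨hy0, ?_⟩
  rcases le_or_gt (ord x) (ord y) with hle | hgt
  · exfalso
    have : ord x ≤ ord (y + d) :=
      hord.le_ord_add_of_le' hyd0 (fun _ => hle) hd_ge
    linarith
  · have : ord (y + d) = ord y :=
      hord.ord_add_of_lt' hy0 (fun hd0 => lt_of_lt_of_le hgt (hd_ge hd0))
    rw [this] at hsum
    linarith

end weierstrass

section tame

variable {K : Type*} [Field K] [Algebra ℚ K] {W : Affine ℚ}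

/-- the `t = x / y`-coordinate of a point (junk value `0` at the origin). -/
def tc : (W⁄K).Point → K
  | .zero => 0
  | .some x y _ => x / y

theorem tc_smul [DecidableEq K] (σ : K ≃ₐ[ℚ] K) (P : (W⁄K).Point) : tc (σ • P) = σ (tc P) := by
  cases P with
  | zero => exact (map_zero σ).symm
  | some x y h => exact (map_div₀ σ x y).symm

/-- `ℚ̄/ℚ` is normal (for the default `ℚ`-algebra structure). -/
theorem normal_Qb : Normal ℚ Qb := by
  have h1 : Algebra.IsAlgebraic ℚ Qb := AlgebraicClosure.isAlgebraic ℚ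
  have h2 : IsAlgClosure ℚ Qb := ⟨inferInstance, h1⟩
  exact IsAlgClosure.normal ℚ Qb

/-- **[TAME]**, Interface shape. -/
theorem tame : TameStmt := by
  intro W A ord hord q _ hQ hW x y h m hm hfin hcard hx0 hx
  classical
  have : Normal ℚ Qb := normal_Qb
  obtain ⟨hy0, h2y⟩ := two_ord_y hord (W⁄Qb) hW h.1 hx0 hx
  have ht0 : x / y ≠ 0 := div_ne_zero hx0 hy0
  have hordt : ord (x / y) = - ord x / 2 := by
    rw [hord.ord_div hx0 hy0]; linarith
  set P : (W⁄Qb).Point := Affine.Point.some x y h with hPdef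
  set S : Finset Qb := hfin.toFinset.image tc with hSdef
  have hPorb : P ∈ hfin.toFinset := by
    rw [Set.Finite.mem_toFinset]
    refine ⟨1, ?_⟩
    show (1 : GQ) • P = P
    exact one_smul _ _
  have htS : x / y ∈ S := Finset.mem_image.mpr ⟨P, hPorb, rfl⟩
  have hSstab : ∀ σ : GQ, ∀ z ∈ S, σ z ∈ S := by
    intro σ z hz
    obtain ⟨R, hR, rfl⟩ := Finset.mem_image.mp hz
    obtain ⟨τ, rfl⟩ := (Set.Finite.mem_toFinset _).mp hR
    rw [← tc_smul]
    refine Finset.mem_image.mpr ⟨σ • τ • P, ?_, rfl⟩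
    rw [Set.Finite.mem_toFinset]
    exact ⟨σ * τ, mul_smul σ τ P⟩
  have hScard : S.card ≤ m := by
    refine Finset.card_image_le.trans ?_
    rw [← Set.ncard_eq_toFinset_card _ hfin]
    exact hcard
  have hdeg : (minpoly ℚ (x / y)).natDegree ≤ S.card := natDegree_minpoly_le_card S hSstab htS
  have hint : IsIntegral ℚ (x / y) := Normal.isIntegral (F := ℚ) (K := Qb) inferInstance _
  obtain ⟨e, he1, hed, k, hk⟩ :=
    exists_mul_ord_int hord hQ ht0 (minpoly.ne_zero hint) (minpoly.aeval ℚ (x / y))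
  have hem : e ≤ m := hed.trans (hdeg.trans hScard)
  have he0 : (0 : ℚ) < e := by exact_mod_cast he1
  have hm0 : (0 : ℚ) < m := by exact_mod_cast hm
  have htpos : 0 < ord (x / y) := by rw [hordt]; linarith
  have hkpos : (0 : ℚ) < k := by rw [← hk]; exact mul_pos he0 htpos
  have hk1 : (1 : ℚ) ≤ k := by
    have : 0 < k := by exact_mod_cast hkpos
    have : 1 ≤ k := by omega
    exact_mod_cast this
  have h1 : 1 ≤ (m : ℚ) * ord (x / y) := by
    calc (1 : ℚ) ≤ k := hk1
      _ = e * ord (x / y) := hk.symm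
      _ ≤ m * ord (x / y) := by
        apply mul_le_mul_of_nonneg_right _ htpos.le
        exact_mod_cast hem
  rw [hordt] at h1
  rw [le_div_iff₀ hm0]
  nlinarith

end tame

end Fermat.Agent.S13.Tame
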