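/-
S13 ASSEMBLY (helper4, blueprint 7): the statement S13 from the package statements of
`Interface.lean`.  Consumes directly the landed packages GAL (`Gal.lean`), LP (`LP48.lean`),
TAME (`Tame.lean`) and S05 (`S05/Final.lean`); the remaining packages enter as hypotheses.
* `s13_of_weak` : from `TFinStmt` (finite, `< p³`: needs only "torsion ⇒ root of `preΨ_p`"),
  `TNontrivStmt` (a nonzero `p`-torsion point exists), `MassExtraStmt` (MASS with an extra torsion
  point off the line, which the assembly supplies), `MinkStmt`, `FreyIntegralStmt`,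
  `L2UnipotentStmt`, `L2NoRationalStmt`.
* `s13_of` : the same from `TCountStmt` and `MassStmt`.
No sorry.
-/
import Mathlib
import Fermat.Agent.S13.Interface
import Fermat.Agent.S13.Gal
import Fermat.Agent.S13.LP48
import Fermat.Agent.S13.Tame
import Fermat.Agent.S05.Final

set_option autoImplicit false

open WeierstrassCurve WeierstrassCurve.Affine WeierstrassCurve.Affine.Point

namespace Fermat.Agent.S13.Asm

open Fermat.Agent.S05 (IsOrd IsU IsInertial IsIntegralW E1) in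
/-- [T-fin] `E[p]` is finite of cardinality `< p³` (follows from the easy half of the division
polynomial criterion: torsion ⇒ root of `preΨ_p`). -/
def TFinStmt : Prop :=
  ∀ (W : Affine Qb), W.Δ ≠ 0 → ∀ p : ℕ, p.Prime → p ≠ 2 →
    Finite (Submodule.torsionBy ℤ W.Point p) ∧
      Nat.card (Submodule.torsionBy ℤ W.Point p) < p ^ 3

/-- [T-ex] a nonzero `p`-torsion point exists. -/
def TNontrivStmt : Prop :=
  ∀ (W : Affine Qb), W.Δ ≠ 0 → ∀ p : ℕ, p.Prime → p ≠ 2 →
    Nontrivial (Submodule.torsionBy ℤ W.Point p)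

open Fermat.Agent.S05 (IsOrd IsU IsInertial IsIntegralW E1) in
/-- [MASS-extra] `MassStmt` with one more hypothesis: a `p`-torsion point `Q` which is not a
multiple of `P₀`. -/
def MassExtraStmt : Prop :=
  ∀ (W : Affine Qb) (A : ValuationSubring Qb) (ord : Qb → ℚ), IsOrd A ord →
    IsIntegralW W A → W.Δ ≠ 0 → ∀ p : ℕ, p.Prime → p ≠ 2 → 0 < ord (p : Qb) →
    (∀ k : ℕ, 0 < k → k < p → IsU ord (k : Qb)) →
    (∀ Q : W.Point, (p : ℤ) • Q = 0 → Q ∈ E1 W ord) →
    ∀ P₀ : W.Point, P₀ ≠ 0 → (p : ℤ) • P₀ = 0 →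
    (∀ k : ℕ, 0 < k → k < p → ∀ (x y : Qb) (h : W.Nonsingular x y),
      (k : ℤ) • P₀ = Point.some x y h → ord x ≤ -2 * ord (p : Qb) / (p - 1)) →
    ∀ Q : W.Point, (p : ℤ) • Q = 0 → (∀ k : ℤ, Q ≠ k • P₀) → False

theorem tFin_of_tCount (h : TCountStmt) : TFinStmt :=
  fun W hΔ p hp hp2 => ⟨(h W hΔ p hp hp2).1, (h W hΔ p hp hp2).2.2⟩

theorem tNontriv_of_tCount (h : TCountStmt) : TNontrivStmt :=
  fun W hΔ p hp hp2 => (h W hΔ p hp hp2).2.1

theorem massExtra_of_mass (h : MassStmt) : MassExtraStmt :=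
  fun W A ord hord hW hΔ p hp hp2 hpos hU hall P₀ hP₀ hpP₀ hdeep _ _ _ =>
    h W A ord hord hW hΔ p hp hp2 hpos hU hall P₀ hP₀ hpP₀ hdeep


/-! ### Linear algebra over `ZMod p` for a module of dimension `≤ 2` with a proper nonzero
submodule -/
section LinAlg

variable {p : ℕ} [Fact p.Prime] {V : Type*} [AddCommGroup V] [Module (ZMod p) V] [Finite V]

theorem finrank_le_two_of_card_lt (hcard : Nat.card V < p ^ 3) :
    Module.finrank (ZMod p) V ≤ 2 := by
  have h := Module.natCard_eq_pow_finrank (K := ZMod p) (V := V)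
  rw [Nat.card_zmod] at h
  rw [h] at hcard
  have := (Nat.pow_lt_pow_iff_right (Fact.out : p.Prime).one_lt).mp hcard
  omega

variable (N₀ : Submodule (ZMod p) V)

theorem finrank_eq_one_and_two (hcard : Nat.card V < p ^ 3) (hbot : N₀ ≠ ⊥) (htop : N₀ ≠ ⊤) :
    Module.finrank (ZMod p) N₀ = 1 ∧ Module.finrank (ZMod p) V = 2 := by
  have h2 := finrank_le_two_of_card_lt (p := p) (V := V) hcard
  have h1 : 0 < Module.finrank (ZMod p) N₀ := by
    rw [Module.finrank_pos_iff]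
    exact (Submodule.nontrivial_iff_ne_bot).mpr hbot
  have h3 : Module.finrank (ZMod p) N₀ < Module.finrank (ZMod p) V :=
    Submodule.finrank_lt htop
  omega

theorem card_eq_of_finrank_eq_one (h1 : Module.finrank (ZMod p) N₀ = 1) : Nat.card N₀ = p := by
  have h := Module.natCard_eq_pow_finrank (K := ZMod p) (V := N₀)
  rw [Nat.card_zmod, h1, pow_one] at h
  exact h

theorem eq_of_le_of_ne_top (h1 : Module.finrank (ZMod p) N₀ = 1)
    (h2 : Module.finrank (ZMod p) V = 2) (V₀ : Submodule (ZMod p) V) (hle : N₀ ≤ V₀)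
    (hne : V₀ ≠ ⊤) : V₀ = N₀ := by
  have h3 : Module.finrank (ZMod p) V₀ < Module.finrank (ZMod p) V := Submodule.finrank_lt hne
  have h4 : Module.finrank (ZMod p) N₀ ≤ Module.finrank (ZMod p) V₀ := Submodule.finrank_mono hle
  exact (Submodule.eq_of_le_of_finrank_eq hle (by omega)).symm

theorem inf_eq_bot_of_not_le (h1 : Module.finrank (ZMod p) N₀ = 1)
    (V₀ : Submodule (ZMod p) V) (hnle : ¬ N₀ ≤ V₀) : N₀ ⊓ V₀ = ⊥ := by
  have hlt : N₀ ⊓ V₀ < N₀ := by
    refine lt_of_le_of_ne inf_le_left ?_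
    intro h
    exact hnle (h ▸ inf_le_right)
  have h3 := Submodule.finrank_lt_finrank_of_lt hlt
  have h4 : Module.finrank (ZMod p) ↥(N₀ ⊓ V₀) = 0 := by omega
  exact Submodule.finrank_eq_zero.mp h4

/-- a square-zero endomorphism preserving the line `N₀` of a plane kills `N₀` and maps into it. -/
theorem unipotent_aux (h1 : Module.finrank (ZMod p) N₀ = 1)
    (h2 : Module.finrank (ZMod p) V = 2) (D : V →ₗ[ZMod p] V)
    (hDD : ∀ x, D (D x) = 0) (hDN : ∀ x ∈ N₀, D x ∈ N₀) :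
    (∀ x ∈ N₀, D x = 0) ∧ ∀ x, D x ∈ N₀ := by
  have hkill : ∀ x ∈ N₀, D x = 0 := by
    obtain ⟨v, hv0, hv⟩ := finrank_eq_one_iff'.mp h1
    have hv0' : (v : V) ≠ 0 := fun h => hv0 (Subtype.ext h)
    obtain ⟨a, ha⟩ := hv ⟨D v, hDN v v.2⟩
    have ha' : D (v : V) = a • (v : V) := by
      have := congrArg Subtype.val ha
      simpa using this.symm
    have h0 : (a * a) • (v : V) = 0 := by
      have := hDD (v : V)
      rw [ha', map_smul, ha', smul_smul] at this
      exact this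
    have ha0 : a = 0 := by
      rcases smul_eq_zero.mp h0 with h | h
      · exact mul_self_eq_zero.mp h
      · exact absurd h hv0'
    intro x hx
    obtain ⟨c, hc⟩ := hv ⟨x, hx⟩
    have hc' : x = c • (v : V) := by
      have := congrArg Subtype.val hc
      simpa using this.symm
    rw [hc', map_smul, ha', ha0, zero_smul, smul_zero]
  refine ⟨hkill, ?_⟩
  -- a vector outside `N₀`
  have htop : N₀ ≠ ⊤ := by
    intro h
    rw [h, finrank_top] at h1
    omega
  obtain ⟨Q₁, -, hQ₁⟩ := SetLike.exists_of_lt (lt_top_iff_ne_top.mpr htop)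
  have hq : Module.finrank (ZMod p) (V ⧸ N₀) = 1 := by
    have := Submodule.finrank_quotient_add_finrank N₀
    omega
  have hmk : (Submodule.Quotient.mk Q₁ : V ⧸ N₀) ≠ 0 := by
    rw [Ne, Submodule.Quotient.mk_eq_zero]
    exact hQ₁
  have hspan := (finrank_eq_one_iff_of_nonzero' _ hmk).mp hq
  have hdec : ∀ x : V, ∃ c : ZMod p, x - c • Q₁ ∈ N₀ := by
    intro x
    obtain ⟨c, hc⟩ := hspan (Submodule.Quotient.mk x)
    refine ⟨c, ?_⟩
    rw [← Submodule.Quotient.mk_smul] at hc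
    exact (Submodule.Quotient.eq N₀).mp hc.symm
  obtain ⟨d, hd⟩ := hdec (D Q₁)
  set l := D Q₁ - d • Q₁ with hl
  have hDQ : D Q₁ = d • Q₁ + l := by rw [hl]; abel
  have hd0 : d = 0 := by
    by_contra hd0
    have h0 := hDD Q₁
    rw [hDQ, map_add, map_smul, hkill l hd, add_zero, hDQ, smul_add, smul_smul] at h0
    have h3 : (d * d) • Q₁ ∈ N₀ := by
      have : (d * d) • Q₁ = -(d • l) := eq_neg_of_add_eq_zero_left h0
      rw [this]
      exact N₀.neg_mem (N₀.smul_mem d hd)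
    have h4 : (d * d)⁻¹ • ((d * d) • Q₁) ∈ N₀ := N₀.smul_mem _ h3
    rw [smul_smul, inv_mul_cancel₀ (mul_self_ne_zero.mpr hd0), one_smul] at h4
    exact hQ₁ h4
  have hDQ' : D Q₁ ∈ N₀ := by
    rw [hDQ, hd0, zero_smul, zero_add]; exact hd
  intro x
  obtain ⟨c, hc⟩ := hdec x
  have : x = c • Q₁ + (x - c • Q₁) := by abel
  rw [this, map_add, map_smul, hkill _ hc, add_zero]
  exact N₀.smul_mem c hDQ'

end LinAlg


open Fermat.Agent.S05 (IsOrd IsU IsInertial IsIntegralW E1)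

section Main

attribute [local instance] Gal.isAlgebraic_Qbar Gal.isAlgClosure_Qbar Gal.isGalois_Qbar

variable {W : Affine ℚ} {p : ℕ}

/-- `σ - 1` on `E[p]`, as a `ZMod p`-linear map. -/
noncomputable def dMap (σ : GQ) :
    Submodule.torsionBy ℤ (W⁄Qb).Point p →ₗ[ZMod p] Submodule.torsionBy ℤ (W⁄Qb).Point p :=
  AddMonoidHom.toZModLinearMap p
    (DistribSMul.toAddMonoidHom (Submodule.torsionBy ℤ (W⁄Qb).Point p) σ -
      AddMonoidHom.id _)

theorem dMap_apply (σ : GQ) (x : Submodule.torsionBy ℤ (W⁄Qb).Point p) :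
    dMap σ x = σ • x - x := rfl

/-- The `p`-torsion points in the kernel of reduction, as a `ZMod p`-submodule of `E[p]`. -/
noncomputable def V0 (W : Affine ℚ) (p : ℕ) {A : ValuationSubring Qb} {ord : Qb → ℚ}
    (hord : IsOrd A ord) (h2 : IsU ord (2 : Qb)) (hW : IsIntegralW (W⁄Qb) A) :
    Submodule (ZMod p) (Submodule.torsionBy ℤ (W⁄Qb).Point p) :=
  AddSubgroup.toZModSubmodule p
    { carrier := {x | (x : (W⁄Qb).Point) ∈ E1 (W⁄Qb) ord}
      zero_mem' := Or.inl rfl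
      add_mem' := fun {x y} hx hy => by
        show ((x + y : Submodule.torsionBy ℤ (W⁄Qb).Point p) : (W⁄Qb).Point) ∈ E1 (W⁄Qb) ord
        rw [Submodule.coe_add]
        exact Fermat.Agent.S05.E1_add_mem (W⁄Qb) hord h2 hW hx hy
      neg_mem' := fun {x} hx => by
        show ((-x : Submodule.torsionBy ℤ (W⁄Qb).Point p) : (W⁄Qb).Point) ∈ E1 (W⁄Qb) ord
        rw [Submodule.coe_neg]
        exact Fermat.Agent.S05.E1_neg_mem (W⁄Qb) hx }

theorem mem_V0 {A : ValuationSubring Qb} {ord : Qb → ℚ}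
    (hord : IsOrd A ord) (h2 : IsU ord (2 : Qb)) (hW : IsIntegralW (W⁄Qb) A)
    (x : Submodule.torsionBy ℤ (W⁄Qb).Point p) :
    x ∈ V0 W p hord h2 hW ↔ (x : (W⁄Qb).Point) ∈ E1 (W⁄Qb) ord := Iff.rfl

/-- A natural number prime to `q` is a unit at a place over `q`. -/
theorem isU_natCast {ord : Qb → ℚ} {q : ℕ}
    (hQ : ∀ x : ℚ, x ≠ 0 → ord (algebraMap ℚ Qb x) = padicValRat q x)
    (k : ℕ) (hk : 0 < k) (hqk : ¬ q ∣ k) : IsU ord (k : Qb) := by
  refine ⟨Nat.cast_ne_zero.mpr hk.ne', ?_⟩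
  have h := hQ (k : ℚ) (Nat.cast_ne_zero.mpr hk.ne')
  rw [map_natCast, padicValRat.of_nat, padicValNat.eq_zero_of_not_dvd hqk] at h
  simpa using h

theorem ord_self {ord : Qb → ℚ} {q : ℕ} (hq : q.Prime)
    (hQ : ∀ x : ℚ, x ≠ 0 → ord (algebraMap ℚ Qb x) = padicValRat q x) :
    ord (q : Qb) = 1 := by
  have h := hQ (q : ℚ) (Nat.cast_ne_zero.mpr hq.ne_zero)
  rw [map_natCast, padicValRat.self hq.one_lt] at h
  simpa using h

/-- A unipotent `σ` (on a plane with a stable line `N₀`) acts trivially on `N₀` and `V/N₀`. -/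
theorem mem_of_unipotent [Fact p.Prime] [Finite (Submodule.torsionBy ℤ (W⁄Qb).Point p)]
    (N₀ : Submodule (ZMod p) (Submodule.torsionBy ℤ (W⁄Qb).Point p))
    (hN₀ : IsGaloisStable ℚ N₀)
    (h1 : Module.finrank (ZMod p) N₀ = 1)
    (h2 : Module.finrank (ZMod p) (Submodule.torsionBy ℤ (W⁄Qb).Point p) = 2)
    (σ : GQ)
    (hσ : ∀ Q : (W⁄Qb).Point, (p : ℤ) • Q = 0 → σ • (σ • Q - Q) = σ • Q - Q) :
    σ ∈ Gal.trivOnQuot N₀ ∧ σ ∈ Gal.trivOn N₀ := by
  have hDD : ∀ x : Submodule.torsionBy ℤ (W⁄Qb).Point p, dMap σ (dMap σ x) = 0 := by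
    intro x
    rw [dMap_apply, dMap_apply, sub_eq_zero]
    apply Subtype.ext
    exact hσ (x : (W⁄Qb).Point) ((Submodule.mem_torsionBy_iff _ _).1 x.2)
  have hDN : ∀ x ∈ N₀, dMap (W := W) (p := p) σ x ∈ N₀ := by
    intro x hx
    rw [dMap_apply]
    exact N₀.sub_mem (hN₀ σ x hx) hx
  obtain ⟨hk, hi⟩ := unipotent_aux N₀ h1 h2 (dMap σ) hDD hDN
  refine ⟨fun x => hi x, fun x hx => ?_⟩
  have := hk x hx
  rw [dMap_apply, sub_eq_zero] at this
  exact this

/-- **S13 from its packages** (weakest hypotheses). -/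
theorem s13_of_weak (hFin : TFinStmt) (hNon : TNontrivStmt) (hMass : MassExtraStmt)
    (hMink : MinkStmt) (hInt : FreyIntegralStmt)
    (hL2a : L2UnipotentStmt) (hL2b : L2NoRationalStmt)
    (P : FreyPackage)
    (hred : ¬ GaloisRepIsIrreducible (K := AlgebraicClosure ℚ) ℚ P.freyCurve P.p) :
    HasGaloisStableCofixedLine (K := AlgebraicClosure ℚ) ℚ P.freyCurve P.p := by
  classical
  obtain ⟨hΔ, hIntW⟩ := hInt P
  have hp : P.p.Prime := P.pp
  have hp2 : P.p ≠ 2 := by have := P.hp5; omega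
  have : Fact P.p.Prime := ⟨hp⟩
  obtain ⟨hfin, hcard⟩ := hFin (P.freyCurve⁄Qb) hΔ P.p hp hp2
  have hnt := hNon (P.freyCurve⁄Qb) hΔ P.p hp hp2
  have := hfin
  rcases (Gal.not_irreducible_iff (W' := P.freyCurve) P.p).mp hred with h | ⟨N₀, hN₀, h0, h1⟩
  · exact absurd hnt h
  obtain ⟨hf1, hf2⟩ := finrank_eq_one_and_two N₀ hcard h0 h1
  have hcardN : Nat.card N₀ = P.p := card_eq_of_finrank_eq_one N₀ hf1
  obtain ⟨v₀, hv₀N, hv₀⟩ := Submodule.exists_mem_ne_zero_of_ne_bot h0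
  -- the field of definition of `E[p]`
  obtain ⟨M, hMfd, hM⟩ := Gal.exists_finite_fixing (W' := P.freyCurve) P.p
  -- a place over `p`
  obtain ⟨Ap, hAp⟩ := Gal.exists_liesOverPrime P.p hp
  obtain ⟨ord, hord, hQ⟩ := Fermat.Agent.S05.exists_ord Ap hp hAp
  have hu2 : IsU ord (2 : Qb) := by
    have := isU_natCast hQ 2 (by norm_num)
      (fun h => hp2 ((Nat.prime_dvd_prime_iff_eq hp Nat.prime_two).mp h))
    simpa using this
  have hordp : ord (P.p : Qb) = 1 := ord_self hp hQ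
  -- inertia away from `2p` is trivial
  have hgood : ∀ q : ℕ, q.Prime → q ≠ 2 → q ≠ P.p → ∀ A : ValuationSubring Qb,
      A.LiesOverPrime q → ∀ σ ∈ A.inertiaSubgroupIn ℚ,
        σ ∈ Gal.trivOnQuot N₀ ∧ σ ∈ Gal.trivOn N₀ := by
    intro q hq hq2 hqp A hA σ hσ
    have hun := Fermat.Agent.S05.Fin.frey_unramified P hq hq2 hqp A hA σ hσ
    refine ⟨fun x => ?_, fun x _ => hun x⟩
    have e : σ • x - x = 0 := sub_eq_zero.mpr (hun x)
    exact (congrArg (fun z => z ∈ N₀) e).mpr N₀.zero_mem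
  -- inertia at `2` is unipotent
  have htwo : ∀ A : ValuationSubring Qb, A.LiesOverPrime 2 → ∀ σ ∈ A.inertiaSubgroupIn ℚ,
      σ ∈ Gal.trivOnQuot N₀ ∧ σ ∈ Gal.trivOn N₀ := by
    intro A hA σ hσ
    exact mem_of_unipotent N₀ hN₀ hf1 hf2 σ (hL2a P A hA σ hσ)
  -- the Minkowski step, for both subgroups
  have hmink : ∀ T : Subgroup GQ, T.Normal → M.fixingSubgroup ≤ T →
      (∀ q : ℕ, q.Prime → q ≠ P.p → ∀ A : ValuationSubring Qb, A.LiesOverPrime q →
        A.inertiaSubgroupIn ℚ ≤ T) → Ap.inertiaSubgroupIn ℚ ≤ T → T = ⊤ := by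
    intro T hTn hMT hq hpT
    refine hMink T hTn M hMfd hMT (fun q hqp => ?_)
    by_cases hqP : q = P.p
    · subst hqP
      exact ⟨Ap, hAp, hpT⟩
    · obtain ⟨A, hA⟩ := Gal.exists_liesOverPrime q hqp
      exact ⟨A, hA, hq q hqp hqP A hA⟩
  have hawayQ : ∀ q : ℕ, q.Prime → q ≠ P.p → ∀ A : ValuationSubring Qb, A.LiesOverPrime q →
      A.inertiaSubgroupIn ℚ ≤ Gal.trivOnQuot N₀ := by
    intro q hq hqp A hA σ hσ
    by_cases hq2 : q = 2
    · subst hq2; exact (htwo A hA σ hσ).1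
    · exact (hgood q hq hq2 hqp A hA σ hσ).1
  have hawayN : ∀ q : ℕ, q.Prime → q ≠ P.p → ∀ A : ValuationSubring Qb, A.LiesOverPrime q →
      A.inertiaSubgroupIn ℚ ≤ Gal.trivOn N₀ := by
    intro q hq hqp A hA σ hσ
    by_cases hq2 : q = 2
    · subst hq2; exact (htwo A hA σ hσ).2
    · exact (hgood q hq hq2 hqp A hA σ hσ).2
  -- inertia at `p` moves `E[p]` into `V⁰`
  have hLP : ∀ σ ∈ Ap.inertiaSubgroupIn ℚ,
      ∀ x : Submodule.torsionBy ℤ (P.freyCurve⁄Qb).Point P.p,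
        σ • x - x ∈ V0 P.freyCurve P.p hord hu2 (hIntW Ap) := by
    intro σ hσ x
    rw [mem_V0]
    exact LP48.frey_inertia_smul_sub_mem_E1 P hord hQ hσ x
  by_cases hle : N₀ ≤ V0 P.freyCurve P.p hord hu2 (hIntW Ap)
  · by_cases htop : V0 P.freyCurve P.p hord hu2 (hIntW Ap) = ⊤
    · -- all of `E[p]` in the kernel of reduction: MASS + TAME
      exfalso
      have hall : ∀ Q : (P.freyCurve⁄Qb).Point, (P.p : ℤ) • Q = 0 →
          Q ∈ E1 (P.freyCurve⁄Qb) ord := by
        intro Q hQ0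
        have hQV : Q ∈ Submodule.torsionBy ℤ (P.freyCurve⁄Qb).Point P.p :=
          (Submodule.mem_torsionBy_iff _ _).2 hQ0
        have : (⟨Q, hQV⟩ : Submodule.torsionBy ℤ (P.freyCurve⁄Qb).Point P.p) ∈
            V0 P.freyCurve P.p hord hu2 (hIntW Ap) := by rw [htop]; exact Submodule.mem_top
        exact (mem_V0 hord hu2 (hIntW Ap) _).1 this
      obtain ⟨Q₁, -, hQ₁⟩ := SetLike.exists_of_lt (lt_top_iff_ne_top.mpr h1)
      refine hMass (P.freyCurve⁄Qb) Ap ord hord (hIntW Ap) hΔ P.p hp hp2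
        (by rw [hordp]; norm_num)
        (fun k hk hkp => isU_natCast hQ k hk (Nat.not_dvd_of_pos_of_lt hk hkp)) hall
        (v₀ : (P.freyCurve⁄Qb).Point) (fun h => hv₀ (Subtype.ext h))
        ((Submodule.mem_torsionBy_iff _ _).1 v₀.2) ?_
        (Q₁ : (P.freyCurve⁄Qb).Point) ((Submodule.mem_torsionBy_iff _ _).1 Q₁.2) ?_
      swap
      · intro k hk
        apply hQ₁
        have hkN : (k : ℤ) • v₀ ∈ N₀ := N₀.toAddSubgroup.zsmul_mem hv₀N k
        have e : Q₁ = (k : ℤ) • v₀ := Subtype.ext (by rw [Submodule.coe_smul]; exact hk)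
        rw [e]
        exact hkN
      intro k hk hkp x y h hkxy
      have hkN : (k : ℤ) • v₀ ∈ N₀ := N₀.toAddSubgroup.zsmul_mem hv₀N k
      have hco : (((k : ℤ) • v₀ : Submodule.torsionBy ℤ (P.freyCurve⁄Qb).Point P.p) :
          (P.freyCurve⁄Qb).Point) = Point.some x y h := by
        rw [Submodule.coe_smul]; exact hkxy
      have hE : Point.some x y h ∈ E1 (P.freyCurve⁄Qb) ord := by
        rw [← hkxy]
        refine hall _ ?_
        rw [smul_comm, (Submodule.mem_torsionBy_iff _ _).1 v₀.2, smul_zero]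
      rcases hE with hE | ⟨x', y', h', hE, hx0, hx⟩
      · exact absurd hE (by simp)
      have hxx : x = x' := by
        have := hE
        simp only [Point.some.injEq] at this
        exact this.1
      subst hxx
      have key := Tame.line_two_div_le_neg_ord_x (K := Qb) (W := P.freyCurve) hord hQ hp hp2
        N₀ hN₀ hcardN ((k : ℤ) • v₀) hkN h hco hx0 hx
      rw [hordp]
      have e : -2 * (1 : ℚ) / ((P.p : ℚ) - 1) = -(2 / ((P.p : ℚ) - 1)) := by ring
      rw [e]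
      linarith
    · -- `V⁰ = N₀`: inertia at `p` acts trivially on `V/N₀`
      have hV0 : V0 P.freyCurve P.p hord hu2 (hIntW Ap) = N₀ :=
        eq_of_le_of_ne_top N₀ hf1 hf2 _ hle htop
      have hpS : Ap.inertiaSubgroupIn ℚ ≤ Gal.trivOnQuot N₀ := by
        intro σ hσ x
        rw [← hV0]
        exact hLP σ hσ x
      have hS := hmink (Gal.trivOnQuot N₀) (Gal.trivOnQuot_normal hN₀)
        (Gal.fixingSubgroup_le_trivOnQuot hM) hawayQ hpS
      exact Gal.hasCofixedLine_of_trivOnQuot_eq_top hN₀ h0 h1 hS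
  · -- `N₀ ∩ V⁰ = 0`: inertia at `p` acts trivially on `N₀`, so `v₀` is rational
    exfalso
    have hinf := inf_eq_bot_of_not_le N₀ hf1 _ hle
    have hpS : Ap.inertiaSubgroupIn ℚ ≤ Gal.trivOn N₀ := by
      intro σ hσ x hx
      have hmem : σ • x - x ∈ N₀ ⊓ V0 P.freyCurve P.p hord hu2 (hIntW Ap) :=
        ⟨N₀.sub_mem (hN₀ σ x hx) hx, hLP σ hσ x⟩
      rw [hinf, Submodule.mem_bot, sub_eq_zero] at hmem
      exact hmem
    have hS := hmink (Gal.trivOn N₀) (Gal.trivOn_normal hN₀)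
      (Gal.fixingSubgroup_le_trivOn hM) hawayN hpS
    have hfix : ∀ σ : GQ, σ • v₀ = v₀ := by
      intro σ
      have : σ ∈ Gal.trivOn N₀ := by rw [hS]; exact Subgroup.mem_top σ
      exact this v₀ hv₀N
    have hv₀' : (v₀ : (P.freyCurve⁄Qb).Point) ≠ 0 := fun h => hv₀ (Subtype.ext h)
    have hpv : (P.p : ℤ) • (v₀ : (P.freyCurve⁄Qb).Point) = 0 :=
      (Submodule.mem_torsionBy_iff _ _).1 v₀.2
    have hfix' : ∀ σ : GQ, σ • (v₀ : (P.freyCurve⁄Qb).Point) = v₀ :=
      fun σ => congrArg Subtype.val (hfix σ)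
    generalize (v₀ : (P.freyCurve⁄Qb).Point) = R at hv₀' hpv hfix'
    cases R with
    | zero => exact hv₀' rfl
    | some x y h =>
      obtain ⟨x₀, y₀, rfl, rfl⟩ := Gal.exists_rat_of_fixed h hfix'
      exact hL2b P x₀ y₀ h hpv

/-- **S13 from its packages** (original interface shapes). -/
theorem s13_of (hT : TCountStmt) (hMass : MassStmt) (hMink : MinkStmt) (hInt : FreyIntegralStmt)
    (hL2a : L2UnipotentStmt) (hL2b : L2NoRationalStmt)
    (P : FreyPackage)
    (hred : ¬ GaloisRepIsIrreducible (K := AlgebraicClosure ℚ) ℚ P.freyCurve P.p) :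
    HasGaloisStableCofixedLine (K := AlgebraicClosure ℚ) ℚ P.freyCurve P.p :=
  s13_of_weak (tFin_of_tCount hT) (tNontriv_of_tCount hT) (massExtra_of_mass hMass) hMink hInt
    hL2a hL2b P hred

end Main

end Fermat.Agent.S13.Asm
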