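/-
S13 package T-weak (helper58): the EASY half of the division-polynomial torsion criterion,
`p • P = 0 ⇒ (W.preΨ p).eval x(P) = 0`, by a WEAK multiplication formula proved along Mathlib's
own recursions `ψ_odd`/`ψ_even`.  No Ward theorem, no generic point, no density, no Wronskian.
-/
import Mathlib
import Fermat.Agent.S05.Pole

set_option autoImplicit false
set_option linter.unusedSectionVars false

namespace Fermat.Agent.S13.DivWeak58

open WeierstrassCurve WeierstrassCurve.Affine Polynomial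

/-! ## Part A: the abstract induction (pure field algebra) -/
section Abstract

variable {K : Type*} [Field K]

/-- the invariant `(x₁ - x_k) u_k² = u_{k+1} u_{k-1}`. -/
def R1 (X u : ℤ → K) (k : ℤ) : Prop := (X 1 - X k) * u k ^ 2 = u (k + 1) * u (k - 1)

theorem R1.get {X u : ℤ → K} {k : ℤ} (h : R1 X u k) {a b : ℤ} (ha : a = k + 1) (hb : b = k - 1) :
    (X 1 - X k) * u k ^ 2 = u a * u b := by
  subst ha hb; exact h

theorem R1.of {X u : ℤ → K} {k a b : ℤ} (ha : a = k + 1) (hb : b = k - 1)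
    (h : (X 1 - X k) * u k ^ 2 = u a * u b) : R1 X u k := by
  subst ha hb; exact h

/-- the hypotheses of the abstract induction. -/
structure Data (X Y u : ℤ → K) (N : ℤ) : Prop where
  u0 : u 0 = 0
  u1 : u 1 = 1
  u2 : u 2 = Y 1
  odd : ∀ m a b c n : ℤ, a = m + 2 → b = m - 1 → c = m + 1 → n = 2 * m + 1 →
    u n = u a * u m ^ 3 - u b * u c ^ 3
  even : ∀ m a b c d n : ℤ, a = m - 1 → b = m + 2 → c = m - 2 → d = m + 1 → n = 2 * m →
    u n * u 2 = u a ^ 2 * u m * u b - u c * u m * u d ^ 2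
  hD : ∀ a b s d : ℤ, 0 < b → b < a → a + b ≤ N → s = a + b → d = a - b →
    (X s - X d) * (X a - X b) ^ 2 = -(Y a * Y b)
  hE : ∀ a ap am aa : ℤ, 2 ≤ a → 2 * a ≤ N → ap = a + 1 → am = a - 1 → aa = 2 * a →
    (X a - X ap) * (X am - X a) * (X a - X 1) ^ 2 = Y a ^ 2 * (X 1 - X aa)
  hX : ∀ a : ℤ, 2 ≤ a → a + 1 ≤ N → X 1 ≠ X a
  hY : 2 ≤ N → Y 1 ≠ 0
  base2 : 2 ≤ N → (X 1 - X 2) * u 2 ^ 2 = u 3
  base3 : 3 ≤ N → (X 1 - X 3) * u 3 ^ 2 = u 4 * u 2

theorem diff_core {x1 xa xb ua ub pa pb : K} (ra : (x1 - xa) * ua ^ 2 = pa)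
    (rb : (x1 - xb) * ub ^ 2 = pb) : (xa - xb) * (ua * ub) ^ 2 = pb * ua ^ 2 - pa * ub ^ 2 := by
  linear_combination (ua ^ 2) * rb - (ub ^ 2) * ra

theorem even_core {x1 xm xmm xmp x2m um umm ump u2m u2mp u2mm u2 Ym Y1 : K}
    (e1 : u2m * u2 = (xmm - xmp) * (umm * ump) ^ 2)
    (e2 : u2mp = (xm - xmp) * (um * ump) ^ 2)
    (e3 : u2mm = (xmm - xm) * (umm * um) ^ 2)
    (e4 : (x1 - xm) * um ^ 2 = ump * umm)
    (e5 : (xmp - xmm) * (xm - x1) ^ 2 = -(Ym * Y1))
    (e6 : (xm - xmp) * (xmm - xm) * (xm - x1) ^ 2 = Ym ^ 2 * (x1 - x2m))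
    (e7 : u2 = Y1) (hu2 : u2 ≠ 0) (hx : x1 ≠ xm) :
    (x1 - x2m) * u2m ^ 2 = u2mp * u2mm := by
  have hD : x1 - xm ≠ 0 := sub_ne_zero.2 hx
  have hne : u2 ^ 2 * (x1 - xm) ^ 2 ≠ 0 := mul_ne_zero (pow_ne_zero _ hu2) (pow_ne_zero _ hD)
  apply mul_left_cancel₀ hne
  have h4 : umm * ump = (x1 - xm) * um ^ 2 := by rw [e4]; ring
  calc u2 ^ 2 * (x1 - xm) ^ 2 * ((x1 - x2m) * u2m ^ 2)
      = (x1 - x2m) * (x1 - xm) ^ 2 * (u2m * u2) ^ 2 := by ring
    _ = (x1 - x2m) * (x1 - xm) ^ 2 * ((xmm - xmp) * ((x1 - xm) * um ^ 2) ^ 2) ^ 2 := by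
        rw [e1, h4]
    _ = (x1 - x2m) * ((xmp - xmm) * (xm - x1) ^ 2) ^ 2 * (x1 - xm) ^ 2 * um ^ 8 := by ring
    _ = (Ym ^ 2 * (x1 - x2m)) * Y1 ^ 2 * (x1 - xm) ^ 2 * um ^ 8 := by rw [e5]; ring
    _ = ((xm - xmp) * (xmm - xm) * (xm - x1) ^ 2) * Y1 ^ 2 * (x1 - xm) ^ 2 * um ^ 8 := by rw [e6]
    _ = u2 ^ 2 * (x1 - xm) ^ 2 *
          (((xm - xmp) * (xmm - xm)) * (um ^ 4 * ((x1 - xm) * um ^ 2) ^ 2)) := by rw [e7]; ring
    _ = u2 ^ 2 * (x1 - xm) ^ 2 *
          (((xm - xmp) * (xmm - xm)) * (um ^ 4 * (umm * ump) ^ 2)) := by rw [h4]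
    _ = u2 ^ 2 * (x1 - xm) ^ 2 * (u2mp * u2mm) := by rw [e2, e3]; ring

theorem odd_core {x1 xm xmm xmp xmpp x2mp um umm ump umpp u2mp u2m u2mpp u2 Ym Ymp Y1 : K}
    (e1 : u2mpp * u2 = (xm - xmpp) * (um * umpp) ^ 2)
    (e2 : u2m * u2 = (xmm - xmp) * (umm * ump) ^ 2)
    (e3 : u2mp = (xm - xmp) * (um * ump) ^ 2)
    (e4 : (x1 - xmp) * ump ^ 2 = umpp * um)
    (e4' : (x1 - xm) * um ^ 2 = ump * umm)
    (D1 : (xmp - xmm) * (xm - x1) ^ 2 = -(Ym * Y1))
    (D2 : (xmpp - xm) * (xmp - x1) ^ 2 = -(Ymp * Y1))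
    (D3 : (x2mp - x1) * (xmp - xm) ^ 2 = -(Ymp * Ym))
    (e7 : u2 = Y1) (hu2 : u2 ≠ 0) :
    (x1 - x2mp) * u2mp ^ 2 = u2mpp * u2m := by
  have hne : u2 ^ 2 ≠ 0 := pow_ne_zero _ hu2
  apply mul_left_cancel₀ hne
  have h4 : um * umpp = (x1 - xmp) * ump ^ 2 := by rw [e4]; ring
  have h4' : umm * ump = (x1 - xm) * um ^ 2 := by rw [e4']; ring
  calc u2 ^ 2 * ((x1 - x2mp) * u2mp ^ 2)
      = u2 ^ 2 * (-((x2mp - x1) * (xmp - xm) ^ 2)) * (um * ump) ^ 4 := by rw [e3]; ring
    _ = Y1 ^ 2 * (Ymp * Ym) * (um * ump) ^ 4 := by rw [D3, e7]; ring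
    _ = (-((xmpp - xm) * (xmp - x1) ^ 2)) * (-((xmp - xmm) * (xm - x1) ^ 2)) *
          (um * ump) ^ 4 := by rw [D1, D2]; ring
    _ = ((xm - xmpp) * ((x1 - xmp) * ump ^ 2) ^ 2) * ((xmm - xmp) * ((x1 - xm) * um ^ 2) ^ 2) := by
        ring
    _ = (u2mpp * u2) * (u2m * u2) := by rw [e1, e2, h4, h4']
    _ = u2 ^ 2 * (u2mpp * u2m) := by ring

theorem main_induction {X Y u : ℤ → K} {N : ℤ} (D : Data X Y u N) :
    ∀ n : ℕ, ∀ k : ℤ, 1 ≤ k → k ≤ n → k ≤ N → R1 X u k ∧ u k ≠ 0 := by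
  intro n
  induction n with
  | zero => intro k h1 h2 _; omega
  | succ n ih =>
    intro k hk1 hkn hkN
    by_cases hle : k ≤ (n : ℤ)
    · exact ih k hk1 hle hkN
    have hk : k = (n : ℤ) + 1 := by push_cast at hkn; omega
    -- small cases
    rcases (by omega : k = 1 ∨ k = 2 ∨ k = 3 ∨ 4 ≤ k) with rfl | rfl | rfl | hk4
    · refine ⟨?_, by rw [D.u1]; exact one_ne_zero⟩
      refine R1.of (a := 2) (b := 0) (by norm_num) (by norm_num) ?_
      rw [D.u0]; ring
    · have hY := D.hY hkN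
      refine ⟨?_, by rw [D.u2]; exact hY⟩
      refine R1.of (a := 3) (b := 1) (by norm_num) (by norm_num) ?_
      rw [D.base2 hkN, D.u1, mul_one]
    · have h2N : (2 : ℤ) ≤ N := by omega
      have hu2 : u 2 ≠ 0 := by rw [D.u2]; exact D.hY h2N
      have hX2 : X 1 ≠ X 2 := D.hX 2 le_rfl (by omega)
      refine ⟨R1.of (a := 4) (b := 2) (by norm_num) (by norm_num) (D.base3 hkN), ?_⟩
      rw [← D.base2 h2N]
      exact mul_ne_zero (sub_ne_zero.2 hX2) (pow_ne_zero _ hu2)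
    -- general case `k ≥ 4`
    have h2N : (2 : ℤ) ≤ N := by omega
    have hu2 : u 2 ≠ 0 := by rw [D.u2]; exact D.hY h2N
    have IH : ∀ j : ℤ, 1 ≤ j → j < k → R1 X u j ∧ u j ≠ 0 := fun j h1 h2 =>
      ih j h1 (by omega) (by omega)
    -- nonvanishing
    have hnz : u k ≠ 0 := by
      obtain ⟨r, hu⟩ := IH (k - 1) (by omega) (by omega)
      have hX := D.hX (k - 1) (by omega) (by omega)
      have e := r.get (a := k) (b := k - 2) (by ring) (by ring)
      intro h0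
      rw [h0, zero_mul] at e
      exact mul_ne_zero (sub_ne_zero.2 hX) (pow_ne_zero _ hu) e
    refine ⟨?_, hnz⟩
    rcases Int.even_or_odd' k with ⟨m, rfl | rfl⟩
    · -- k = 2m
      have hm : 2 ≤ m := by omega
      obtain ⟨rmm, _⟩ := IH (m - 1) (by omega) (by omega)
      obtain ⟨rm, _⟩ := IH m (by omega) (by omega)
      obtain ⟨rmp, _⟩ := IH (m + 1) (by omega) (by omega)
      have e4 := rm.get (a := m + 1) (b := m - 1) rfl rfl
      -- Ev_m
      have e1 : u (2 * m) * u 2 = (X (m - 1) - X (m + 1)) * (u (m - 1) * u (m + 1)) ^ 2 := by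
        rw [D.even m (m - 1) (m + 2) (m - 2) (m + 1) (2 * m) rfl rfl rfl rfl rfl,
          diff_core (rmm.get (a := m) (b := m - 2) (by ring) (by ring))
            (rmp.get (a := m + 2) (b := m) (by ring) (by ring))]
        ring
      have e2 : u (2 * m + 1) = (X m - X (m + 1)) * (u m * u (m + 1)) ^ 2 := by
        rw [D.odd m (m + 2) (m - 1) (m + 1) (2 * m + 1) rfl rfl rfl rfl,
          diff_core e4 (rmp.get (a := m + 2) (b := m) (by ring) (by ring))]
        ring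
      have e3 : u (2 * m - 1) = (X (m - 1) - X m) * (u (m - 1) * u m) ^ 2 := by
        rw [D.odd (m - 1) (m + 1) (m - 2) m (2 * m - 1) (by ring) (by ring) (by ring) (by ring),
          diff_core (rmm.get (a := m) (b := m - 2) (by ring) (by ring)) e4]
        ring
      have e5 := D.hD m 1 (m + 1) (m - 1) one_pos (by omega) (by omega) rfl rfl
      have e6 := D.hE m (m + 1) (m - 1) (2 * m) hm hkN rfl rfl rfl
      have hX := D.hX m hm (by omega)
      exact R1.of rfl rfl (even_core e1 e2 e3 e4 e5 e6 D.u2 hu2 hX)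
    · -- k = 2m+1
      have hm : 2 ≤ m := by omega
      obtain ⟨rmm, _⟩ := IH (m - 1) (by omega) (by omega)
      obtain ⟨rm, _⟩ := IH m (by omega) (by omega)
      obtain ⟨rmp, _⟩ := IH (m + 1) (by omega) (by omega)
      obtain ⟨rmpp, _⟩ := IH (m + 2) (by omega) (by omega)
      have e4' := rm.get (a := m + 1) (b := m - 1) rfl rfl
      have e4 := rmp.get (a := m + 2) (b := m) (by ring) (by ring)
      have e1 : u (2 * m + 2) * u 2 = (X m - X (m + 2)) * (u m * u (m + 2)) ^ 2 := by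
        rw [D.even (m + 1) m (m + 3) (m - 1) (m + 2) (2 * m + 2) (by ring) (by ring) (by ring)
          (by ring) (by ring),
          diff_core e4' (rmpp.get (a := m + 3) (b := m + 1) (by ring) (by ring))]
        ring
      have e2 : u (2 * m) * u 2 = (X (m - 1) - X (m + 1)) * (u (m - 1) * u (m + 1)) ^ 2 := by
        rw [D.even m (m - 1) (m + 2) (m - 2) (m + 1) (2 * m) rfl rfl rfl rfl rfl,
          diff_core (rmm.get (a := m) (b := m - 2) (by ring) (by ring)) e4]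
        ring
      have e3 : u (2 * m + 1) = (X m - X (m + 1)) * (u m * u (m + 1)) ^ 2 := by
        rw [D.odd m (m + 2) (m - 1) (m + 1) (2 * m + 1) rfl rfl rfl rfl, diff_core e4' e4]
        ring
      have D1 := D.hD m 1 (m + 1) (m - 1) one_pos (by omega) (by omega) rfl rfl
      have D2 := D.hD (m + 1) 1 (m + 2) m one_pos (by omega) (by omega) (by ring) (by ring)
      have D3 := D.hD (m + 1) m (2 * m + 1) 1 (by omega) (by omega) (by omega) (by ring) (by ring)
      exact R1.of (a := 2 * m + 2) (b := 2 * m) (by ring) (by ring)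
        (odd_core e1 e2 e3 e4 e4' D1 D2 D3 D.u2 hu2)

/-- the conclusion of the abstract part: if `x_m = x_{m+1}` then `u_{2m+1} = 0`. -/
theorem u_eq_zero {X Y u : ℤ → K} {m : ℤ} (hm : 1 ≤ m) (D : Data X Y u (2 * m))
    (hx : X m = X (m + 1)) : u (2 * m + 1) = 0 := by
  obtain ⟨n, rfl⟩ := Int.eq_ofNat_of_zero_le (by omega : 0 ≤ m)
  have H := main_induction D (2 * n)
  obtain ⟨rm, _⟩ := H n hm (by push_cast; omega) (by omega)
  obtain ⟨rmp, _⟩ := H (n + 1) (by omega) (by push_cast; omega) (by omega)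
  rw [D.odd n (n + 2) (n - 1) (n + 1) (2 * n + 1) rfl rfl rfl rfl]
  have := diff_core (rm.get (a := (n : ℤ) + 1) (b := (n : ℤ) - 1) rfl rfl)
    (rmp.get (a := (n : ℤ) + 2) (b := (n : ℤ)) (by ring) (by ring))
  rw [hx, sub_self, zero_mul] at this
  linear_combination -this

end Abstract

/-! ## Part B: point-level formulas -/
section Points

variable {K : Type*} [Field K] [DecidableEq K] (W : Affine K)

open Fermat.Agent.S05 (Fpoly Phi2 Nnum Snum Yc)

/-- `x`-coordinate of a point (junk value `0` at the origin). -/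
def xP : W.Point → K
  | .zero => 0
  | .some x _ _ => x

/-- `2y + a₁x + a₃` of a point (junk value `0` at the origin). -/
def yV : W.Point → K
  | .zero => 0
  | .some x y _ => Yc W x y

@[simp] theorem xP_some {x y : K} (h : W.Nonsingular x y) : xP W (Point.some x y h) = x := rfl

@[simp] theorem yV_some {x y : K} (h : W.Nonsingular x y) :
    yV W (Point.some x y h) = Yc W x y := rfl

theorem xP_neg (A : W.Point) : xP W (-A) = xP W A := by
  rcases A with _ | ⟨x, y, h⟩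
  · rfl
  · rfl

theorem xP_ne_of {A B : W.Point} (hA : A ≠ 0) (hB : B ≠ 0) (hs : A + B ≠ 0) (hd : A - B ≠ 0) :
    xP W A ≠ xP W B := by
  rcases A with _ | ⟨x₁, y₁, h₁⟩
  · exact absurd rfl hA
  rcases B with _ | ⟨x₂, y₂, h₂⟩
  · exact absurd rfl hB
  intro hx
  simp only [xP_some] at hx
  rcases (Point.X_eq_iff (h₁ := h₁) (h₂ := h₂)).mp hx with h | h
  · exact hd (sub_eq_zero.2 h)
  · exact hs (by rw [h, neg_add_cancel])

theorem add_sub_formulas (h2 : (2 : K) ≠ 0) {A B : W.Point} (hA : A ≠ 0) (hB : B ≠ 0)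
    (hx : xP W A ≠ xP W B) :
    xP W (A + B) * xP W (A - B) * (xP W A - xP W B) ^ 2 = Nnum W (xP W A) (xP W B) ∧
    (xP W (A + B) + xP W (A - B)) * (xP W A - xP W B) ^ 2 = Snum W (xP W A) (xP W B) ∧
    (xP W (A + B) - xP W (A - B)) * (xP W A - xP W B) ^ 2 = -(yV W A * yV W B) := by
  rcases A with _ | ⟨x₁, y₁, h₁⟩
  · exact absurd rfl hA
  rcases B with _ | ⟨x₂, y₂, h₂⟩
  · exact absurd rfl hB
  simp only [xP_some] at hx
  have hneg : (Point.some x₁ y₁ h₁ : W.Point) - Point.some x₂ y₂ h₂ =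
      Point.some x₁ y₁ h₁ + Point.some x₂ (W.negY x₂ y₂) ((nonsingular_neg ..).mpr h₂) := by
    rw [sub_eq_add_neg, Point.neg_some]
  rw [hneg, Point.add_of_X_ne hx, Point.add_of_X_ne hx]
  simp only [xP_some, yV_some]
  obtain ⟨hN, hS⟩ := Fermat.Agent.S05.Pole.addX_formulas W h2 h₁.1 h₂.1 hx
  refine ⟨hN, hS, ?_⟩
  have hD : x₁ - x₂ ≠ 0 := sub_ne_zero.2 hx
  rw [slope_of_X_ne hx, slope_of_X_ne hx]
  simp only [addX, negY, Yc]
  field_simp
  ring

theorem dbl_formulas (h2 : (2 : K) ≠ 0) {A : W.Point} (hA : A ≠ 0) (hAA : A + A ≠ 0) :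
    yV W A ≠ 0 ∧ yV W A ^ 2 = Fpoly W (xP W A) ∧
      xP W (A + A) * Fpoly W (xP W A) = Phi2 W (xP W A) := by
  rcases A with _ | ⟨x, y, h⟩
  · exact absurd rfl hA
  have hy : y ≠ W.negY x y := fun hy => hAA (Point.add_self_of_Y_eq hy)
  rw [Point.add_self_of_Y_ne hy]
  simp only [xP_some, yV_some]
  refine ⟨?_, Fermat.Agent.S05.Pole.Yc_sq' W h.1, Fermat.Agent.S05.Pole.dblX_formula W h2 h.1 hy⟩
  have : Yc W x y = y - W.negY x y := by simp only [negY, Yc]; ring
  rw [this]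
  exact sub_ne_zero.2 hy

end Points

/-! ## Part C: division polynomials at a point -/
section Division

variable {K : Type*} [Field K] [DecidableEq K] (W : Affine K)

open Fermat.Agent.S05 (Fpoly Phi2 Nnum Snum Yc)

/-- value of the `k`-th division polynomial at `(x, y)`. -/
noncomputable def uv (x y : K) (k : ℤ) : K := (W.ψ k).evalEval x y

theorem uv_zero (x y : K) : uv W x y 0 = 0 := by simp [uv]

theorem uv_one (x y : K) : uv W x y 1 = 1 := by simp [uv]

theorem uv_two (x y : K) : uv W x y 2 = Yc W x y := by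
  simp only [uv, ψ_two, ψ₂, Yc]
  exact W.evalEval_polynomialY x y

theorem uv_three (x y : K) : uv W x y 3 =
    3 * x ^ 4 + W.b₂ * x ^ 3 + 3 * W.b₄ * x ^ 2 + 3 * W.b₆ * x + W.b₈ := by
  simp only [uv, ψ_three, evalEval_C]
  simp [Ψ₃]

theorem uv_four (x y : K) : uv W x y 4 =
    (2 * x ^ 6 + W.b₂ * x ^ 5 + 5 * W.b₄ * x ^ 4 + 10 * W.b₆ * x ^ 3 + 10 * W.b₈ * x ^ 2 +
      (W.b₂ * W.b₈ - W.b₄ * W.b₆) * x + (W.b₄ * W.b₈ - W.b₆ ^ 2)) * Yc W x y := by
  have h2 := uv_two W x y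
  simp only [uv, ψ_two] at h2
  simp only [uv, ψ_four, evalEval_mul, h2, evalEval_C]
  simp [preΨ₄]

theorem uv_odd (x y : K) (m : ℤ) : uv W x y (2 * m + 1) =
    uv W x y (m + 2) * uv W x y m ^ 3 - uv W x y (m - 1) * uv W x y (m + 1) ^ 3 := by
  simp only [uv, ψ_odd, evalEval_sub, evalEval_mul, evalEval_pow]

theorem uv_even (x y : K) (m : ℤ) : uv W x y (2 * m) * uv W x y 2 =
    uv W x y (m - 1) ^ 2 * uv W x y m * uv W x y (m + 2) -
      uv W x y (m - 2) * uv W x y m * uv W x y (m + 1) ^ 2 := by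
  have := congrArg (fun f => f.evalEval x y) (W.ψ_even m)
  simpa only [uv, ψ_two, evalEval_sub, evalEval_mul, evalEval_pow] using this

/-- base case `k = 2`: `(x - x(2P)) ψ₂² = ψ₃`. -/
theorem base2_pt (h2 : (2 : K) ≠ 0) {x y : K} (h : W.Nonsingular x y)
    (hPP : Point.some x y h + Point.some x y h ≠ 0) :
    (x - xP W (Point.some x y h + Point.some x y h)) * uv W x y 2 ^ 2 = uv W x y 3 := by
  obtain ⟨_, hF, hdbl⟩ := dbl_formulas W h2 (Point.some_ne_zero h) hPP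
  simp only [xP_some, yV_some] at hF hdbl
  rw [uv_two, uv_three, hF]
  simp only [Fpoly, Phi2] at hdbl ⊢
  linear_combination -hdbl

/-- base case `k = 3`: `(x - x(3P)) ψ₃² = ψ₄ ψ₂`. -/
theorem base3_pt (h2 : (2 : K) ≠ 0) {x y : K} (h : W.Nonsingular x y)
    (hPP : Point.some x y h + Point.some x y h ≠ 0)
    (hPPP : Point.some x y h + Point.some x y h + Point.some x y h ≠ 0) :
    (x - xP W (Point.some x y h + Point.some x y h + Point.some x y h)) * uv W x y 3 ^ 2 =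
      uv W x y 4 * uv W x y 2 := by
  obtain ⟨P, hP⟩ : ∃ P : W.Point, P = Point.some x y h := ⟨_, rfl⟩
  rw [← hP] at hPP hPPP ⊢
  have hxP : xP W P = x := by rw [hP]; rfl
  have hyV : yV W P = Yc W x y := by rw [hP]; rfl
  have hP0 : P ≠ 0 := by rw [hP]; exact Point.some_ne_zero h
  obtain ⟨_, hF, hdbl⟩ := dbl_formulas W h2 hP0 hPP
  have hd : P + P - P ≠ 0 := by rw [add_sub_cancel_right]; exact hP0
  have hne := xP_ne_of W hPP hP0 hPPP hd
  obtain ⟨_, hS, _⟩ := add_sub_formulas W h2 hPP hP0 hne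
  rw [add_sub_cancel_right] at hS
  rw [hxP] at hdbl hS
  rw [hxP, hyV] at hF
  set T := xP W (P + P) with hT
  set X3 := xP W (P + P + P) with hX3
  rw [uv_two, uv_three, uv_four]
  have hΨ : 3 * x ^ 4 + W.b₂ * x ^ 3 + 3 * W.b₄ * x ^ 2 + 3 * W.b₆ * x + W.b₈ =
      (x - T) * Fpoly W x := by
    simp only [Fpoly, Phi2] at hdbl ⊢
    linear_combination hdbl
  have step2 : (x - X3) * (x - T) ^ 2 = 2 * x * (T - x) ^ 2 - Snum W T x := by
    linear_combination -hS
  rw [hΨ, mul_assoc, ← pow_two, hF]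
  calc (x - X3) * ((x - T) * Fpoly W x) ^ 2
      = ((x - X3) * (x - T) ^ 2) * Fpoly W x ^ 2 := by ring
    _ = (2 * x * (T - x) ^ 2 - Snum W T x) * Fpoly W x ^ 2 := by rw [step2]
    _ = 2 * x * (T * Fpoly W x - x * Fpoly W x) ^ 2 -
          (2 * (T * Fpoly W x) * x * (T * Fpoly W x + x * Fpoly W x) +
            W.b₂ * (T * Fpoly W x) * (x * Fpoly W x) +
            W.b₄ * (T * Fpoly W x + x * Fpoly W x) * Fpoly W x + W.b₆ * Fpoly W x ^ 2) := by
        simp only [Snum]; ring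
    _ = 2 * x * (Phi2 W x - x * Fpoly W x) ^ 2 -
          (2 * (Phi2 W x) * x * (Phi2 W x + x * Fpoly W x) +
            W.b₂ * (Phi2 W x) * (x * Fpoly W x) +
            W.b₄ * (Phi2 W x + x * Fpoly W x) * Fpoly W x + W.b₆ * Fpoly W x ^ 2) := by
        rw [hdbl]
    _ = _ := by
        simp only [Fpoly, Phi2, WeierstrassCurve.b₂, WeierstrassCurve.b₄, WeierstrassCurve.b₆,
          WeierstrassCurve.b₈]
        ring

/-- the abstract data attached to a point all of whose multiples `j • P`, `0 < j ≤ N`, are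
nonzero. -/
theorem data_of (h2 : (2 : K) ≠ 0) {x y : K} (h : W.Nonsingular x y) (N : ℤ)
    (hN : ∀ j : ℤ, 0 < j → j ≤ N → j • (Point.some x y h : W.Point) ≠ 0) :
    Data (fun k : ℤ => xP W (k • (Point.some x y h : W.Point)))
      (fun k : ℤ => yV W (k • (Point.some x y h : W.Point))) (uv W x y) N := by
  obtain ⟨P, hP⟩ : ∃ P : W.Point, P = Point.some x y h := ⟨_, rfl⟩
  rw [← hP] at hN ⊢
  have hxP : xP W P = x := by rw [hP]; rfl
  have hyV : yV W P = Yc W x y := by rw [hP]; rfl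
  have hP0 : P ≠ 0 := by rw [hP]; exact Point.some_ne_zero h
  have h22 : (2 : ℤ) • P = P + P := two_zsmul P
  have h33 : (3 : ℤ) • P = P + P + P := by
    rw [show (3 : ℤ) = 2 + 1 by norm_num, add_zsmul, two_zsmul, one_zsmul]
  refine
    { u0 := uv_zero W x y
      u1 := uv_one W x y
      u2 := ?_
      odd := ?_
      even := ?_
      hD := ?_
      hE := ?_
      hX := ?_
      hY := ?_
      base2 := ?_
      base3 := ?_ }
  · show uv W x y 2 = yV W ((1 : ℤ) • P)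
    rw [one_zsmul, hyV, uv_two]
  · intro m a b c n ha hb hc hn
    subst ha hb hc hn
    exact uv_odd W x y m
  · intro m a b c d n ha hb hc hd hn
    subst ha hb hc hd hn
    exact uv_even W x y m
  · intro a b s d hb hab habN hs hd
    subst hs hd
    show (xP W ((a + b) • P) - xP W ((a - b) • P)) * (xP W (a • P) - xP W (b • P)) ^ 2 =
      -(yV W (a • P) * yV W (b • P))
    have hA := hN a (by omega) (by omega)
    have hB := hN b hb (by omega)
    have hs : a • P + b • P ≠ 0 := by rw [← add_smul]; exact hN _ (by omega) habN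
    have hd : a • P - b • P ≠ 0 := by rw [← sub_smul]; exact hN _ (by omega) (by omega)
    have := (add_sub_formulas W h2 hA hB (xP_ne_of W hA hB hs hd)).2.2
    rwa [← add_smul, ← sub_smul] at this
  · intro a ap am aa ha h2a e1 e2 e3
    subst e1 e2 e3
    show (xP W (a • P) - xP W ((a + 1) • P)) * (xP W ((a - 1) • P) - xP W (a • P)) *
      (xP W (a • P) - xP W ((1 : ℤ) • P)) ^ 2 =
        yV W (a • P) ^ 2 * (xP W ((1 : ℤ) • P) - xP W ((2 * a) • P))
    have hA := hN a (by omega) (by omega)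
    have hB : (1 : ℤ) • P ≠ 0 := hN 1 one_pos (by omega)
    have hs : a • P + (1 : ℤ) • P ≠ 0 := by rw [← add_smul]; exact hN _ (by omega) (by omega)
    have hd : a • P - (1 : ℤ) • P ≠ 0 := by rw [← sub_smul]; exact hN _ (by omega) (by omega)
    have hAA : a • P + a • P ≠ 0 := by
      rw [← add_smul, ← two_mul]; exact hN _ (by omega) h2a
    obtain ⟨hNn, hS, _⟩ := add_sub_formulas W h2 hA hB (xP_ne_of W hA hB hs hd)
    obtain ⟨_, hF, hdbl⟩ := dbl_formulas W h2 hA hAA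
    rw [← add_smul, ← sub_smul] at hNn hS
    rw [← add_smul, ← two_mul] at hdbl
    simp only [Nnum, Snum, Fpoly, Phi2] at hNn hS hF hdbl
    linear_combination (xP W (a • P)) * hS - hNn -
      (xP W ((1 : ℤ) • P) - xP W ((2 * a) • P)) * hF + hdbl
  · intro a ha haN
    show xP W ((1 : ℤ) • P) ≠ xP W (a • P)
    have hA := hN a (by omega) (by omega)
    have hB : (1 : ℤ) • P ≠ 0 := hN 1 one_pos (by omega)
    have hs : a • P + (1 : ℤ) • P ≠ 0 := by rw [← add_smul]; exact hN _ (by omega) haN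
    have hd : a • P - (1 : ℤ) • P ≠ 0 := by rw [← sub_smul]; exact hN _ (by omega) (by omega)
    exact (xP_ne_of W hA hB hs hd).symm
  · intro h2N
    show yV W ((1 : ℤ) • P) ≠ 0
    rw [one_zsmul]
    have hPP : P + P ≠ 0 := by rw [← h22]; exact hN 2 (by norm_num) h2N
    exact (dbl_formulas W h2 hP0 hPP).1
  · intro h2N
    show (xP W ((1 : ℤ) • P) - xP W ((2 : ℤ) • P)) * uv W x y 2 ^ 2 = uv W x y 3
    have hPP : P + P ≠ 0 := by rw [← h22]; exact hN 2 (by norm_num) h2N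
    rw [one_zsmul, h22, hxP]
    rw [hP] at hPP ⊢
    exact base2_pt W h2 h hPP
  · intro h3N
    show (xP W ((1 : ℤ) • P) - xP W ((3 : ℤ) • P)) * uv W x y 3 ^ 2 = uv W x y 4 * uv W x y 2
    have hPP : P + P ≠ 0 := by rw [← h22]; exact hN 2 (by norm_num) (by omega)
    have hPPP : P + P + P ≠ 0 := by rw [← h33]; exact hN 3 (by norm_num) h3N
    rw [one_zsmul, h33, hxP]
    rw [hP] at hPP hPPP ⊢
    exact base3_pt W h2 h hPP hPPP

/-- **Weak multiplication formula, final form.**  If `P = (x, y)` has exact order `2m+1`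
(`m ≥ 1`), then `ψ_{2m+1}(x, y) = 0`. -/
theorem uv_eq_zero_of_order (h2 : (2 : K) ≠ 0) {x y : K} (h : W.Nonsingular x y) {m : ℤ}
    (hm : 1 ≤ m)
    (hN : ∀ j : ℤ, 0 < j → j ≤ 2 * m → j • (Point.some x y h : W.Point) ≠ 0)
    (hP : (2 * m + 1) • (Point.some x y h : W.Point) = 0) :
    uv W x y (2 * m + 1) = 0 := by
  refine u_eq_zero hm (data_of W h2 h (2 * m) hN) ?_
  show xP W (m • (Point.some x y h : W.Point)) = xP W ((m + 1) • (Point.some x y h : W.Point))
  have : m • (Point.some x y h : W.Point) = -((m + 1) • (Point.some x y h : W.Point)) := by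
    rw [eq_neg_iff_add_eq_zero, ← add_smul, ← hP]
    congr 1; ring
  rw [this, xP_neg]

/-- at a point of the curve `ψ_n` and `Ψ_n` take the same value. -/
theorem uv_eq_evalEval_Ψ {x y : K} (h : W.Equation x y) (n : ℤ) :
    uv W x y n = (W.Ψ n).evalEval x y := by
  have hmk := Affine.CoordinateRing.mk_ψ W n
  rw [Affine.CoordinateRing.mk, AdjoinRoot.mk_eq_mk] at hmk
  obtain ⟨c, hc⟩ := hmk
  have h0 : W.polynomial.evalEval x y = 0 := h
  have := congrArg (fun f => f.evalEval x y) hc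
  simp only [evalEval_sub, evalEval_mul, h0, zero_mul] at this
  exact sub_eq_zero.1 this

/-- for odd `n` the value of `ψ_n` at a point of the curve is `preΨ_n(x)`. -/
theorem uv_eq_eval_preΨ {x y : K} (h : W.Equation x y) {n : ℤ} (hn : ¬ Even n) :
    uv W x y n = (W.preΨ n).eval x := by
  rw [uv_eq_evalEval_Ψ W h, WeierstrassCurve.Ψ, if_neg hn, mul_one, evalEval_C]

/-- **The easy half of the torsion criterion**: a nonzero point killed by the odd prime `p` has
its `x`-coordinate among the roots of Mathlib's `preΨ p`. -/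
theorem preΨ_eval_eq_zero (h2 : (2 : K) ≠ 0) {p : ℕ} (hp : p.Prime) (hp2 : p ≠ 2) {x y : K}
    (h : W.Nonsingular x y) (hP : (p : ℤ) • (Point.some x y h : W.Point) = 0) :
    (W.preΨ p).eval x = 0 := by
  have hodd : Odd p := hp.odd_of_ne_two hp2
  obtain ⟨m, hm⟩ := hodd
  have hm1 : 1 ≤ m := by
    rcases Nat.eq_zero_or_pos m with rfl | h0
    · exact absurd (by simpa using hm) hp.one_lt.ne'
    · exact h0
  have hpm : (p : ℤ) = 2 * (m : ℤ) + 1 := by exact_mod_cast hm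
  have hN : ∀ j : ℤ, 0 < j → j ≤ 2 * (m : ℤ) → j • (Point.some x y h : W.Point) ≠ 0 := by
    intro j hj0 hj hjP
    obtain ⟨n, rfl⟩ := Int.eq_ofNat_of_zero_le hj0.le
    have hn0 : 0 < n := by exact_mod_cast hj0
    have hnp : n < p := by
      have : (n : ℤ) < p := by omega
      exact_mod_cast this
    have hcop : Nat.Coprime p n := (Nat.Prime.coprime_iff_not_dvd hp).2
      (Nat.not_dvd_of_pos_of_lt hn0 hnp)
    have hco : IsCoprime (p : ℤ) (n : ℤ) := Nat.isCoprime_iff_coprime.2 hcop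
    obtain ⟨a, b, hab⟩ := hco
    have : (Point.some x y h : W.Point) = 0 := by
      calc (Point.some x y h : W.Point) = (1 : ℤ) • Point.some x y h := (one_smul _ _).symm
        _ = (a * p + b * n) • Point.some x y h := by rw [hab]
        _ = a • ((p : ℤ) • Point.some x y h) + b • ((n : ℤ) • Point.some x y h) := by
            rw [add_smul, mul_smul, mul_smul]
        _ = 0 := by rw [hP, hjP, smul_zero, smul_zero, add_zero]
    exact Point.some_ne_zero h this
  have hu := uv_eq_zero_of_order W h2 h (m := (m : ℤ)) (by exact_mod_cast hm1) hN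
    (by rw [← hpm]; exact hP)
  rw [← hpm] at hu
  rwa [uv_eq_eval_preΨ W h.1] at hu
  rw [Int.not_even_iff_odd]
  exact ⟨m, hpm⟩

end Division

end Fermat.Agent.S13.DivWeak58
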