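/-
S13 package L2-frey2 (helper98): the constants of the Frey curve at the prime `2`
(node of the reduction at `x ≡ 0`: `r = 0`, `β₂ = b₂ = B - A` odd, `α₄ = a₄ = -AB/16`,
`h = ord α₄ = p·v₂(b) - 4 > 0`, `p ∤ h`), integrality of the Frey curve at EVERY valuation
subring of `ℚ̄` (its coefficients are integers), `Δ ≠ 0`, and the arithmetic lemma
"an integral `w ∈ [0,h]` with `p·w ∈ 2hℤ` is `0`" used by L2b.  No `sorry`.
-/
import Fermat.Agent.S13.Interface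
import Fermat.Agent.S05.Frey

set_option autoImplicit false

namespace Fermat.Agent.S13.L2Frey2

open WeierstrassCurve WeierstrassCurve.Affine
open Fermat.Agent.S05

/-! ### integer arithmetic of a Frey package -/

section integers

variable (P : FreyPackage)

lemma two_dvd_b : (2 : ℤ) ∣ P.b := (ZMod.intCast_zmod_eq_zero_iff_dvd P.b 2).1 P.hb2

lemma a_modEq : P.a ≡ -1 [ZMOD 4] := by
  have h : ((P.a : ℤ) : ZMod 4) = ((3 : ℤ) : ZMod 4) := by
    rw [P.ha4]; rfl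
  have h' := (ZMod.intCast_eq_intCast_iff_dvd_sub _ _ _).1 h
  -- `4 ∣ 3 - a`
  have h4 : ((4 : ℕ) : ℤ) ∣ 3 - P.a := h'
  rw [Int.modEq_iff_dvd]
  have : (-1 : ℤ) - P.a = (3 - P.a) - 4 := by ring
  rw [this]
  exact dvd_sub h4 (by norm_num)

lemma not_two_dvd_a : ¬ (2 : ℤ) ∣ P.a := by
  intro h
  have h1 := a_modEq P
  rw [Int.modEq_iff_dvd] at h1
  have h2 : (2 : ℤ) ∣ -1 - P.a := dvd_trans (by norm_num) h1
  have h3 : (2 : ℤ) ∣ -1 - P.a + P.a := dvd_add h2 h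
  rw [sub_add_cancel] at h3
  norm_num at h3

lemma four_dvd_apow_add_one : (4 : ℤ) ∣ P.a ^ P.p + 1 := by
  have h := (a_modEq P).pow P.p
  rw [P.hp_odd.neg_one_pow] at h
  have := h.symm.dvd
  simpa [sub_neg_eq_add] using this

lemma two_pow_dvd_bpow : (2 : ℤ) ^ P.p ∣ P.b ^ P.p := pow_dvd_pow_of_dvd (two_dvd_b P) _

lemma thirtytwo_dvd_bpow : (32 : ℤ) ∣ P.b ^ P.p := by
  have h : (2 : ℤ) ^ 5 ∣ (2 : ℤ) ^ P.p := pow_dvd_pow 2 P.hp5
  exact dvd_trans (by norm_num at h ⊢; exact h) (two_pow_dvd_bpow P)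

lemma four_dvd_a₂num : (4 : ℤ) ∣ P.b ^ P.p - 1 - P.a ^ P.p := by
  have h1 : (4 : ℤ) ∣ P.b ^ P.p := dvd_trans (by norm_num) (thirtytwo_dvd_bpow P)
  have h2 := four_dvd_apow_add_one P
  have : P.b ^ P.p - 1 - P.a ^ P.p = P.b ^ P.p - (P.a ^ P.p + 1) := by ring
  rw [this]; exact dvd_sub h1 h2

lemma sixteen_dvd_a₄num : (16 : ℤ) ∣ -(P.a ^ P.p) * P.b ^ P.p := by
  have h1 : (16 : ℤ) ∣ P.b ^ P.p := dvd_trans (by norm_num) (thirtytwo_dvd_bpow P)
  exact dvd_mul_of_dvd_right h1 _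

lemma not_two_dvd_apow : ¬ (2 : ℤ) ∣ P.a ^ P.p := fun h =>
  not_two_dvd_a P (Int.prime_two.dvd_of_dvd_pow h)

lemma not_two_dvd_bpow_sub_apow : ¬ (2 : ℤ) ∣ P.b ^ P.p - P.a ^ P.p := by
  intro h
  have h1 : (2 : ℤ) ∣ P.b ^ P.p := dvd_trans (by norm_num) (thirtytwo_dvd_bpow P)
  have := dvd_sub h1 h
  rw [sub_sub_cancel] at this
  exact not_two_dvd_apow P this

lemma not_two_dvd_c : ¬ (2 : ℤ) ∣ P.c := by
  intro h
  have h1 : (2 : ℤ) ∣ P.c ^ P.p := dvd_pow h P.hp0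
  rw [← P.hFLT] at h1
  have h2 : (2 : ℤ) ∣ P.b ^ P.p := dvd_trans (by norm_num) (thirtytwo_dvd_bpow P)
  have := dvd_sub h1 h2
  rw [add_sub_cancel_right] at this
  exact not_two_dvd_apow P this

/-- the integral model has the same coefficients. -/
lemma frey_a₂_eq_int : P.freyCurve.a₂ = ((P.freyCurveInt.a₂ : ℤ) : ℚ) := by
  obtain ⟨k, hk⟩ := four_dvd_a₂num P
  have hk' : ((P.b : ℚ) ^ P.p - 1 - (P.a : ℚ) ^ P.p) = 4 * (k : ℚ) := by exact_mod_cast hk
  simp only [FreyPackage.freyCurve, FreyPackage.freyCurveInt]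
  rw [hk, Int.mul_ediv_cancel_left _ (by norm_num : (4 : ℤ) ≠ 0), hk']
  field_simp

lemma frey_a₄_eq_int : P.freyCurve.a₄ = ((P.freyCurveInt.a₄ : ℤ) : ℚ) := by
  obtain ⟨k, hk⟩ := sixteen_dvd_a₄num P
  have hk' : (-((P.a : ℚ) ^ P.p) * (P.b : ℚ) ^ P.p) = 16 * (k : ℚ) := by exact_mod_cast hk
  simp only [FreyPackage.freyCurve, FreyPackage.freyCurveInt]
  rw [hk, Int.mul_ediv_cancel_left _ (by norm_num : (16 : ℤ) ≠ 0), hk']
  field_simp

end integers

/-! ### integrality at every valuation subring and `Δ ≠ 0` -/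

section integral

variable (P : FreyPackage)

lemma zcast_mem (A : ValuationSubring Qb) (z : ℤ) : ((z : ℤ) : Qb) ∈ A := _root_.intCast_mem A z

/-- the Frey curve has coefficients in every valuation subring of `ℚ̄` (they are integers). -/
theorem frey_isIntegralW (A : ValuationSubring Qb) : IsIntegralW (P.freyCurve⁄Qb) A := by
  refine ⟨?_, ?_, ?_, ?_, ?_⟩
  · simp [FreyPackage.freyCurve]
  · have e : (P.freyCurve⁄Qb).a₂ = ((P.freyCurveInt.a₂ : ℤ) : Qb) := by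
      rw [Affine.baseChange_a₂, frey_a₂_eq_int]; simp
    rw [e]; exact zcast_mem A _
  · simp [FreyPackage.freyCurve]
  · have e : (P.freyCurve⁄Qb).a₄ = ((P.freyCurveInt.a₄ : ℤ) : Qb) := by
      rw [Affine.baseChange_a₄, frey_a₄_eq_int]; simp
    rw [e]; exact zcast_mem A _
  · simp [FreyPackage.freyCurve]

theorem frey_Δ_ne_zero : (P.freyCurve⁄Qb).Δ ≠ 0 := by
  rw [J_bc_Δ]
  simp only [ne_eq, map_eq_zero, frA, frB, frC]
  have := P.ha0; have := P.hb0; have := P.hc0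
  positivity

/-- `FreyIntegralStmt` of the S13 interface. -/
theorem freyIntegral : FreyIntegralStmt := fun P =>
  ⟨frey_Δ_ne_zero P, fun A => frey_isIntegralW P A⟩

end integral

/-! ### the numbers `v₂(b)` and `h = p·v₂(b) - 4` -/

section hNat

variable (P : FreyPackage)

/-- `v₂(b)`. -/
noncomputable def v2b : ℕ := padicValInt 2 P.b

lemma v2b_pos : 0 < v2b P := by
  have h := (padicValInt_dvd_iff (p := 2) 1 P.b).1 (by simpa using two_dvd_b P)
  rcases h with h | h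
  · exact absurd h P.hb0
  · exact h

/-- `h = p·v₂(b) - 4 = ord₂ a₄ = ord₂ α₄`. -/
noncomputable def hNat : ℕ := P.p * v2b P - 4

lemma five_le_mul : 5 ≤ P.p * v2b P :=
  le_trans P.hp5 (Nat.le_mul_of_pos_right _ (v2b_pos P))

lemma hNat_add_four : hNat P + 4 = P.p * v2b P := by
  have := five_le_mul P
  unfold hNat; omega

lemma hNat_pos : 0 < hNat P := by
  have := five_le_mul P
  unfold hNat; omega

lemma not_p_dvd_hNat : ¬ P.p ∣ hNat P := by
  intro h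
  have h1 : P.p ∣ hNat P + 4 := by rw [hNat_add_four]; exact dvd_mul_right _ _
  have h2 : P.p ∣ 4 := (Nat.dvd_add_right h).1 h1
  have := Nat.le_of_dvd (by norm_num) h2
  have := P.hp5
  omega

lemma coprime_p_hNat : Nat.Coprime P.p (hNat P) :=
  (Nat.Prime.coprime_iff_not_dvd P.pp).2 (not_p_dvd_hNat P)

lemma hNat_cast : ((hNat P : ℕ) : ℚ) = (P.p : ℚ) * (v2b P : ℚ) - 4 := by
  have := hNat_add_four P
  have h : ((hNat P + 4 : ℕ) : ℚ) = ((P.p * v2b P : ℕ) : ℚ) := by rw [this]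
  push_cast at h
  linarith

end hNat

/-- ARITHMETIC LEMMA for L2b: an integer `s ∈ [0,h]` with `p·s ∈ 2hℤ`, `p` an odd prime not
dividing `h`, is `0`. -/
theorem eq_zero_of_int_of_torsion {p h : ℕ} (hp : p.Prime) (hp2 : p ≠ 2) (hh : 0 < h)
    (hph : ¬ p ∣ h) {s : ℚ} (hs : ∃ n : ℤ, s = n) (h0 : 0 ≤ s) (hle : s ≤ h)
    (hj : ∃ j : ℤ, (p : ℚ) * s = 2 * h * j) : s = 0 := by
  obtain ⟨n, rfl⟩ := hs
  obtain ⟨j, hj⟩ := hj
  have hj' : (p : ℤ) * n = 2 * h * j := by exact_mod_cast hj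
  have hn0 : 0 ≤ n := by exact_mod_cast h0
  have hnh : n ≤ h := by exact_mod_cast hle
  have hpp : Prime (p : ℤ) := Nat.prime_iff_prime_int.1 hp
  have hdvd : (p : ℤ) ∣ 2 * h * j := ⟨n, hj'.symm⟩
  have hpj : (p : ℤ) ∣ j := by
    rcases hpp.dvd_mul.1 hdvd with h1 | h1
    · rcases hpp.dvd_mul.1 h1 with h2 | h2
      · exfalso
        have h3 : p ∣ 2 := by exact_mod_cast h2
        exact hp2 ((Nat.prime_dvd_prime_iff_eq hp Nat.prime_two).1 h3)
      · exfalso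
        exact hph (by exact_mod_cast h2)
    · exact h1
  obtain ⟨j', rfl⟩ := hpj
  have hp0 : (p : ℤ) ≠ 0 := by exact_mod_cast hp.ne_zero
  have hn : n = 2 * h * j' := by
    have : (p : ℤ) * n = p * (2 * h * j') := by rw [hj']; ring
    exact mul_left_cancel₀ hp0 this
  have hh' : (0 : ℤ) < h := by exact_mod_cast hh
  have hj0 : j' = 0 := by
    rcases lt_trichotomy j' 0 with hneg | hz | hpos
    · exfalso
      have : 2 * (h : ℤ) * j' < 0 := mul_neg_of_pos_of_neg (by linarith) hneg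
      linarith
    · exact hz
    · exfalso
      have h1 : 1 ≤ j' := hpos
      have : 2 * (h : ℤ) * 1 ≤ 2 * h * j' := mul_le_mul_of_nonneg_left h1 (by linarith)
      linarith
  rw [hn, hj0]; simp

/-! ### the prime `2` -/

section atTwo

variable (P : FreyPackage) {A : ValuationSubring Qb} {ord : Qb → ℚ} (hord : IsOrd A ord)
  (hQ : ∀ x : ℚ, x ≠ 0 → ord (algebraMap ℚ Qb x) = padicValRat 2 x)

lemma two_ne_zero_Qb : (2 : Qb) ≠ 0 := two_ne_zero

lemma two_mem (A : ValuationSubring Qb) : (2 : Qb) ∈ A := by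
  have h := zcast_mem A 2
  have e : ((2 : ℤ) : Qb) = 2 := by norm_cast
  rwa [e] at h

lemma two_mem_nonunits {A : ValuationSubring Qb} (hA : A.LiesOverPrime 2) :
    (2 : Qb) ∈ A.nonunits := by
  have : ((2 : ℕ) : Qb) ∈ A.nonunits := hA
  simpa using this

include hQ in
lemma ord_two : ord (2 : Qb) = 1 := by
  have h := hQ 2 (by norm_num)
  have e : algebraMap ℚ Qb 2 = 2 := by simp
  rw [e] at h
  rw [h]
  have : padicValRat 2 (2 : ℚ) = 1 := by
    have := padicValRat.self (p := 2) (by norm_num)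
    simpa using this
  rw [this]; simp

include hQ in
/-- `ord` of a nonzero rational is an integer. -/
lemma ord_rat_int (x : ℚ) (hx : x ≠ 0) : ∃ n : ℤ, ord (algebraMap ℚ Qb x) = n :=
  ⟨padicValRat 2 x, hQ x hx⟩

/-! coefficient facts -/

lemma bc_a₁ : (P.freyCurve⁄Qb).a₁ = 1 := by simp [FreyPackage.freyCurve]
lemma bc_a₃ : (P.freyCurve⁄Qb).a₃ = 0 := by simp [FreyPackage.freyCurve]
lemma bc_a₆ : (P.freyCurve⁄Qb).a₆ = 0 := by simp [FreyPackage.freyCurve]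

lemma bc_a₄ : (P.freyCurve⁄Qb).a₄ = algebraMap ℚ Qb (-(frA P * frB P) / 16) := by
  rw [Affine.baseChange_a₄]
  congr 1
  simp only [FreyPackage.freyCurve, frA, frB]
  ring

lemma bc_a₂ : (P.freyCurve⁄Qb).a₂ = algebraMap ℚ Qb ((frB P - 1 - frA P) / 4) := by
  rw [Affine.baseChange_a₂]
  congr 1

lemma Yc_eq (x y : Qb) : Yc (P.freyCurve⁄Qb) x y = 2 * y + x := by
  rw [Yc, bc_a₁, bc_a₃]; ring

/-- `0` is a root of `F`: the node of the reduction at `2` is at `x ≡ 0`. -/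
lemma Fpoly_zero : Fpoly (P.freyCurve⁄Qb) 0 = 0 := by
  simp [Fpoly, J_bc_b₆]

lemma beta2_zero : beta2 (P.freyCurve⁄Qb) 0 = algebraMap ℚ Qb (frB P - frA P) := by
  rw [beta2, J_bc_b₂, mul_zero, add_zero]

lemma alpha4_zero : alpha4 (P.freyCurve⁄Qb) 0 = algebraMap ℚ Qb (-(frA P * frB P) / 16) := by
  rw [alpha4, J_bc_b₄]
  have : ((2 : Qb)) = algebraMap ℚ Qb 2 := by simp
  rw [this, zero_mul, add_zero, zero_pow (by norm_num), mul_zero, add_zero, ← map_div₀]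
  congr 1
  ring

lemma alpha4_zero_eq_a₄ : alpha4 (P.freyCurve⁄Qb) 0 = (P.freyCurve⁄Qb).a₄ := by
  rw [alpha4_zero, bc_a₄]

lemma alpha4_ne_zero : alpha4 (P.freyCurve⁄Qb) 0 ≠ 0 := by
  rw [alpha4_zero]
  simp only [ne_eq, map_eq_zero, frA, frB]
  have := P.ha0; have := P.hb0
  have h1 : ((P.a : ℚ)) ^ P.p ≠ 0 := pow_ne_zero _ (by exact_mod_cast P.ha0)
  have h2 : ((P.b : ℚ)) ^ P.p ≠ 0 := pow_ne_zero _ (by exact_mod_cast P.hb0)
  simp [h1, h2]

/-! 2-adic valuations -/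

lemma padicValRat_frA : padicValRat 2 (frA P) = 0 := by
  have h : padicValInt 2 (P.a ^ P.p) = 0 :=
    padicValInt.eq_zero_of_not_dvd (by exact_mod_cast not_two_dvd_apow P)
  have e : frA P = ((P.a ^ P.p : ℤ) : ℚ) := by simp [frA]
  rw [e, padicValRat.of_int, h]; simp

lemma padicValRat_frB : padicValRat 2 (frB P) = (P.p : ℤ) * (v2b P : ℤ) := by
  rw [frB, padicValRat.pow, padicValRat.of_int, v2b]

lemma padicValRat_sub : padicValRat 2 (frB P - frA P) = 0 := by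
  have h : padicValInt 2 (P.b ^ P.p - P.a ^ P.p) = 0 :=
    padicValInt.eq_zero_of_not_dvd (by exact_mod_cast not_two_dvd_bpow_sub_apow P)
  have e : frB P - frA P = ((P.b ^ P.p - P.a ^ P.p : ℤ) : ℚ) := by simp [frA, frB]
  rw [e, padicValRat.of_int, h]; simp

lemma frA_ne_zero : frA P ≠ 0 := pow_ne_zero _ (by exact_mod_cast P.ha0)
lemma frB_ne_zero : frB P ≠ 0 := pow_ne_zero _ (by exact_mod_cast P.hb0)
lemma frC_ne_zero : frC P ≠ 0 := pow_ne_zero _ (by exact_mod_cast P.hc0)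

lemma frB_sub_frA_ne_zero : frB P - frA P ≠ 0 := by
  intro h
  have e : frB P - frA P = ((P.b ^ P.p - P.a ^ P.p : ℤ) : ℚ) := by simp [frA, frB]
  rw [e] at h
  have h0 : P.b ^ P.p - P.a ^ P.p = 0 := by exact_mod_cast h
  exact not_two_dvd_bpow_sub_apow P (h0 ▸ dvd_zero _)

lemma padicValRat_alpha4 :
    padicValRat 2 (-(frA P * frB P) / 16) = (hNat P : ℤ) := by
  have h16 : padicValRat 2 (16 : ℚ) = 4 := by
    have h2 : padicValRat 2 (2 : ℚ) = 1 := by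
      have := padicValRat.self (p := 2) (by norm_num)
      simpa using this
    have : (16 : ℚ) = 2 ^ 4 := by norm_num
    rw [this, padicValRat.pow, h2]; norm_num
  have hAB : frA P * frB P ≠ 0 := mul_ne_zero (frA_ne_zero P) (frB_ne_zero P)
  rw [padicValRat.div (neg_ne_zero.2 hAB) (by norm_num), padicValRat.neg,
    padicValRat.mul (frA_ne_zero P) (frB_ne_zero P), padicValRat_frA, padicValRat_frB, h16]
  have := hNat_add_four P
  have h' : ((hNat P + 4 : ℕ) : ℤ) = ((P.p * v2b P : ℕ) : ℤ) := by rw [this]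
  push_cast at h'
  linarith

include hQ in
/-- `β₂ = b₂ = B - A` is a `2`-adic unit. -/
lemma isU_beta2 : IsU ord (beta2 (P.freyCurve⁄Qb) 0) := by
  rw [beta2_zero]
  exact J_isU_of_rat hQ (frB_sub_frA_ne_zero P) (padicValRat_sub P)

include hQ in
/-- `ord α₄ = h = p·v₂(b) - 4`. -/
lemma ord_alpha4 : ord (alpha4 (P.freyCurve⁄Qb) 0) = (hNat P : ℚ) := by
  rw [alpha4_zero, hQ _ ?_, padicValRat_alpha4]
  · simp
  · have hAB : frA P * frB P ≠ 0 := mul_ne_zero (frA_ne_zero P) (frB_ne_zero P)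
    exact div_ne_zero (neg_ne_zero.2 hAB) (by norm_num)

lemma hNat_pos_rat : (0 : ℚ) < (hNat P : ℚ) := by exact_mod_cast hNat_pos P

end atTwo

section more

variable (P : FreyPackage) {A : ValuationSubring Qb} {ord : Qb → ℚ} (hord : IsOrd A ord)
  (hQ : ∀ x : ℚ, x ≠ 0 → ord (algebraMap ℚ Qb x) = padicValRat 2 x)

lemma padicValRat_frC : padicValRat 2 (frC P) = 0 := by
  have hc : ¬ (2 : ℤ) ∣ P.c ^ P.p := fun h =>
    not_two_dvd_c P (Int.prime_two.dvd_of_dvd_pow h)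
  have h : padicValInt 2 (P.c ^ P.p) = 0 :=
    padicValInt.eq_zero_of_not_dvd (by exact_mod_cast hc)
  have e : frC P = ((P.c ^ P.p : ℤ) : ℚ) := by simp [frC]
  rw [e, padicValRat.of_int, h]; simp

lemma padicValRat_Δ :
    padicValRat 2 ((frA P * frB P * frC P) ^ 2 / 256) = 2 * (hNat P : ℤ) := by
  have h256 : padicValRat 2 (256 : ℚ) = 8 := by
    have h2 : padicValRat 2 (2 : ℚ) = 1 := by
      have := padicValRat.self (p := 2) (by norm_num)
      simpa using this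
    have : (256 : ℚ) = 2 ^ 8 := by norm_num
    rw [this, padicValRat.pow, h2]; norm_num
  have hAB : frA P * frB P ≠ 0 := mul_ne_zero (frA_ne_zero P) (frB_ne_zero P)
  have hABC : frA P * frB P * frC P ≠ 0 := mul_ne_zero hAB (frC_ne_zero P)
  rw [padicValRat.div (pow_ne_zero _ hABC) (by norm_num), padicValRat.pow,
    padicValRat.mul hAB (frC_ne_zero P), padicValRat.mul (frA_ne_zero P) (frB_ne_zero P),
    padicValRat_frA, padicValRat_frB, padicValRat_frC, h256]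
  have := hNat_add_four P
  have h' : ((hNat P + 4 : ℕ) : ℤ) = ((P.p * v2b P : ℕ) : ℤ) := by rw [this]
  push_cast at h' ⊢
  linarith

include hQ in
/-- `ord Δ = 2h = 2p·v₂(b) - 8`. -/
lemma ord_Δ : ord (P.freyCurve⁄Qb).Δ = 2 * (hNat P : ℚ) := by
  rw [J_bc_Δ, hQ _ ?_, padicValRat_Δ]
  · push_cast; ring
  · have hAB : frA P * frB P ≠ 0 := mul_ne_zero (frA_ne_zero P) (frB_ne_zero P)
    have hABC : frA P * frB P * frC P ≠ 0 := mul_ne_zero hAB (frC_ne_zero P)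
    exact div_ne_zero (pow_ne_zero _ hABC) (by norm_num)

include hQ in
/-- for a rational `ξ` the clamped valuation `wK` at `2` is an integer. -/
lemma wK_rat_int (h : ℕ) (x : ℚ) : ∃ n : ℤ, wK ord (h : ℚ) (algebraMap ℚ Qb x) = n := by
  unfold wK
  split_ifs with h0
  · exact ⟨h, by simp⟩
  · have hx : x ≠ 0 := by rintro rfl; exact h0 (map_zero _)
    refine ⟨max 0 (min (padicValRat 2 x) h), ?_⟩
    rw [hQ x hx]; push_cast; rfl

include hQ in
/-- for a rational point the invariant `w` (node at `r = 0`) at `2` is an integer. -/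
lemma wPt_rat_int (h : ℕ) {x₀ y₀ : ℚ}
    (hns : (P.freyCurve⁄Qb).Nonsingular (algebraMap ℚ Qb x₀) (algebraMap ℚ Qb y₀)) :
    ∃ n : ℤ, wPt ord (h : ℚ) 0
      (Point.some _ _ hns : (P.freyCurve⁄Qb).Point) = n := by
  show ∃ n : ℤ, wK ord (h : ℚ) (algebraMap ℚ Qb x₀ - 0) = n
  rw [sub_zero]
  exact wK_rat_int hQ h x₀

include hQ in
/-- PACKAGED: everything the abstract `(K)`-machinery (`K_points`, `K_dbl_points`, `torsion_w`
in their residue-characteristic-2 versions) wants to know about the Frey curve at `2`,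
with node `r = 0` and `h = hNat P`. -/
theorem frey_two_data (hA : A.LiesOverPrime 2) :
    (2 : Qb) ≠ 0 ∧ (2 : Qb) ∈ A.nonunits ∧ ord (2 : Qb) = 1 ∧
    IsIntegralW (P.freyCurve⁄Qb) A ∧ (P.freyCurve⁄Qb).Δ ≠ 0 ∧
    Fpoly (P.freyCurve⁄Qb) 0 = 0 ∧ IsU ord (beta2 (P.freyCurve⁄Qb) 0) ∧
    alpha4 (P.freyCurve⁄Qb) 0 ≠ 0 ∧ ord (alpha4 (P.freyCurve⁄Qb) 0) = (hNat P : ℚ) ∧
    (0 : ℚ) < (hNat P : ℚ) ∧ ¬ P.p ∣ hNat P :=
  ⟨two_ne_zero, two_mem_nonunits hA, ord_two hQ, frey_isIntegralW P A, frey_Δ_ne_zero P,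
    Fpoly_zero P, isU_beta2 P hQ, alpha4_ne_zero P, ord_alpha4 P hQ, hNat_pos_rat P,
    not_p_dvd_hNat P⟩

end more

/-- existence form: an `ord` at `2` normalised by `ord 2 = 1` together with all the data. -/
theorem exists_ord_two (P : FreyPackage) (A : ValuationSubring Qb) (hA : A.LiesOverPrime 2) :
    ∃ ord : Qb → ℚ, IsOrd A ord ∧
      (∀ x : ℚ, x ≠ 0 → ord (algebraMap ℚ Qb x) = padicValRat 2 x) ∧
      (2 : Qb) ≠ 0 ∧ (2 : Qb) ∈ A.nonunits ∧ ord (2 : Qb) = 1 ∧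
      IsIntegralW (P.freyCurve⁄Qb) A ∧ (P.freyCurve⁄Qb).Δ ≠ 0 ∧
      Fpoly (P.freyCurve⁄Qb) 0 = 0 ∧ IsU ord (beta2 (P.freyCurve⁄Qb) 0) ∧
      alpha4 (P.freyCurve⁄Qb) 0 ≠ 0 ∧ ord (alpha4 (P.freyCurve⁄Qb) 0) = (hNat P : ℚ) ∧
      (0 : ℚ) < (hNat P : ℚ) ∧ ¬ P.p ∣ hNat P := by
  obtain ⟨ord, hord, hQ⟩ := exists_ord A Nat.prime_two hA
  exact ⟨ord, hord, hQ, frey_two_data P hQ hA⟩

end Fermat.Agent.S13.L2Frey2
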