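/-
S13 / package L2-branch (helper40): the BRANCH LEMMA at a node, valid in every residue
characteristic (in particular at `2`).

Setting: a Weierstrass curve `y² + a₁xy = x³ + a₂x² + a₄x` over a valued field (`a₃ = a₆ = 0`,
so the reduction has a node at `(0,0)` when `a₄ ∈ 𝔪` and `b₂ = a₁² + 4a₂` is a unit).  For an affine
point `P = (x, y)` with `0 < ord x < ord a₄` the *branch coordinate* `T = y / x` is integral and
reduces to one of the two (distinct) roots of `T² + a₁T - a₂`.  If `P`, `Q` lie on the same branch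
(`T(P) ≡ T(Q) mod 𝔪`) and `x(P) ≠ x(Q)`, then `x(P+Q) ∈ 𝔪`, i.e. `w(P+Q) > 0`; combined with the
(K)-statement `{w(P+Q), w(P-Q)} = {min(s+t, 2h-s-t), |s-t|}` this gives `w(P-Q) = 0` when
`w(P) = w(Q) ∈ (0,h)`.

No hypothesis on `ord 2` is used anywhere.  No sorry.
-/
import Mathlib
import Fermat.Agent.S05.Defs
import Fermat.Agent.S05.OrdApi

set_option autoImplicit false

namespace Fermat.Agent.S13.L2Branch

open WeierstrassCurve WeierstrassCurve.Affine Fermat.Agent.S05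

variable {K : Type*} [Field K] {A : ValuationSubring K} {ord : K → ℚ}

/-! ### Closure properties of `A.nonunits` -/

theorem nu_add {x y : K} (hx : x ∈ A.nonunits) (hy : y ∈ A.nonunits) : x + y ∈ A.nonunits := by
  rw [ValuationSubring.mem_nonunits_iff] at *
  exact Valuation.map_add_lt _ hx hy

theorem nu_neg {x : K} (hx : x ∈ A.nonunits) : -x ∈ A.nonunits := by
  rw [ValuationSubring.mem_nonunits_iff] at *
  rwa [Valuation.map_neg]

theorem nu_sub {x y : K} (hx : x ∈ A.nonunits) (hy : y ∈ A.nonunits) : x - y ∈ A.nonunits := by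
  rw [sub_eq_add_neg]
  exact nu_add hx (nu_neg hy)

theorem nu_mul_left {a x : K} (ha : a ∈ A) (hx : x ∈ A.nonunits) : a * x ∈ A.nonunits := by
  rw [ValuationSubring.mem_nonunits_iff] at *
  rw [map_mul]
  have h1 : A.valuation a ≤ 1 := (A.valuation_le_one_iff a).2 ha
  calc A.valuation a * A.valuation x ≤ 1 * A.valuation x := mul_le_mul_left h1 _
    _ = A.valuation x := one_mul _
    _ < 1 := hx

theorem nu_mul_right {a x : K} (hx : x ∈ A.nonunits) (ha : a ∈ A) : x * a ∈ A.nonunits := by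
  rw [mul_comm]
  exact nu_mul_left ha hx

theorem nu_mem {x : K} (hx : x ∈ A.nonunits) : x ∈ A := by
  rw [ValuationSubring.mem_nonunits_iff] at hx
  exact (A.valuation_le_one_iff x).1 hx.le

theorem nu_zero : (0 : K) ∈ A.nonunits := by
  rw [ValuationSubring.mem_nonunits_iff]
  simp

/-- `𝔪` is prime. -/
theorem nu_of_mul {x y : K} (hx : x ∈ A) (hy : y ∈ A) (h : x * y ∈ A.nonunits) :
    x ∈ A.nonunits ∨ y ∈ A.nonunits := by
  rw [ValuationSubring.mem_nonunits_iff, map_mul] at h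
  by_contra hcon
  push Not at hcon
  obtain ⟨hcx, hcy⟩ := hcon
  rw [ValuationSubring.mem_nonunits_iff, not_lt] at hcx hcy
  have h1 : A.valuation x = 1 := le_antisymm ((A.valuation_le_one_iff x).2 hx) hcx
  have h2 : A.valuation y = 1 := le_antisymm ((A.valuation_le_one_iff y).2 hy) hcy
  rw [h1, h2, one_mul] at h
  exact lt_irrefl _ h

/-! ### The node at `(0,0)` -/

/-- `y² + a₁xy = x³ + a₂x² + a₄x` with integral `a₁, a₂`, `a₄ ≠ 0` and `b₂` a unit.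
(For the reduction to have a node one also needs `0 < ord a₄`; this is implied by the hypotheses
`0 < ord x < ord a₄` on the points below.) -/
structure NodeZero (W : Affine K) (A : ValuationSubring K) (ord : K → ℚ) : Prop where
  a₃_eq : W.a₃ = 0
  a₆_eq : W.a₆ = 0
  a₁_mem : W.a₁ ∈ A
  a₂_mem : W.a₂ ∈ A
  a₄_ne : W.a₄ ≠ 0
  b₂_unit : IsU ord W.b₂

section dictionary

variable {W : Affine K}

/-- dictionary with the `S05` constants: the node is at `r = 0`. -/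
theorem NodeZero.Fpoly_zero (hW : NodeZero W A ord) : Fpoly W 0 = 0 := by
  simp [Fpoly, WeierstrassCurve.b₆, hW.a₃_eq, hW.a₆_eq]

theorem NodeZero.beta2_zero (_hW : NodeZero W A ord) : beta2 W 0 = W.b₂ := by
  simp [beta2]

theorem NodeZero.alpha4_zero (hW : NodeZero W A ord) (h2 : (2 : K) ≠ 0) :
    alpha4 W 0 = W.a₄ := by
  simp only [alpha4, WeierstrassCurve.b₄, hW.a₃_eq]
  field_simp
  ring

end dictionary

/-- The branch coordinate `T = y / x` of an affine point near the node. -/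
def br (x y : K) : K := y / x

section branch

variable (hord : IsOrd A ord) {W : Affine K} (hW : NodeZero W A ord)
include hW

/-- `T² + a₁T - a₂ = x + a₄/x`. -/
theorem br_eq {x y : K} (h : W.Equation x y) (hx : x ≠ 0) :
    br x y ^ 2 + W.a₁ * br x y - W.a₂ = x + W.a₄ / x := by
  rw [W.equation_iff, hW.a₃_eq, hW.a₆_eq] at h
  unfold br
  field_simp
  linear_combination h

include hord

/-- `x + a₄/x ∈ 𝔪` when `0 < ord x < ord a₄`. -/
theorem x_add_mem {x : K} (hx : x ≠ 0) (h0 : 0 < ord x) (h1 : ord x < ord W.a₄) :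
    x + W.a₄ / x ∈ A.nonunits := by
  refine nu_add (hord.mem_nonunits_of_pos h0) (hord.mem_nonunits_of_pos ?_)
  rw [hord.ord_div hW.a₄_ne hx]
  linarith

/-- The branch coordinate is integral and reduces to a root of `T² + a₁T - a₂`. -/
theorem br_mem {x y : K} (h : W.Equation x y) (hx : x ≠ 0) (h0 : 0 < ord x)
    (h1 : ord x < ord W.a₄) :
    br x y ∈ A ∧ br x y ^ 2 + W.a₁ * br x y - W.a₂ ∈ A.nonunits := by
  have heq := br_eq hW h hx
  have hm := x_add_mem hord hW hx h0 h1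
  refine ⟨?_, by rw [heq]; exact hm⟩
  -- integrality: `T = c T⁻¹ - a₁` if `T ∉ A`
  set T := br x y with hT
  set c := W.a₂ + (x + W.a₄ / x) with hc
  have hcA : c ∈ A := A.add_mem _ _ hW.a₂_mem (nu_mem hm)
  have hTc : T ^ 2 + W.a₁ * T = c := by rw [hc, ← heq]; ring
  rcases A.mem_or_inv_mem T with hTA | hTA
  · exact hTA
  · by_cases hT0 : T = 0
    · rw [hT0]; exact A.zero_mem
    · have : T = c * T⁻¹ - W.a₁ := by
        field_simp
        linear_combination hTc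
      rw [this]
      exact A.sub_mem (A.mul_mem _ _ hcA hTA) hW.a₁_mem

/-- `(2T + a₁)` is a unit: the two branches are distinct. -/
theorem two_br_add_isU {x y : K} (h : W.Equation x y) (hx : x ≠ 0) (h0 : 0 < ord x)
    (h1 : ord x < ord W.a₄) : IsU ord (2 * br x y + W.a₁) := by
  obtain ⟨hTA, hTm⟩ := br_mem hord hW h hx h0 h1
  set T := br x y
  have h4 : (4 : K) ∈ A := by
    have : (4 : K) = 1 + 1 + 1 + 1 := by norm_num
    rw [this]
    exact A.add_mem _ _ (A.add_mem _ _ (A.add_mem _ _ A.one_mem A.one_mem) A.one_mem) A.one_mem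
  have hsq : (2 * T + W.a₁) ^ 2 = W.b₂ + 4 * (T ^ 2 + W.a₁ * T - W.a₂) := by
    simp only [WeierstrassCurve.b₂]
    ring
  have hU : IsU ord ((2 * T + W.a₁) ^ 2) := by
    rw [hsq]
    exact hord.IsU_add_nonunit hW.b₂_unit (nu_mul_left h4 hTm)
  have hne : 2 * T + W.a₁ ≠ 0 := fun h0 => hU.1 (by rw [h0]; ring)
  refine ⟨hne, ?_⟩
  have := hU.2
  rw [hord.ord_sq hne] at this
  linarith

/-- Two points near the node lie on the same branch or on opposite branches. -/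
theorem br_dichotomy {x₁ y₁ x₂ y₂ : K} (h₁ : W.Equation x₁ y₁) (h₂ : W.Equation x₂ y₂)
    (hx₁ : x₁ ≠ 0) (hx₂ : x₂ ≠ 0) (h01 : 0 < ord x₁) (h11 : ord x₁ < ord W.a₄)
    (h02 : 0 < ord x₂) (h12 : ord x₂ < ord W.a₄) :
    br x₁ y₁ - br x₂ y₂ ∈ A.nonunits ∨ br x₁ y₁ + br x₂ y₂ + W.a₁ ∈ A.nonunits := by
  obtain ⟨hT1, hm1⟩ := br_mem hord hW h₁ hx₁ h01 h11
  obtain ⟨hT2, hm2⟩ := br_mem hord hW h₂ hx₂ h02 h12
  apply nu_of_mul (A.sub_mem hT1 hT2) (A.add_mem _ _ (A.add_mem _ _ hT1 hT2) hW.a₁_mem)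
  have : (br x₁ y₁ - br x₂ y₂) * (br x₁ y₁ + br x₂ y₂ + W.a₁) =
      (br x₁ y₁ ^ 2 + W.a₁ * br x₁ y₁ - W.a₂) - (br x₂ y₂ ^ 2 + W.a₁ * br x₂ y₂ - W.a₂) := by
    ring
  rw [this]
  exact nu_sub hm1 hm2

/-- On the same branch, `T₁ + T₂ + a₁` is a unit. -/
theorem br_add_isU {x₁ y₁ x₂ y₂ : K} (h₁ : W.Equation x₁ y₁) (hx₁ : x₁ ≠ 0)
    (h01 : 0 < ord x₁) (h11 : ord x₁ < ord W.a₄)
    (hsame : br x₁ y₁ - br x₂ y₂ ∈ A.nonunits) : IsU ord (br x₁ y₁ + br x₂ y₂ + W.a₁) := by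
  have := hord.IsU_sub_nonunit (two_br_add_isU hord hW h₁ hx₁ h01 h11) hsame
  have e : 2 * br x₁ y₁ + W.a₁ - (br x₁ y₁ - br x₂ y₂) = br x₁ y₁ + br x₂ y₂ + W.a₁ := by ring
  rwa [e] at this

omit hord in
/-- Negation switches the branch: `T(-P) = -T(P) - a₁`. -/
theorem br_negY (x y : K) (hx : x ≠ 0) : br x (W.negY x y) = - br x y - W.a₁ := by
  unfold br
  rw [negY, hW.a₃_eq]
  field_simp
  ring

/-- A point and its negative are never on the same branch. -/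
theorem not_same_branch_neg {x y : K} (h : W.Equation x y) (hx : x ≠ 0) (h0 : 0 < ord x)
    (h1 : ord x < ord W.a₄) : br x y - br x (W.negY x y) ∉ A.nonunits := by
  rw [br_negY hW x y hx]
  have hU := two_br_add_isU hord hW h hx h0 h1
  have e : br x y - (-br x y - W.a₁) = 2 * br x y + W.a₁ := by ring
  rw [e]
  exact (hord.isU_iff_mem_not_nonunits.1 hU).2

end branch

/-! ### The branch lemma -/

section main

variable [DecidableEq K] (hord : IsOrd A ord) {W : Affine K} (hW : NodeZero W A ord)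
include hW

omit [DecidableEq K] in
/-- `(T₁ - T₂)(T₁ + T₂ + a₁) = (x₁ - x₂)(1 - a₄/(x₁x₂))`. -/
theorem br_sub_mul {x₁ y₁ x₂ y₂ : K} (h₁ : W.Equation x₁ y₁) (h₂ : W.Equation x₂ y₂)
    (hx₁ : x₁ ≠ 0) (hx₂ : x₂ ≠ 0) :
    (br x₁ y₁ - br x₂ y₂) * (br x₁ y₁ + br x₂ y₂ + W.a₁) =
      (x₁ - x₂) * (1 - W.a₄ / (x₁ * x₂)) := by
  have e1 := br_eq hW h₁ hx₁
  have e2 := br_eq hW h₂ hx₂
  have : (br x₁ y₁ - br x₂ y₂) * (br x₁ y₁ + br x₂ y₂ + W.a₁) =
      (br x₁ y₁ ^ 2 + W.a₁ * br x₁ y₁ - W.a₂) - (br x₂ y₂ ^ 2 + W.a₁ * br x₂ y₂ - W.a₂) := by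
    ring
  rw [this, e1, e2]
  field_simp
  ring

omit hW in
/-- `λ - T₁ = (T₁ - T₂) x₂ / (x₁ - x₂)` for the chord slope `λ`. -/
theorem slope_sub_br {x₁ y₁ x₂ y₂ : K} (hx : x₁ ≠ x₂) (hx₁ : x₁ ≠ 0) (hx₂ : x₂ ≠ 0) :
    W.slope x₁ x₂ y₁ y₂ - br x₁ y₁ = (br x₁ y₁ - br x₂ y₂) * x₂ / (x₁ - x₂) := by
  have hd : x₁ - x₂ ≠ 0 := sub_ne_zero.mpr hx
  rw [slope_of_X_ne hx]
  unfold br
  field_simp
  ring

include hord

/-- On the same branch the chord slope is congruent to the branch coordinate. -/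
theorem slope_sub_br_mem {x₁ y₁ x₂ y₂ : K} (h₁ : W.Equation x₁ y₁) (h₂ : W.Equation x₂ y₂)
    (hx : x₁ ≠ x₂) (hx₁ : x₁ ≠ 0) (hx₂ : x₂ ≠ 0) (h01 : 0 < ord x₁) (h11 : ord x₁ < ord W.a₄)
    (h02 : 0 < ord x₂) (hsame : br x₁ y₁ - br x₂ y₂ ∈ A.nonunits) :
    W.slope x₁ x₂ y₁ y₂ - br x₁ y₁ ∈ A.nonunits := by
  have hd : x₁ - x₂ ≠ 0 := sub_ne_zero.mpr hx
  have hU := br_add_isU hord hW h₁ hx₁ h01 h11 hsame
  set u := br x₁ y₁ + br x₂ y₂ + W.a₁ with hu
  have hmul := br_sub_mul hW h₁ h₂ hx₁ hx₂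
  have key : W.slope x₁ x₂ y₁ y₂ - br x₁ y₁ = (x₂ - W.a₄ / x₁) * u⁻¹ := by
    rw [slope_sub_br hx hx₁ hx₂]
    have hu0 : u ≠ 0 := hU.1
    have : br x₁ y₁ - br x₂ y₂ = (x₁ - x₂) * (1 - W.a₄ / (x₁ * x₂)) / u := by
      rw [eq_div_iff hu0]; exact hmul
    rw [this]
    field_simp
  rw [key]
  refine nu_mul_right ?_ ((hord.isU_iff.1 hU).2.2)
  refine nu_sub (hord.mem_nonunits_of_pos h02) (hord.mem_nonunits_of_pos ?_)
  rw [hord.ord_div hW.a₄_ne hx₁]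
  linarith

/-- **Branch lemma** (field level): if `P`, `Q` are near the node, on the same branch, with
different `x`-coordinates, then `x(P+Q) ∈ 𝔪`. -/
theorem addX_mem_nonunits {x₁ y₁ x₂ y₂ : K} (h₁ : W.Equation x₁ y₁) (h₂ : W.Equation x₂ y₂)
    (hx : x₁ ≠ x₂) (hx₁ : x₁ ≠ 0) (hx₂ : x₂ ≠ 0) (h01 : 0 < ord x₁) (h11 : ord x₁ < ord W.a₄)
    (h02 : 0 < ord x₂) (hsame : br x₁ y₁ - br x₂ y₂ ∈ A.nonunits) :
    W.addX x₁ x₂ (W.slope x₁ x₂ y₁ y₂) ∈ A.nonunits := by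
  obtain ⟨hT1, hm1⟩ := br_mem hord hW h₁ hx₁ h01 h11
  have hsl := slope_sub_br_mem hord hW h₁ h₂ hx hx₁ hx₂ h01 h11 h02 hsame
  set ℓ := W.slope x₁ x₂ y₁ y₂ with hℓ
  set T := br x₁ y₁ with hT
  have hℓA : ℓ ∈ A := by
    have : ℓ = T + (ℓ - T) := by ring
    rw [this]
    exact A.add_mem _ _ hT1 (nu_mem hsl)
  have e : W.addX x₁ x₂ ℓ =
      (T ^ 2 + W.a₁ * T - W.a₂) + (ℓ - T) * (ℓ + T + W.a₁) - x₁ - x₂ := by
    simp only [addX]
    ring
  rw [e]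
  refine nu_sub (nu_sub (nu_add hm1 (nu_mul_right hsl ?_)) (hord.mem_nonunits_of_pos h01))
    (hord.mem_nonunits_of_pos h02)
  exact A.add_mem _ _ (A.add_mem _ _ hℓA hT1) hW.a₁_mem

omit hW hord in
/-- `w` of a point with `x ∈ 𝔪` is positive. -/
theorem wK_pos_of_mem_nonunits (hord : IsOrd A ord) {h : ℚ} (hh : 0 < h) {ξ : K}
    (hξ : ξ ∈ A.nonunits) : 0 < wK ord h ξ := by
  unfold wK
  split_ifs with h0
  · exact hh
  · have := hord.pos_of_mem_nonunits h0 hξ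
    exact lt_max_of_lt_right (lt_min this hh)

omit hW hord [DecidableEq K] in
/-- `w` of a point with `0 < ord x < h` is `ord x`. -/
theorem wK_eq_ord {h : ℚ} {ξ : K} (hξ : ξ ≠ 0) (h0 : 0 < ord ξ) (h1 : ord ξ < h) :
    wK ord h ξ = ord ξ := by
  unfold wK
  rw [if_neg hξ, min_eq_left h1.le, max_eq_right h0.le]

/-- **Branch lemma** (points): `w(P+Q) > 0`. -/
theorem wPt_add_pos {h : ℚ} (hh : 0 < h) {x₁ y₁ x₂ y₂ : K} (h₁ : W.Nonsingular x₁ y₁)
    (h₂ : W.Nonsingular x₂ y₂) (hx : x₁ ≠ x₂) (hx₁ : x₁ ≠ 0) (hx₂ : x₂ ≠ 0)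
    (h01 : 0 < ord x₁) (h11 : ord x₁ < ord W.a₄) (h02 : 0 < ord x₂)
    (hsame : br x₁ y₁ - br x₂ y₂ ∈ A.nonunits) :
    0 < wPt ord h 0 (Point.some x₁ y₁ h₁ + Point.some x₂ y₂ h₂) := by
  rw [Point.add_of_X_ne hx]
  show 0 < wK ord h (W.addX x₁ x₂ (W.slope x₁ x₂ y₁ y₂) - 0)
  rw [sub_zero]
  exact wK_pos_of_mem_nonunits hord hh
    (addX_mem_nonunits hord hW h₁.1 h₂.1 hx hx₁ hx₂ h01 h11 h02 hsame)

/-- **Branch lemma + (K)**: if `w(P) = w(Q) ∈ (0,h)` and `P`, `Q` are on the same branch, then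
`w(P - Q) = 0`.  The (K)-statement for the pair `(P, Q)` is taken as hypothesis `hK`
(conclusion of `S05.K_points`, resp. of its residue-characteristic-2 version). -/
theorem wPt_sub_eq_zero {h : ℚ} (hh : 0 < h) {x₁ y₁ x₂ y₂ : K} (h₁ : W.Nonsingular x₁ y₁)
    (h₂ : W.Nonsingular x₂ y₂) (hx : x₁ ≠ x₂) (hx₁ : x₁ ≠ 0) (hx₂ : x₂ ≠ 0)
    (h01 : 0 < ord x₁) (h11 : ord x₁ < ord W.a₄) (h1h : ord x₁ < h)
    (hs : ord x₂ = ord x₁)
    (hsame : br x₁ y₁ - br x₂ y₂ ∈ A.nonunits)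
    (hK : (wPt ord h 0 (Point.some x₁ y₁ h₁ + Point.some x₂ y₂ h₂) =
          min (wPt ord h 0 (Point.some x₁ y₁ h₁) + wPt ord h 0 (Point.some x₂ y₂ h₂))
            (2 * h - wPt ord h 0 (Point.some x₁ y₁ h₁) - wPt ord h 0 (Point.some x₂ y₂ h₂)) ∧
        wPt ord h 0 (Point.some x₁ y₁ h₁ - Point.some x₂ y₂ h₂) =
          |wPt ord h 0 (Point.some x₁ y₁ h₁) - wPt ord h 0 (Point.some x₂ y₂ h₂)|) ∨
      (wPt ord h 0 (Point.some x₁ y₁ h₁ + Point.some x₂ y₂ h₂) =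
          |wPt ord h 0 (Point.some x₁ y₁ h₁) - wPt ord h 0 (Point.some x₂ y₂ h₂)| ∧
        wPt ord h 0 (Point.some x₁ y₁ h₁ - Point.some x₂ y₂ h₂) =
          min (wPt ord h 0 (Point.some x₁ y₁ h₁) + wPt ord h 0 (Point.some x₂ y₂ h₂))
            (2 * h - wPt ord h 0 (Point.some x₁ y₁ h₁) -
              wPt ord h 0 (Point.some x₂ y₂ h₂)))) :
    wPt ord h 0 (Point.some x₁ y₁ h₁ - Point.some x₂ y₂ h₂) = 0 := by
  have h02 : 0 < ord x₂ := hs ▸ h01
  have hpos := wPt_add_pos hord hW hh h₁ h₂ hx hx₁ hx₂ h01 h11 h02 hsame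
  have w1 : wPt ord h 0 (Point.some x₁ y₁ h₁) = ord x₁ := by
    show wK ord h (x₁ - 0) = ord x₁
    rw [sub_zero]; exact wK_eq_ord hx₁ h01 h1h
  have w2 : wPt ord h 0 (Point.some x₂ y₂ h₂) = ord x₁ := by
    show wK ord h (x₂ - 0) = ord x₁
    rw [sub_zero, wK_eq_ord hx₂ h02 (hs ▸ h1h), hs]
  rw [w1, w2, sub_self, abs_zero] at hK
  rcases hK with ⟨-, hK⟩ | ⟨hK, -⟩
  · exact hK
  · rw [hK] at hpos
    exact absurd hpos (lt_irrefl _)

/-! ### Inertial maps preserve the branch -/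

omit hW hord [DecidableEq K] in
/-- An inertial ring endomorphism `τ` (e.g. an element of the inertia group) preserves the branch:
`T(τP) = τ(T(P)) ≡ T(P) mod 𝔪`. -/
theorem br_map_sub_mem {τ : K →+* K} (hτ : IsInertial A τ) {x y : K} (hbr : br x y ∈ A) :
    br (τ x) (τ y) - br x y ∈ A.nonunits := by
  have : br (τ x) (τ y) = τ (br x y) := by unfold br; rw [map_div₀]
  rw [this]
  exact (hτ _ hbr).2

omit [DecidableEq K] in
/-- Two points near the node with the same `x` and on the same branch are equal. -/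
theorem Y_eq_of_same_branch {x y y' : K} (h : W.Equation x y) (h' : W.Equation x y')
    (hx : x ≠ 0) (h0 : 0 < ord x) (h1 : ord x < ord W.a₄)
    (hsame : br x y' - br x y ∈ A.nonunits) : y' = y := by
  rcases Y_eq_of_X_eq h' h rfl with hy | hy
  · exact hy
  · exfalso
    apply not_same_branch_neg hord hW h hx h0 h1
    rw [hy] at hsame
    have := nu_neg hsame
    rwa [neg_sub] at this

end main

end Fermat.Agent.S13.L2Branch


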