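/-
S13 package L2-pole (helper8): the pole filtration `poleSet b` (`b < 0`) and `E₁` are closed under
addition in EVERY residue characteristic: the hypothesis `IsU ord 2` of `S05.poleSet_add_mem`
is replaced by `(2 : K) ≠ 0`.  Bonus for residue characteristic 2 (`0 < ord 2`): doubling goes
strictly deeper into the filtration, hence `E₁` has no nonzero point of odd order.
Pure valuation arithmetic on x-coordinates.  No sorry.
-/
import Mathlib
import Fermat.Agent.S05.Pole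

set_option autoImplicit false
set_option linter.unusedSectionVars false

namespace Fermat.Agent.S13.L2Pole

open WeierstrassCurve WeierstrassCurve.Affine
open Fermat.Agent.S05
open Fermat.Agent.S05.Pole

/-! ### field-level statements -/
section Field
variable {K : Type*} [Field K] {A : ValuationSubring K} {ord : K → ℚ}

theorem two_mem (A : ValuationSubring K) : (2 : K) ∈ A := by
  have : (2 : K) = 1 + 1 := by norm_num
  rw [this]; exact A.add_mem _ _ A.one_mem A.one_mem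

theorem four_mem (A : ValuationSubring K) : (4 : K) ∈ A := by
  have : (4 : K) = 2 * 2 := by norm_num
  rw [this]; exact A.mul_mem _ _ (two_mem A) (two_mem A)

/-- sum of two points with distinct `x` of negative valuation: the `x`-coordinates of `P ± Q`
have valuation at most `max (ord x₁) (ord x₂)`.  No hypothesis on `2`. -/
theorem pole_field (hord : IsOrd A ord)
    {b2 b4 b6 b8 : K} (hb2 : b2 ∈ A) (hb4 : b4 ∈ A) (hb6 : b6 ∈ A) (hb8 : b8 ∈ A)
    {x₁ x₂ r₁ r₂ : K} (hx₁ : x₁ ≠ 0) (hx₂ : x₂ ≠ 0) (ho₁ : ord x₁ < 0) (ho₂ : ord x₂ < 0)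
    (hne : x₁ ≠ x₂)
    (hN : r₁ * r₂ * (x₁ - x₂) ^ 2 = x₁ ^ 2 * x₂ ^ 2 - b4 * x₁ * x₂ - b6 * (x₁ + x₂) - b8)
    (hS : (r₁ + r₂) * (x₁ - x₂) ^ 2 =
      2 * x₁ * x₂ * (x₁ + x₂) + b2 * x₁ * x₂ + b4 * (x₁ + x₂) + b6) :
    r₁ ≠ 0 ∧ ord r₁ ≤ max (ord x₁) (ord x₂) := by
  set o₁ := ord x₁ with ho₁'
  set o₂ := ord x₂ with ho₂'
  have hmm : max o₁ o₂ + min o₁ o₂ = o₁ + o₂ := max_add_min o₁ o₂
  have hμ₁ : min o₁ o₂ ≤ o₁ := min_le_left _ _
  have hμ₂ : min o₁ o₂ ≤ o₂ := min_le_right _ _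
  have hμ0 : min o₁ o₂ < 0 := lt_of_le_of_lt hμ₁ ho₁
  have hm0 : max o₁ o₂ < 0 := max_lt ho₁ ho₂
  have hm₁ : o₁ ≤ max o₁ o₂ := le_max_left _ _
  have hm₂ : o₂ ≤ max o₁ o₂ := le_max_right _ _
  have g1 : Ge ord o₁ x₁ := Or.inr le_rfl
  have g2 : Ge ord o₂ x₂ := Or.inr le_rfl
  have gb2 : Ge ord 0 b2 := Ge.of_mem hord hb2
  have gb4 : Ge ord 0 b4 := Ge.of_mem hord hb4
  have gb6 : Ge ord 0 b6 := Ge.of_mem hord hb6
  have gb8 : Ge ord 0 b8 := Ge.of_mem hord hb8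
  have g2' : Ge ord 0 (2 : K) := Ge.of_mem hord (two_mem A)
  have gsum : Ge ord (min o₁ o₂) (x₁ + x₂) := (g1.mono hμ₁).add hord (g2.mono hμ₂)
  have gdiff : Ge ord (min o₁ o₂) (x₁ - x₂) := (g1.mono hμ₁).sub hord (g2.mono hμ₂)
  have hD : x₁ - x₂ ≠ 0 := sub_ne_zero.2 hne
  have hd : min o₁ o₂ ≤ ord (x₁ - x₂) := by
    rcases gdiff with h | h
    · exact absurd h hD
    · exact h
  have hD2 : (x₁ - x₂) ^ 2 ≠ 0 := pow_ne_zero 2 hD
  have hordD2 : ord ((x₁ - x₂) ^ 2) = 2 * ord (x₁ - x₂) := by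
    rw [ord_pow hord hD]; norm_num
  have hlead : x₁ ^ 2 * x₂ ^ 2 ≠ 0 := mul_ne_zero (pow_ne_zero 2 hx₁) (pow_ne_zero 2 hx₂)
  have hordlead : ord (x₁ ^ 2 * x₂ ^ 2) = 2 * o₁ + 2 * o₂ := by
    rw [hord.map_mul (pow_ne_zero 2 hx₁) (pow_ne_zero 2 hx₂), ord_pow hord hx₁, ord_pow hord hx₂]
    push_cast
    rfl
  have grest : Gt ord (ord (x₁ ^ 2 * x₂ ^ 2)) (-(b4 * x₁ * x₂) - b6 * (x₁ + x₂) - b8) := by
    rw [hordlead]
    refine ((Gt.neg hord ?_).sub hord ?_).sub hord ?_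
    · have : Ge ord (0 + o₁ + o₂) (b4 * x₁ * x₂) := (gb4.mul hord g1).mul hord g2
      exact this.gt (by linarith)
    · have : Ge ord (0 + min o₁ o₂) (b6 * (x₁ + x₂)) := gb6.mul hord gsum
      exact this.gt (by linarith)
    · exact gb8.gt (by linarith)
  have hNval := ord_add_of_gt hord hlead grest
  have hNeq : x₁ ^ 2 * x₂ ^ 2 + (-(b4 * x₁ * x₂) - b6 * (x₁ + x₂) - b8) =
      r₁ * r₂ * (x₁ - x₂) ^ 2 := by rw [hN]; ring
  rw [hNeq, hordlead] at hNval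
  obtain ⟨hN0, hNord⟩ := hNval
  have hr₁ : r₁ ≠ 0 := fun h => hN0 (by rw [h]; ring)
  have hr₂ : r₂ ≠ 0 := fun h => hN0 (by rw [h]; ring)
  rw [hord.map_mul (mul_ne_zero hr₁ hr₂) hD2, hord.map_mul hr₁ hr₂, hordD2] at hNord
  refine ⟨hr₁, ?_⟩
  by_contra hcon
  rw [not_le] at hcon
  have gS : Ge ord (o₁ + o₂ + min o₁ o₂)
      (2 * x₁ * x₂ * (x₁ + x₂) + b2 * x₁ * x₂ + b4 * (x₁ + x₂) + b6) := by
    refine ((Ge.add hord ?_ ?_).add hord ?_).add hord ?_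
    · have : Ge ord (0 + o₁ + o₂ + min o₁ o₂) (2 * x₁ * x₂ * (x₁ + x₂)) :=
        ((g2'.mul hord g1).mul hord g2).mul hord gsum
      exact this.mono (by linarith)
    · have : Ge ord (0 + o₁ + o₂) (b2 * x₁ * x₂) := (gb2.mul hord g1).mul hord g2
      exact this.mono (by linarith)
    · have : Ge ord (0 + min o₁ o₂) (b4 * (x₁ + x₂)) := gb4.mul hord gsum
      exact this.mono (by linarith)
    · exact gb6.mono (by linarith)
  rw [← hS] at gS
  have hlt : ord r₂ < ord r₁ := by linarith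
  have hsum := ord_add_of_gt hord hr₂ (Or.inr hlt : Gt ord (ord r₂) r₁)
  rw [add_comm] at hsum
  obtain ⟨hs0, hsord⟩ := hsum
  rcases gS with h | h
  · exact (mul_ne_zero hs0 hD2) h
  · rw [hord.map_mul hs0 hD2, hsord, hordD2] at h
    linarith

/-- duplication: `x(2P) F(x) = Φ₂(x)` and `ord x < 0` imply `F(x) ≠ 0`, `x(2P) ≠ 0` and
`ord x(2P) + ord F(x) = 4 ord x`, `3 ord x ≤ ord F(x)`; if moreover `0 < ord 2` then
`3 ord x < ord F(x)`. -/
theorem pole_field_dbl_aux (hord : IsOrd A ord)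
    {b2 b4 b6 b8 : K} (hb2 : b2 ∈ A) (hb4 : b4 ∈ A) (hb6 : b6 ∈ A) (hb8 : b8 ∈ A)
    {x r : K} (hx : x ≠ 0) (ho : ord x < 0)
    (h : r * (4 * x ^ 3 + b2 * x ^ 2 + 2 * b4 * x + b6) =
      x ^ 4 - b4 * x ^ 2 - 2 * b6 * x - b8) :
    r ≠ 0 ∧ (4 * x ^ 3 + b2 * x ^ 2 + 2 * b4 * x + b6) ≠ 0 ∧
      ord r + ord (4 * x ^ 3 + b2 * x ^ 2 + 2 * b4 * x + b6) = 4 * ord x ∧
      3 * ord x ≤ ord (4 * x ^ 3 + b2 * x ^ 2 + 2 * b4 * x + b6) ∧
      ((2 : K) ≠ 0 → 0 < ord (2 : K) →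
        3 * ord x < ord (4 * x ^ 3 + b2 * x ^ 2 + 2 * b4 * x + b6)) := by
  set o := ord x with ho'
  set Fx := 4 * x ^ 3 + b2 * x ^ 2 + 2 * b4 * x + b6 with hFx
  have g1 : Ge ord o x := Or.inr le_rfl
  have gb2 : Ge ord 0 b2 := Ge.of_mem hord hb2
  have gb4 : Ge ord 0 b4 := Ge.of_mem hord hb4
  have gb6 : Ge ord 0 b6 := Ge.of_mem hord hb6
  have gb8 : Ge ord 0 b8 := Ge.of_mem hord hb8
  have g2' : Ge ord 0 (2 : K) := Ge.of_mem hord (two_mem A)
  have g4' : Ge ord 0 (4 : K) := Ge.of_mem hord (four_mem A)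
  have gx2 : Ge ord (o + o) (x ^ 2) := by rw [pow_two]; exact g1.mul hord g1
  have gx3 : Ge ord (o + o + o) (x ^ 3) := by
    have : x ^ 3 = x ^ 2 * x := by ring
    rw [this]; exact gx2.mul hord g1
  -- Φ₂
  have hPlead : x ^ 4 ≠ 0 := pow_ne_zero 4 hx
  have hPleadord : ord (x ^ 4) = 4 * o := by
    rw [ord_pow hord hx]
    push_cast
    rfl
  have gPrest : Gt ord (ord (x ^ 4)) (-(b4 * x ^ 2) - 2 * b6 * x - b8) := by
    rw [hPleadord]
    refine ((Gt.neg hord ?_).sub hord ?_).sub hord ?_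
    · have : Ge ord (0 + (o + o)) (b4 * x ^ 2) := gb4.mul hord gx2
      exact this.gt (by linarith)
    · have : Ge ord (0 + 0 + o) (2 * b6 * x) := (g2'.mul hord gb6).mul hord g1
      exact this.gt (by linarith)
    · exact gb8.gt (by linarith)
  obtain ⟨hP0, hPord⟩ := ord_add_of_gt hord hPlead gPrest
  rw [hPleadord] at hPord
  have e2 : x ^ 4 + (-(b4 * x ^ 2) - 2 * b6 * x - b8) =
      x ^ 4 - b4 * x ^ 2 - 2 * b6 * x - b8 := by ring
  rw [e2, ← h] at hP0 hPord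
  have hr : r ≠ 0 := fun h0 => hP0 (by rw [h0, zero_mul])
  have hF0 : Fx ≠ 0 := fun h0 => hP0 (by rw [h0, mul_zero])
  rw [hord.map_mul hr hF0] at hPord
  -- lower bound for F
  have gF : Ge ord (3 * o) Fx := by
    rw [hFx]
    refine ((Ge.add hord ?_ ?_).add hord ?_).add hord ?_
    · have : Ge ord (0 + (o + o + o)) (4 * x ^ 3) := g4'.mul hord gx3
      exact this.mono (by linarith)
    · have : Ge ord (0 + (o + o)) (b2 * x ^ 2) := gb2.mul hord gx2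
      exact this.mono (by linarith)
    · have : Ge ord (0 + 0 + o) (2 * b4 * x) := (g2'.mul hord gb4).mul hord g1
      exact this.mono (by linarith)
    · exact gb6.mono (by linarith)
  have hFge : 3 * o ≤ ord Fx := by
    rcases gF with h0 | h0
    · exact absurd h0 hF0
    · exact h0
  refine ⟨hr, hF0, hPord, hFge, ?_⟩
  intro h20 h2pos
  -- strict bound when `0 < ord 2`
  have h40 : (4 : K) ≠ 0 := by
    have : (4 : K) = 2 * 2 := by norm_num
    rw [this]; exact mul_ne_zero h20 h20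
  have h4ord : ord (4 : K) = 2 * ord (2 : K) := by
    have : (4 : K) = 2 * 2 := by norm_num
    rw [this, hord.map_mul h20 h20]; ring
  have gF' : Gt ord (3 * o) Fx := by
    rw [hFx]
    refine ((Gt.add hord ?_ ?_).add hord ?_).add hord ?_
    · refine Or.inr ?_
      rw [hord.map_mul h40 (pow_ne_zero 3 hx), h4ord, ord_pow hord hx]
      push_cast
      linarith
    · have : Ge ord (0 + (o + o)) (b2 * x ^ 2) := gb2.mul hord gx2
      exact this.gt (by linarith)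
    · have : Ge ord (0 + 0 + o) (2 * b4 * x) := (g2'.mul hord gb4).mul hord g1
      exact this.gt (by linarith)
    · exact gb6.gt (by linarith)
  rcases gF' with h0 | h0
  · exact absurd h0 hF0
  · exact h0

/-- duplication: `ord x(2P) ≤ ord x`. -/
theorem pole_field_dbl (hord : IsOrd A ord)
    {b2 b4 b6 b8 : K} (hb2 : b2 ∈ A) (hb4 : b4 ∈ A) (hb6 : b6 ∈ A) (hb8 : b8 ∈ A)
    {x r : K} (hx : x ≠ 0) (ho : ord x < 0)
    (h : r * (4 * x ^ 3 + b2 * x ^ 2 + 2 * b4 * x + b6) =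
      x ^ 4 - b4 * x ^ 2 - 2 * b6 * x - b8) :
    r ≠ 0 ∧ ord r ≤ ord x := by
  obtain ⟨hr, _, hsum, hge, _⟩ := pole_field_dbl_aux hord hb2 hb4 hb6 hb8 hx ho h
  exact ⟨hr, by linarith⟩

/-- duplication in residue characteristic 2: `ord x(2P) < ord x`. -/
theorem pole_field_dbl_lt (hord : IsOrd A ord) (h20 : (2 : K) ≠ 0) (h2pos : 0 < ord (2 : K))
    {b2 b4 b6 b8 : K} (hb2 : b2 ∈ A) (hb4 : b4 ∈ A) (hb6 : b6 ∈ A) (hb8 : b8 ∈ A)
    {x r : K} (hx : x ≠ 0) (ho : ord x < 0)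
    (h : r * (4 * x ^ 3 + b2 * x ^ 2 + 2 * b4 * x + b6) =
      x ^ 4 - b4 * x ^ 2 - 2 * b6 * x - b8) :
    r ≠ 0 ∧ ord r < ord x := by
  obtain ⟨hr, _, hsum, _, hlt⟩ := pole_field_dbl_aux hord hb2 hb4 hb6 hb8 hx ho h
  have := hlt h20 h2pos
  exact ⟨hr, by linarith⟩

end Field

/-! ### the pole filtration without `IsU ord 2` -/
section E
variable {K : Type*} [Field K] [DecidableEq K] {A : ValuationSubring K} {ord : K → ℚ}
  (W : Affine K)

/-- `S05.poleSet_add_mem` with `IsU ord 2` weakened to `(2 : K) ≠ 0` (any residue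
characteristic). -/
theorem poleSet_add_mem (hord : IsOrd A ord) (h2 : (2 : K) ≠ 0) (hW : IsIntegralW W A)
    {b : ℚ} (hb : b < 0) {P Q : W.Point} (hP : P ∈ poleSet W ord b) (hQ : Q ∈ poleSet W ord b) :
    P + Q ∈ poleSet W ord b := by
  obtain ⟨hb2, hb4, hb6, hb8⟩ := Pole.b_mem W hW
  rcases hP with rfl | ⟨x₁, y₁, h₁, rfl, hx₁, ho₁⟩
  · rw [zero_add]; exact hQ
  rcases hQ with rfl | ⟨x₂, y₂, h₂, rfl, hx₂, ho₂⟩
  · rw [add_zero]; exact Or.inr ⟨x₁, y₁, h₁, rfl, hx₁, ho₁⟩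
  by_cases hx : x₁ = x₂
  · by_cases hy : y₁ = W.negY x₂ y₂
    · exact Or.inl (Point.add_of_Y_eq hx hy)
    · have hyy : y₁ = y₂ := Affine.Y_eq_of_Y_ne h₁.1 h₂.1 hx hy
      subst hx
      subst hyy
      refine Or.inr ⟨_, _, _, Point.add_self_of_Y_ne hy, ?_⟩
      have hf := Pole.dblX_formula W h2 h₁.1 hy
      simp only [Fpoly, Phi2] at hf
      obtain ⟨hr, hro⟩ := pole_field_dbl hord hb2 hb4 hb6 hb8 hx₁
        (lt_of_le_of_lt ho₁ hb) hf
      exact ⟨hr, hro.trans ho₁⟩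
  · refine Or.inr ⟨_, _, _, Point.add_of_X_ne hx, ?_⟩
    obtain ⟨hN, hS⟩ := Pole.addX_formulas W h2 h₁.1 h₂.1 hx
    simp only [Nnum, Snum] at hN hS
    obtain ⟨hr, hro⟩ := pole_field hord hb2 hb4 hb6 hb8 hx₁ hx₂
      (lt_of_le_of_lt ho₁ hb) (lt_of_le_of_lt ho₂ hb) hx hN hS
    exact ⟨hr, hro.trans (max_le ho₁ ho₂)⟩

/-- `S05.E1_add_mem` with `IsU ord 2` weakened to `(2 : K) ≠ 0`. -/
theorem E1_add_mem (hord : IsOrd A ord) (h2 : (2 : K) ≠ 0) (hW : IsIntegralW W A)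
    {P Q : W.Point} (hP : P ∈ E1 W ord) (hQ : Q ∈ E1 W ord) : P + Q ∈ E1 W ord := by
  rcases hP with rfl | ⟨x₁, y₁, h₁, rfl, hx₁, ho₁⟩
  · rw [zero_add]; exact hQ
  rcases hQ with rfl | ⟨x₂, y₂, h₂, rfl, hx₂, ho₂⟩
  · rw [add_zero]; exact Or.inr ⟨x₁, y₁, h₁, rfl, hx₁, ho₁⟩
  have hb : max (ord x₁) (ord x₂) < 0 := max_lt ho₁ ho₂
  have h := poleSet_add_mem W hord h2 hW hb
    (P := Point.some x₁ y₁ h₁) (Q := Point.some x₂ y₂ h₂)
    (Or.inr ⟨x₁, y₁, h₁, rfl, hx₁, le_max_left _ _⟩)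
    (Or.inr ⟨x₂, y₂, h₂, rfl, hx₂, le_max_right _ _⟩)
  rcases h with h | ⟨x, y, h, hPQ, hx, ho⟩
  · exact Or.inl h
  · exact Or.inr ⟨x, y, h, hPQ, hx, lt_of_le_of_lt ho hb⟩

theorem zero_mem_poleSet (b : ℚ) : (0 : W.Point) ∈ poleSet W ord b := Or.inl rfl

/-- multiples stay in `poleSet b`. -/
theorem poleSet_nsmul_mem (hord : IsOrd A ord) (h2 : (2 : K) ≠ 0) (hW : IsIntegralW W A)
    {b : ℚ} (hb : b < 0) {P : W.Point} (hP : P ∈ poleSet W ord b) (n : ℕ) :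
    n • P ∈ poleSet W ord b := by
  induction n with
  | zero => rw [zero_smul]; exact zero_mem_poleSet W b
  | succ n ih => rw [succ_nsmul]; exact poleSet_add_mem W hord h2 hW hb ih hP

/-- multiples stay in `E₁`. -/
theorem E1_nsmul_mem (hord : IsOrd A ord) (h2 : (2 : K) ≠ 0) (hW : IsIntegralW W A)
    {P : W.Point} (hP : P ∈ E1 W ord) (n : ℕ) : n • P ∈ E1 W ord := by
  induction n with
  | zero => rw [zero_smul]; exact Or.inl rfl
  | succ n ih => rw [succ_nsmul]; exact E1_add_mem W hord h2 hW ih hP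

/-- In residue characteristic 2 (`0 < ord 2`), doubling a nonzero point of `E₁` either gives `0`
or a point whose `x`-coordinate has STRICTLY smaller valuation. -/
theorem two_nsmul_mem_poleSet_lt (hord : IsOrd A ord) (h2 : (2 : K) ≠ 0)
    (h2pos : 0 < ord (2 : K)) (hW : IsIntegralW W A)
    {x y : K} (h : W.Nonsingular x y) (hx : x ≠ 0) (ho : ord x < 0) :
    ∃ b : ℚ, b < ord x ∧ (2 • Point.some x y h : W.Point) ∈ poleSet W ord b := by
  obtain ⟨hb2, hb4, hb6, hb8⟩ := Pole.b_mem W hW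
  rw [two_nsmul]
  by_cases hy : y = W.negY x y
  · exact ⟨ord x - 1, by linarith, Or.inl (Point.add_of_Y_eq rfl hy)⟩
  · have hf := Pole.dblX_formula W h2 h.1 hy
    simp only [Fpoly, Phi2] at hf
    obtain ⟨hr, hro⟩ := pole_field_dbl_lt hord h2 h2pos hb2 hb4 hb6 hb8 hx ho hf
    exact ⟨_, hro, Or.inr ⟨_, _, _, Point.add_self_of_Y_ne hy, hr, le_rfl⟩⟩

/-- In residue characteristic 2, `E₁` has no nonzero point of odd order. -/
theorem E1_odd_torsion_free (hord : IsOrd A ord) (h2 : (2 : K) ≠ 0)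
    (h2pos : 0 < ord (2 : K)) (hW : IsIntegralW W A)
    {n : ℕ} (hn : Odd n) {P : W.Point} (hP : P ∈ E1 W ord) (hnP : n • P = 0) : P = 0 := by
  rcases hP with rfl | ⟨x, y, h, rfl, hx, ho⟩
  · rfl
  exfalso
  obtain ⟨b, hb, hmem⟩ := two_nsmul_mem_poleSet_lt W hord h2 h2pos hW h hx ho
  obtain ⟨k, rfl⟩ := hn
  -- `P = (k+1) • (2 • P) - (2k+1) • P = (k+1) • (2 • P)`
  have hP' : (Point.some x y h : W.Point) = (k + 1) • (2 • Point.some x y h : W.Point) := by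
    have e : (k + 1) • (2 • Point.some x y h : W.Point) =
        (2 * k + 1) • Point.some x y h + Point.some x y h := by
      rw [smul_smul, ← succ_nsmul]
      congr 1
      ring
    rw [e, hnP, zero_add]
  have hmem' := poleSet_nsmul_mem W hord h2 hW (lt_trans hb ho) hmem (k + 1)
  rw [← hP'] at hmem'
  rcases hmem' with h0 | ⟨x', y', h', hEq, _, ho'⟩
  · exact Point.some_ne_zero h h0
  · rw [Point.some.injEq] at hEq
    obtain ⟨rfl, rfl⟩ := hEq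
    linarith

/-- integer-multiple version. -/
theorem E1_odd_torsion_free_zsmul (hord : IsOrd A ord) (h2 : (2 : K) ≠ 0)
    (h2pos : 0 < ord (2 : K)) (hW : IsIntegralW W A)
    {p : ℕ} (hp : Odd p) {P : W.Point} (hP : P ∈ E1 W ord) (hpP : (p : ℤ) • P = 0) : P = 0 := by
  rw [natCast_zsmul] at hpP
  exact E1_odd_torsion_free W hord h2 h2pos hW hp hP hpP

end E

end Fermat.Agent.S13.L2Pole
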