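/-
S13 package L2-congr (helper1): the congruence lemma and "inertia moves `E₀` into `E₁`" in EVERY
residue characteristic, for points where `Y = 2y + a₁x + a₃` is a unit (for the Frey curve at `2`
this is exactly the nonsingular locus of the reduction: `Y ≡ x`).

* `sub_mem_E1_of_congr_Y` : two integral points congruent mod `m`, `Y` a unit at the first one
  ⇒ their difference is in `E₁`.  NO hypothesis on `2` at all.
* `smul_sub_mem_E1_Y` : for an inertial `σ` and `P ∈ E₁` or `P` integral with `Y(P)` a unit: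
  `σ • P - P ∈ E₁`  (uses `L2Pole.E1_add_mem`, which needs `(2 : K) ≠ 0`).
* `smul_eq_of_torsion_Y` : if moreover `P` is `n`-torsion, `n` odd, and `0 < ord 2`, then `σ • P = P`.
-/
import Fermat.Prelude.Def_FLTPrelim_GaloisRep
import Fermat.Agent.S05.Defs
import Fermat.Agent.S05.OrdApi
import Fermat.Agent.S05.Congr
import Fermat.Agent.S13.L2Pole

set_option autoImplicit false
set_option linter.unusedSectionVars false

namespace Fermat.Agent.S13.L2Congr

open WeierstrassCurve WeierstrassCurve.Affine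
open Fermat.Agent.S05

section F
variable {K : Type*} [Field K] [DecidableEq K] {A : ValuationSubring K} {ord : K → ℚ}

/-- congruence lemma, `Y`-unit case, valid in every residue characteristic. -/
theorem sub_mem_E1_of_congr_Y (W : Affine K) (hord : IsOrd A ord) (hW : IsIntegralW W A)
    {x₁ y₁ x₂ y₂ : K} (h₁ : W.Nonsingular x₁ y₁) (h₂ : W.Nonsingular x₂ y₂)
    (hx₁ : x₁ ∈ A) (hU : IsU ord (Yc W x₁ y₁)) (hx₂ : x₂ ∈ A)
    (hx : x₁ - x₂ ∈ A.nonunits) (hy : y₁ - y₂ ∈ A.nonunits) :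
    Point.some x₁ y₁ h₁ - Point.some x₂ y₂ h₂ ∈ E1 W ord := by
  obtain ⟨ha1, ha2, ha3, ha4, ha6⟩ := hW
  by_cases hxx : x₁ = x₂
  · subst hxx
    rcases Y_eq_of_X_eq h₁.1 h₂.1 rfl with hyy | hyy
    · subst hyy
      rw [sub_self]
      exact Or.inl rfl
    · exfalso
      have : y₁ - y₂ = Yc W x₁ y₁ := by
        rw [hyy]; simp only [Yc, negY]; ring
      rw [this] at hy
      exact F_not_isU_of_mem_nonunits hord hy hU
  · have hd : x₁ - x₂ ≠ 0 := sub_ne_zero.mpr hxx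
    rw [sub_eq_add_neg, Point.neg_some, Point.add_of_X_ne hxx]
    refine Or.inr ⟨_, _, _, rfl, ?_⟩
    apply F_E1_of_not_mem hord
    set ℓ := W.slope x₁ x₂ y₁ (W.negY x₂ y₂) with hℓ
    have eℓ : ℓ * (x₁ - x₂) = y₁ - W.negY x₂ y₂ := by
      rw [hℓ, slope_of_X_ne hxx, div_mul_cancel₀ _ hd]
    -- the numerator of the slope is a unit
    have hNU : IsU ord (y₁ - W.negY x₂ y₂) := by
      have : y₁ - W.negY x₂ y₂ = Yc W x₁ y₁ - (y₁ - y₂) - W.a₁ * (x₁ - x₂) := by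
        simp only [Yc, negY]; ring
      rw [this]
      exact hord.IsU_sub_nonunit (hord.IsU_sub_nonunit hU hy) (F_mul_mem_nonunits ha1 hx)
    have hNA : y₁ - W.negY x₂ y₂ ∈ A := hord.IsU_mem hNU
    have he2 : (x₁ - x₂) ^ 2 ∈ A.nonunits := by
      rw [sq]; exact mul_mem hx hx
    have hform : 1 * W.addX x₁ x₂ ℓ * (x₁ - x₂) ^ 2 =
        (y₁ - W.negY x₂ y₂) ^ 2 + W.a₁ * (y₁ - W.negY x₂ y₂) * (x₁ - x₂)
          - (W.a₂ + x₁ + x₂) * (x₁ - x₂) ^ 2 := by
      simp only [addX]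
      rw [← eℓ]; ring
    have hR : IsU ord ((y₁ - W.negY x₂ y₂) ^ 2 + W.a₁ * (y₁ - W.negY x₂ y₂) * (x₁ - x₂)
          - (W.a₂ + x₁ + x₂) * (x₁ - x₂) ^ 2) := by
      refine hord.IsU_sub_nonunit (hord.IsU_add_nonunit (hord.IsU_pow hNU 2) ?_) ?_
      · exact F_mul_mem_nonunits (mul_mem ha1 hNA) hx
      · exact F_mul_mem_nonunits (add_mem (add_mem ha2 hx₁) hx₂) he2
    exact F_not_mem_of_mul_eq hord A.one_mem he2 hR hform

variable {k : Type*} [Field k] [Algebra k K] (W : Affine k)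

/-- an inertial automorphism maps `E₁` into `E₁`. -/
theorem smul_mem_E1 (hord : IsOrd A ord) (σ : K ≃ₐ[k] K) (hσ : IsInertial A σ)
    {P : (W⁄K).Point} (hP : P ∈ E1 (W⁄K) ord) : σ • P ∈ E1 (W⁄K) ord := by
  rcases hP with rfl | ⟨x, y, h, rfl, hx0, hxlt⟩
  · rw [smul_zero]; exact Or.inl rfl
  · obtain ⟨h', hsm⟩ : ∃ h' : (W⁄K).Nonsingular (σ x) (σ y),
        σ • (Point.some x y h : (W⁄K).Point) = Point.some (σ x) (σ y) h' := by
      rw [Point.algEquiv_smul_def]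
      exact ⟨_, Point.map_some (σ : K →ₐ[k] K) h⟩
    rw [hsm]
    refine Or.inr ⟨σ x, σ y, h', rfl, ?_⟩
    apply F_E1_of_not_mem hord
    have hxA : x ∉ A := (hord.not_mem_iff hx0).2 hxlt
    have hinv : x⁻¹ ∈ A.nonunits := A.inv_mem_nonunits_iff.2 (Or.inr hxA)
    have hinvA : x⁻¹ ∈ A := A.nonunits_subset hinv
    obtain ⟨-, hd⟩ := hσ x⁻¹ hinvA
    have hs : σ x⁻¹ ∈ A.nonunits := by
      have := add_mem hd hinv
      simpa using this
    rw [map_inv₀] at hs
    rcases A.inv_mem_nonunits_iff.1 hs with h0 | h0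
    · exact absurd ((map_eq_zero σ).1 h0) hx0
    · exact h0

/-- inertia moves a point of `E₁`, or an integral point with `Y` a unit, by an element of `E₁`.
Valid in every residue characteristic. -/
theorem smul_sub_mem_E1_Y (hord : IsOrd A ord) (h20 : (2 : K) ≠ 0)
    (hW : IsIntegralW (W⁄K) A) (σ : K ≃ₐ[k] K) (hσ : IsInertial A σ)
    {P : (W⁄K).Point}
    (hP : P ∈ E1 (W⁄K) ord ∨ ∃ (x y : K) (h : (W⁄K).Nonsingular x y),
      P = Point.some x y h ∧ x ∈ A ∧ IsU ord (Yc (W⁄K) x y)) :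
    σ • P - P ∈ E1 (W⁄K) ord := by
  rcases hP with hP | ⟨x, y, h, rfl, hxA, hU⟩
  · have hσP : σ • P ∈ E1 (W⁄K) ord := smul_mem_E1 W hord σ hσ hP
    have := L2Pole.E1_add_mem (W⁄K) hord h20 hW hσP (E1_neg_mem (W⁄K) hP)
    rwa [← sub_eq_add_neg] at this
  · obtain ⟨h', hsm⟩ : ∃ h' : (W⁄K).Nonsingular (σ x) (σ y),
        σ • (Point.some x y h : (W⁄K).Point) = Point.some (σ x) (σ y) h' := by
      rw [Point.algEquiv_smul_def]
      exact ⟨_, Point.map_some (σ : K →ₐ[k] K) h⟩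
    rw [hsm]
    have hyA : y ∈ A := F_y_mem (W⁄K) hW h.1 hxA
    obtain ⟨hσx, hdx⟩ := hσ x hxA
    obtain ⟨hσy, hdy⟩ := hσ y hyA
    have hdx' : x - σ x ∈ A.nonunits := by
      have := neg_mem hdx
      rwa [neg_sub] at this
    have hdy' : y - σ y ∈ A.nonunits := by
      have := neg_mem hdy
      rwa [neg_sub] at this
    have key := sub_mem_E1_of_congr_Y (W⁄K) hord hW h h' hxA hU hσx hdx' hdy'
    have := E1_neg_mem (W⁄K) key
    rwa [neg_sub] at this

/-- residue characteristic `2`: an inertial `σ` FIXES every odd-order torsion point which lies in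
`E₁` or is integral with `Y` a unit. -/
theorem smul_eq_of_torsion_Y (hord : IsOrd A ord) (h20 : (2 : K) ≠ 0) (h2pos : 0 < ord (2 : K))
    (hW : IsIntegralW (W⁄K) A) (σ : K ≃ₐ[k] K) (hσ : IsInertial A σ)
    {n : ℕ} (hn : Odd n) {P : (W⁄K).Point} (hnP : (n : ℤ) • P = 0)
    (hP : P ∈ E1 (W⁄K) ord ∨ ∃ (x y : K) (h : (W⁄K).Nonsingular x y),
      P = Point.some x y h ∧ x ∈ A ∧ IsU ord (Yc (W⁄K) x y)) :
    σ • P = P := by
  have key := smul_sub_mem_E1_Y W hord h20 hW σ hσ hP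
  have htors : (n : ℤ) • (σ • P - P) = 0 := by
    rw [smul_sub, ← Point.algEquiv_smul_zsmul, hnP, smul_zero, sub_zero]
  exact sub_eq_zero.1 (L2Pole.E1_odd_torsion_free_zsmul (W⁄K) hord h20 h2pos hW hn key htors)

end F

end Fermat.Agent.S13.L2Congr
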