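/-
S13 package L2-H (helper1): `K_points`, `K_dbl_points`, `torsion_w` in ALL residue characteristics.

These are the S05 statements `Fermat.Agent.S05.HCore.K_points / K_dbl_points / torsion_w`
(helper22) with the hypothesis `IsU ord 2` weakened to `(2 : K) ≠ 0`: the S05 proofs only ever
used `h2.1`.  The field-level inputs are still the propositions `S05.HCore.GKField / GKDbl / GKTwo`
(to be supplied at residue characteristic `2` by package L2-K).
-/
import Fermat.Agent.S05.InductionCore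

set_option autoImplicit false

namespace Fermat.Agent.S13.L2H

open WeierstrassCurve WeierstrassCurve.Affine
open Fermat.Agent.S05 Fermat.Agent.S05.HCore

set_option linter.unusedSectionVars false

section HI
variable {K : Type*} [Field K] [DecidableEq K] {ord : K → ℚ}

/-- (K) at the level of points. -/
theorem K_points (hG : GKField ord) (W : Affine K) (h20 : (2 : K) ≠ 0) {h : ℚ} (hh : 0 < h)
    {r : K} (hr : Fpoly W r = 0) (hβ : IsU ord (beta2 W r))
    (hα0 : alpha4 W r ≠ 0) (hα : ord (alpha4 W r) = h)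
    {x₁ y₁ x₂ y₂ : K} (h₁ : W.Nonsingular x₁ y₁) (h₂ : W.Nonsingular x₂ y₂) (hx : x₁ ≠ x₂) :
    let P := Point.some x₁ y₁ h₁
    let Q := Point.some x₂ y₂ h₂
    let s := wPt ord h r P
    let t := wPt ord h r Q
    (wPt ord h r (P + Q) = min (s + t) (2 * h - s - t) ∧ wPt ord h r (P - Q) = |s - t|) ∨
    (wPt ord h r (P + Q) = |s - t| ∧ wPt ord h r (P - Q) = min (s + t) (2 * h - s - t)) := by
  intro P Q s t
  obtain ⟨x₃, y₃, x₄, y₄, h₃, h₄, e₃, e₄, hN, hS, -, -⟩ := xadd W h20 h₁ h₂ hx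
  have hne : x₁ - r ≠ x₂ - r := fun hc => hx (sub_left_injective hc)
  have hN' : (x₃ - r) * (x₄ - r) * ((x₁ - r) - (x₂ - r)) ^ 2 =
      ((x₁ - r) * (x₂ - r) - alpha4 W r) ^ 2 := by
    rw [← Nnum_shift W h20 hr x₁ x₂, ← hN, ← hS]; ring
  have hS' : ((x₃ - r) + (x₄ - r)) * ((x₁ - r) - (x₂ - r)) ^ 2 =
      2 * ((x₁ - r) + (x₂ - r)) * ((x₁ - r) * (x₂ - r) + alpha4 W r)
        + beta2 W r * (x₁ - r) * (x₂ - r) := by
    rw [← Snum_shift W h20 hr x₁ x₂, ← hS]; ring
  have := hG hh hβ hα0 hα hne hN' hS'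
  show (wPt ord h r (P + Q) = min (s + t) (2 * h - s - t) ∧ wPt ord h r (P - Q) = |s - t|) ∨
    (wPt ord h r (P + Q) = |s - t| ∧ wPt ord h r (P - Q) = min (s + t) (2 * h - s - t))
  have eP : P + Q = Point.some x₃ y₃ h₃ := e₃
  have eQ : P - Q = Point.some x₄ y₄ h₄ := e₄
  rw [eP, eQ]
  exact this

theorem K_dbl_points (hD : GKDbl ord) (hT : GKTwo ord) (W : Affine K) (h20 : (2 : K) ≠ 0) {h : ℚ}
    (hh : 0 < h) {r : K} (hr : Fpoly W r = 0) (hβ : IsU ord (beta2 W r))
    (hα0 : alpha4 W r ≠ 0) (hα : ord (alpha4 W r) = h) (P : W.Point) :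
    wPt ord h r (P + P) = min (2 * wPt ord h r P) (2 * h - 2 * wPt ord h r P) := by
  cases P with
  | zero =>
    show wPt ord h r ((0 : W.Point) + 0) =
      min (2 * wPt ord h r (0 : W.Point)) (2 * h - 2 * wPt ord h r (0 : W.Point))
    rw [add_zero, H_wPt_zero]
    have : (0:ℚ) ≤ 2 * h - 2 * 0 := by linarith
    rw [mul_zero, min_eq_left (by linarith)]
  | some x y hxy =>
    have hFY : Yc W x y ^ 2 = (x - r) * (4 * (x - r) ^ 2 + beta2 W r * (x - r) + 4 * alpha4 W r) := by
      rw [Yc_sq W hxy.1, Fpoly_shift W h20 hr x]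
    by_cases hY : Yc W x y = 0
    · rw [xdbl_zero W h20 hxy hY, H_wPt_zero, H_wPt_some]
      have hden : (x - r) * (4 * (x - r) ^ 2 + beta2 W r * (x - r) + 4 * alpha4 W r) = 0 := by
        rw [← hFY, hY]; ring
      rcases hT hh hβ hα0 hα hden with h0 | h0 <;> rw [h0] <;> simp [hh.le]
    · obtain ⟨x₃, y₃, h₃, e₃, hx₃⟩ := xdbl W h20 hxy hY
      rw [e₃, H_wPt_some, H_wPt_some]
      have hden : (x - r) * (4 * (x - r) ^ 2 + beta2 W r * (x - r) + 4 * alpha4 W r) ≠ 0 := by
        rw [← hFY]; exact pow_ne_zero 2 hY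
      refine hD hh hβ hα0 hα hden ?_
      rw [← Fpoly_shift W h20 hr x, ← Phi2_shift W h20 hr x, ← hx₃]; ring

/-- the induction: `p · w(P) ∈ 2hℤ` for a `p`-torsion point, `p` odd. -/
theorem torsion_w (hG : GKField ord) (hD : GKDbl ord) (hT : GKTwo ord) (W : Affine K)
    (h20 : (2 : K) ≠ 0) {h : ℚ}
    (hh : 0 < h) {r : K} (hr : Fpoly W r = 0) (hβ : IsU ord (beta2 W r))
    (hα0 : alpha4 W r ≠ 0) (hα : ord (alpha4 W r) = h)
    {p : ℕ} (hp : p.Prime) (hp2 : p ≠ 2) {P : W.Point} (hpP : (p : ℤ) • P = 0) :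
    ∃ j : ℤ, (p : ℚ) * wPt ord h r P = 2 * h * j := by
  by_cases hP0 : P = 0
  · exact ⟨0, by rw [hP0, H_wPt_zero]; simp⟩
  have hpP' : p • P = 0 := by rwa [natCast_zsmul] at hpP
  set s := wPt ord h r P with hs
  have hne : ∀ n : ℕ, 0 < n → n < p → n • P ≠ 0 := fun n hn0 hnp =>
    H_nsmul_ne_zero hp hP0 hpP' hn0 hnp
  -- the main induction
  have main : ∀ m : ℕ, m + 1 < p →
      HRep h (m * s) (wPt ord h r (m • P)) ∧ HRep h ((m + 1) * s) (wPt ord h r ((m + 1) • P)) := by
    intro m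
    induction m with
    | zero =>
      intro _
      refine ⟨⟨0, Or.inl ?_⟩, ⟨0, Or.inl ?_⟩⟩
      · rw [zero_smul, H_wPt_zero]; simp
      · rw [zero_add, one_smul]; simp [hs]
    | succ m ih =>
      intro hm
      have ih' := ih (by omega)
      refine ⟨by exact_mod_cast ih'.2, ?_⟩
      rcases Nat.eq_zero_or_pos m with hm0 | hm0
      · -- doubling
        subst hm0
        have e : ((0 + 1 + 1 : ℕ)) • P = P + P := by rw [zero_add, two_nsmul]
        rw [e, L2H.K_dbl_points hD hT W h20 hh hr hβ hα0 hα P]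
        rcases min_choice (2 * wPt ord h r P) (2 * h - 2 * wPt ord h r P) with hc | hc
        · exact ⟨0, Or.inl (by rw [hc, ← hs]; push_cast; ring)⟩
        · exact ⟨1, Or.inr (by rw [hc, ← hs]; push_cast; ring)⟩
      · -- general step
        have hQ0 : (m + 1) • P ≠ 0 := hne (m + 1) (by omega) (by omega)
        obtain ⟨x₁, y₁, h₁, e₁⟩ := H_exists_some hQ0
        obtain ⟨x₂, y₂, h₂, e₂⟩ := H_exists_some hP0
        have hx : x₁ ≠ x₂ := by
          intro hx
          subst hx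
          rcases H_eq_or_eq_neg_of_x_eq h₁ h₂ with hc | hc
          · rw [← e₁, ← e₂] at hc
            apply hne m hm0 (by omega)
            rw [succ_nsmul] at hc
            exact add_eq_right.1 hc
          · rw [← e₁, ← e₂] at hc
            apply hne (m + 1 + 1) (by omega) hm
            rw [succ_nsmul P (m + 1), hc, neg_add_cancel]
        have hK := L2H.K_points hG W h20 hh hr hβ hα0 hα h₁ h₂ hx
        simp only [] at hK
        rw [← e₁, ← e₂] at hK
        have eadd : (m + 1) • P + P = (m + 1 + 1) • P := (succ_nsmul P (m + 1)).symm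
        have esub : (m + 1) • P - P = m • P := by rw [succ_nsmul, add_sub_cancel_right]
        rw [eadd, esub, ← hs] at hK
        have hF := HRep_fold (s := s) ih'.2
        have e1 : ((m : ℚ) + 1) * s + s = ((m + 1 + 1 : ℕ) : ℚ) * s := by push_cast; ring
        have e2 : ((m : ℚ) + 1) * s - s = (m : ℚ) * s := by ring
        rw [e1, e2] at hF
        have hw0 := fun Q : W.Point => H_wPt_nonneg (ord := ord) hh.le r Q
        have hwh := fun Q : W.Point => H_wPt_le (ord := ord) hh.le r Q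
        rcases hK with ⟨k1, k2⟩ | ⟨k1, k2⟩ <;> rcases hF with ⟨f1, f2⟩ | ⟨f1, f2⟩
        · rw [k1]; exact_mod_cast f1
        · -- a = b
          rw [← k1] at f1; rw [← k2] at f2
          have : wPt ord h r ((m + 1 + 1) • P) = wPt ord h r (m • P) :=
            HRep_uniq hh (hw0 _) (hwh _) (hw0 _) (hwh _) f1 ih'.1
          rw [this]; exact_mod_cast f2
        · rw [← k2] at f1; rw [← k1] at f2
          have : wPt ord h r ((m + 1 + 1) • P) = wPt ord h r (m • P) :=
            HRep_uniq hh (hw0 _) (hwh _) (hw0 _) (hwh _) f2 ih'.1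
          rw [this]; exact_mod_cast f1
        · rw [k1]; exact_mod_cast f2
  -- conclusion: `p = 2k+1`, `(k+1)P = -(kP)`
  obtain ⟨k, hk⟩ : ∃ k, p = 2 * k + 1 := by
    rcases hp.eq_two_or_odd' with h | h
    · exact absurd h hp2
    · exact h
  have hk1 : 1 ≤ k := by
    rcases Nat.eq_zero_or_pos k with h0 | h0
    · subst h0; exact absurd hk hp.ne_one
    · exact h0
  obtain ⟨m1, m2⟩ := main k (by omega)
  have hneg : (k + 1) • P = -(k • P) := by
    rw [eq_neg_iff_add_eq_zero, ← add_nsmul]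
    have : k + 1 + k = p := by omega
    rw [this, hpP']
  rw [hneg, H_wPt_neg] at m2
  obtain ⟨j, hj⟩ := HRep_final m1 m2
  refine ⟨j, ?_⟩
  rw [← hj, hk]; push_cast; ring

end HI

end Fermat.Agent.S13.L2H
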