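import Fermat.Agent.S13.L2K
import Fermat.Agent.S13.L2H

/-!
# S13, glue L2-K + L2-H (helper34): (K) for points and `torsion_w` for ANY `IsOrd`

`L2K.lean` proves the three field-level statements of package G with no hypothesis on `2`;
`L2H.lean` (helper93) derives the point-level statements from them assuming only `(2 : K) ≠ 0`.
Here they are combined: `K_points`, `K_dbl_points`, `torsion_w` with hypotheses
`hord : IsOrd A ord` and `h20 : (2 : K) ≠ 0` only (residue characteristic 2 allowed).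
-/

set_option autoImplicit false

namespace Fermat.Agent.S13.L2KH

open WeierstrassCurve WeierstrassCurve.Affine
open Fermat.Agent.S05 Fermat.Agent.S05.HCore

variable {K : Type*} [Field K] [DecidableEq K] {A : ValuationSubring K} {ord : K → ℚ}

omit [DecidableEq K] in
/-- the statement `GKField` holds for every `IsOrd`. -/
theorem gKField (hord : IsOrd A ord) : GKField ord :=
  fun hh _ _ hβ hα0 hα _ _ _ _ hne hN hS => L2K.K_field hord hh hβ hα0 hα hne hN hS

omit [DecidableEq K] in
/-- the statement `GKDbl` holds for every `IsOrd`. -/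
theorem gKDbl (hord : IsOrd A ord) : GKDbl ord :=
  fun hh _ _ hβ hα0 hα _ _ hden hr => L2K.K_dbl_field hord hh hβ hα0 hα hden hr

omit [DecidableEq K] in
/-- the statement `GKTwo` holds for every `IsOrd`. -/
theorem gKTwo (hord : IsOrd A ord) : GKTwo ord :=
  fun hh _ _ hβ hα0 hα _ hden => L2K.K_two_torsion_field hord hh hβ hα0 hα hden

/-- (K) at the level of points, any residue characteristic. -/
theorem K_points (hord : IsOrd A ord) (W : Affine K) (h20 : (2 : K) ≠ 0) {h : ℚ} (hh : 0 < h)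
    {r : K} (hr : Fpoly W r = 0) (hβ : IsU ord (beta2 W r))
    (hα0 : alpha4 W r ≠ 0) (hα : ord (alpha4 W r) = h)
    {x₁ y₁ x₂ y₂ : K} (h₁ : W.Nonsingular x₁ y₁) (h₂ : W.Nonsingular x₂ y₂) (hx : x₁ ≠ x₂) :
    let P := Point.some x₁ y₁ h₁
    let Q := Point.some x₂ y₂ h₂
    let s := wPt ord h r P
    let t := wPt ord h r Q
    (wPt ord h r (P + Q) = min (s + t) (2 * h - s - t) ∧ wPt ord h r (P - Q) = |s - t|) ∨
    (wPt ord h r (P + Q) = |s - t| ∧ wPt ord h r (P - Q) = min (s + t) (2 * h - s - t)) :=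
  L2H.K_points (gKField hord) W h20 hh hr hβ hα0 hα h₁ h₂ hx

/-- (K) for doubling at the level of points, any residue characteristic. -/
theorem K_dbl_points (hord : IsOrd A ord) (W : Affine K) (h20 : (2 : K) ≠ 0) {h : ℚ}
    (hh : 0 < h) {r : K} (hr : Fpoly W r = 0) (hβ : IsU ord (beta2 W r))
    (hα0 : alpha4 W r ≠ 0) (hα : ord (alpha4 W r) = h) (P : W.Point) :
    wPt ord h r (P + P) = min (2 * wPt ord h r P) (2 * h - 2 * wPt ord h r P) :=
  L2H.K_dbl_points (gKDbl hord) (gKTwo hord) W h20 hh hr hβ hα0 hα P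

/-- `p · w(P) ∈ 2hℤ` for a `p`-torsion point, `p` odd, any residue characteristic. -/
theorem torsion_w (hord : IsOrd A ord) (W : Affine K) (h20 : (2 : K) ≠ 0) {h : ℚ}
    (hh : 0 < h) {r : K} (hr : Fpoly W r = 0) (hβ : IsU ord (beta2 W r))
    (hα0 : alpha4 W r ≠ 0) (hα : ord (alpha4 W r) = h)
    {p : ℕ} (hp : p.Prime) (hp2 : p ≠ 2) {P : W.Point} (hpP : (p : ℤ) • P = 0) :
    ∃ j : ℤ, (p : ℚ) * wPt ord h r P = 2 * h * j :=
  L2H.torsion_w (gKField hord) (gKDbl hord) (gKTwo hord) W h20 hh hr hβ hα0 hα hp hp2 hpP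

end Fermat.Agent.S13.L2KH
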