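/-
S13 package L2a, ABSTRACT CORE (helper8): inertia at a place of residue characteristic `2` acts
unipotently on the odd-order torsion of a Weierstrass curve `y² + a₁xy = x³ + a₂x² + a₄x` with a
node at `(0,0)` (`0 < ord a₄`, `b₂` a unit).

* `ord_map_eq` : an inertial ring endomorphism preserves `ord` when `0 < ord 2`.
* `E1_or_Y_of_wPt_zero` : `w(R) = 0` ⇒ `R ∈ E₁` or `R` integral with `Y = 2y + a₁x + a₃` a unit.
* `unipotent_core` : `σ • (σ • Q - Q) = σ • Q - Q` for `p`-torsion `Q`, `p` an odd prime.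

Inputs: `L2KH` (K_points, torsion_w), `L2Congr` (smul_eq_of_torsion_Y), `L2Branch`.  No sorry.
-/
import Mathlib
import Fermat.Prelude.Def_FLTPrelim_GaloisRep
import Fermat.Agent.S05.Defs
import Fermat.Agent.S05.OrdApi
import Fermat.Agent.S05.MultMainCore
import Fermat.Agent.S13.L2KH
import Fermat.Agent.S13.L2Congr
import Fermat.Agent.S13.L2Branch

set_option autoImplicit false
set_option linter.unusedSectionVars false

namespace Fermat.Agent.S13.L2aCore

open WeierstrassCurve WeierstrassCurve.Affine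
open Fermat.Agent.S05

section ordmap

variable {K : Type*} [Field K] {A : ValuationSubring K} {ord : K → ℚ}

/-- An inertial ring endomorphism preserves `ord` as soon as `0 < ord 2`
(the value group is a subgroup of `ℚ`, `τ` fixes `2`, and `x ^ n / 2 ^ m` is a unit for suitable
`n > 0`, `m`). -/
theorem ord_map_eq (hord : IsOrd A ord) (h20 : (2 : K) ≠ 0) (h2pos : 0 < ord (2 : K))
    {τ : K →+* K} (hτ : IsInertial A τ) {x : K} (hx : x ≠ 0) : ord (τ x) = ord x := by
  set q : ℚ := ord x / ord (2 : K) with hq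
  have hn : (0 : ℚ) < q.den := by exact_mod_cast q.pos
  have hqe : (q.den : ℚ) * ord x = q.num * ord (2 : K) := by
    have h1 : q * q.den = q.num := Rat.mul_den_eq_num q
    have h2 : ord x = q * ord (2 : K) := by
      rw [hq]; field_simp
    rw [h2]
    linear_combination ord (2 : K) * h1
  have h2z : (2 : K) ^ q.num ≠ 0 := zpow_ne_zero _ h20
  set z : K := x ^ q.den * ((2 : K) ^ q.num)⁻¹ with hz
  have hz0 : z ≠ 0 := mul_ne_zero (pow_ne_zero _ hx) (inv_ne_zero h2z)
  have hzU : IsU ord z := by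
    refine ⟨hz0, ?_⟩
    rw [hz, hord.ord_mul (pow_ne_zero _ hx) (inv_ne_zero h2z), hord.ord_pow hx,
      hord.ord_inv h2z, hord.ord_zpow h20]
    linarith
  have hτz : IsU ord (τ z) := by
    have := hord.IsU_add_nonunit hzU (hτ z (hord.IsU_mem hzU)).2
    rwa [add_sub_cancel] at this
  have hτx : τ x ≠ 0 := (map_ne_zero τ).2 hx
  have hτz' : τ z = (τ x) ^ q.den * ((2 : K) ^ q.num)⁻¹ := by
    rw [hz, map_mul, map_pow, map_inv₀, map_zpow₀, map_ofNat]
  have h0 := hτz.2
  rw [hτz', hord.ord_mul (pow_ne_zero _ hτx) (inv_ne_zero h2z), hord.ord_pow hτx,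
    hord.ord_inv h2z, hord.ord_zpow h20] at h0
  have h3 : (q.den : ℚ) * ord (τ x) = q.den * ord x := by linarith
  exact mul_left_cancel₀ hn.ne' h3

end ordmap

section core

variable {K : Type*} [Field K] [DecidableEq K] {A : ValuationSubring K} {ord : K → ℚ}

/-- residue characteristic `2`, node at `(0,0)`: a point with `w = 0` is in `E₁` or is integral
with `Y = 2y + a₁x + a₃` a unit. -/
theorem E1_or_Y_of_wPt_zero (W : Affine K) (hord : IsOrd A ord) (h2pos : 0 < ord (2 : K))
    (hW : IsIntegralW W A) (hN : L2Branch.NodeZero W A ord) {h : ℚ} (hh : 0 < h)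
    {R : W.Point} (hR : wPt ord h 0 R = 0) :
    R ∈ E1 W ord ∨ ∃ (x y : K) (hxy : W.Nonsingular x y), R = Point.some x y hxy ∧
      x ∈ A ∧ IsU ord (Yc W x y) := by
  rcases R with _ | ⟨x, y, hxy⟩
  · exact Or.inl (Or.inl rfl)
  · have hR' : wK ord h (x - 0) = 0 := hR
    rw [sub_zero] at hR'
    unfold wK at hR'
    by_cases hξ : x = 0
    · rw [if_pos hξ] at hR'
      exact absurd hR' hh.ne'
    · rw [if_neg hξ] at hR'
      have hle : ord x ≤ 0 := by
        have h1 : min (ord x) h ≤ 0 := by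
          have := le_max_right 0 (min (ord x) h)
          rw [hR'] at this
          exact this
        rcases min_le_iff.mp h1 with h1 | h1
        · exact h1
        · exact absurd h1 (not_le.mpr hh)
      rcases lt_or_eq_of_le hle with hlt | heq
      · exact Or.inl (Or.inr ⟨x, y, hxy, rfl, hξ, hlt⟩)
      · right
        have hxU : IsU ord x := ⟨hξ, heq⟩
        have hxA : x ∈ A := hord.IsU_mem hxU
        refine ⟨x, y, hxy, rfl, hxA, ?_⟩
        obtain ⟨ha₁, ha₂, ha₃, ha₄, ha₆⟩ := hW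
        have h2m : (2 : K) ∈ A.nonunits := hord.mem_nonunits_of_pos h2pos
        have h4m : (4 : K) ∈ A.nonunits := by
          have : (4 : K) = 2 * 2 := by norm_num
          rw [this]
          exact L2Branch.nu_mul_left (L2Branch.nu_mem h2m) h2m
        -- `Y² = F(x) = 4x³ + b₂x² + 4a₄x`
        have hF : Yc W x y ^ 2 = W.b₂ * x ^ 2 + 4 * (x ^ 3 + W.a₄ * x) := by
          rw [MM.Yc_sq' W hxy.1]
          unfold Fpoly
          simp only [WeierstrassCurve.b₄, WeierstrassCurve.b₆, hN.a₃_eq, hN.a₆_eq]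
          ring
        have hU2 : IsU ord (Yc W x y ^ 2) := by
          rw [hF]
          refine hord.IsU_add_nonunit (hord.IsU_mul hN.b₂_unit (hord.IsU_pow hxU 2)) ?_
          exact L2Branch.nu_mul_right h4m
            (A.add_mem _ _ (pow_mem hxA 3) (A.mul_mem _ _ ha₄ hxA))
        have hne : Yc W x y ≠ 0 := fun h0 => hU2.1 (by rw [h0]; ring)
        refine ⟨hne, ?_⟩
        have := hU2.2
        rw [hord.ord_sq hne] at this
        linarith

variable {k : Type*} [Field k] [Algebra k K] (W : Affine k)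

/-- **L2a, abstract core.**  `σ` inertial at a place with `0 < ord 2`; the curve has a node at
`(0,0)` in the sense of `L2Branch.NodeZero` with `0 < ord a₄`.  Then `σ - 1` kills `(σ - 1) Q`
for every `p`-torsion point `Q`, `p` an odd prime. -/
theorem unipotent_core (hord : IsOrd A ord) (h20 : (2 : K) ≠ 0) (h2pos : 0 < ord (2 : K))
    (hW : IsIntegralW (W⁄K) A) (hN : L2Branch.NodeZero (W⁄K) A ord)
    (hh : 0 < ord (W⁄K).a₄)
    (σ : K ≃ₐ[k] K) (hσ : IsInertial A σ)
    {p : ℕ} (hp : p.Prime) (hp2 : p ≠ 2)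
    {Q : (W⁄K).Point} (hQ : (p : ℤ) • Q = 0) :
    σ • (σ • Q - Q) = σ • Q - Q := by
  set h : ℚ := ord (W⁄K).a₄ with hh_def
  have hodd : Odd p := hp.eq_two_or_odd'.resolve_left hp2
  have hr : Fpoly (W⁄K) 0 = 0 := hN.Fpoly_zero
  have hβ : IsU ord (beta2 (W⁄K) 0) := by rw [hN.beta2_zero]; exact hN.b₂_unit
  have hα0 : alpha4 (W⁄K) 0 ≠ 0 := by rw [hN.alpha4_zero h20]; exact hN.a₄_ne
  have hα : ord (alpha4 (W⁄K) 0) = h := by rw [hN.alpha4_zero h20]
  -- `w = 0` and `p`-torsion ⇒ fixed by `σ`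
  have fin : ∀ R : (W⁄K).Point, (p : ℤ) • R = 0 → wPt ord h 0 R = 0 → σ • R = R := by
    intro R hpR hR
    exact L2Congr.smul_eq_of_torsion_Y W hord h20 h2pos hW σ hσ hodd hpR
      (E1_or_Y_of_wPt_zero (W⁄K) hord h2pos hW hN hh hR)
  -- `p • (σ Q - Q) = 0`
  have hsσ : (p : ℤ) • (σ • Q - Q) = 0 := by
    rw [smul_sub, ← Point.algEquiv_smul_zsmul, hQ, smul_zero, sub_self]
  have triv : σ • Q = Q → σ • (σ • Q - Q) = σ • Q - Q := by
    intro hfix
    rw [hfix, sub_self, smul_zero]
  by_cases hs0 : wPt ord h 0 Q = 0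
  · exact triv (fin Q hQ hs0)
  rcases Q with _ | ⟨x, y, hxy⟩
  · exact absurd rfl hs0
  obtain ⟨j, hj⟩ := L2KH.torsion_w hord (W⁄K) h20 hh hr hβ hα0 hα hp hp2 hQ
  set s : ℚ := wPt ord h 0 (Point.some x y hxy) with hs_def
  have hs_w : s = wK ord h x := by
    show wK ord h (x - 0) = wK ord h x
    rw [sub_zero]
  have hs_pos : 0 < s := lt_of_le_of_ne (hs_w ▸ MM.wK_nonneg _ hh) (Ne.symm hs0)
  have hs_le : s ≤ h := hs_w ▸ MM.wK_le _ hh
  -- `s = h` is impossible since `p` is odd
  have hs_lt : s < h := by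
    rcases lt_or_eq_of_le hs_le with h3 | h3
    · exact h3
    · exfalso
      rw [h3] at hj
      have h4 : (p : ℚ) = 2 * j := by
        have : h * (p : ℚ) = h * (2 * j) := by linarith
        exact mul_left_cancel₀ hh.ne' this
      have h5 : (p : ℤ) = 2 * j := by exact_mod_cast h4
      have : Odd (p : ℤ) := by exact_mod_cast hodd
      rw [h5] at this
      exact (Int.not_odd_iff_even.mpr (even_two_mul j)) this
  -- hence `x ≠ 0` and `0 < ord x = s < h`
  have hx0 : x ≠ 0 := by
    rintro rfl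
    rw [hs_w] at hs_lt
    unfold wK at hs_lt
    rw [if_pos rfl] at hs_lt
    exact lt_irrefl _ hs_lt
  have hsx : s = ord x := by
    rw [hs_w]
    have h1 : wK ord h x = max 0 (min (ord x) h) := by
      unfold wK
      rw [if_neg hx0]
    rw [h1]
    have h2 : 0 < max 0 (min (ord x) h) := by rw [← h1, ← hs_w]; exact hs_pos
    have h3 : max 0 (min (ord x) h) < h := by rw [← h1, ← hs_w]; exact hs_lt
    have h4 : max 0 (min (ord x) h) = min (ord x) h := by
      rcases max_choice 0 (min (ord x) h) with h5 | h5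
      · rw [h5] at h2; exact absurd h2 (lt_irrefl _)
      · exact h5
    rw [h4] at h3 ⊢
    rcases min_choice (ord x) h with h5 | h5
    · exact h5
    · rw [h5] at h3; exact absurd h3 (lt_irrefl _)
  have hox0 : 0 < ord x := hsx ▸ hs_pos
  have hoxh : ord x < h := hsx ▸ hs_lt
  -- the point `σ Q`
  obtain ⟨h', hsm⟩ : ∃ h' : (W⁄K).Nonsingular (σ x) (σ y),
      σ • (Point.some x y hxy : (W⁄K).Point) = Point.some (σ x) (σ y) h' := by
    rw [Point.algEquiv_smul_def]
    exact ⟨_, Point.map_some (σ : K →ₐ[k] K) hxy⟩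
  have hτ : IsInertial A ((σ : K →+* K)) := hσ
  have hσx : ord (σ x) = ord x := ord_map_eq hord h20 h2pos hτ hx0
  have hσx0 : σ x ≠ 0 := (map_ne_zero σ).2 hx0
  -- same branch
  have hbrA : L2Branch.br x y ∈ A := (L2Branch.br_mem hord hN hxy.1 hx0 hox0 hoxh).1
  have hsame : L2Branch.br (σ x) (σ y) - L2Branch.br x y ∈ A.nonunits :=
    L2Branch.br_map_sub_mem hτ hbrA
  by_cases hxx : σ x = x
  · -- `σ Q = ± Q`, and `-Q` is on the other branch
    apply triv
    rw [hsm]
    have h'' : (W⁄K).Equation x (σ y) := by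
      have := h'.1
      rwa [hxx] at this
    have hsame' : L2Branch.br x (σ y) - L2Branch.br x y ∈ A.nonunits := by
      rwa [hxx] at hsame
    have hy : σ y = y := L2Branch.Y_eq_of_same_branch hord hN hxy.1 h'' hx0 hox0 hoxh hsame'
    simp only [hxx, hy]
  · -- branch lemma + (K): `w(σQ - Q) = 0`
    have hK := L2KH.K_points hord (W⁄K) h20 hh hr hβ hα0 hα h' hxy hxx
    have hw : wPt ord h 0 (Point.some (σ x) (σ y) h' - Point.some x y hxy) = 0 :=
      L2Branch.wPt_sub_eq_zero hord hN hh h' hxy hxx hσx0 hx0 (hσx ▸ hox0) (hσx ▸ hoxh)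
        (hσx ▸ hoxh) hσx.symm hsame hK
    rw [← hsm] at hw
    exact fin _ hsσ hw

end core

end Fermat.Agent.S13.L2aCore
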