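/-
S13 package L2a, Frey instantiation (helper77): inertia at `2` acts unipotently on `E[p]` of the
Frey curve, in the exact Interface shape `L2UnipotentStmt`.
Wires `L2aCore.unipotent_core` (helper8) with the Frey constants at `2` of `L2Frey2` (helper98),
`S05.exists_ord` and `S05.isInertial_of_mem`.  No sorry.
-/
import Fermat.Agent.S13.Interface
import Fermat.Agent.S13.L2aCore
import Fermat.Agent.S13.L2Frey2
import Fermat.Agent.S05.OrdConstruct
import Fermat.Agent.S05.Inertia

set_option autoImplicit false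

namespace Fermat.Agent.S13.L2a

open WeierstrassCurve WeierstrassCurve.Affine
open Fermat.Agent.S05

/-- the Frey curve has a node at `(0,0)` at every place over `2` (in the sense of `L2Branch`). -/
theorem frey_nodeZero (P : FreyPackage) {A : ValuationSubring Qb} {ord : Qb → ℚ}
    (hQ : ∀ x : ℚ, x ≠ 0 → ord (algebraMap ℚ Qb x) = padicValRat 2 x) :
    L2Branch.NodeZero (P.freyCurve⁄Qb) A ord := by
  have hW := L2Frey2.frey_isIntegralW P A
  refine ⟨L2Frey2.bc_a₃ P, L2Frey2.bc_a₆ P, hW.1, hW.2.1, ?_, ?_⟩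
  · rw [← L2Frey2.alpha4_zero_eq_a₄]; exact L2Frey2.alpha4_ne_zero P
  · have h := L2Frey2.isU_beta2 P hQ
    rwa [beta2, mul_zero, add_zero] at h

/-- **[L2a]** inertia at `2` acts unipotently on the `p`-torsion of the Frey curve. -/
theorem l2Unipotent : L2UnipotentStmt := by
  intro P A hA σ hσ Q hQ
  obtain ⟨ord, hord, hQo⟩ := exists_ord A Nat.prime_two hA
  have hin : IsInertial A σ := isInertial_of_mem A σ hσ
  have h2pos : 0 < ord (2 : Qb) := by rw [L2Frey2.ord_two hQo]; norm_num
  have hp2 : P.p ≠ 2 := by have := P.hp5; omega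
  have hh : 0 < ord (P.freyCurve⁄Qb).a₄ := by
    rw [← L2Frey2.alpha4_zero_eq_a₄, L2Frey2.ord_alpha4 P hQo]
    exact L2Frey2.hNat_pos_rat P
  exact L2aCore.unipotent_core P.freyCurve hord L2Frey2.two_ne_zero_Qb h2pos
    (L2Frey2.frey_isIntegralW P A) (frey_nodeZero P hQo) hh σ hin P.pp hp2 hQ

end Fermat.Agent.S13.L2a
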