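/-
S13 package L2b (helper93): the Frey curve has no rational point of order `p`
(`Interface.L2NoRationalStmt`).  Everything happens over `ℚ` with the 2-adic valuation:
`w`-invariant at the node `x ≡ 0` (S05 `wPt`, `L2KH.torsion_w`), `E₁` has no odd torsion in
residue characteristic 2 (`L2Pole`), and a congruence lemma (the case "`2y+a₁x+a₃` is a unit").
All proofs closed.
-/
import Fermat.Agent.S13.Interface
import Fermat.Agent.S13.L2KH
import Fermat.Agent.S13.L2Pole
import Fermat.Agent.S05.OrdApi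
import Fermat.Agent.S05.KFieldAux
import Fermat.Agent.S05.Frey
import Fermat.Agent.S05.Congr

set_option autoImplicit false

namespace Fermat.Agent.S13.L2b

open WeierstrassCurve WeierstrassCurve.Affine
open Fermat.Agent.S05 Fermat.Agent.S05.KF

/-! ### The congruence lemma, case `Yc` unit (any residue characteristic) -/

section congr

variable {K : Type*} [Field K] [DecidableEq K] {A : ValuationSubring K} {ord : K → ℚ}

/-- Two integral affine points which are congruent modulo the maximal ideal, the first one with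
`2y+a₁x+a₃` a unit, differ by an element of `E₁`. -/
theorem sub_mem_E1_of_congr_Yc (W : Affine K) (hord : IsOrd A ord) (hW : IsIntegralW W A)
    {x₁ y₁ x₂ y₂ : K} (h₁ : W.Nonsingular x₁ y₁) (h₂ : W.Nonsingular x₂ y₂)
    (hx₂ : x₂ ∈ A) (hx : x₁ - x₂ ∈ A.nonunits) (hy : y₁ - y₂ ∈ A.nonunits)
    (hY : IsU ord (Yc W x₁ y₁)) :
    Point.some x₁ y₁ h₁ - Point.some x₂ y₂ h₂ ∈ E1 W ord := by
  have hneg : -Point.some x₂ y₂ h₂ = Point.some x₂ (W.negY x₂ y₂) ((nonsingular_neg ..).mpr h₂) :=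
    rfl
  -- the numerator `y₁ - negY x₂ y₂ = Yc - (y₁-y₂) - a₁ (x₁-x₂)` is a unit
  have hnum : y₁ - W.negY x₂ y₂ = Yc W x₁ y₁ - (y₁ - y₂) - W.a₁ * (x₁ - x₂) := by
    simp only [negY, Yc]; ring
  have ha₁x : W.a₁ * (x₁ - x₂) ∈ A.nonunits := by
    rcases eq_or_ne (W.a₁ * (x₁ - x₂)) 0 with h0 | h0
    · rw [h0]; exact hord.mem_nonunits_iff_or.2 (Or.inl rfl)
    · have ha : W.a₁ ≠ 0 := left_ne_zero_of_mul h0
      have hd : x₁ - x₂ ≠ 0 := right_ne_zero_of_mul h0
      refine hord.mem_nonunits_of_pos ?_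
      rw [hord.map_mul ha hd]
      have := hord.nonneg_of_mem ha hW.1
      have := hord.pos_of_mem_nonunits hd hx
      linarith
  have hnumU : IsU ord (y₁ - W.negY x₂ y₂) := by
    rw [hnum]
    exact hord.IsU_sub_nonunit (hord.IsU_sub_nonunit hY hy) ha₁x
  by_cases hxe : x₁ = x₂
  · -- same `x`: the points are equal (else `Yc` would be a nonunit)
    subst hxe
    rcases Y_eq_of_X_eq h₁.1 h₂.1 rfl with hyy | hyy
    · subst hyy
      rw [sub_self]; exact Or.inl rfl
    · exfalso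
      rw [hyy, sub_self] at hnumU
      exact hnumU.1 rfl
  · -- different `x`: the slope has negative valuation
    have hd : x₁ - x₂ ≠ 0 := sub_ne_zero.mpr hxe
    have hdpos : 0 < ord (x₁ - x₂) := hord.pos_of_mem_nonunits hd hx
    rw [sub_eq_add_neg, hneg, Point.add_of_X_ne hxe]
    set ℓ := W.slope x₁ x₂ y₁ (W.negY x₂ y₂) with hℓ
    have hℓ' : ℓ = (y₁ - W.negY x₂ y₂) / (x₁ - x₂) := by
      rw [hℓ, slope_of_X_ne hxe]
    have eℓ : EQ ord (0 - ord (x₁ - x₂)) ℓ := by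
      rw [hℓ']
      exact EQ.div hord hnumU ⟨hd, rfl⟩
    have hℓneg : ord ℓ < 0 := by rw [eℓ.2]; linarith
    -- `addX = ℓ² + a₁ ℓ - a₂ - x₁ - x₂`
    have eX : W.addX x₁ x₂ ℓ = ℓ ^ 2 + (W.a₁ * ℓ - W.a₂ - x₁ - x₂) := by
      simp only [addX]; ring
    have gA : ∀ {z : K}, z ∈ A → GE ord 0 z := fun {z} hz => by
      rcases eq_or_ne z 0 with h0 | h0
      · exact Or.inl h0
      · exact Or.inr (hord.nonneg_of_mem h0 hz)
    have hx₁ : x₁ ∈ A := by
      have : x₁ = (x₁ - x₂) + x₂ := by ring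
      rw [this]; exact A.add_mem _ _ (hord.nonunits_subset hx) hx₂
    have e2 : EQ ord (2 * ord ℓ) (ℓ ^ 2) := EQ.sq hord ⟨eℓ.1, rfl⟩
    have g1 : GT ord (2 * ord ℓ) (W.a₁ * ℓ) := by
      have := GE.mul hord (gA hW.1) (EQ.ge ⟨eℓ.1, rfl⟩ le_rfl : GE ord (ord ℓ) ℓ)
      exact this.gt (by linarith)
    have g0 : ∀ {z : K}, z ∈ A → GT ord (2 * ord ℓ) z := fun {z} hz =>
      (gA hz).gt (by linarith)
    have gsum : GT ord (2 * ord ℓ) (W.a₁ * ℓ - W.a₂ - x₁ - x₂) := by
      have h := GT.add hord (GT.add hord (GT.add hord g1 (GT.neg hord (g0 hW.2.1)))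
        (GT.neg hord (g0 hx₁))) (GT.neg hord (g0 hx₂))
      have e : W.a₁ * ℓ + -W.a₂ + -x₁ + -x₂ = W.a₁ * ℓ - W.a₂ - x₁ - x₂ := by ring
      rwa [e] at h
    have eAdd : EQ ord (2 * ord ℓ) (W.addX x₁ x₂ ℓ) := by
      rw [eX]; exact EQ.add_gt hord e2 gsum
    refine Or.inr ⟨_, _, _, rfl, eAdd.1, ?_⟩
    rw [eAdd.2]; linarith

end congr

/-! ### the 2-adic valuation on `ℚ` -/

/-- the 2-adic valuation ring of `ℚ`. -/
noncomputable def A2 : ValuationSubring ℚ := (Rat.padicValuation 2).valuationSubring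

/-- the 2-adic additive valuation on `ℚ`, with values in `ℚ`. -/
def ord2 (x : ℚ) : ℚ := (padicValRat 2 x : ℚ)

theorem isOrd2 : IsOrd A2 ord2 where
  map_mul := by
    intro x y hx hy
    simp only [ord2]
    rw [padicValRat.mul hx hy]; push_cast; ring
  mem_iff := by
    intro x hx
    simp only [A2, ord2, Valuation.mem_valuationSubring_iff, Rat.padicValuation]
    simp only [Valuation.coe_mk, MonoidWithZeroHom.coe_mk, ZeroHom.coe_mk, hx, if_false]
    rw [← WithZero.exp_zero, WithZero.exp_le_exp]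
    constructor
    · intro h; have : (0 : ℤ) ≤ padicValRat 2 x := by linarith
      exact_mod_cast this
    · intro h; have : (0 : ℤ) ≤ padicValRat 2 x := by exact_mod_cast h
      linarith

theorem ord2_two : ord2 2 = 1 := by
  simp only [ord2]
  have : padicValRat 2 (2 : ℚ) = 1 := by
    have := padicValRat.self (p := 2) (by norm_num)
    exact_mod_cast this
  rw [this]; norm_num

theorem two_mem_nonunits : (2 : ℚ) ∈ A2.nonunits :=
  isOrd2.mem_nonunits_of_pos (by rw [ord2_two]; norm_num)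

/-- `z / n` with `z` even and `n` odd lies in the maximal ideal. -/
theorem int_div_mem_nonunits {z : ℤ} {n : ℕ} (hz : (2 : ℤ) ∣ z) (hn : ¬ 2 ∣ n) :
    (z : ℚ) / n ∈ A2.nonunits := by
  rw [isOrd2.mem_nonunits_iff_or]
  rcases eq_or_ne z 0 with rfl | hz0
  · left; simp
  · right
    simp only [ord2]
    rw [J_padicValRat_int_div Nat.prime_two z n hz0 hn]
    have : 0 < padicValRat 2 (z : ℚ) := J_padicValRat_int_pos Nat.prime_two z hz0 (by exact_mod_cast hz)
    rw [padicValRat.of_int] at this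
    exact_mod_cast this

/-- the residue field of `A2` has two elements. -/
theorem mem_A2_cases {y : ℚ} (hy : y ∈ A2) : y ∈ A2.nonunits ∨ y - 1 ∈ A2.nonunits := by
  have hden : ¬ 2 ∣ y.den := by
    have : Rat.padicValuation 2 y ≤ 1 := (Valuation.mem_valuationSubring_iff _ _).1 hy
    exact Rat.padicValuation_le_one_iff.1 this
  have hy' : y = (y.num : ℚ) / (y.den : ℚ) := (Rat.num_div_den y).symm
  rcases Int.even_or_odd y.num with he | ho
  · left
    rw [hy']
    exact int_div_mem_nonunits he.two_dvd hden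
  · right
    have hd : Odd (y.den : ℤ) := by
      rw [← Int.not_even_iff_odd, even_iff_two_dvd]
      intro h; exact hden (by exact_mod_cast h)
    have he : (2 : ℤ) ∣ y.num - y.den := (ho.sub_odd hd).two_dvd
    have h := int_div_mem_nonunits he hden
    have e : y - 1 = ((y.num - y.den : ℤ) : ℚ) / (y.den : ℚ) := by
      have hd0 : (y.den : ℚ) ≠ 0 := by exact_mod_cast y.den_ne_zero
      rw [eq_div_iff hd0]
      push_cast
      nth_rewrite 1 [hy']
      field_simp
    rw [e]; exact h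

/-! ### the Frey curve at the prime 2 (over `ℚ`) -/

section frey2

variable (P : FreyPackage)

theorem two_dvd_b : (2 : ℤ) ∣ P.b := (ZMod.intCast_zmod_eq_zero_iff_dvd P.b 2).1 P.hb2

theorem not_two_dvd_a : ¬ (2 : ℤ) ∣ P.a := by
  intro h
  have h1 : (2 : ℤ) ∣ 1 := by
    have := dvd_gcd h (two_dvd_b P)
    rwa [P.hgcdab] at this
  norm_num at h1

theorem four_dvd_a₂_num : (4 : ℤ) ∣ P.b ^ P.p - 1 - P.a ^ P.p := by
  have hb4 : (4 : ℤ) ∣ P.b ^ P.p := by
    obtain ⟨k, hk⟩ := two_dvd_b P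
    obtain ⟨m, hm⟩ : ∃ m, P.p = 2 + m := ⟨P.p - 2, by have := P.hp5; omega⟩
    rw [hk, hm, mul_pow, pow_add]
    exact ⟨2 ^ m * k ^ (2 + m), by ring⟩
  have ha : ((P.a ^ P.p : ℤ) : ZMod 4) = 3 := by
    push_cast
    rw [P.ha4]
    obtain ⟨k, hk⟩ := P.hp_odd
    rw [hk, pow_succ, pow_mul]
    have : (3 : ZMod 4) ^ 2 = 1 := by decide
    rw [this, one_pow, one_mul]
  have h4 : ((P.b ^ P.p - 1 - P.a ^ P.p : ℤ) : ZMod 4) = 0 := by
    have hb0 : ((P.b ^ P.p : ℤ) : ZMod 4) = 0 :=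
      (ZMod.intCast_zmod_eq_zero_iff_dvd _ 4).2 hb4
    rw [Int.cast_sub, Int.cast_sub, hb0, ha]
    decide
  exact (ZMod.intCast_zmod_eq_zero_iff_dvd _ 4).1 h4

theorem sixteen_dvd_a₄_num : (16 : ℤ) ∣ -(P.a ^ P.p) * P.b ^ P.p := by
  obtain ⟨k, hk⟩ := two_dvd_b P
  obtain ⟨m, hm⟩ : ∃ m, P.p = 4 + m := ⟨P.p - 4, by have := P.hp5; omega⟩
  rw [hk, hm, mul_pow, pow_add]
  exact ⟨-(P.a ^ (4 + m)) * (2 ^ m * k ^ (4 + m)), by ring⟩

theorem intCast_mem_A2 (n : ℤ) : (n : ℚ) ∈ A2 := intCast_mem A2 n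

/-- the Frey curve is integral at `2`. -/
theorem frey_integral2 : IsIntegralW P.freyCurve A2 := by
  refine ⟨?_, ?_, ?_, ?_, ?_⟩
  · simp only [FreyPackage.freyCurve]; exact A2.one_mem
  · obtain ⟨k, hk⟩ := four_dvd_a₂_num P
    have e : P.freyCurve.a₂ = ((k : ℤ) : ℚ) := by
      simp only [FreyPackage.freyCurve]
      have : ((P.b : ℚ) ^ P.p - 1 - (P.a : ℚ) ^ P.p) = ((4 * k : ℤ) : ℚ) := by
        rw [← hk]; push_cast; ring
      rw [this]; push_cast; ring
    rw [e]; exact intCast_mem_A2 k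
  · simp only [FreyPackage.freyCurve]; exact A2.zero_mem
  · obtain ⟨k, hk⟩ := sixteen_dvd_a₄_num P
    have e : P.freyCurve.a₄ = ((k : ℤ) : ℚ) := by
      simp only [FreyPackage.freyCurve]
      have : (-((P.a : ℚ) ^ P.p) * (P.b : ℚ) ^ P.p) = ((16 * k : ℤ) : ℚ) := by
        rw [← hk]; push_cast; ring
      rw [this]; push_cast; ring
    rw [e]; exact intCast_mem_A2 k
  · simp only [FreyPackage.freyCurve]; exact A2.zero_mem

/-- an odd integer is a 2-adic unit. -/
theorem isU_intCast_odd {z : ℤ} (hz : ¬ (2 : ℤ) ∣ z) : IsU ord2 (z : ℚ) := by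
  have hz0 : z ≠ 0 := fun h => hz (h ▸ dvd_zero _)
  refine ⟨by exact_mod_cast hz0, ?_⟩
  simp only [ord2]
  rw [padicValRat.of_int, padicValInt.eq_zero_of_not_dvd (by exact_mod_cast hz)]
  simp

/-- the 2-adic valuation of `b`. -/
noncomputable def v2b : ℕ := padicValInt 2 P.b

theorem v2b_pos : 1 ≤ v2b P := by
  have := (padicValInt_dvd_iff (p := 2) 1 P.b).1 (by simpa using two_dvd_b P)
  rcases this with h | h
  · exact absurd h P.hb0
  · exact h

theorem frA_isU : IsU ord2 (frA P) := by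
  have h : ¬ (2 : ℤ) ∣ P.a ^ P.p := fun h =>
    not_two_dvd_a P (Int.prime_two.dvd_of_dvd_pow h)
  have := isU_intCast_odd h
  simpa [frA] using this

theorem frB_ne_zero : frB P ≠ 0 := by
  simp only [frB]
  exact pow_ne_zero _ (by exact_mod_cast P.hb0)

theorem ord2_frB : ord2 (frB P) = (P.p : ℚ) * (v2b P : ℚ) := by
  have hb : ((P.b : ℤ) : ℚ) ≠ 0 := by exact_mod_cast P.hb0
  simp only [frB]
  rw [isOrd2.ord_pow hb]
  simp only [ord2, v2b]
  rw [padicValRat.of_int]
  push_cast; ring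

/-- `h = ord₂ (a₄) = p v₂(b) - 4`. -/
noncomputable def hh : ℚ := (P.p : ℚ) * (v2b P : ℚ) - 4

theorem hh_pos : 0 < hh P := by
  have h5 : (5 : ℚ) ≤ P.p := by exact_mod_cast P.hp5
  have h1 : (1 : ℚ) ≤ v2b P := by exact_mod_cast v2b_pos P
  simp only [hh]
  nlinarith

theorem ord2_sixteen : ord2 16 = 4 := by
  have : (16 : ℚ) = 2 ^ 4 := by norm_num
  rw [this, isOrd2.ord_pow (by norm_num), ord2_two]; norm_num

theorem frey_Fpoly_zero : Fpoly P.freyCurve 0 = 0 := by
  simp only [Fpoly, frey_b₆]; ring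

theorem frey_alpha4 : alpha4 P.freyCurve 0 = -(frA P * frB P) / 16 := by
  simp only [alpha4, frey_b₄]; ring

theorem frey_alpha4_ne : alpha4 P.freyCurve 0 ≠ 0 := by
  rw [frey_alpha4]
  exact div_ne_zero (neg_ne_zero.2 (mul_ne_zero (frA_isU P).1 (frB_ne_zero P))) (by norm_num)

theorem frey_ord_alpha4 : ord2 (alpha4 P.freyCurve 0) = hh P := by
  rw [frey_alpha4, isOrd2.ord_div (neg_ne_zero.2 (mul_ne_zero (frA_isU P).1 (frB_ne_zero P)))
    (by norm_num), isOrd2.ord_neg, isOrd2.ord_mul (frA_isU P).1 (frB_ne_zero P), (frA_isU P).2,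
    ord2_frB, ord2_sixteen, hh]
  ring

theorem frey_beta2_isU : IsU ord2 (beta2 P.freyCurve 0) := by
  have h : ¬ (2 : ℤ) ∣ P.b ^ P.p - P.a ^ P.p := by
    intro h
    have hb : (2 : ℤ) ∣ P.b ^ P.p := dvd_pow (two_dvd_b P) P.hp0
    have : (2 : ℤ) ∣ P.a ^ P.p := by
      have := dvd_sub hb h
      simpa using this
    exact not_two_dvd_a P (Int.prime_two.dvd_of_dvd_pow this)
  have := isU_intCast_odd h
  have e : beta2 P.freyCurve 0 = ((P.b ^ P.p - P.a ^ P.p : ℤ) : ℚ) := by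
    simp only [beta2, frey_b₂, frA, frB]; push_cast; ring
  rw [e]; exact this

end frey2


/-! ### the main argument over `ℚ` -/

section main

variable (P : FreyPackage)

theorem p_ne_two : P.p ≠ 2 := by have := P.hp5; omega

/-- arithmetic core: `p n = 2 (p v - 4) j` with `0 < n < p v - 4` is impossible. -/
theorem arith_core {p : ℕ} (hp : p.Prime) (hp5 : 5 ≤ p) {v : ℕ} {n j : ℤ}
    (h : (p : ℤ) * n = 2 * ((p : ℤ) * v - 4) * j) (hn0 : 0 < n) (hn : n < (p : ℤ) * v - 4) :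
    False := by
  have hpZ : Prime (p : ℤ) := Nat.prime_iff_prime_int.1 hp
  have h8 : (p : ℤ) ∣ 8 * j := ⟨2 * v * j - n, by linarith⟩
  have hpj : (p : ℤ) ∣ j := by
    rcases hpZ.dvd_or_dvd h8 with h | h
    · exfalso
      have h2 : (p : ℤ) ∣ 2 := by
        have : (8 : ℤ) = 2 ^ 3 := by norm_num
        rw [this] at h
        exact hpZ.dvd_of_dvd_pow h
      have := Int.le_of_dvd (by norm_num) h2
      have : (5 : ℤ) ≤ p := by exact_mod_cast hp5
      omega
    · exact h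
  obtain ⟨j', rfl⟩ := hpj
  have hp0 : (p : ℤ) ≠ 0 := hpZ.ne_zero
  have e : n = 2 * ((p : ℤ) * v - 4) * j' := by
    apply mul_left_cancel₀ hp0
    rw [h]; ring
  rcases le_or_gt j' 0 with hj | hj
  · nlinarith
  · have : 1 ≤ j' := hj
    nlinarith

/-- the `x`-coordinate of a rational nonzero `p`-torsion point of the Frey curve is a 2-adic
unit. -/
theorem x_isU_of_torsion {x y : ℚ} (h : P.freyCurve.toAffine.Nonsingular x y)
    (hpQ : (P.p : ℤ) • (Point.some x y h : P.freyCurve.toAffine.Point) = 0) : IsU ord2 x := by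
  obtain ⟨j, hj⟩ := L2KH.torsion_w isOrd2 P.freyCurve.toAffine (two_ne_zero) (hh_pos P)
    (frey_Fpoly_zero P) (frey_beta2_isU P) (frey_alpha4_ne P) (frey_ord_alpha4 P) P.pp
    (p_ne_two P) hpQ
  have hw : wPt ord2 (hh P) 0 (Point.some x y h : P.freyCurve.toAffine.Point)
      = wK ord2 (hh P) x := by
    simp only [wPt, sub_zero]
  rw [hw] at hj
  have hhpos := hh_pos P
  -- the case `w = h` is impossible
  have caseH : wK ord2 (hh P) x = hh P → False := by
    intro e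
    rw [e] at hj
    have h1 : (P.p : ℚ) = 2 * j := by
      have : (hh P) * (P.p : ℚ) = (hh P) * (2 * j) := by linarith
      exact mul_left_cancel₀ hhpos.ne' this
    have h2 : (P.p : ℤ) = 2 * j := by exact_mod_cast h1
    obtain ⟨k, hk⟩ := P.hp_odd
    omega
  by_cases hx0 : x = 0
  · exfalso
    apply caseH
    simp [wK, hx0]
  refine ⟨hx0, ?_⟩
  have hwK : wK ord2 (hh P) x = max 0 (min (ord2 x) (hh P)) := by
    simp [wK, hx0]
  rcases lt_trichotomy (ord2 x) 0 with hneg | hzero | hpos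
  · -- `x` not integral: the point lies in `E₁`, which has no odd torsion
    exfalso
    have hE : (Point.some x y h : P.freyCurve.toAffine.Point) ∈ E1 P.freyCurve.toAffine ord2 :=
      Or.inr ⟨x, y, h, rfl, hx0, hneg⟩
    have := L2Pole.E1_odd_torsion_free_zsmul P.freyCurve.toAffine isOrd2 two_ne_zero
      (by rw [ord2_two]; norm_num) (frey_integral2 P) P.hp_odd hE hpQ
    exact Point.some_ne_zero _ this
  · exact hzero
  · exfalso
    rcases le_or_gt (hh P) (ord2 x) with hge | hlt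
    · apply caseH
      rw [hwK, min_eq_right hge, max_eq_right hhpos.le]
    · rw [hwK, min_eq_left hlt.le, max_eq_right hpos.le] at hj
      simp only [ord2, hh] at hj hpos hlt
      have hj' : (P.p : ℤ) * padicValRat 2 x = 2 * ((P.p : ℤ) * (v2b P : ℤ) - 4) * j := by
        exact_mod_cast hj
      have h1 : (0 : ℤ) < padicValRat 2 x := by exact_mod_cast hpos
      have h2 : padicValRat 2 x < (P.p : ℤ) * (v2b P : ℤ) - 4 := by exact_mod_cast hlt
      exact arith_core P.pp P.hp5 hj' h1 h2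

end main


/-! ### counting modulo 2 -/

section count

theorem nonunits_add {K : Type*} [Field K] {A : ValuationSubring K} {a b : K}
    (ha : a ∈ A.nonunits) (hb : b ∈ A.nonunits) : a + b ∈ A.nonunits := by
  rw [ValuationSubring.mem_nonunits_iff] at *
  exact lt_of_le_of_lt (A.valuation.map_add _ _) (max_lt ha hb)

theorem nonunits_neg {K : Type*} [Field K] {A : ValuationSubring K} {a : K}
    (ha : a ∈ A.nonunits) : -a ∈ A.nonunits := by
  rw [ValuationSubring.mem_nonunits_iff] at *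
  rwa [Valuation.map_neg]

theorem nonunits_sub {K : Type*} [Field K] {A : ValuationSubring K} {a b : K}
    (ha : a ∈ A.nonunits) (hb : b ∈ A.nonunits) : a - b ∈ A.nonunits := by
  rw [sub_eq_add_neg]; exact nonunits_add ha (nonunits_neg hb)

variable (P : FreyPackage)

/-- two distinct rational `p`-torsion points cannot have congruent `y`-coordinates mod 2. -/
theorem pair_false {x₁ y₁ x₂ y₂ : ℚ} (h₁ : P.freyCurve.toAffine.Nonsingular x₁ y₁)
    (h₂ : P.freyCurve.toAffine.Nonsingular x₂ y₂)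
    (t₁ : (P.p : ℤ) • (Point.some x₁ y₁ h₁ : P.freyCurve.toAffine.Point) = 0)
    (t₂ : (P.p : ℤ) • (Point.some x₂ y₂ h₂ : P.freyCurve.toAffine.Point) = 0)
    (hne : (Point.some x₁ y₁ h₁ : P.freyCurve.toAffine.Point) ≠ Point.some x₂ y₂ h₂)
    (hy : y₁ - y₂ ∈ A2.nonunits) : False := by
  have u₁ := x_isU_of_torsion P h₁ t₁
  have u₂ := x_isU_of_torsion P h₂ t₂
  have hx₁A : x₁ ∈ A2 := isOrd2.IsU_mem u₁
  have hx₂A : x₂ ∈ A2 := isOrd2.IsU_mem u₂
  have c₁ : x₁ - 1 ∈ A2.nonunits :=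
    (mem_A2_cases hx₁A).resolve_left (isOrd2.isU_iff_mem_not_nonunits.1 u₁).2
  have c₂ : x₂ - 1 ∈ A2.nonunits :=
    (mem_A2_cases hx₂A).resolve_left (isOrd2.isU_iff_mem_not_nonunits.1 u₂).2
  have hx : x₁ - x₂ ∈ A2.nonunits := by
    have : x₁ - x₂ = (x₁ - 1) - (x₂ - 1) := by ring
    rw [this]; exact nonunits_sub c₁ c₂
  have hW := frey_integral2 P
  have hy₁A : y₁ ∈ A2 := F_y_mem P.freyCurve.toAffine hW h₁.1 hx₁A
  have hY : IsU ord2 (Yc P.freyCurve.toAffine x₁ y₁) := by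
    have e : Yc P.freyCurve.toAffine x₁ y₁ = x₁ + 2 * y₁ := by
      simp only [Yc, FreyPackage.freyCurve]; ring
    rw [e]
    refine isOrd2.IsU_add_nonunit u₁ ?_
    rw [mul_comm]
    exact F_mul_mem_nonunits hy₁A two_mem_nonunits
  have hE := sub_mem_E1_of_congr_Yc P.freyCurve.toAffine isOrd2 hW h₁ h₂ hx₂A hx hy hY
  have ht : (P.p : ℤ) • ((Point.some x₁ y₁ h₁ : P.freyCurve.toAffine.Point)
      - Point.some x₂ y₂ h₂) = 0 := by
    rw [zsmul_sub, t₁, t₂, sub_zero]
  have := L2Pole.E1_odd_torsion_free_zsmul P.freyCurve.toAffine isOrd2 two_ne_zero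
    (by rw [ord2_two]; norm_num) hW P.hp_odd hE ht
  exact hne (sub_eq_zero.1 this)

/-- the Frey curve has no rational point of order `p` (over `ℚ`). -/
theorem no_torsion_rat {x₀ y₀ : ℚ} (h : P.freyCurve.toAffine.Nonsingular x₀ y₀) :
    (P.p : ℤ) • (Point.some x₀ y₀ h : P.freyCurve.toAffine.Point) ≠ 0 := by
  intro hp
  set P₀ : P.freyCurve.toAffine.Point := Point.some x₀ y₀ h with hP₀
  have hP0 : P₀ ≠ 0 := Point.some_ne_zero _
  have hpn : P.p • P₀ = 0 := by rwa [natCast_zsmul] at hp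
  have hne : ∀ n : ℕ, 0 < n → n < P.p → n • P₀ ≠ 0 := fun n hn0 hnp =>
    HCore.H_nsmul_ne_zero P.pp hP0 hpn hn0 hnp
  have h5 := P.hp5
  have tors : ∀ n : ℕ, (P.p : ℤ) • (n • P₀) = 0 := fun n => by
    rw [natCast_zsmul, smul_comm, hpn, nsmul_zero]
  obtain ⟨x₂, y₂, h₂, e₂⟩ := HCore.H_exists_some (hne 2 (by norm_num) (by omega))
  obtain ⟨x₃, y₃, h₃, e₃⟩ := HCore.H_exists_some (hne 3 (by norm_num) (by omega))
  have t₁ : (P.p : ℤ) • (Point.some x₀ y₀ h : P.freyCurve.toAffine.Point) = 0 := hp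
  have t₂ : (P.p : ℤ) • (Point.some x₂ y₂ h₂ : P.freyCurve.toAffine.Point) = 0 := by
    rw [← e₂]; exact tors 2
  have t₃ : (P.p : ℤ) • (Point.some x₃ y₃ h₃ : P.freyCurve.toAffine.Point) = 0 := by
    rw [← e₃]; exact tors 3
  -- the three points are pairwise distinct
  have n12 : (Point.some x₀ y₀ h : P.freyCurve.toAffine.Point) ≠ Point.some x₂ y₂ h₂ := by
    rw [← e₂]; intro he
    apply hne 1 (by norm_num) (by omega)
    have : (2 : ℕ) • P₀ = P₀ + P₀ := two_nsmul P₀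
    rw [this] at he
    rw [one_smul]
    have : P₀ + 0 = P₀ + P₀ := by rw [add_zero]; exact he
    exact (add_left_cancel this).symm
  have n23 : (Point.some x₂ y₂ h₂ : P.freyCurve.toAffine.Point) ≠ Point.some x₃ y₃ h₃ := by
    rw [← e₂, ← e₃]; intro he
    apply hne 1 (by norm_num) (by omega)
    have : (3 : ℕ) • P₀ = 2 • P₀ + P₀ := succ_nsmul P₀ 2
    rw [this] at he
    rw [one_smul]
    have : 2 • P₀ + 0 = 2 • P₀ + P₀ := by rw [add_zero]; exact he
    exact (add_left_cancel this).symm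
  have n13 : (Point.some x₀ y₀ h : P.freyCurve.toAffine.Point) ≠ Point.some x₃ y₃ h₃ := by
    rw [← e₃]; intro he
    apply hne 2 (by norm_num) (by omega)
    have : (3 : ℕ) • P₀ = P₀ + 2 • P₀ := succ_nsmul' P₀ 2
    rw [this] at he
    have : P₀ + 0 = P₀ + 2 • P₀ := by rw [add_zero]; exact he
    exact (add_left_cancel this).symm
  -- integrality of the `y`'s
  have hW := frey_integral2 P
  have hy₁A : y₀ ∈ A2 :=
    F_y_mem P.freyCurve.toAffine hW h.1 (isOrd2.IsU_mem (x_isU_of_torsion P h t₁))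
  have hy₂A : y₂ ∈ A2 :=
    F_y_mem P.freyCurve.toAffine hW h₂.1 (isOrd2.IsU_mem (x_isU_of_torsion P h₂ t₂))
  have hy₃A : y₃ ∈ A2 :=
    F_y_mem P.freyCurve.toAffine hW h₃.1 (isOrd2.IsU_mem (x_isU_of_torsion P h₃ t₃))
  rcases mem_A2_cases (sub_mem hy₁A hy₂A) with c12 | c12
  · exact pair_false P h h₂ t₁ t₂ n12 c12
  rcases mem_A2_cases (sub_mem hy₂A hy₃A) with c23 | c23
  · exact pair_false P h₂ h₃ t₂ t₃ n23 c23
  have c13 : y₀ - y₃ ∈ A2.nonunits := by
    have : y₀ - y₃ = ((y₀ - y₂ - 1) + (y₂ - y₃ - 1)) + 2 := by ring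
    rw [this]
    exact nonunits_add (nonunits_add c12 c23) two_mem_nonunits
  exact pair_false P h h₃ t₁ t₃ n13 c13

end count


/-! ### transfer to `ℚ̄` -/

section transfer

/-- `no_torsion_rat` for any curve equal to the Frey curve (to absorb `W⁄ℚ = W`). -/
theorem no_torsion_rat' (P : FreyPackage) (W' : Affine ℚ) (hW' : W' = P.freyCurve)
    {x₀ y₀ : ℚ} (h : W'.Nonsingular x₀ y₀) :
    (P.p : ℤ) • (Point.some x₀ y₀ h : W'.Point) ≠ 0 := by
  subst hW'
  exact no_torsion_rat P h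

/-- [L2b] the Frey curve has no rational point of order `p`. -/
theorem l2NoRational : L2NoRationalStmt := by
  intro P x₀ y₀ h hp
  let f : ℚ →ₐ[ℚ] Qb := Algebra.ofId ℚ Qb
  have h' : (P.freyCurve⁄ℚ).Nonsingular x₀ y₀ :=
    (WeierstrassCurve.Affine.baseChange_nonsingular (W := P.freyCurve) (f := f)
      f.injective x₀ y₀).mp h
  have hmap : Point.map (W' := P.freyCurve) f (Point.some x₀ y₀ h') = Point.some _ _ h := rfl
  have h0 : (P.p : ℤ) • (Point.some x₀ y₀ h' : (P.freyCurve⁄ℚ).Point) = 0 := by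
    apply Point.map_injective (W' := P.freyCurve) f
    rw [map_zsmul, hmap, hp, map_zero]
  exact no_torsion_rat' P (P.freyCurve⁄ℚ) (WeierstrassCurve.map_id _) h' h0

end transfer

end Fermat.Agent.S13.L2b
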