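/-
S13 package [MINK] (helper67, second seat): a normal open subgroup of `G_ℚ` containing, for every
prime, the inertia group of at least one valuation ring over it, is everything.

STEP A: `MinkStmt` from the finite-level lifting statement `LiftStmt`.
-/
import Mathlib
import Fermat.Agent.S13.Interface
import Fermat.Agent.Lib.FrobeniusExists
import Fermat.Agent.Lib.InertiaGenerate

set_option autoImplicit false

open NumberField IntermediateField

namespace Fermat.Agent.S13.Mink67

open Fermat.Agent.Lib.FrobeniusExists (isIntegral_int_mem)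

attribute [local instance] Fermat.Agent.Lib.FrobeniusExists.isAlgebraic_Qb
  Fermat.Agent.Lib.FrobeniusExists.isAlgClosure_Qb Fermat.Agent.Lib.FrobeniusExists.isGalois_Qb

/-- The lifting statement: an automorphism of a finite Galois subfield `F` which is trivial modulo
the maximal ideal of `A` on the integers of `F` is the restriction of an element of the inertia
group of `A`. -/
def LiftStmt : Prop :=
  ∀ (F : IntermediateField ℚ Qb) [FiniteDimensional ℚ F] [IsGalois ℚ F]
    (A : ValuationSubring Qb) (q : ℕ), q.Prime → A.LiesOverPrime q →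
    ∀ τ : F ≃ₐ[ℚ] F,
      (∀ x : F, IsIntegral ℤ x → ((τ x : F) : Qb) - (x : Qb) ∈ A.nonunits) →
      ∃ σ : GQ, σ ∈ A.inertiaSubgroupIn ℚ ∧ ∀ x : F, σ (x : Qb) = ((τ x : F) : Qb)

section StepA

variable (F : IntermediateField ℚ Qb) [FiniteDimensional ℚ F]

instance numberField_F : NumberField F where
  to_charZero := inferInstance
  to_finiteDimensional := inferInstance

variable (A : ValuationSubring Qb)

/-- The inclusion `𝓞 F → A`. -/
noncomputable def toA : 𝓞 F →+* A :=
  RingHom.codRestrict ((algebraMap F Qb).comp (algebraMap (𝓞 F) F)) A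
    (fun x => isIntegral_int_mem A (by
      have h1 : IsIntegral ℤ (x : F) := x.2
      exact h1.map (IsScalarTower.toAlgHom ℤ F Qb)))

/-- The prime of `𝓞 F` under the maximal ideal of `A`. -/
noncomputable def primeUnder : Ideal (𝓞 F) :=
  Ideal.comap (toA F A) (IsLocalRing.maximalIdeal A)

instance : (primeUnder F A).IsPrime := by
  unfold primeUnder
  infer_instance

theorem mem_primeUnder_iff (x : 𝓞 F) :
    x ∈ primeUnder F A ↔ ((x : F) : Qb) ∈ A.nonunits := by
  unfold primeUnder
  rw [Ideal.mem_comap, ← ValuationSubring.coe_mem_nonunits_iff]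
  rfl

/-- If every element of the finite-level inertia group of `primeUnder F A` is trivial, the prime is
unramified. -/
theorem isUnramifiedAt_of_inertia_trivial [IsGalois ℚ F] {q : ℕ} (hq : q.Prime)
    (hA : A.LiesOverPrime q)
    (h : ∀ τ : F ≃ₐ[ℚ] F,
      (∀ x : F, IsIntegral ℤ x → ((τ x : F) : Qb) - (x : Qb) ∈ A.nonunits) → τ = 1) :
    Algebra.IsUnramifiedAt ℤ (primeUnder F A) := by
  let _ : MulSemiringAction Gal(F/ℚ) (𝓞 F) := IsIntegralClosure.MulSemiringAction ℤ ℚ F (𝓞 F)
  have := IsGaloisGroup.of_isFractionRing Gal(F/ℚ) ℤ (𝓞 F) ℚ F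
  set P := primeUnder F A with hP
  have hqP : ((q : ℤ) : 𝓞 F) ∈ P := by
    rw [mem_primeUnder_iff]
    have h1 : (((((q : ℤ) : 𝓞 F)) : F) : Qb) = (q : Qb) := by simp
    rw [h1]
    exact hA
  have hqprime : Prime (q : ℤ) := Nat.prime_iff_prime_int.mp hq
  have hlies : P.LiesOver (Ideal.span {(q : ℤ)}) :=
    (Ideal.liesOver_span_iff Ideal.IsPrime.ne_top' hqprime).mpr hqP
  have hspan : (Ideal.span {(q : ℤ)}).IsPrime :=
    (Ideal.span_singleton_prime hqprime.ne_zero).mpr hqprime
  have hcard := Ideal.card_inertia_eq_ramificationIdxIn (G := Gal(F/ℚ)) (Ideal.span {(q : ℤ)}) P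
  rw [← Ideal.ramificationIdx_eq_one_iff,
    ← Ideal.ramificationIdxIn_eq_ramificationIdx (Ideal.span {(q : ℤ)}) P Gal(F/ℚ), ← hcard,
    Subgroup.card_eq_one, Subgroup.eq_bot_iff_forall]
  intro τ hτ
  apply h τ
  intro x hx
  obtain ⟨x', rfl⟩ : ∃ x' : 𝓞 F, (x' : F) = x := ⟨⟨x, hx⟩, rfl⟩
  have h1 : τ • x' - x' ∈ primeUnder F A := (hτ x')
  rw [mem_primeUnder_iff] at h1
  have h2 : ((τ • x' : 𝓞 F) : F) = τ (x' : F) := algebraMap_galRestrict_apply ℤ τ x'
  have h3 : (((τ • x' - x' : 𝓞 F) : F) : Qb) = ((τ (x' : F) : F) : Qb) - ((x' : F) : Qb) := by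
    rw [← h2]
    push_cast
    rfl
  rw [← h3]
  exact h1

end StepA

/-- **STEP A**: `MinkStmt` follows from the lifting statement. -/
theorem mink_of_lift (hlift : LiftStmt) : MinkStmt := by
  intro S hS M hM hMS hin
  have hopen : IsOpen (S : Set GQ) :=
    Subgroup.isOpen_mono hMS (IntermediateField.fixingSubgroup_isOpen M)
  have hclosed : IsClosed (S : Set GQ) := Subgroup.isClosed_of_isOpen S hopen
  let H : ClosedSubgroup GQ := ⟨S, hclosed⟩
  set F : IntermediateField ℚ Qb := IntermediateField.fixedField S with hF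
  have hSF : F.fixingSubgroup = S := InfiniteGalois.fixingSubgroup_fixedField H
  have hgal : IsGalois ℚ F := (InfiniteGalois.normal_iff_isGalois F).mp (by rw [hSF]; exact hS)
  have hfin : FiniteDimensional ℚ F :=
    (InfiniteGalois.isOpen_iff_finite F).mp (by rw [hSF]; exact hopen)
  suffices h1 : Module.finrank ℚ F = 1 by
    have hbot : F = ⊥ := IntermediateField.finrank_eq_one_iff.mp h1
    rw [← hSF, hbot]
    exact IntermediateField.fixingSubgroup_bot
  by_contra hne
  have hlt : 1 < Module.finrank ℚ F := by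
    have : 0 < Module.finrank ℚ F := Module.finrank_pos
    omega
  obtain ⟨p, hp, hram⟩ :=
    NumberField.exists_not_isUnramifiedAt_int_of_isGalois (K := F) (𝒪 := 𝓞 F) hlt
  obtain ⟨A, hA, hIA⟩ := hin p hp
  have hpP : ((p : ℕ) : 𝓞 F) ∈ primeUnder F A := by
    rw [mem_primeUnder_iff]
    have h1 : (((((p : ℕ) : 𝓞 F)) : F) : Qb) = (p : Qb) := by simp
    rw [h1]
    exact hA
  refine hram (primeUnder F A) inferInstance hpP ?_
  refine isUnramifiedAt_of_inertia_trivial F A hp hA ?_
  intro τ hτ
  obtain ⟨σ, hσI, hσ⟩ := hlift F A p hp hA τ hτ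
  have hσS : σ ∈ F.fixingSubgroup := by rw [hSF]; exact hIA hσI
  ext x
  have h2 := hσ x
  have h3 : σ (x : Qb) = (x : Qb) := (IntermediateField.mem_fixingSubgroup_iff F σ).mp hσS x x.2
  rw [h3] at h2
  exact h2.symm

section StepB

open Fermat.Agent.Lib.InertiaGenerate

attribute [local instance] Fermat.Agent.Lib.InertiaGenerate.algOK

/-- The lifting statement, from helper42's lifting lemma. -/
theorem liftStmt : LiftStmt := by
  intro F _ _ A q hq hA τ hτ
  obtain ⟨σ, hσI, hσ⟩ := exists_mem_inertiaSubgroupIn_restrict F hq A hA τ (by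
    intro x
    show τ • x - x ∈ (center A).under (𝓞 F)
    rw [Ideal.mem_comap, algebraMap_OK_apply, mem_center, coe_ιK]
    have h1 := hτ (x : F) x.2
    have h2 : ((τ • x : 𝓞 F) : F) = τ (x : F) := rfl
    have h3 : (((τ • x - x : 𝓞 F) : F) : Qb) = ((τ (x : F) : F) : Qb) - ((x : F) : Qb) := by
      rw [← h2]
      push_cast
      rfl
    rw [h3]
    exact h1)
  refine ⟨σ, hσI, fun x => ?_⟩
  rw [← hσ]
  exact (AlgEquiv.restrictNormal_commutes σ F x).symm

/-- **[MINK]** in the exact shape of the S13 interface. -/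
theorem mink : MinkStmt := mink_of_lift liftStmt

end StepB

end Fermat.Agent.S13.Mink67
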