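/-
S13 package [T-ex] (helper43): `Asm.TNontrivStmt`, i.e. every elliptic curve over `ℚ̄` has a nonzero
`p`-torsion point, from `Fermat.Agent.Lib.TorsionExists` (Wronskian of `L(p·O)` + Mathlib's
class-group definition of the group law).  No sorry.
-/
import Fermat.Agent.S13.Assembly
import Fermat.Agent.Lib.TorsionExists.Corollary

set_option autoImplicit false

namespace Fermat.Agent.S13.TNontriv43

open WeierstrassCurve WeierstrassCurve.Affine

/-- [T-ex] a nonzero `p`-torsion point exists (exact `Assembly.lean` shape). -/
theorem tNontriv : Fermat.Agent.S13.Asm.TNontrivStmt :=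
  fun W hΔ p hp _ => Fermat.Agent.Lib.TorsionExists.nontrivial_torsionBy W hΔ p hp.two_le

end Fermat.Agent.S13.TNontriv43
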