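/-
S13, package MASS (blueprint 7, helper86).

`A` a valuation subring of a field `K`.  If `c • ∏ (X - r)` (product over a multiset `s` of roots)
has all its coefficients in `A`, then `c * ∏_{r ∈ s, r ∉ A} r ∈ A`; in terms of a `ℚ`-valued
additive valuation `ord` of `A` (S05 `IsOrd`): `∑_{r ∈ s, r ∉ A} (- ord r) ≤ ord c`.
Roots form for monic split polynomials and the counting contradiction used in the
"supersingular type" case of S13.  Complete proofs.
-/
import Mathlib
import Fermat.Agent.S05.Defs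
import Fermat.Agent.S05.OrdApi

set_option autoImplicit false

namespace Fermat.Agent.S13.Mass

open Polynomial Fermat.Agent.S05

open scoped Classical

variable {K : Type*} [Field K] (A : ValuationSubring K)

/-- all coefficients of `f` lie in the valuation subring `A`. -/
def IsInt (f : K[X]) : Prop := ∀ i, f.coeff i ∈ A

variable {A}

theorem isInt_C {c : K} (hc : c ∈ A) : IsInt A (C c) := by
  intro i
  rw [coeff_C]
  split_ifs
  · exact hc
  · exact A.zero_mem

theorem IsInt.mem_of_C {c : K} (h : IsInt A (C c)) : c ∈ A := by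
  have := h 0
  rwa [coeff_C_zero] at this

theorem IsInt.C_mul {f : K[X]} (hf : IsInt A f) {a : K} (ha : a ∈ A) : IsInt A (C a * f) := by
  intro i
  rw [coeff_C_mul]
  exact A.mul_mem _ _ ha (hf i)

theorem coeff_X_sub_C_mul_succ (r : K) (g : K[X]) (k : ℕ) :
    ((X - C r) * g).coeff (k + 1) = g.coeff k - r * g.coeff (k + 1) := by
  rw [sub_mul, coeff_sub, coeff_X_mul, coeff_C_mul]

theorem coeff_X_sub_C_mul_zero (r : K) (g : K[X]) :
    ((X - C r) * g).coeff 0 = - (r * g.coeff 0) := by
  rw [sub_mul, coeff_sub, coeff_X_mul_zero, coeff_C_mul, zero_sub]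

/-- integral root: divide it out. -/
theorem isInt_of_X_sub_C_mul_of_mem {r : K} (hr : r ∈ A) {g : K[X]}
    (h : IsInt A ((X - C r) * g)) : IsInt A g := by
  have key : ∀ n k : ℕ, g.natDegree + 1 ≤ k + n → g.coeff k ∈ A := by
    intro n
    induction n with
    | zero =>
      intro k hk
      rw [coeff_eq_zero_of_natDegree_lt (by omega)]
      exact A.zero_mem
    | succ n ih =>
      intro k hk
      have h1 := h (k + 1)
      rw [coeff_X_sub_C_mul_succ] at h1
      have h2 : g.coeff (k + 1) ∈ A := ih (k + 1) (by omega)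
      have h3 : g.coeff k = (g.coeff k - r * g.coeff (k + 1)) + r * g.coeff (k + 1) := by ring
      rw [h3]
      exact A.add_mem _ _ h1 (A.mul_mem _ _ hr h2)
  intro k
  exact key (g.natDegree + 1) k (by omega)

/-- non-integral root: move it into the constant. -/
theorem isInt_of_X_sub_C_mul_of_not_mem {r : K} (hr : r ∉ A) {g : K[X]}
    (h : IsInt A ((X - C r) * g)) : IsInt A (C r * g) := by
  have hu : r⁻¹ ∈ A := (A.mem_or_inv_mem r).resolve_left hr
  have hr0 : r ≠ 0 := fun h0 => hr (h0 ▸ A.zero_mem)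
  intro k
  rw [coeff_C_mul]
  induction k with
  | zero =>
    have h0 := h 0
    rw [coeff_X_sub_C_mul_zero] at h0
    have := A.neg_mem _ h0
    rwa [neg_neg] at this
  | succ k ih =>
    have h1 := h (k + 1)
    rw [coeff_X_sub_C_mul_succ] at h1
    have h3 : r * g.coeff (k + 1) =
        r⁻¹ * (r * g.coeff k) - (g.coeff k - r * g.coeff (k + 1)) := by
      field_simp
      ring
    rw [h3]
    exact sub_mem (A.mul_mem _ _ hu ih) h1

/-- **MASS, membership form.** -/
theorem mul_prod_filter_mem (s : Multiset K) :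
    ∀ c : K, IsInt A (C c * (s.map (fun r => X - C r)).prod) →
      c * (s.filter (fun r => r ∉ A)).prod ∈ A := by
  induction s using Multiset.induction_on with
  | empty =>
    intro c h
    simp only [Multiset.map_zero, Multiset.prod_zero, mul_one, Multiset.filter_zero] at h ⊢
    exact h.mem_of_C
  | cons r s ih =>
    intro c h
    rw [Multiset.map_cons, Multiset.prod_cons, mul_left_comm] at h
    by_cases hr : r ∈ A
    · have h' := isInt_of_X_sub_C_mul_of_mem hr h
      rw [Multiset.filter_cons_of_neg (p := fun r => r ∉ A) s (not_not.2 hr)]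
      exact ih c h'
    · have h' := isInt_of_X_sub_C_mul_of_not_mem hr h
      rw [← mul_assoc, ← C_mul] at h'
      rw [Multiset.filter_cons_of_pos (p := fun r => r ∉ A) s hr, Multiset.prod_cons,
        ← mul_assoc, mul_comm c r]
      exact ih (r * c) h'

section ord

variable {ord : K → ℚ}

theorem prod_ne_zero_of_forall {s : Multiset K} (hs : ∀ r ∈ s, r ≠ 0) : s.prod ≠ 0 := by
  intro h
  rw [Multiset.prod_eq_zero_iff] at h
  exact hs 0 h rfl

theorem ord_multiset_prod (hord : IsOrd A ord) (s : Multiset K) (hs : ∀ r ∈ s, r ≠ 0) :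
    ord s.prod = (s.map ord).sum := by
  induction s using Multiset.induction_on with
  | empty => simp [hord.ord_one]
  | cons r s ih =>
    have hs' : ∀ r ∈ s, r ≠ 0 := fun x hx => hs x (Multiset.mem_cons_of_mem hx)
    rw [Multiset.prod_cons, Multiset.map_cons, Multiset.sum_cons,
      hord.ord_mul (hs r (Multiset.mem_cons_self r s)) (prod_ne_zero_of_forall hs'), ih hs']

/-- **MASS, `ord` form.** -/
theorem sum_neg_ord_le (hord : IsOrd A ord) {c : K} (hc : c ≠ 0) (s : Multiset K)
    (h : IsInt A (C c * (s.map (fun r => X - C r)).prod)) :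
    ((s.filter (fun r => r ∉ A)).map (fun r => - ord r)).sum ≤ ord c := by
  have hmem := mul_prod_filter_mem s c h
  have hne : ∀ r ∈ s.filter (fun r => r ∉ A), r ≠ 0 := by
    intro r hr h0
    rw [Multiset.mem_filter] at hr
    exact hr.2 (h0 ▸ A.zero_mem)
  have hp := prod_ne_zero_of_forall hne
  have h1 := hord.nonneg_of_mem (mul_ne_zero hc hp) hmem
  rw [hord.ord_mul hc hp, ord_multiset_prod hord _ hne] at h1
  have h2 : ((s.filter (fun r => r ∉ A)).map (fun r => - ord r)).sum =
      - ((s.filter (fun r => r ∉ A)).map ord).sum := by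
    rw [Multiset.sum_map_neg]
  rw [h2]
  linarith

/-- **MASS, roots form**: `θ` monic and split. -/
theorem sum_neg_ord_roots_le (hord : IsOrd A ord) {c : K} (hc : c ≠ 0) {θ : K[X]}
    (hθ : θ.Monic) (hsplit : θ.roots.card = θ.natDegree) (h : IsInt A (C c * θ)) :
    ((θ.roots.filter (fun r => r ∉ A)).map (fun r => - ord r)).sum ≤ ord c := by
  apply sum_neg_ord_le hord hc
  rwa [prod_multiset_X_sub_C_of_monic_of_roots_card_eq hθ hsplit]

/-- **MASS, counted form**: a finite set `T` of non-integral roots, counted with multiplicity. -/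
theorem sum_count_mul_neg_ord_le (hord : IsOrd A ord) {c : K} (hc : c ≠ 0) {θ : K[X]}
    (hθ : θ.Monic) (hsplit : θ.roots.card = θ.natDegree) (h : IsInt A (C c * θ))
    (T : Finset K) (hT : ∀ r ∈ T, r ∉ A) :
    ∑ r ∈ T, (θ.roots.count r : ℚ) * (- ord r) ≤ ord c := by
  refine le_trans ?_ (sum_neg_ord_roots_le hord hc hθ hsplit h)
  set s := θ.roots.filter (fun r => r ∉ A) with hs
  rw [Finset.sum_multiset_map_count]
  have hcount : ∀ r ∈ T, θ.roots.count r = s.count r := by
    intro r hr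
    rw [hs, Multiset.count_filter_of_pos (p := fun r => r ∉ A) (hT r hr)]
  have hnonneg : ∀ r ∈ s.toFinset, 0 ≤ s.count r • (- ord r) := by
    intro r hr
    rw [Multiset.mem_toFinset, hs, Multiset.mem_filter] at hr
    have hr0 : r ≠ 0 := fun h0 => hr.2 (h0 ▸ A.zero_mem)
    have := (hord.not_mem_iff hr0).1 hr.2
    apply smul_nonneg (Nat.zero_le _)
    linarith
  calc ∑ r ∈ T, (θ.roots.count r : ℚ) * (- ord r)
      = ∑ r ∈ T, s.count r • (- ord r) := by
        apply Finset.sum_congr rfl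
        intro r hr
        rw [hcount r hr, nsmul_eq_mul]
    _ = ∑ r ∈ T ∩ s.toFinset, s.count r • (- ord r) := by
        symm
        apply Finset.sum_subset Finset.inter_subset_left
        intro r hr hr'
        have : r ∉ s.toFinset := fun h' => hr' (Finset.mem_inter.2 ⟨hr, h'⟩)
        rw [Multiset.mem_toFinset] at this
        rw [Multiset.count_eq_zero_of_notMem this, zero_smul]
    _ ≤ ∑ r ∈ s.toFinset, s.count r • (- ord r) :=
        Finset.sum_le_sum_of_subset_of_nonneg Finset.inter_subset_right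
          (fun r hr _ => hnonneg r hr)

/-- **MASS, contradiction** (case `V⁰ = V` of S13): `T` a set of non-integral roots, each of
multiplicity `≥ m` and of `-ord ≥ b`, with `ord c ≤ m * |T| * b`, and one more non-integral root
`r₀ ∉ T`: impossible. -/
theorem false_of_heavy_roots (hord : IsOrd A ord) {c : K} (hc : c ≠ 0) {θ : K[X]}
    (hθ : θ.Monic) (hsplit : θ.roots.card = θ.natDegree) (h : IsInt A (C c * θ))
    (T : Finset K) (m : ℕ) (b : ℚ) (hb : 0 ≤ b)
    (hTm : ∀ r ∈ T, m ≤ θ.roots.count r) (hTA : ∀ r ∈ T, r ∉ A) (hTb : ∀ r ∈ T, b ≤ - ord r)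
    (hc' : ord c ≤ (m : ℚ) * T.card * b)
    {r₀ : K} (hr₀ : r₀ ∈ θ.roots) (hr₀T : r₀ ∉ T) (hr₀A : r₀ ∉ A) : False := by
  have hT' : ∀ r ∈ insert r₀ T, r ∉ A := by
    intro r hr
    rcases Finset.mem_insert.1 hr with rfl | hr
    · exact hr₀A
    · exact hTA r hr
  have h1 := sum_count_mul_neg_ord_le hord hc hθ hsplit h (insert r₀ T) hT'
  rw [Finset.sum_insert hr₀T] at h1
  have hr00 : r₀ ≠ 0 := fun h0 => hr₀A (h0 ▸ A.zero_mem)
  have h2 : 0 < (θ.roots.count r₀ : ℚ) * (- ord r₀) := by
    apply mul_pos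
    · exact_mod_cast Multiset.count_pos.2 hr₀
    · have := (hord.not_mem_iff hr00).1 hr₀A
      linarith
  have h3 : (m : ℚ) * T.card * b ≤ ∑ r ∈ T, (θ.roots.count r : ℚ) * (- ord r) := by
    have : ∀ r ∈ T, (m : ℚ) * b ≤ (θ.roots.count r : ℚ) * (- ord r) := by
      intro r hr
      have hm : (m : ℚ) ≤ θ.roots.count r := by exact_mod_cast hTm r hr
      exact mul_le_mul hm (hTb r hr) hb (le_trans (Nat.cast_nonneg m) hm)
    calc (m : ℚ) * T.card * b = ∑ _r ∈ T, (m : ℚ) * b := by
          rw [Finset.sum_const, nsmul_eq_mul]; ring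
      _ ≤ _ := Finset.sum_le_sum this
  linarith

/-- `rootMultiplicity` version of `sum_count_mul_neg_ord_le` (no `DecidableEq` in the statement). -/
theorem sum_rootMultiplicity_mul_neg_ord_le (hord : IsOrd A ord) {c : K} (hc : c ≠ 0) {θ : K[X]}
    (hθ : θ.Monic) (hsplit : θ.roots.card = θ.natDegree) (h : IsInt A (C c * θ))
    (T : Finset K) (hT : ∀ r ∈ T, r ∉ A) :
    ∑ r ∈ T, (θ.rootMultiplicity r : ℚ) * (- ord r) ≤ ord c := by
  have := sum_count_mul_neg_ord_le hord hc hθ hsplit h T hT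
  simpa only [count_roots] using this

/-- `rootMultiplicity` version of `false_of_heavy_roots`. -/
theorem false_of_heavy_roots' (hord : IsOrd A ord) {c : K} (hc : c ≠ 0) {θ : K[X]}
    (hθ : θ.Monic) (hsplit : θ.roots.card = θ.natDegree) (h : IsInt A (C c * θ))
    (T : Finset K) (m : ℕ) (b : ℚ) (hb : 0 ≤ b)
    (hTm : ∀ r ∈ T, m ≤ θ.rootMultiplicity r) (hTA : ∀ r ∈ T, r ∉ A)
    (hTb : ∀ r ∈ T, b ≤ - ord r) (hc' : ord c ≤ (m : ℚ) * T.card * b)
    {r₀ : K} (hr₀ : θ.IsRoot r₀) (hr₀T : r₀ ∉ T) (hr₀A : r₀ ∉ A) : False := by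
  refine false_of_heavy_roots hord hc hθ hsplit h T m b hb ?_ hTA hTb hc'
    ((mem_roots hθ.ne_zero).2 hr₀) hr₀T hr₀A
  intro r hr
  rw [count_roots]
  exact hTm r hr

/-- the case actually used in S13: `K` algebraically closed, so every monic polynomial splits. -/
theorem false_of_heavy_roots_of_isAlgClosed [IsAlgClosed K] (hord : IsOrd A ord) {c : K}
    (hc : c ≠ 0) {θ : K[X]} (hθ : θ.Monic) (h : IsInt A (C c * θ))
    (T : Finset K) (m : ℕ) (b : ℚ) (hb : 0 ≤ b)
    (hTm : ∀ r ∈ T, m ≤ θ.rootMultiplicity r) (hTA : ∀ r ∈ T, r ∉ A)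
    (hTb : ∀ r ∈ T, b ≤ - ord r) (hc' : ord c ≤ (m : ℚ) * T.card * b)
    {r₀ : K} (hr₀ : θ.IsRoot r₀) (hr₀T : r₀ ∉ T) (hr₀A : r₀ ∉ A) : False :=
  false_of_heavy_roots' hord hc hθ IsAlgClosed.card_roots_eq_natDegree h T m b hb hTm hTA hTb hc'
    hr₀ hr₀T hr₀A

end ord

end Fermat.Agent.S13.Mass
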