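/-
S13, package MASS (blueprint 7, helper86): the counting contradiction.

Generic form `mass_false`: `K` algebraically closed, `N ∈ A[X]` nonzero with
`ord (leadingCoeff N) ≤ 2 ord p`, `p ≤ natDegree N`, every nonzero `p`-torsion point `T` has
`(X - x_T)² ∣ N`, every root of `N` is non-integral, and `P₀` a point of order `p` all of whose
multiples are at least `2 ord p/(p-1)` deep: impossible.
Corollary `massStmt_of_tDivPoly : TDivPolyStmt → MassStmt` (exact Interface shapes).
-/
import Mathlib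
import Fermat.Agent.S13.Interface
import Fermat.Agent.S05.OrdApi
import Fermat.Agent.S13.Mass

set_option autoImplicit false

namespace Fermat.Agent.S13.MassCount

open WeierstrassCurve WeierstrassCurve.Affine WeierstrassCurve.Affine.Point Polynomial
open Fermat.Agent.S05 (IsOrd IsU IsIntegralW E1)
open Fermat.Agent.S13.Mass

open scoped Classical

section generic

variable {K : Type*} [Field K] {A : ValuationSubring K} {ord : K → ℚ}

/-- all-roots form of MASS for a not necessarily monic polynomial. -/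
theorem sum_neg_ord_allroots_le [IsAlgClosed K] (hord : IsOrd A ord) {f : K[X]} (hf0 : f ≠ 0)
    (hf : IsInt A f) :
    ((f.roots.filter (fun r => r ∉ A)).map (fun r => - ord r)).sum ≤ ord f.leadingCoeff := by
  apply sum_neg_ord_le hord (leadingCoeff_ne_zero.2 hf0)
  rwa [C_leadingCoeff_mul_prod_multiset_X_sub_C IsAlgClosed.card_roots_eq_natDegree]

omit [Field K] in
/-- a strict comparison of multiset sums. -/
theorem sum_lt_sum_of_le_of_card_lt {s t : Multiset K} {g : K → ℚ} (hts : t ≤ s)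
    (hpos : ∀ r ∈ s, 0 < g r) (hcard : t.card < s.card) : (t.map g).sum < (s.map g).sum := by
  obtain ⟨u, rfl⟩ := Multiset.le_iff_exists_add.1 hts
  rw [Multiset.map_add, Multiset.sum_add]
  have hu : 0 < u.card := by
    rw [Multiset.card_add] at hcard
    omega
  obtain ⟨r, hr⟩ := Multiset.card_pos_iff_exists_mem.1 hu
  obtain ⟨v, rfl⟩ := Multiset.exists_cons_of_mem hr
  rw [Multiset.map_cons, Multiset.sum_cons]
  have h1 : 0 < g r := hpos r (Multiset.mem_add.2 (Or.inr (Multiset.mem_cons_self r v)))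
  have h2 : 0 ≤ (v.map g).sum := by
    apply Multiset.sum_nonneg
    intro x hx
    obtain ⟨y, hy, rfl⟩ := Multiset.mem_map.1 hx
    exact (hpos y (Multiset.mem_add.2 (Or.inr (Multiset.mem_cons_of_mem hy)))).le
  linarith

/-- `x`-coordinate of a point (`0` for the point at infinity). -/
def xOf {W : Affine K} : W.Point → K
  | .zero => 0
  | .some x _ _ => x

@[simp] theorem xOf_some {W : Affine K} (x y : K) (h : W.Nonsingular x y) :
    xOf (Point.some x y h) = x := rfl

variable [DecidableEq K] {W : Affine K}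

omit [DecidableEq K] in
theorem exists_some_of_ne_zero {P : W.Point} (hP : P ≠ 0) :
    ∃ (x y : K) (h : W.Nonsingular x y), P = Point.some x y h := by
  cases P with
  | zero => exact absurd rfl hP
  | some x y h => exact ⟨x, y, h, rfl⟩

omit [DecidableEq K] in
/-- two affine points with the same `x`-coordinate are equal or opposite. -/
theorem eq_or_eq_neg_of_xOf_eq {P Q : W.Point} (hP : P ≠ 0) (hQ : Q ≠ 0) (hx : xOf P = xOf Q) :
    P = Q ∨ P = -Q := by
  obtain ⟨x, y, h, rfl⟩ := exists_some_of_ne_zero hP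
  obtain ⟨x', y', h', rfl⟩ := exists_some_of_ne_zero hQ
  simp only [xOf_some] at hx
  subst hx
  rcases Y_eq_of_X_eq h.1 h'.1 rfl with hy | hy
  · left
    subst hy
    rfl
  · right
    rw [neg_some]
    subst hy
    rfl

theorem addOrderOf_eq_of_prime {p : ℕ} (hp : p.Prime) {P₀ : W.Point} (hP₀ : P₀ ≠ 0)
    (hpP₀ : (p : ℤ) • P₀ = 0) : addOrderOf P₀ = p := by
  have := Fact.mk hp
  apply addOrderOf_eq_prime
  · rwa [natCast_zsmul] at hpP₀
  · exact hP₀

theorem zsmul_ne_zero_of_lt {p : ℕ} (hp : p.Prime) {P₀ : W.Point} (hP₀ : P₀ ≠ 0)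
    (hpP₀ : (p : ℤ) • P₀ = 0) {k : ℤ} (hk0 : 0 < k) (hkp : k < p) : k • P₀ ≠ 0 := by
  intro h
  rw [← addOrderOf_dvd_iff_zsmul_eq_zero, addOrderOf_eq_of_prime hp hP₀ hpP₀] at h
  have := Int.le_of_dvd hk0 h
  omega

/-- **MASS, saturation.** If the multiples of `P₀` are as deep as `2 ord p/(p-1)` they use up the
whole budget: the non-integral roots of `N` are exactly the `x(kP₀)`, each exactly double. -/
theorem mass_saturated [IsAlgClosed K] (hord : IsOrd A ord) {p : ℕ} (hp : p.Prime) (hp2 : p ≠ 2)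
    (hpos : 0 < ord (p : K)) {N : K[X]} (hN0 : N ≠ 0) (hNint : ∀ i, N.coeff i ∈ A)
    (hNlc : ord N.leadingCoeff ≤ 2 * ord (p : K))
    (hNdvd : ∀ (x y : K) (h : W.Nonsingular x y), (p : ℤ) • Point.some x y h = 0 →
      (X - C x) ^ 2 ∣ N)
    (P₀ : W.Point) (hP₀ : P₀ ≠ 0) (hpP₀ : (p : ℤ) • P₀ = 0)
    (hTA : ∀ k : ℕ, 0 < k → k < p → ∀ (x y : K) (h : W.Nonsingular x y),
      (k : ℤ) • P₀ = Point.some x y h → x ∉ A)
    (hdeep : ∀ k : ℕ, 0 < k → k < p → ∀ (x y : K) (h : W.Nonsingular x y),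
      (k : ℤ) • P₀ = Point.some x y h → ord x ≤ -2 * ord (p : K) / (p - 1)) :
    (N.roots.filter (fun r => r ∉ A)).card = p - 1 ∧
      ∀ r : K, N.IsRoot r → r ∉ A → ∃ k : ℕ, 0 < k ∧ k < p ∧ r = xOf ((k : ℤ) • P₀) := by
  -- p = 2n+1
  obtain ⟨n, hn⟩ : ∃ n, p = 2 * n + 1 := by
    rcases hp.eq_two_or_odd' with h | h
    · exact absurd h hp2
    · obtain ⟨n, hn⟩ := h
      exact ⟨n, hn⟩
  have hn1 : 1 ≤ n := by
    have := hp.two_le
    omega
  set b : ℚ := 2 * ord (p : K) / (p - 1) with hb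
  have hp1 : (0 : ℚ) < (p : ℚ) - 1 := by
    have : (2 : ℚ) ≤ p := by exact_mod_cast hp.two_le
    linarith
  -- the x-coordinates of the multiples
  set xk : ℕ → K := fun k => xOf ((k : ℤ) • P₀) with hxk
  have hkne : ∀ k : ℕ, 0 < k → k < p → ((k : ℤ) • P₀) ≠ 0 := by
    intro k hk0 hkp
    exact zsmul_ne_zero_of_lt hp hP₀ hpP₀ (by exact_mod_cast hk0) (by exact_mod_cast hkp)
  have hktors : ∀ k : ℕ, (p : ℤ) • ((k : ℤ) • P₀) = 0 := by
    intro k
    rw [smul_comm, hpP₀, smul_zero]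
  have hkprop : ∀ k : ℕ, 0 < k → k < p →
      (X - C (xk k)) ^ 2 ∣ N ∧ b ≤ - ord (xk k) ∧ xk k ∉ A := by
    intro k hk0 hkp
    obtain ⟨x, y, h, hxy⟩ := exists_some_of_ne_zero (hkne k hk0 hkp)
    have hx : xk k = x := by
      simp only [hxk, hxy, xOf_some]
    have hdvd : (X - C x) ^ 2 ∣ N := hNdvd x y h (by rw [← hxy]; exact hktors k)
    refine ⟨hx ▸ hdvd, ?_, hx ▸ hTA k hk0 hkp x y h hxy⟩
    have := hdeep k hk0 hkp x y h hxy
    rw [hx, hb]
    have e : -2 * ord (p : K) / ((p : ℚ) - 1) = - (2 * ord (p : K) / ((p : ℚ) - 1)) := by ring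
    rw [e] at this
    linarith
  -- injectivity on [1, n]
  have hinj : Set.InjOn xk (Finset.Icc 1 n : Finset ℕ) := by
    intro k hk j hj hkj
    rw [Finset.mem_coe, Finset.mem_Icc] at hk hj
    have hk' := hkne k (by omega) (by omega)
    have hj' := hkne j (by omega) (by omega)
    have hord' := addOrderOf_eq_of_prime hp hP₀ hpP₀
    rcases eq_or_eq_neg_of_xOf_eq hk' hj' hkj with h | h
    · have h0 : ((k : ℤ) - (j : ℤ)) • P₀ = 0 := by rw [sub_smul, h, sub_self]
      rw [← addOrderOf_dvd_iff_zsmul_eq_zero, hord'] at h0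
      obtain ⟨c, hc⟩ := h0
      have hc0 : c = 0 := by
        by_contra hne
        have : (1 : ℤ) ≤ |c| := Int.one_le_abs hne
        have h2 : |(k : ℤ) - j| = (p : ℤ) * |c| := by rw [hc, abs_mul, Nat.abs_cast]
        have h3 : |(k : ℤ) - j| < p := by
          rw [abs_lt]
          constructor <;> omega
        nlinarith
      rw [hc0, mul_zero] at hc
      omega
    · have h0 : ((k : ℤ) + (j : ℤ)) • P₀ = 0 := by rw [add_smul, h, neg_add_cancel]
      rw [← addOrderOf_dvd_iff_zsmul_eq_zero, hord'] at h0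
      have := Int.le_of_dvd (by omega) h0
      omega
  set T : Finset K := (Finset.Icc 1 n).image xk with hT
  have hTcard : T.card = n := by
    rw [hT, Finset.card_image_of_injOn hinj, Nat.card_Icc]
    omega
  have hTprop : ∀ r ∈ T, (X - C r) ^ 2 ∣ N ∧ b ≤ - ord r ∧ r ∉ A := by
    intro r hr
    rw [hT, Finset.mem_image] at hr
    obtain ⟨k, hk, rfl⟩ := hr
    rw [Finset.mem_Icc] at hk
    exact hkprop k (by omega) (by omega)
  -- the multiset 2•T sits inside the non-integral roots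
  set s : Multiset K := N.roots.filter (fun r => r ∉ A) with hs
  set t : Multiset K := 2 • T.val with ht
  have hts : t ≤ s := by
    rw [Multiset.le_iff_count]
    intro a
    rw [ht, Multiset.count_nsmul]
    by_cases ha : a ∈ T
    · have h1 : T.val.count a = 1 := Multiset.count_eq_one_of_mem T.nodup ha
      rw [h1, hs, Multiset.count_filter_of_pos (p := fun r => r ∉ A) (hTprop a ha).2.2,
        count_roots]
      exact (le_rootMultiplicity_iff hN0).2 (hTprop a ha).1
    · have h1 : T.val.count a = 0 := Multiset.count_eq_zero_of_notMem ha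
      rw [h1]
      exact Nat.zero_le _
  have htcard : t.card = 2 * n := by
    rw [ht, Multiset.card_nsmul]
    have : T.val.card = n := hTcard
    rw [this]
  have hspos : ∀ r ∈ s, 0 < - ord r := by
    intro r hr
    rw [hs, Multiset.mem_filter] at hr
    have hr0 : r ≠ 0 := fun h0 => hr.2 (h0 ▸ A.zero_mem)
    have := (hord.not_mem_iff hr0).1 hr.2
    linarith
  have h2 : (s.map (fun r => - ord r)).sum ≤ ord N.leadingCoeff :=
    sum_neg_ord_allroots_le hord hN0 hNint
  -- lower bound for the sum over t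
  have h3 : (2 * n : ℚ) * b ≤ (t.map (fun r => - ord r)).sum := by
    rw [ht, Multiset.map_nsmul, Multiset.sum_nsmul]
    have h4 : (n : ℚ) * b ≤ (T.val.map (fun r => - ord r)).sum := by
      have : (T.val.map (fun r => - ord r)).sum = ∑ r ∈ T, (- ord r) := rfl
      rw [this]
      calc (n : ℚ) * b = ∑ _r ∈ T, b := by rw [Finset.sum_const, hTcard, nsmul_eq_mul]
        _ ≤ _ := Finset.sum_le_sum (fun r hr => (hTprop r hr).2.1)
    rw [nsmul_eq_mul]
    push_cast
    linarith
  have h5 : (2 * n : ℚ) * b = 2 * ord (p : K) := by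
    rw [hb]
    have : (p : ℚ) - 1 = 2 * n := by
      rw [hn]
      push_cast
      ring
    rw [this]
    have hn0 : (n : ℚ) ≠ 0 := by
      have : (1 : ℚ) ≤ n := by exact_mod_cast hn1
      linarith
    field_simp
  have hcard : s.card ≤ t.card := by
    by_contra hlt
    push Not at hlt
    have h1 := sum_lt_sum_of_le_of_card_lt hts hspos hlt
    linarith
  have hst : t = s := Multiset.eq_of_le_of_card_le hts hcard
  refine ⟨?_, ?_⟩
  · rw [← hst, htcard]
    omega
  · intro r hr hrA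
    have hrs : r ∈ s := by
      rw [hs, Multiset.mem_filter]
      exact ⟨(mem_roots hN0).2 hr, hrA⟩
    rw [← hst, ht] at hrs
    have hrT : r ∈ T := by
      have := Multiset.mem_of_mem_nsmul hrs
      exact this
    rw [hT, Finset.mem_image] at hrT
    obtain ⟨k, hk, rfl⟩ := hrT
    rw [Finset.mem_Icc] at hk
    exact ⟨k, by omega, by omega, rfl⟩

/-- **MASS, generic counting contradiction** (degree form): every root of `N` is non-integral and
`p ≤ natDegree N`. -/
theorem mass_false [IsAlgClosed K] (hord : IsOrd A ord) {p : ℕ} (hp : p.Prime) (hp2 : p ≠ 2)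
    (hpos : 0 < ord (p : K)) {N : K[X]} (hN0 : N ≠ 0) (hNint : ∀ i, N.coeff i ∈ A)
    (hNlc : ord N.leadingCoeff ≤ 2 * ord (p : K)) (hNdeg : p ≤ N.natDegree)
    (hNdvd : ∀ (x y : K) (h : W.Nonsingular x y), (p : ℤ) • Point.some x y h = 0 →
      (X - C x) ^ 2 ∣ N)
    (hNroot : ∀ x : K, N.IsRoot x → x ∉ A)
    (P₀ : W.Point) (hP₀ : P₀ ≠ 0) (hpP₀ : (p : ℤ) • P₀ = 0)
    (hdeep : ∀ k : ℕ, 0 < k → k < p → ∀ (x y : K) (h : W.Nonsingular x y),
      (k : ℤ) • P₀ = Point.some x y h → ord x ≤ -2 * ord (p : K) / (p - 1)) : False := by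
  have hTA : ∀ k : ℕ, 0 < k → k < p → ∀ (x y : K) (h : W.Nonsingular x y),
      (k : ℤ) • P₀ = Point.some x y h → x ∉ A := by
    intro k _ _ x y h hxy
    have hdvd : (X - C x) ^ 2 ∣ N :=
      hNdvd x y h (by rw [← hxy, smul_comm, hpP₀, smul_zero])
    have : (X - C x) ∣ N := dvd_trans (dvd_pow_self _ two_ne_zero) hdvd
    exact hNroot x (dvd_iff_isRoot.1 this)
  obtain ⟨h1, -⟩ := mass_saturated hord hp hp2 hpos hN0 hNint hNlc hNdvd P₀ hP₀ hpP₀ hTA hdeep
  have hfilter : N.roots.filter (fun r => r ∉ A) = N.roots := by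
    apply Multiset.filter_eq_self.2
    intro r hr
    exact hNroot r ((mem_roots hN0).1 hr)
  rw [hfilter, IsAlgClosed.card_roots_eq_natDegree] at h1
  have := hp.two_le
  omega

/-- **MASS, generic counting contradiction** (extra point form): all `p`-torsion lies in `E1` and
there is a `p`-torsion point outside the line `ℤ P₀`. -/
theorem mass_false_of_extra [IsAlgClosed K] (hord : IsOrd A ord) {p : ℕ} (hp : p.Prime)
    (hp2 : p ≠ 2) (hpos : 0 < ord (p : K)) {N : K[X]} (hN0 : N ≠ 0) (hNint : ∀ i, N.coeff i ∈ A)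
    (hNlc : ord N.leadingCoeff ≤ 2 * ord (p : K))
    (hNdvd : ∀ (x y : K) (h : W.Nonsingular x y), (p : ℤ) • Point.some x y h = 0 →
      (X - C x) ^ 2 ∣ N)
    (hE1 : ∀ Q : W.Point, (p : ℤ) • Q = 0 → Q ∈ E1 W ord)
    (P₀ : W.Point) (hP₀ : P₀ ≠ 0) (hpP₀ : (p : ℤ) • P₀ = 0)
    (hdeep : ∀ k : ℕ, 0 < k → k < p → ∀ (x y : K) (h : W.Nonsingular x y),
      (k : ℤ) • P₀ = Point.some x y h → ord x ≤ -2 * ord (p : K) / (p - 1))
    (Q : W.Point) (hpQ : (p : ℤ) • Q = 0) (hQ : ∀ k : ℤ, Q ≠ k • P₀) : False := by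
  have hxA : ∀ (R : W.Point) (x y : K) (h : W.Nonsingular x y), (p : ℤ) • R = 0 →
      R = Point.some x y h → x ∉ A := by
    intro R x y h hR hxy
    rcases hE1 R hR with h0 | ⟨x', y', h', he, hx0, hlt⟩
    · rw [hxy] at h0
      exact absurd h0 (Point.some_ne_zero h)
    · have hxx : x = x' := by
        have := congrArg xOf (hxy.symm.trans he)
        simpa using this
      subst hxx
      exact (hord.not_mem_iff hx0).2 hlt
  have hTA : ∀ k : ℕ, 0 < k → k < p → ∀ (x y : K) (h : W.Nonsingular x y),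
      (k : ℤ) • P₀ = Point.some x y h → x ∉ A := by
    intro k _ _ x y h hxy
    exact hxA _ x y h (by rw [smul_comm, hpP₀, smul_zero]) hxy
  obtain ⟨-, h2⟩ := mass_saturated hord hp hp2 hpos hN0 hNint hNlc hNdvd P₀ hP₀ hpP₀ hTA hdeep
  have hQ0 : Q ≠ 0 := by
    intro h0
    exact hQ 0 (by rw [h0, zero_smul])
  obtain ⟨x, y, h, hxy⟩ := exists_some_of_ne_zero hQ0
  have hdvd : (X - C x) ^ 2 ∣ N := hNdvd x y h (by rw [← hxy]; exact hpQ)
  have hroot : N.IsRoot x :=
    dvd_iff_isRoot.1 (dvd_trans (dvd_pow_self _ two_ne_zero) hdvd)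
  obtain ⟨k, hk0, hkp, hk⟩ := h2 x hroot (hxA Q x y h hpQ hxy)
  have hkne : ((k : ℤ) • P₀) ≠ 0 :=
    zsmul_ne_zero_of_lt hp hP₀ hpP₀ (by exact_mod_cast hk0) (by exact_mod_cast hkp)
  have hx : xOf Q = xOf ((k : ℤ) • P₀) := by
    rw [← hk, hxy, xOf_some]
  rcases eq_or_eq_neg_of_xOf_eq hQ0 hkne hx with h' | h'
  · exact hQ k h'
  · exact hQ (-k) (by rw [h', neg_smul])

end generic

/-! ### The interface statement -/

/-- `TDivPolyStmt → MassStmt` (exact Interface shapes). -/
theorem massStmt_of_tDivPoly (hT : TDivPolyStmt) : MassStmt := by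
  intro W A ord hord hW hΔ p hp hp2 hpos hU hE1 P₀ hP₀ hpP₀ hdeep
  obtain ⟨θ, hθ⟩ := hT W hΔ p hp hp2
  have hp0 : (p : Qb) ≠ 0 := by exact_mod_cast hp.ne_zero
  have hc : ((p : Qb) ^ 2) ≠ 0 := pow_ne_zero 2 hp0
  set N : Qb[X] := C ((p : Qb) ^ 2) * θ with hN
  have hN0 : N ≠ 0 := mul_ne_zero (C_ne_zero.2 hc) hθ.monic.ne_zero
  have hNlc : N.leadingCoeff = (p : Qb) ^ 2 := by
    rw [hN, leadingCoeff_mul, leadingCoeff_C, hθ.monic.leadingCoeff, mul_one]
  have hNdeg : N.natDegree = p ^ 2 - 1 := by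
    rw [hN, natDegree_C_mul hc, hθ.natDegree_eq]
  refine MassCount.mass_false (W := W) hord hp hp2 hpos hN0 ?_ ?_ ?_ ?_ ?_ P₀ hP₀ hpP₀ hdeep
  · intro i
    rw [hN, coeff_C_mul]
    exact hθ.integral A ord hord hW hU i
  · rw [hNlc, hord.ord_pow hp0]
    norm_num
  · rw [hNdeg]
    have := hp.two_le
    have h4 : p * 2 ≤ p * p := Nat.mul_le_mul_left p this
    have : p ^ 2 = p * p := sq p
    omega
  · intro x y h htors
    have := hθ.sq_dvd x ((hθ.root_iff h).1 htors)
    exact dvd_mul_of_dvd_right this _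
  · intro x hx hxA
    have hroot : θ.IsRoot x := by
      rw [hN, IsRoot.def, eval_mul, eval_C] at hx
      exact (mul_eq_zero.1 hx).resolve_left hc
    -- a point with this x-coordinate
    obtain ⟨y, hy⟩ : ∃ y : Qb, W.Equation x y := by
      obtain ⟨y, hy⟩ := IsAlgClosed.exists_root
        (X ^ 2 + C (W.a₁ * x + W.a₃) * X - C (x ^ 3 + W.a₂ * x ^ 2 + W.a₄ * x + W.a₆) : Qb[X])
        (by
          have : (X ^ 2 + C (W.a₁ * x + W.a₃) * X
              - C (x ^ 3 + W.a₂ * x ^ 2 + W.a₄ * x + W.a₆) : Qb[X]).degree = 2 := by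
            compute_degree!
          rw [this]
          norm_num)
      refine ⟨y, ?_⟩
      rw [equation_iff]
      simp only [IsRoot.def, eval_sub, eval_add, eval_pow, eval_X, eval_mul, eval_C] at hy
      linear_combination hy
    have hns : W.Nonsingular x y := (W.equation_iff_nonsingular_of_Δ_ne_zero hΔ).1 hy
    have htors := (hθ.root_iff hns).2 hroot
    have hmem := hE1 _ htors
    rcases hmem with h0 | ⟨x', y', h', he, hx0, hlt⟩
    · exact Point.some_ne_zero hns h0
    · have hxx : x = x' := by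
        have := congrArg MassCount.xOf he
        simpa using this
      subst hxx
      exact absurd hxA ((hord.not_mem_iff hx0).2 hlt)

end Fermat.Agent.S13.MassCount
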