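/-
S13 package T-C (blueprint 7, item T6; helper29): counting.
`TDivPolyStmt → TCountStmt`: from a "`p`-division polynomial" `θ` (monic, degree `p²-1`, whose roots
are the `x`-coordinates of the nonzero `p`-torsion points) we get that `E[p]` is finite, nonzero and
of cardinality `≤ 2(p²-1)+1 < p³`.  No `sorry` in this file.
-/
import Fermat.Agent.S13.Interface

set_option autoImplicit false

open WeierstrassCurve WeierstrassCurve.Affine WeierstrassCurve.Affine.Point Polynomial

namespace Fermat.Agent.S13.TC29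

section generic

variable {K : Type*} [Field K] [DecidableEq K]

/-- the quadratic in `y` cut out by the Weierstrass equation at a fixed `x`. -/
noncomputable def yPoly (W : Affine K) (x : K) : K[X] :=
  X ^ 2 + C (W.a₁ * x + W.a₃) * X - C (x ^ 3 + W.a₂ * x ^ 2 + W.a₄ * x + W.a₆)

omit [DecidableEq K] in
theorem yPoly_isRoot_iff (W : Affine K) (x y : K) : (yPoly W x).IsRoot y ↔ W.Equation x y := by
  rw [W.equation_iff, IsRoot.def]
  simp only [yPoly, eval_sub, eval_add, eval_pow, eval_X, eval_mul, eval_C]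
  constructor
  · intro h; linear_combination h
  · intro h; linear_combination h

omit [DecidableEq K] in
theorem yPoly_natDegree (W : Affine K) (x : K) : (yPoly W x).natDegree = 2 := by
  unfold yPoly
  have h1 : (X ^ 2 + C (W.a₁ * x + W.a₃) * X - C (x ^ 3 + W.a₂ * x ^ 2 + W.a₄ * x + W.a₆) : K[X])
      = X ^ 2 + (C (W.a₁ * x + W.a₃) * X - C (x ^ 3 + W.a₂ * x ^ 2 + W.a₄ * x + W.a₆)) := by ring
  rw [h1]
  have hdeg : (C (W.a₁ * x + W.a₃) * X - C (x ^ 3 + W.a₂ * x ^ 2 + W.a₄ * x + W.a₆) : K[X]).degree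
      < (X ^ 2 : K[X]).degree := by
    rw [degree_X_pow]
    refine lt_of_le_of_lt (degree_sub_le _ _) ?_
    refine max_lt ?_ ?_
    · refine lt_of_le_of_lt (degree_C_mul_X_le _) ?_
      norm_num
    · refine lt_of_le_of_lt degree_C_le ?_
      norm_num
  rw [natDegree_add_eq_left_of_degree_lt hdeg, natDegree_X_pow]

omit [DecidableEq K] in
theorem yPoly_ne_zero (W : Affine K) (x : K) : yPoly W x ≠ 0 := by
  intro h
  have := yPoly_natDegree W x
  rw [h, natDegree_zero] at this
  omega

/-- the finite set of candidate coordinates. -/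
noncomputable def cand (W : Affine K) (θ : K[X]) : Finset (Option (K × K)) :=
  insert none ((θ.roots.toFinset.biUnion fun x =>
    (yPoly W x).roots.toFinset.image fun y => (x, y)).image some)

theorem card_cand_le (W : Affine K) (θ : K[X]) : (cand W θ).card ≤ 1 + 2 * θ.natDegree := by
  unfold cand
  refine le_trans (Finset.card_insert_le _ _) ?_
  rw [add_comm]
  refine Nat.add_le_add_left ?_ 1
  refine le_trans Finset.card_image_le ?_
  refine le_trans Finset.card_biUnion_le ?_
  have h2 : ∀ x ∈ θ.roots.toFinset,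
      ((yPoly W x).roots.toFinset.image fun y => (x, y)).card ≤ 2 := by
    intro x _
    refine le_trans Finset.card_image_le ?_
    refine le_trans (Multiset.toFinset_card_le _) ?_
    refine le_trans (card_roots' _) ?_
    rw [yPoly_natDegree]
  refine le_trans (Finset.sum_le_sum h2) ?_
  rw [Finset.sum_const, smul_eq_mul, mul_comm]
  refine Nat.mul_le_mul_left 2 ?_
  exact le_trans (Multiset.toFinset_card_le _) (card_roots' _)

/-- coordinates of a point. -/
def coords {W : Affine K} : W.Point → Option (K × K)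
  | .zero => none
  | .some x y _ => some (x, y)

omit [DecidableEq K] in
theorem coords_injective {W : Affine K} : Function.Injective (coords (W := W)) := by
  intro P Q h
  rcases P with _ | ⟨x, y, hxy⟩ <;> rcases Q with _ | ⟨x', y', hxy'⟩
  · rfl
  · simp [coords] at h
  · simp [coords] at h
  · simp only [coords, Option.some.injEq, Prod.mk.injEq] at h
    obtain ⟨rfl, rfl⟩ := h
    rfl

/-- generic counting statement: only `θ ≠ 0` and the `→` half of `root_iff` are needed for
finiteness and the bound. -/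
theorem torsion_coords_mem (W : Affine K) (p : ℕ) (θ : K[X]) (hθ0 : θ ≠ 0)
    (hroot : ∀ {x y : K} (h : W.Nonsingular x y),
      (p : ℤ) • (Point.some x y h) = 0 → θ.IsRoot x)
    (P : W.Point) (hP : (p : ℤ) • P = 0) : coords P ∈ cand W θ := by
  rcases P with _ | ⟨x, y, hxy⟩
  · simp [coords, cand]
  · simp only [coords, cand, Finset.mem_insert, Finset.mem_image, Finset.mem_biUnion,
      Multiset.mem_toFinset, reduceCtorEq, false_or]
    refine ⟨(x, y), ⟨x, ?_, y, ?_, rfl⟩, rfl⟩
    · exact (mem_roots hθ0).2 (hroot hxy hP)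
    · exact (mem_roots (yPoly_ne_zero W x)).2 ((yPoly_isRoot_iff W x y).2 hxy.1)

theorem finite_and_card_le (W : Affine K) (p : ℕ) (θ : K[X]) (hθ0 : θ ≠ 0)
    (hroot : ∀ {x y : K} (h : W.Nonsingular x y),
      (p : ℤ) • (Point.some x y h) = 0 → θ.IsRoot x) :
    Finite (Submodule.torsionBy ℤ W.Point p) ∧
      Nat.card (Submodule.torsionBy ℤ W.Point p) ≤ 1 + 2 * θ.natDegree := by
  let g : Submodule.torsionBy ℤ W.Point p → (cand W θ : Finset (Option (K × K))) := fun P =>
    ⟨coords P.1, torsion_coords_mem W p θ hθ0 hroot P.1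
      ((Submodule.mem_torsionBy_iff _ _).1 P.2)⟩
  have hg : Function.Injective g := by
    intro P Q h
    have h' : coords P.1 = coords Q.1 := congrArg Subtype.val h
    exact Subtype.ext (coords_injective h')
  have hfin : Finite (Submodule.torsionBy ℤ W.Point p) := Finite.of_injective g hg
  refine ⟨hfin, ?_⟩
  have h1 := Nat.card_le_card_of_injective g hg
  have h2 : Nat.card (cand W θ : Finset (Option (K × K))) = (cand W θ).card := by
    rw [Nat.card_eq_fintype_card, Fintype.card_coe]
  rw [h2] at h1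
  exact le_trans h1 (card_cand_le W θ)

theorem nontrivial_torsion [IsAlgClosed K] (W : Affine K) (hΔ : W.Δ ≠ 0) (p : ℕ) (θ : K[X])
    (hdeg : θ.natDegree ≠ 0)
    (hroot : ∀ {x y : K} (h : W.Nonsingular x y),
      θ.IsRoot x → (p : ℤ) • (Point.some x y h) = 0) :
    Nontrivial (Submodule.torsionBy ℤ W.Point p) := by
  have : W.IsElliptic := ⟨isUnit_iff_ne_zero.mpr hΔ⟩
  have hd : θ.degree ≠ 0 := by
    intro h
    exact hdeg (natDegree_eq_of_degree_eq_some h)
  obtain ⟨x₀, hx₀⟩ := IsAlgClosed.exists_root θ hd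
  have hd2 : (yPoly W x₀).degree ≠ 0 := by
    intro h
    have h2 : (yPoly W x₀).natDegree = 0 := natDegree_eq_of_degree_eq_some h
    rw [yPoly_natDegree] at h2
    exact absurd h2 (by norm_num)
  obtain ⟨y₀, hy₀⟩ := IsAlgClosed.exists_root (yPoly W x₀) hd2
  have heq : W.Equation x₀ y₀ := (yPoly_isRoot_iff W x₀ y₀).1 hy₀
  have hns : W.Nonsingular x₀ y₀ := (equation_iff_nonsingular).1 heq
  have hP : (p : ℤ) • (Point.some x₀ y₀ hns) = 0 := hroot hns hx₀
  refine ⟨⟨⟨Point.some x₀ y₀ hns, (Submodule.mem_torsionBy_iff _ _).2 hP⟩, 0, ?_⟩⟩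
  intro h
  have := congrArg Subtype.val h
  exact Point.some_ne_zero hns this

theorem count_of_isDivPoly [IsAlgClosed K] (W : Affine K) (hΔ : W.Δ ≠ 0) (p : ℕ) (hp : 3 ≤ p)
    (θ : K[X]) (hθ : IsDivPoly W p θ) :
    Finite (Submodule.torsionBy ℤ W.Point p) ∧ Nontrivial (Submodule.torsionBy ℤ W.Point p) ∧
      Nat.card (Submodule.torsionBy ℤ W.Point p) < p ^ 3 := by
  have hθ0 : θ ≠ 0 := hθ.monic.ne_zero
  obtain ⟨hfin, hcard⟩ := finite_and_card_le W p θ hθ0 (fun h hP => (hθ.root_iff h).1 hP)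
  have hp2 : 9 ≤ p ^ 2 := by nlinarith
  have hdeg : θ.natDegree ≠ 0 := by
    rw [hθ.natDegree_eq]; omega
  refine ⟨hfin, nontrivial_torsion W hΔ p θ hdeg (fun h hx => (hθ.root_iff h).2 hx), ?_⟩
  refine lt_of_le_of_lt hcard ?_
  rw [hθ.natDegree_eq]
  have h3 : p ^ 3 = p * p ^ 2 := by ring
  have h4 : 3 * p ^ 2 ≤ p * p ^ 2 := Nat.mul_le_mul_right _ hp
  omega

end generic

/-- [T-C] from [T]. -/
theorem tCount_of_tDivPoly (h : TDivPolyStmt) : TCountStmt := by
  intro W hΔ p hp hp2
  obtain ⟨θ, hθ⟩ := h W hΔ p hp hp2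
  have h3 : 3 ≤ p := by
    have := hp.two_le
    omega
  exact count_of_isDivPoly W hΔ p h3 θ hθ

end Fermat.Agent.S13.TC29
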