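/-
S13 (helper4): glue from the EASY half of the division-polynomial criterion
("`p`-torsion ⇒ root of Mathlib's `preΨ p`") to the two assembly hypotheses
`Asm.TFinStmt` (via `TC29.finite_and_card_le`) and `Asm.MassExtraStmt`
(via `MassCount.mass_false_of_extra` with `N := ΨSq p`).  No sorry.
-/
import Mathlib
import Fermat.Agent.S13.Assembly
import Fermat.Agent.S13.TC29
import Fermat.Agent.S13.MassCount

set_option autoImplicit false

open WeierstrassCurve WeierstrassCurve.Affine WeierstrassCurve.Affine.Point Polynomial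

namespace Fermat.Agent.S13.TWeakGlue

open Fermat.Agent.S05 (IsOrd IsU IsIntegralW E1)

/-- The easy half of the division polynomial criterion, over `ℚ̄`. -/
def EasyHalfStmt : Prop :=
  ∀ (W : Affine Qb), W.Δ ≠ 0 → ∀ p : ℕ, p.Prime → p ≠ 2 →
    ∀ (x y : Qb) (h : W.Nonsingular x y),
      (p : ℤ) • (Point.some x y h) = 0 → (W.preΨ (p : ℤ)).eval x = 0

theorem natCast_intCast_ne_zero {p : ℕ} (hp : p.Prime) : (((p : ℤ) : Qb)) ≠ 0 := by
  have : (p : Qb) ≠ 0 := Nat.cast_ne_zero.mpr hp.ne_zero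
  simpa using this

theorem not_even_of_prime {p : ℕ} (hp : p.Prime) (hp2 : p ≠ 2) : ¬ Even (p : ℤ) := by
  intro h
  have h2 : Even p := (Int.even_coe_nat p).mp h
  exact hp2 ((Nat.Prime.even_iff hp).mp h2)

theorem tFin_of_easy (hE : EasyHalfStmt) : Asm.TFinStmt := by
  intro W hΔ p hp hp2
  have hθ0 : W.preΨ (p : ℤ) ≠ 0 := W.preΨ_ne_zero (natCast_intCast_ne_zero hp)
  obtain ⟨hfin, hcard⟩ := TC29.finite_and_card_le W p (W.preΨ (p : ℤ)) hθ0
    (fun {x y} h hP => hE W hΔ p hp hp2 x y h hP)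
  refine ⟨hfin, lt_of_le_of_lt hcard ?_⟩
  have hdeg := W.natDegree_preΨ_le (p : ℤ)
  rw [if_neg (not_even_of_prime hp hp2), Int.natAbs_natCast] at hdeg
  have h2 : 2 ≤ p := hp.two_le
  have h1 : 1 ≤ p ^ 2 := Nat.one_le_pow _ _ (by omega)
  have h3 : 2 * ((p ^ 2 - 1) / 2) ≤ p ^ 2 - 1 := Nat.mul_div_le _ _
  have h4 : p ^ 2 < p ^ 3 := Nat.pow_lt_pow_right (by omega) (by norm_num)
  omega

/-- The division polynomial `ΨSq p` of an `A`-integral curve has coefficients in `A`. -/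
theorem coeff_ΨSq_mem {W : Affine Qb} {A : ValuationSubring Qb} (hW : IsIntegralW W A) (n : ℤ)
    (i : ℕ) : (W.ΨSq n).coeff i ∈ A := by
  obtain ⟨h1, h2, h3, h4, h6⟩ := hW
  let W₀ : WeierstrassCurve A :=
    ⟨⟨W.a₁, h1⟩, ⟨W.a₂, h2⟩, ⟨W.a₃, h3⟩, ⟨W.a₄, h4⟩, ⟨W.a₆, h6⟩⟩
  have hmap : W = W₀.map A.subtype := by
    ext <;> rfl
  rw [hmap, WeierstrassCurve.map_ΨSq, Polynomial.coeff_map]
  exact ((W₀.ΨSq n).coeff i).2

theorem massExtra_of_easy (hE : EasyHalfStmt) : Asm.MassExtraStmt := by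
  intro W A ord hord hW hΔ p hp hp2 hpos hU hall P₀ hP₀ hpP₀ hdeep Q hpQ hQ
  have hp0 : (((p : ℤ) : Qb)) ≠ 0 := natCast_intCast_ne_zero hp
  have hp0' : (p : Qb) ≠ 0 := Nat.cast_ne_zero.mpr hp.ne_zero
  have hodd := not_even_of_prime hp hp2
  refine MassCount.mass_false_of_extra (W := W) (N := W.ΨSq (p : ℤ)) hord hp hp2 hpos
    (W.ΨSq_ne_zero hp0) (coeff_ΨSq_mem hW (p : ℤ)) ?_ ?_ hall P₀ hP₀ hpP₀ hdeep Q hpQ hQ
  · rw [W.leadingCoeff_ΨSq hp0]
    have e : (((p : ℤ) : Qb)) ^ 2 = (p : Qb) * (p : Qb) := by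
      rw [Int.cast_natCast, pow_two]
    rw [e, hord.map_mul hp0' hp0']
    linarith
  · intro x y h hP
    have hroot : (W.preΨ (p : ℤ)).IsRoot x := hE W hΔ p hp hp2 x y h hP
    have hdvd : (X - C x) ∣ W.preΨ (p : ℤ) := dvd_iff_isRoot.mpr hroot
    have : W.ΨSq (p : ℤ) = W.preΨ (p : ℤ) ^ 2 := by
      rw [WeierstrassCurve.ΨSq, if_neg hodd, mul_one]
    rw [this]
    exact pow_dvd_pow_of_dvd hdvd 2

end Fermat.Agent.S13.TWeakGlue
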