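import Mathlib

/-!
# S13, abstract core of the assembly (helper34)

The purely group-theoretic / linear-algebraic heart of blueprint 7, step (4): no elliptic curves.

`G` acts additively on a finite `ZMod p`-vector space `V` with `#V < p³`, `L` is a `G`-stable
proper nonzero subspace.  `Iner q` is a set of subgroups of `G` ("inertia groups over `q`").
Hypotheses:
* `hMink`  : a normal subgroup containing `H₀` and, for every prime `q`, some `I ∈ Iner q`, is `⊤`;
* `hH₀`    : `H₀` acts trivially on `V`;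
* `hOther` : for `q ≠ 2, p` some `I ∈ Iner q` acts trivially on `V`;
* `h2`     : some `I ∈ Iner 2` acts unipotently: `σ (σ x - x) = σ x - x`;
* `hpI`    : some `I ∈ Iner p` moves `V` into the additive subgroup `V0`, and `V0 ≠ ⊤`;
* `hNoFixed` : `V` has no nonzero `G`-fixed vector.
Conclusion: there is a `G`-stable cofixed line.
-/

set_option autoImplicit false

namespace Fermat.Agent.S13.AsmCore34

open Module

variable {G V : Type*} [Group G] [AddCommGroup V] {p : ℕ} [Fact p.Prime] [Module (ZMod p) V]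
  [DistribMulAction G V]

/-- the group action commutes with `ZMod p`-scalars. -/
theorem smul_zmod_smul (σ : G) (c : ZMod p) (x : V) : σ • (c • x) = c • (σ • x) :=
  ((DistribSMul.toAddMonoidHom V σ).toZModLinearMap p).map_smul c x

theorem smul_sub' (σ : G) (x y : V) : σ • (x - y) = σ • x - σ • y := smul_sub σ x y

section subgroups

variable (L : Submodule (ZMod p) V) (hL : ∀ (σ : G), ∀ x ∈ L, σ • x ∈ L)

/-- elements acting trivially on `V ⧸ L`. -/
def trivQuot : Subgroup G where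
  carrier := {σ | ∀ x : V, σ • x - x ∈ L}
  one_mem' := fun x => by simp
  mul_mem' := by
    intro σ τ hσ hτ x
    have h1 : (σ * τ) • x - x = (σ • (τ • x) - τ • x) + (τ • x - x) := by
      rw [mul_smul]; abel
    rw [h1]
    exact L.add_mem (hσ _) (hτ _)
  inv_mem' := by
    intro σ hσ x
    have h1 : σ⁻¹ • x - x = -(σ • (σ⁻¹ • x) - σ⁻¹ • x) := by
      rw [smul_inv_smul]; abel
    rw [h1]
    exact L.neg_mem (hσ _)

/-- elements acting trivially on `L`. -/
def trivOn : Subgroup G where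
  carrier := {σ | ∀ x ∈ L, σ • x = x}
  one_mem' := fun x _ => one_smul _ x
  mul_mem' := by
    intro σ τ hσ hτ x hx
    rw [mul_smul, hτ x hx, hσ x hx]
  inv_mem' := by
    intro σ hσ x hx
    rw [inv_smul_eq_iff, hσ x hx]

theorem mem_trivQuot {σ : G} : σ ∈ trivQuot (G := G) L ↔ ∀ x : V, σ • x - x ∈ L := Iff.rfl

theorem mem_trivOn {σ : G} : σ ∈ trivOn (G := G) L ↔ ∀ x ∈ L, σ • x = x := Iff.rfl

include hL in
theorem inv_smul_mem {τ : G} {x : V} (hx : x ∈ L) : τ⁻¹ • x ∈ L := hL τ⁻¹ x hx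

include hL in
theorem trivQuot_normal : (trivQuot (G := G) L).Normal := by
  refine ⟨fun σ hσ τ x => ?_⟩
  have h1 : (τ * σ * τ⁻¹) • x - x = τ • (σ • (τ⁻¹ • x) - τ⁻¹ • x) := by
    rw [smul_sub, mul_smul, mul_smul, smul_inv_smul]
  rw [h1]
  exact hL τ _ (hσ _)

include hL in
theorem trivOn_normal : (trivOn (G := G) L).Normal := by
  refine ⟨fun σ hσ τ x hx => ?_⟩
  rw [mul_smul, mul_smul, hσ _ (hL τ⁻¹ x hx), smul_inv_smul]

end subgroups

section linalg

variable [Finite V]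

omit [DistribMulAction G V] in
theorem finrank_le_two (hcard : Nat.card V < p ^ 3) : finrank (ZMod p) V ≤ 2 := by
  have h1 : Nat.card V = p ^ finrank (ZMod p) V := by
    rw [Module.natCard_eq_pow_finrank (K := ZMod p), Nat.card_zmod]
  rw [h1] at hcard
  have hp1 : 1 < p := (Fact.out : p.Prime).one_lt
  have := (Nat.pow_lt_pow_iff_right hp1).mp hcard
  omega

omit [DistribMulAction G V] in
theorem finrank_eq_one_of_proper (hcard : Nat.card V < p ^ 3) (L : Submodule (ZMod p) V)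
    (hL0 : L ≠ ⊥) (hL1 : L ≠ ⊤) : finrank (ZMod p) L = 1 ∧ finrank (ZMod p) V = 2 := by
  have h2 := finrank_le_two (p := p) (V := V) hcard
  have hlt : finrank (ZMod p) L < finrank (ZMod p) V := Submodule.finrank_lt hL1
  have hpos : 0 < finrank (ZMod p) L := by
    rw [Nat.pos_iff_ne_zero]
    intro h0
    exact hL0 (Submodule.finrank_eq_zero.mp h0)
  omega

omit [DistribMulAction G V] in
/-- a proper nonzero subspace has exactly `p` elements. -/
theorem natCard_eq_of_proper (hcard : Nat.card V < p ^ 3) (L : Submodule (ZMod p) V)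
    (hL0 : L ≠ ⊥) (hL1 : L ≠ ⊤) : Nat.card L = p := by
  rw [Module.natCard_eq_pow_finrank (K := ZMod p), Nat.card_zmod,
    (finrank_eq_one_of_proper hcard L hL0 hL1).1, pow_one]

omit [DistribMulAction G V] in
/-- a proper nonzero subspace is spanned by any of its nonzero vectors. -/
theorem eq_span_of_proper (hcard : Nat.card V < p ^ 3) (L : Submodule (ZMod p) V)
    (hL0 : L ≠ ⊥) (hL1 : L ≠ ⊤) {P₀ : V} (hP₀ : P₀ ∈ L) (h0 : P₀ ≠ 0) :
    L = Submodule.span (ZMod p) {P₀} := by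
  symm
  refine Submodule.eq_of_le_of_finrank_eq ?_ ?_
  · rw [Submodule.span_singleton_le_iff_mem]; exact hP₀
  · rw [(finrank_eq_one_of_proper hcard L hL0 hL1).1]
    exact finrank_span_singleton h0

omit [DistribMulAction G V] [Finite V] in
theorem exists_mem_ne_zero (L : Submodule (ZMod p) V) (hL0 : L ≠ ⊥) : ∃ P₀ ∈ L, P₀ ≠ 0 :=
  (Submodule.ne_bot_iff L).mp hL0

omit [DistribMulAction G V] in
/-- a subspace strictly between a proper nonzero subspace and `⊤` does not exist. -/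
theorem eq_of_le_of_ne_top (hcard : Nat.card V < p ^ 3) (L U : Submodule (ZMod p) V)
    (hL0 : L ≠ ⊥) (hL1 : L ≠ ⊤) (hLU : L ≤ U) (hU : U ≠ ⊤) : U = L := by
  obtain ⟨h1, h2⟩ := finrank_eq_one_of_proper hcard L hL0 hL1
  have hlt : finrank (ZMod p) U < finrank (ZMod p) V := Submodule.finrank_lt hU
  have hle : finrank (ZMod p) L ≤ finrank (ZMod p) U := Submodule.finrank_mono hLU
  symm
  exact Submodule.eq_of_le_of_finrank_eq hLU (by omega)

end linalg

section unipotent

variable [Finite V] (hcard : Nat.card V < p ^ 3) (L : Submodule (ZMod p) V)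
  (hL : ∀ (σ : G), ∀ x ∈ L, σ • x ∈ L) (hL0 : L ≠ ⊥) (hL1 : L ≠ ⊤)

include hcard hL hL0 hL1 in
/-- `σ` acts on the line `L` through a scalar. -/
theorem exists_scalar_on (σ : G) : ∃ c : ZMod p, ∀ x ∈ L, σ • x = c • x := by
  obtain ⟨P₀, hP₀, h0⟩ := exists_mem_ne_zero L hL0
  have hspan := eq_span_of_proper hcard L hL0 hL1 hP₀ h0
  have hσ : σ • P₀ ∈ Submodule.span (ZMod p) {P₀} := hspan ▸ hL σ P₀ hP₀
  obtain ⟨c, hc⟩ := Submodule.mem_span_singleton.mp hσ
  refine ⟨c, fun x hx => ?_⟩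
  rw [hspan] at hx
  obtain ⟨a, rfl⟩ := Submodule.mem_span_singleton.mp hx
  rw [smul_zmod_smul, ← hc, smul_smul, smul_smul, mul_comm]

include hcard hL hL0 hL1 in
/-- a unipotent element fixes the line `L` pointwise. -/
theorem mem_trivOn_of_unipotent {σ : G} (hσ : ∀ x : V, σ • (σ • x - x) = σ • x - x) :
    σ ∈ trivOn (G := G) L := by
  obtain ⟨c, hc⟩ := exists_scalar_on hcard L hL hL0 hL1 σ
  obtain ⟨P₀, hP₀, h0⟩ := exists_mem_ne_zero L hL0
  have h1 := hσ P₀
  rw [hc P₀ hP₀] at h1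
  have hmem : c • P₀ - P₀ ∈ L := L.sub_mem (L.smul_mem c hP₀) hP₀
  rw [hc _ hmem] at h1
  have h2 : ((c - 1) * (c - 1)) • P₀ = 0 := by
    have : ((c - 1) * (c - 1)) • P₀ = c • (c • P₀ - P₀) - (c • P₀ - P₀) := by
      rw [mul_smul, sub_smul, one_smul, smul_sub, sub_smul, one_smul, smul_sub]
    rw [this, h1, sub_self]
  have h3 : (c - 1) * (c - 1) = 0 := by
    by_contra hne
    exact h0 ((smul_eq_zero_iff_right hne).mp h2)
  have hc1 : c = 1 := by
    have := mul_self_eq_zero.mp h3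
    exact sub_eq_zero.mp this
  intro x hx
  rw [hc x hx, hc1, one_smul]

include hcard hL hL0 hL1 in
/-- a unipotent element acts trivially on `V ⧸ L`. -/
theorem mem_trivQuot_of_unipotent {σ : G} (hσ : ∀ x : V, σ • (σ • x - x) = σ • x - x) :
    σ ∈ trivQuot (G := G) L := by
  intro x
  by_contra hy
  -- `y := σ x - x ∉ L` is fixed by `σ` and `V = L + span y`, so `σ = 1`: contradiction
  set y := σ • x - x with hydef
  have hσy : σ • y = y := hσ x
  obtain ⟨h1, h2⟩ := finrank_eq_one_of_proper hcard L hL0 hL1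
  -- `L ⊔ span {y} = ⊤`
  have hsup : L ⊔ Submodule.span (ZMod p) {y} = ⊤ := by
    by_contra hne
    have hU := eq_of_le_of_ne_top hcard L (L ⊔ Submodule.span (ZMod p) {y}) hL0 hL1 le_sup_left hne
    apply hy
    have : y ∈ L ⊔ Submodule.span (ZMod p) {y} :=
      Submodule.mem_sup_right (Submodule.mem_span_singleton_self y)
    rwa [hU] at this
  have hσL := mem_trivOn_of_unipotent hcard L hL hL0 hL1 hσ
  -- `x = l + a • y`
  have hx : x ∈ L ⊔ Submodule.span (ZMod p) {y} := hsup ▸ Submodule.mem_top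
  obtain ⟨l, hl, z, hz, hxz⟩ := Submodule.mem_sup.mp hx
  obtain ⟨a, rfl⟩ := Submodule.mem_span_singleton.mp hz
  have : σ • x - x = 0 := by
    rw [← hxz, smul_add, hσL l hl, smul_zmod_smul, hσy]; abel
  apply hy
  rw [hydef, this]
  exact L.zero_mem

end unipotent

/-- **The abstract core of S13.** -/
theorem exists_cofixed_line [Finite V] (hcard : Nat.card V < p ^ 3)
    (L : Submodule (ZMod p) V) (hL : ∀ (σ : G), ∀ x ∈ L, σ • x ∈ L) (hL0 : L ≠ ⊥) (hL1 : L ≠ ⊤)
    (Iner : ℕ → Set (Subgroup G)) (H₀ : Subgroup G)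
    (hH₀ : ∀ σ ∈ H₀, ∀ x : V, σ • x = x)
    (hMink : ∀ S : Subgroup G, S.Normal → H₀ ≤ S →
      (∀ q : ℕ, q.Prime → ∃ I ∈ Iner q, I ≤ S) → S = ⊤)
    (hOther : ∀ q : ℕ, q.Prime → q ≠ 2 → q ≠ p →
      ∃ I ∈ Iner q, ∀ σ ∈ I, ∀ x : V, σ • x = x)
    (h2 : ∃ I ∈ Iner 2, ∀ σ ∈ I, ∀ x : V, σ • (σ • x - x) = σ • x - x)
    (V0 : AddSubgroup V) (hV0 : V0 ≠ ⊤)
    (hpI : ∃ I ∈ Iner p, ∀ σ ∈ I, ∀ x : V, σ • x - x ∈ V0)
    (hNoFixed : ∀ x : V, (∀ σ : G, σ • x = x) → x = 0) :
    ∃ N : Submodule (ZMod p) V, (∀ (σ : G), ∀ x ∈ N, σ • x ∈ N) ∧ N ≠ ⊥ ∧ N ≠ ⊤ ∧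
      ∀ (σ : G) (x : V), σ • x - x ∈ N := by
  obtain ⟨I2, hI2, h2'⟩ := h2
  obtain ⟨Ip, hIp, hp'⟩ := hpI
  -- the inertia groups away from `p` lie in both subgroups
  have hAway : ∀ q : ℕ, q.Prime → q ≠ p →
      ∃ I ∈ Iner q, I ≤ trivQuot (G := G) L ∧ I ≤ trivOn (G := G) L := by
    intro q hq hqp
    by_cases hq2 : q = 2
    · subst hq2
      exact ⟨I2, hI2, fun σ hσ => mem_trivQuot_of_unipotent hcard L hL hL0 hL1 (h2' σ hσ),
        fun σ hσ => mem_trivOn_of_unipotent hcard L hL hL0 hL1 (h2' σ hσ)⟩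
    · obtain ⟨I, hI, hI'⟩ := hOther q hq hq2 hqp
      refine ⟨I, hI, fun σ hσ x => ?_, fun σ hσ x _ => hI' σ hσ x⟩
      rw [hI' σ hσ x, sub_self]
      exact L.zero_mem
  by_cases hLV0 : ∀ x ∈ L, x ∈ V0
  · -- `L ≤ V0 ≠ ⊤`, hence `V0 = L` and inertia at `p` acts trivially on `V ⧸ L`
    have hU : AddSubgroup.toZModSubmodule p V0 = L := by
      refine eq_of_le_of_ne_top hcard L _ hL0 hL1 (fun x hx => hLV0 x hx) ?_
      intro htop
      apply hV0
      rw [eq_top_iff]
      intro x _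
      have : x ∈ AddSubgroup.toZModSubmodule p V0 := htop ▸ Submodule.mem_top
      exact this
    have hS : trivQuot (G := G) L = ⊤ := by
      refine hMink _ (trivQuot_normal L hL) ?_ ?_
      · intro σ hσ x
        rw [hH₀ σ hσ x, sub_self]
        exact L.zero_mem
      · intro q hq
        by_cases hqp : q = p
        · subst hqp
          refine ⟨Ip, hIp, fun σ hσ x => ?_⟩
          have : σ • x - x ∈ AddSubgroup.toZModSubmodule q V0 := hp' σ hσ x
          rwa [hU] at this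
        · obtain ⟨I, hI, hI1, -⟩ := hAway q hq hqp
          exact ⟨I, hI, hI1⟩
    refine ⟨L, hL, hL0, hL1, fun σ x => ?_⟩
    have : σ ∈ trivQuot (G := G) L := hS ▸ Subgroup.mem_top σ
    exact this x
  · -- some `P₀ ∈ L` is outside `V0`: inertia at `p` fixes `L`, so `P₀` is a fixed vector
    exfalso
    push Not at hLV0
    obtain ⟨P₀, hP₀, hP₀V⟩ := hLV0
    have h0 : P₀ ≠ 0 := fun h => hP₀V (h ▸ V0.zero_mem)
    have hS : trivOn (G := G) L = ⊤ := by
      refine hMink _ (trivOn_normal L hL) ?_ ?_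
      · intro σ hσ x _
        exact hH₀ σ hσ x
      · intro q hq
        by_cases hqp : q = p
        · subst hqp
          refine ⟨Ip, hIp, fun σ hσ => ?_⟩
          obtain ⟨c, hc⟩ := exists_scalar_on hcard L hL hL0 hL1 σ
          have hmem : σ • P₀ - P₀ ∈ V0 := hp' σ hσ P₀
          rw [hc P₀ hP₀] at hmem
          have hc1 : c = 1 := by
            by_contra hne
            have hne' : c - 1 ≠ 0 := sub_ne_zero.mpr hne
            apply hP₀V
            have h1 : (c - 1) • P₀ ∈ V0 := by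
              rw [sub_smul, one_smul]; exact hmem
            have h2 : (c - 1)⁻¹ • ((c - 1) • P₀) ∈ V0 := ZMod.smul_mem (K := V0) h1 _
            rwa [smul_smul, inv_mul_cancel₀ hne', one_smul] at h2
          intro x hx
          rw [hc x hx, hc1, one_smul]
        · obtain ⟨I, hI, -, hI2⟩ := hAway q hq hqp
          exact ⟨I, hI, hI2⟩
    apply h0
    apply hNoFixed
    intro σ
    have : σ ∈ trivOn (G := G) L := hS ▸ Subgroup.mem_top σ
    exact this P₀ hP₀

end Fermat.Agent.S13.AsmCore34
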