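/-
S13 (blueprint 7), glue for the assembly (helper14): step (4), case `V⁰ = V`
("all of `E[p]` in the kernel of reduction at `p`") is impossible when a Galois-stable line exists.

`false_of_all_mem_E1 : MassStmt → … → False`, from `Tame.line_two_div_le_neg_ord_x`.
No sorry.
-/
import Fermat.Agent.S13.Tame

set_option autoImplicit false

open WeierstrassCurve WeierstrassCurve.Affine WeierstrassCurve.Affine.Point

namespace Fermat.Agent.S13.CaseC14

open Fermat.Agent.S05 (IsOrd IsU IsIntegralW E1)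

/-- Step (4c) of blueprint 7.  `W` over `ℚ`, `A` over `p` with normalised `ord`, `N` a
Galois-stable subgroup of order `p` of `E[p]`.  If every `p`-torsion point lies in `E1`, then
`MassStmt` yields a contradiction. -/
theorem false_of_all_mem_E1 (hM : MassStmt) (W : Affine ℚ) (A : ValuationSubring Qb)
    (ord : Qb → ℚ) (hord : IsOrd A ord) {p : ℕ} (hp : p.Prime) (hp2 : p ≠ 2)
    (hQ : ∀ x : ℚ, x ≠ 0 → ord (algebraMap ℚ Qb x) = padicValRat p x)
    (hW : IsIntegralW (W⁄Qb) A) (hΔ : (W⁄Qb).Δ ≠ 0)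
    (hall : ∀ Q : (W⁄Qb).Point, (p : ℤ) • Q = 0 → Q ∈ E1 (W⁄Qb) ord)
    (N : Submodule (ZMod p) (Submodule.torsionBy ℤ (W⁄Qb).Point p))
    (hN : IsGaloisStable ℚ N) (hcard : Nat.card N = p) : False := by
  classical
  have : Normal ℚ Qb := Tame.normal_Qb
  have : Fact p.Prime := ⟨hp⟩
  -- `ord` of natural numbers
  have hnat : ∀ k : ℕ, k ≠ 0 → ord (k : Qb) = padicValRat p (k : ℚ) := by
    intro k hk
    have h1 : (k : Qb) = algebraMap ℚ Qb (k : ℚ) := (map_natCast (algebraMap ℚ Qb) k).symm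
    rw [h1]
    exact hQ _ (by exact_mod_cast hk)
  have hordp : ord (p : Qb) = 1 := by
    rw [hnat p hp.ne_zero]
    have : padicValRat p (p : ℚ) = 1 := by
      rw [show ((p : ℕ) : ℚ) = ((p : ℤ) : ℚ) by norm_cast, padicValRat.of_int]
      simp [padicValInt, padicValNat_self]
    exact_mod_cast this
  have hunits : ∀ k : ℕ, 0 < k → k < p → IsU ord (k : Qb) := by
    intro k hk0 hkp
    refine ⟨by exact_mod_cast hk0.ne', ?_⟩
    rw [hnat k hk0.ne']
    have hnd : ¬ p ∣ k := Nat.not_dvd_of_pos_of_lt hk0 hkp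
    have : padicValRat p (k : ℚ) = 0 := by
      rw [show ((k : ℕ) : ℚ) = ((k : ℤ) : ℚ) by norm_cast, padicValRat.of_int]
      simp [padicValInt, padicValNat.eq_zero_of_not_dvd hnd]
    exact_mod_cast this
  -- a nonzero point of `N`
  have hfin : Finite N := Nat.finite_of_card_ne_zero (by rw [hcard]; exact hp.ne_zero)
  have hnt : Nontrivial N := by
    rw [← Finite.one_lt_card_iff_nontrivial, hcard]
    exact hp.one_lt
  obtain ⟨n₀, hn₀⟩ := exists_ne (0 : N)
  set P₀ : Submodule.torsionBy ℤ (W⁄Qb).Point p := (n₀ : Submodule.torsionBy ℤ (W⁄Qb).Point p)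
    with hP₀def
  have hP₀N : P₀ ∈ N := n₀.2
  have hP₀ne : (P₀ : (W⁄Qb).Point) ≠ 0 := by
    intro h0
    apply hn₀
    exact Subtype.ext (Subtype.ext h0)
  have hpP₀ : (p : ℤ) • (P₀ : (W⁄Qb).Point) = 0 := by
    have := P₀.2
    rwa [Submodule.mem_torsionBy_iff] at this
  refine hM (W⁄Qb) A ord hord hW hΔ p hp hp2 (by rw [hordp]; exact one_pos) hunits hall
    (P₀ : (W⁄Qb).Point) hP₀ne hpP₀ ?_
  intro k _ _ x y h hk
  -- the point `k • P₀` of `N`
  have hkN : (k : ℤ) • P₀ ∈ N := by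
    have : ((k : ℤ) : ZMod p) • P₀ ∈ N := N.smul_mem _ hP₀N
    rwa [Int.cast_smul_eq_zsmul] at this
  have hcoe : (((k : ℤ) • P₀ : Submodule.torsionBy ℤ (W⁄Qb).Point p) : (W⁄Qb).Point)
      = Affine.Point.some x y h := by
    rw [← hk]
    rfl
  -- it lies in `E1`
  have hE1 : Affine.Point.some x y h ∈ E1 (W⁄Qb) ord := by
    apply hall
    rw [← hk, smul_comm, hpP₀]
    exact zsmul_zero (k : ℤ)
  have hx : x ≠ 0 ∧ ord x < 0 := by
    rcases hE1 with h0 | ⟨x', y', h', he, hx0, hx⟩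
    · exact absurd h0 (Affine.Point.some_ne_zero h)
    · have hxx : x = x' := by
        have := Affine.Point.some.inj he
        exact this.1
      rw [hxx]
      exact ⟨hx0, hx⟩
  have key := Tame.line_two_div_le_neg_ord_x hord hQ hp hp2 N hN hcard
    ((k : ℤ) • P₀) hkN h hcoe hx.1 hx.2
  rw [hordp, mul_one]
  have hp1 : (0 : ℚ) < (p : ℚ) - 1 := by
    have : (1 : ℚ) < p := by exact_mod_cast hp.one_lt
    linarith
  rw [neg_div]
  linarith

/-- A line over `ZMod p` has `p` elements. -/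
theorem natCard_eq_of_finrank_eq_one {p : ℕ} [Fact p.Prime] {V : Type*} [AddCommGroup V]
    [Module (ZMod p) V] (N : Submodule (ZMod p) V) (h : Module.finrank (ZMod p) N = 1) :
    Nat.card N = p := by
  have : Module.Finite (ZMod p) N := Module.finite_of_finrank_pos (by rw [h]; exact one_pos)
  rw [Module.natCard_eq_pow_finrank (K := ZMod p), h, pow_one, Nat.card_zmod]

/-- Same as `false_of_all_mem_E1`, the line being given by `finrank = 1`. -/
theorem false_of_all_mem_E1' (hM : MassStmt) (W : Affine ℚ) (A : ValuationSubring Qb)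
    (ord : Qb → ℚ) (hord : IsOrd A ord) {p : ℕ} (hp : p.Prime) (hp2 : p ≠ 2)
    (hQ : ∀ x : ℚ, x ≠ 0 → ord (algebraMap ℚ Qb x) = padicValRat p x)
    (hW : IsIntegralW (W⁄Qb) A) (hΔ : (W⁄Qb).Δ ≠ 0)
    (hall : ∀ Q : (W⁄Qb).Point, (p : ℤ) • Q = 0 → Q ∈ E1 (W⁄Qb) ord)
    (N : Submodule (ZMod p) (Submodule.torsionBy ℤ (W⁄Qb).Point p))
    (hN : IsGaloisStable ℚ N) (hrank : Module.finrank (ZMod p) N = 1) : False := by
  have : Fact p.Prime := ⟨hp⟩
  exact false_of_all_mem_E1 hM W A ord hord hp hp2 hQ hW hΔ hall N hN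
    (natCard_eq_of_finrank_eq_one N hrank)

end Fermat.Agent.S13.CaseC14
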