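/-
S13 / GAL (helper26): the three `Gal…Stmt` statements of `Interface.lean`, from `Gal.lean`.
-/
import Fermat.Agent.S13.Interface
import Fermat.Agent.S13.Gal

set_option autoImplicit false

open WeierstrassCurve WeierstrassCurve.Affine WeierstrassCurve.Affine.Point

namespace Fermat.Agent.S13

/-- [GAL-a] -/
theorem galLiesOver : GalLiesOverStmt :=
  fun q hq => Gal.exists_liesOverPrime q hq

/-- [GAL-b] -/
theorem galField : GalFieldStmt := fun W n hfin => by
  have := hfin
  exact Gal.exists_finite_fixing (W' := W) n

/-- [GAL-c] -/
theorem galRational : GalRationalStmt :=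
  fun _ _ _ h hfix => Gal.exists_rat_of_fixed h hfix

end Fermat.Agent.S13
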