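/-
S13 (blueprint 7, helper4), package LP in the EXACT Interface shapes — helper48.
  `lpStmt : LPStmt`                       (from `LP48.frey_smul_sub_mem_E1`)
  `freyIntegralStmt : FreyIntegralStmt`   (the Frey coefficients are integers; `Δ ≠ 0`)
All proofs closed.
-/
import Fermat.Agent.S13.Interface
import Fermat.Agent.S13.LP48

set_option autoImplicit false

namespace Fermat.Agent.S13.LPStmt48

open WeierstrassCurve WeierstrassCurve.Affine Fermat.Agent.S05 Fermat.Agent.S13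

/-- [LP] in the Interface shape. -/
theorem lpStmt : LPStmt := by
  intro P A _hA ord hord hQ σ hσ Q hpQ
  exact LP48.frey_smul_sub_mem_E1 P P.pp (by have := P.hp5; omega) hord hQ
    (isInertial_of_mem A σ hσ) hpQ

/-- every valuation subring of a field of characteristic zero contains the image of `ℤ`. -/
theorem algebraMap_int_mem (A : ValuationSubring Qb) (n : ℤ) :
    algebraMap ℚ Qb (n : ℚ) ∈ A := by
  have : algebraMap ℚ Qb (n : ℚ) = (n : Qb) := by simp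
  rw [this]
  exact intCast_mem A n

theorem four_dvd_a₂_num (P : FreyPackage) : (4 : ℤ) ∣ P.b ^ P.p - 1 - P.a ^ P.p := by
  have hb : (2 : ℤ) ∣ P.b := (ZMod.intCast_zmod_eq_zero_iff_dvd P.b 2).1 P.hb2
  have hb4 : (4 : ℤ) ∣ P.b ^ P.p := by
    obtain ⟨k, hk⟩ := hb
    have h2 : 2 ≤ P.p := by have := P.hp5; omega
    obtain ⟨m, hm⟩ : ∃ m, P.p = 2 + m := ⟨P.p - 2, by omega⟩
    rw [hk, hm, mul_pow, pow_add]
    exact ⟨2 ^ m * k ^ (2 + m), by ring⟩
  have ha : ((P.a ^ P.p : ℤ) : ZMod 4) = 3 := by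
    push_cast
    rw [P.ha4]
    obtain ⟨k, hk⟩ := P.hp_odd
    rw [hk, pow_succ, pow_mul]
    have : (3 : ZMod 4) ^ 2 = 1 := by decide
    rw [this, one_pow, one_mul]
  have h4 : ((P.b ^ P.p - 1 - P.a ^ P.p : ℤ) : ZMod 4) = 0 := by
    have hb0 : ((P.b ^ P.p : ℤ) : ZMod 4) = 0 :=
      (ZMod.intCast_zmod_eq_zero_iff_dvd _ 4).2 hb4
    rw [Int.cast_sub, Int.cast_sub, hb0, ha]
    decide
  exact (ZMod.intCast_zmod_eq_zero_iff_dvd _ 4).1 h4

theorem sixteen_dvd_a₄_num (P : FreyPackage) : (16 : ℤ) ∣ -(P.a ^ P.p) * P.b ^ P.p := by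
  have hb : (2 : ℤ) ∣ P.b := (ZMod.intCast_zmod_eq_zero_iff_dvd P.b 2).1 P.hb2
  obtain ⟨k, hk⟩ := hb
  obtain ⟨m, hm⟩ : ∃ m, P.p = 4 + m := ⟨P.p - 4, by have := P.hp5; omega⟩
  rw [hk, hm, mul_pow, pow_add]
  exact ⟨-(P.a ^ (4 + m)) * (2 ^ m * k ^ (4 + m)), by ring⟩

/-- [LP-int] in the Interface shape. -/
theorem freyIntegralStmt : FreyIntegralStmt := by
  intro P
  refine ⟨?_, fun A => ⟨?_, ?_, ?_, ?_, ?_⟩⟩
  · rw [J_bc_Δ]
    simp only [ne_eq, map_eq_zero, frA, frB, frC]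
    have := P.ha0; have := P.hb0; have := P.hc0
    positivity
  · simp [FreyPackage.freyCurve]
  · obtain ⟨k, hk⟩ := four_dvd_a₂_num P
    have e : (P.freyCurve⁄Qb).a₂ = algebraMap ℚ Qb ((k : ℤ) : ℚ) := by
      simp only [Affine.baseChange_a₂, FreyPackage.freyCurve]
      congr 1
      have : ((P.b : ℚ) ^ P.p - 1 - (P.a : ℚ) ^ P.p) = ((4 * k : ℤ) : ℚ) := by
        rw [← hk]; push_cast; ring
      rw [this]; push_cast; ring
    rw [e]; exact algebraMap_int_mem A k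
  · simp [FreyPackage.freyCurve]
  · obtain ⟨k, hk⟩ := sixteen_dvd_a₄_num P
    have e : (P.freyCurve⁄Qb).a₄ = algebraMap ℚ Qb ((k : ℤ) : ℚ) := by
      simp only [Affine.baseChange_a₄, FreyPackage.freyCurve]
      congr 1
      have : (-((P.a : ℚ) ^ P.p) * (P.b : ℚ) ^ P.p) = ((16 * k : ℤ) : ℚ) := by
        rw [← hk]; push_cast; ring
      rw [this]; push_cast; ring
    rw [e]; exact algebraMap_int_mem A k
  · simp [FreyPackage.freyCurve]

end Fermat.Agent.S13.LPStmt48
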