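import Fermat.Agent.S13.Interface
import Fermat.Agent.S13.AsmCore34
import Fermat.Agent.S13.CaseC14
import Fermat.Agent.S13.GalStmts
import Fermat.Agent.S13.LPStmt48
import Fermat.Agent.S13.L2Pole
import Fermat.Agent.S05.Final
import Fermat.Agent.S05.OrdConstruct

/-!
# S13: concrete assembly through the abstract core (helper34)

`frey_cofixed_of : TCountStmt → MassStmt → MinkStmt → L2UnipotentStmt → L2NoRationalStmt →
  ∀ P, ¬ irreducible → HasGaloisStableCofixedLine`.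
All the other Interface statements (GAL, LP, FreyIntegral, S05) are consumed from their landed
proofs.  Second, independent assembly (the owner's is `Assembly.lean`); uses
`AsmCore34.exists_cofixed_line`.
-/

set_option autoImplicit false

namespace Fermat.Agent.S13.Asm34

open WeierstrassCurve WeierstrassCurve.Affine WeierstrassCurve.Affine.Point
open Fermat.Agent.S05 (IsOrd IsU IsIntegralW E1)

/-- S13 from the five statements that are not yet landed. -/
theorem frey_cofixed_of (hT : TCountStmt) (hMass : MassStmt) (hMink : MinkStmt)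
    (hL2a : L2UnipotentStmt) (hL2b : L2NoRationalStmt) (P : FreyPackage)
    (hred : ¬ GaloisRepIsIrreducible (K := Qb) ℚ P.freyCurve P.p) :
    HasGaloisStableCofixedLine (K := Qb) ℚ P.freyCurve P.p := by
  classical
  have hp := P.pp
  have hp2 : P.p ≠ 2 := by have := P.hp5; omega
  have : Fact P.p.Prime := ⟨hp⟩
  obtain ⟨hΔ, hInt⟩ := LPStmt48.freyIntegralStmt P
  obtain ⟨hfin, hnt, hcard⟩ := hT (P.freyCurve⁄Qb) hΔ P.p hp hp2
  rcases (Gal.not_irreducible_iff (W' := P.freyCurve) P.p).mp hred with h | ⟨L, hL, hL0, hL1⟩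
  · exact absurd hnt h
  -- the field of definition of `E[p]`
  obtain ⟨M, hMfin, hM⟩ := galField P.freyCurve P.p hfin
  -- a place over `p` and its normalised valuation
  obtain ⟨Ap, hAp⟩ := galLiesOver P.p hp
  obtain ⟨ord, hord, hQ⟩ := Fermat.Agent.S05.exists_ord Ap hp hAp
  have h20 : (2 : Qb) ≠ 0 := two_ne_zero
  -- the kernel of reduction at `p` inside `E[p]`
  let V0 : AddSubgroup (Submodule.torsionBy ℤ (P.freyCurve⁄Qb).Point P.p) :=
    { carrier := {x | (x : (P.freyCurve⁄Qb).Point) ∈ E1 (P.freyCurve⁄Qb) ord}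
      zero_mem' := Or.inl rfl
      add_mem' := fun {a b} ha hb => by
        show ((a + b : Submodule.torsionBy ℤ (P.freyCurve⁄Qb).Point P.p) :
          (P.freyCurve⁄Qb).Point) ∈ E1 (P.freyCurve⁄Qb) ord
        rw [Submodule.coe_add]
        exact L2Pole.E1_add_mem (P.freyCurve⁄Qb) hord h20 (hInt Ap) ha hb
      neg_mem' := fun {a} ha => by
        show ((-a : Submodule.torsionBy ℤ (P.freyCurve⁄Qb).Point P.p) :
          (P.freyCurve⁄Qb).Point) ∈ E1 (P.freyCurve⁄Qb) ord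
        rw [Submodule.coe_neg]
        exact Fermat.Agent.S05.E1_neg_mem (P.freyCurve⁄Qb) ha }
  have hV0 : V0 ≠ ⊤ := by
    intro htop
    refine CaseC14.false_of_all_mem_E1 hMass P.freyCurve Ap ord hord hp hp2 hQ (hInt Ap) hΔ ?_ L hL
      (AsmCore34.natCard_eq_of_proper hcard L hL0 hL1)
    intro Q hQ0
    have hmem : (⟨Q, (Submodule.mem_torsionBy_iff _ _).2 hQ0⟩ :
        Submodule.torsionBy ℤ (P.freyCurve⁄Qb).Point P.p) ∈ V0 := htop ▸ AddSubgroup.mem_top _
    exact hmem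
  -- the hypotheses of the abstract core
  let Iner : ℕ → Set (Subgroup GQ) := fun q =>
    {I | ∃ A : ValuationSubring Qb, A.LiesOverPrime q ∧ I = A.inertiaSubgroupIn ℚ}
  have hmink : ∀ S : Subgroup GQ, S.Normal → M.fixingSubgroup ≤ S →
      (∀ q : ℕ, q.Prime → ∃ I ∈ Iner q, I ≤ S) → S = ⊤ := by
    intro S hS hle hI
    refine hMink S hS M hMfin hle ?_
    intro q hq
    obtain ⟨I, ⟨A, hA, rfl⟩, hIS⟩ := hI q hq
    exact ⟨A, hA, hIS⟩
  have hother : ∀ q : ℕ, q.Prime → q ≠ 2 → q ≠ P.p → ∃ I ∈ Iner q, ∀ σ ∈ I,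
      ∀ x : Submodule.torsionBy ℤ (P.freyCurve⁄Qb).Point P.p, σ • x = x := by
    intro q hq hq2 hqp
    obtain ⟨A, hA⟩ := galLiesOver q hq
    exact ⟨_, ⟨A, hA, rfl⟩, fun σ hσ x =>
      Fermat.Agent.S05.Fin.frey_unramified P hq hq2 hqp A hA σ hσ x⟩
  have htwo : ∃ I ∈ Iner 2, ∀ σ ∈ I,
      ∀ x : Submodule.torsionBy ℤ (P.freyCurve⁄Qb).Point P.p,
        σ • (σ • x - x) = σ • x - x := by
    obtain ⟨A, hA⟩ := galLiesOver 2 Nat.prime_two
    refine ⟨_, ⟨A, hA, rfl⟩, fun σ hσ x => ?_⟩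
    apply Subtype.ext
    exact hL2a P A hA σ hσ x.1 ((Submodule.mem_torsionBy_iff _ _).1 x.2)
  have hpI : ∃ I ∈ Iner P.p, ∀ σ ∈ I,
      ∀ x : Submodule.torsionBy ℤ (P.freyCurve⁄Qb).Point P.p, σ • x - x ∈ V0 := by
    refine ⟨_, ⟨Ap, hAp, rfl⟩, fun σ hσ x => ?_⟩
    exact LPStmt48.lpStmt P Ap hAp ord hord hQ σ hσ x.1 ((Submodule.mem_torsionBy_iff _ _).1 x.2)
  have hnofixed : ∀ x : Submodule.torsionBy ℤ (P.freyCurve⁄Qb).Point P.p,
      (∀ σ : GQ, σ • x = x) → x = 0 := by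
    intro x hx
    by_contra hx0
    have hx0' : (x : (P.freyCurve⁄Qb).Point) ≠ 0 := fun h => hx0 (Subtype.ext h)
    have hfix : ∀ σ : GQ, σ • (x : (P.freyCurve⁄Qb).Point) = x := fun σ =>
      congrArg Subtype.val (hx σ)
    have htor : ((P.p : ℕ) : ℤ) • (x : (P.freyCurve⁄Qb).Point) = 0 :=
      (Submodule.mem_torsionBy_iff _ _).1 x.2
    rcases hxe : (x : (P.freyCurve⁄Qb).Point) with _ | ⟨x₁, y₁, h₁⟩
    · exact hx0' hxe
    · rw [hxe] at hfix htor
      obtain ⟨x₀, y₀, rfl, rfl⟩ := galRational P.freyCurve x₁ y₁ h₁ hfix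
      exact hL2b P x₀ y₀ h₁ htor
  obtain ⟨N, hN, hN0, hN1, hcof⟩ := AsmCore34.exists_cofixed_line (G := GQ)
    (V := Submodule.torsionBy ℤ (P.freyCurve⁄Qb).Point P.p) (p := P.p) hcard L hL hL0 hL1
    Iner M.fixingSubgroup hM hmink hother htwo V0 hV0 hpI hnofixed
  exact ⟨N, hN, hN0, hN1, hcof⟩

end Fermat.Agent.S13.Asm34
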