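/-
S13 (blueprint 7), top-level ASSEMBLY, independent second seat (helper35).

`s13_of_stmts`: the S13 statement (Frey `E[p]` reducible ⇒ Galois-stable cofixed line) from the
package statements of `Interface.lean` and the S05 statement.  Complete proof.
-/
import Mathlib
import Fermat.Agent.S13.Interface
import Fermat.Agent.S13.Gal
import Fermat.Agent.S13.L2Pole
import Fermat.Agent.S05.OrdConstruct
import Fermat.Agent.S05.Pole

set_option autoImplicit false

open WeierstrassCurve WeierstrassCurve.Affine WeierstrassCurve.Affine.Point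

namespace Fermat.Agent.S13.Assembly35

open Fermat.Agent.S05 (IsOrd IsU IsInertial IsIntegralW E1 poleSet)

/-! ### Linear algebra: a square-zero endomorphism preserving a line in dimension `≤ 2` -/

section LinAlg

variable {k V : Type*} [Field k] [AddCommGroup V] [Module k V] [FiniteDimensional k V]

/-- If `T ∘ T = 0`, `T` preserves the line `k·v` and `dim V ≤ 2`, then `T v = 0` and
`T V ⊆ k·v`. -/
theorem sq_zero_line (h2 : Module.finrank k V ≤ 2) (T : V →ₗ[k] V) (hT : ∀ x, T (T x) = 0)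
    {v : V} (hv : v ≠ 0)
    (hstab : T v ∈ Submodule.span k {v}) :
    T v = 0 ∧ ∀ x, T x ∈ Submodule.span k {v} := by
  obtain ⟨c, hc⟩ := Submodule.mem_span_singleton.mp hstab
  have hTv : T v = 0 := by
    have h1 : T (T v) = (c * c) • v := by
      rw [← hc, map_smul, ← hc, smul_smul]
    rw [hT v] at h1
    have h3 : c * c = 0 := by
      by_contra hne
      exact hv ((smul_eq_zero.mp h1.symm).resolve_left hne)
    have hc0 : c = 0 := by simpa using h3
    rw [← hc, hc0, zero_smul]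
  refine ⟨hTv, ?_⟩
  have hN0 : Submodule.span k {v} ≠ ⊥ := by
    intro h
    exact hv ((Submodule.span_singleton_eq_bot).mp h)
  have hle : Submodule.span k {v} ≤ LinearMap.ker T := by
    rw [Submodule.span_singleton_le_iff_mem, LinearMap.mem_ker]
    exact hTv
  by_cases hker : LinearMap.ker T = ⊤
  · intro x
    have : T x = 0 := by
      have hx : x ∈ LinearMap.ker T := by rw [hker]; exact Submodule.mem_top
      exact LinearMap.mem_ker.mp hx
    rw [this]
    exact Submodule.zero_mem _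
  · have hkerN := Gal.eq_of_le_of_ne_top h2 hN0 hle hker
    intro x
    rw [← hkerN, LinearMap.mem_ker]
    exact hT x

end LinAlg


/-! ### The Galois module `V = E[p](ℚ̄)` -/

section galois

attribute [local instance] Gal.isAlgebraic_Qbar Gal.isAlgClosure_Qbar Gal.isGalois_Qbar

/-- `E[p](ℚ̄)` as a type. -/
abbrev Vt (W' : Affine ℚ) (p : ℕ) : Type := ↥(Submodule.torsionBy ℤ (W'⁄Qb).Point p)

variable {W' : Affine ℚ} {p : ℕ} [hp : Fact p.Prime]


/-- `σ - 1` as a `ZMod p`-linear endomorphism of `V`. -/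
noncomputable def sigmaSubOne (W' : Affine ℚ) (p : ℕ) [Fact p.Prime] (σ : GQ) :
    (Vt W' p) →ₗ[ZMod p] (Vt W' p) where
  toFun x := σ • x - x
  map_add' x y := by rw [smul_add]; abel
  map_smul' c x := by rw [Gal.smul_zmod_smul, smul_sub]; rfl

@[simp] theorem sigmaSubOne_apply (σ : GQ) (x : (Vt W' p)) :
    sigmaSubOne W' p σ x = σ • x - x := rfl

theorem finrank_le_two [Finite (Vt W' p)] (hcard : Nat.card (Vt W' p) < p ^ 3) :
    Module.finrank (ZMod p) (Vt W' p) ≤ 2 := by
  have : Module.Finite (ZMod p) (Vt W' p) := Module.Finite.of_finite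
  have h := Module.natCard_eq_pow_finrank (K := ZMod p) (V := Vt W' p)
  rw [Nat.card_zmod] at h
  rw [h] at hcard
  have := (Nat.pow_lt_pow_iff_right hp.out.one_lt).mp hcard
  omega

/-- A unipotent `σ` acts trivially on a stable line and on the quotient by it. -/
theorem mem_trivOn_and_trivOnQuot_of_unipotent [Finite (Vt W' p)]
    (h2 : Module.finrank (ZMod p) (Vt W' p) ≤ 2) {P₀ : (Vt W' p)} (hP₀ : P₀ ≠ 0)
    (hN : IsGaloisStable ℚ (Submodule.span (ZMod p) {P₀})) (σ : GQ)
    (hσ : ∀ x : (Vt W' p), σ • (σ • x - x) = σ • x - x) :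
    σ ∈ Gal.trivOn (Submodule.span (ZMod p) {P₀}) ∧
      σ ∈ Gal.trivOnQuot (Submodule.span (ZMod p) {P₀}) := by
  have : Module.Finite (ZMod p) (Vt W' p) := Module.Finite.of_finite
  have hT : ∀ x, sigmaSubOne W' p σ (sigmaSubOne W' p σ x) = 0 := by
    intro x
    simp only [sigmaSubOne_apply]
    rw [hσ x, sub_self]
  have hstab : sigmaSubOne W' p σ P₀ ∈ Submodule.span (ZMod p) {P₀} := by
    rw [sigmaSubOne_apply]
    exact Submodule.sub_mem _ (hN σ P₀ (Submodule.subset_span rfl)) (Submodule.subset_span rfl)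
  obtain ⟨h0, hall⟩ := sq_zero_line h2 (sigmaSubOne W' p σ) hT hP₀ hstab
  constructor
  · rw [Gal.mem_trivOn_span_singleton]
    rw [sigmaSubOne_apply, sub_eq_zero] at h0
    exact h0
  · rw [Gal.mem_trivOnQuot]
    intro x
    exact hall x

end galois

/-! ### `V⁰ = V ∩ E₁` -/

section vzero

variable {W' : Affine ℚ} {p : ℕ} [hp : Fact p.Prime]

theorem E1_zsmul_mem {A : ValuationSubring Qb} {ord : Qb → ℚ} (hord : IsOrd A ord)
    (hW : IsIntegralW (W'⁄Qb) A) {Q : (W'⁄Qb).Point} (hQ : Q ∈ E1 (W'⁄Qb) ord) (m : ℤ) :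
    m • Q ∈ E1 (W'⁄Qb) ord := by
  have h2 : (2 : Qb) ≠ 0 := two_ne_zero
  rcases Int.eq_nat_or_neg m with ⟨n, rfl | rfl⟩
  · rw [natCast_zsmul]
    exact L2Pole.E1_nsmul_mem _ hord h2 hW hQ n
  · rw [neg_smul, natCast_zsmul]
    exact S05.E1_neg_mem _ (L2Pole.E1_nsmul_mem _ hord h2 hW hQ n)

/-- `V⁰ = V ∩ E₁` as a `ZMod p`-submodule of `V`. -/
def V0 (W' : Affine ℚ) (p : ℕ) [Fact p.Prime] {A : ValuationSubring Qb} {ord : Qb → ℚ}
    (hord : IsOrd A ord) (hW : IsIntegralW (W'⁄Qb) A) : Submodule (ZMod p) (Vt W' p) where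
  carrier := {x | (x : (W'⁄Qb).Point) ∈ E1 (W'⁄Qb) ord}
  add_mem' := fun {x y} hx hy => by
    show ((x + y : Vt W' p) : (W'⁄Qb).Point) ∈ E1 (W'⁄Qb) ord
    rw [Submodule.coe_add]
    exact L2Pole.E1_add_mem _ hord two_ne_zero hW hx hy
  zero_mem' := Or.inl rfl
  smul_mem' := fun c x hx => by
    obtain ⟨m, rfl⟩ := ZMod.intCast_surjective c
    show (((m : ZMod p) • x : Vt W' p) : (W'⁄Qb).Point) ∈ E1 (W'⁄Qb) ord
    rw [Int.cast_smul_eq_zsmul, Submodule.coe_smul]
    exact E1_zsmul_mem hord hW hx m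

theorem mem_V0 {A : ValuationSubring Qb} {ord : Qb → ℚ} (hord : IsOrd A ord)
    (hW : IsIntegralW (W'⁄Qb) A) (x : Vt W' p) :
    x ∈ V0 W' p hord hW ↔ (x : (W'⁄Qb).Point) ∈ E1 (W'⁄Qb) ord := Iff.rfl

end vzero

/-! ### The assembly -/

section main

attribute [local instance] Gal.isAlgebraic_Qbar Gal.isAlgClosure_Qbar Gal.isGalois_Qbar

/-- The S05 statement (landed as `Fermat.Agent.S05.result`). -/
def S05Stmt : Prop :=
  ∀ (P : FreyPackage) {q : ℕ}, q.Prime → q ≠ 2 → q ≠ P.p → P.GaloisRepUnramifiedAt q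

section

variable (P : FreyPackage)

theorem coe_smul_V (σ : GQ) (x : Vt P.freyCurve P.p) :
    ((σ • x : Vt P.freyCurve P.p) : (P.freyCurve⁄Qb).Point) = σ • (x : (P.freyCurve⁄Qb).Point) :=
  rfl

theorem torsion_V (x : Vt P.freyCurve P.p) : ((P.p : ℕ) : ℤ) • (x : (P.freyCurve⁄Qb).Point) = 0 :=
  (Submodule.mem_torsionBy_iff _ _).mp x.2

end

theorem s13_of_stmts (hTC : TCountStmt) (hMass : MassStmt) (hTame : TameStmt) (hMink : MinkStmt)
    (hLies : GalLiesOverStmt) (hField : GalFieldStmt) (hRat : GalRationalStmt) (hLP : LPStmt)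
    (hInt : FreyIntegralStmt) (hL2a : L2UnipotentStmt) (hL2b : L2NoRationalStmt) (hS05 : S05Stmt)
    (P : FreyPackage) (hred : ¬ GaloisRepIsIrreducible (K := Qb) ℚ P.freyCurve P.p) :
    HasGaloisStableCofixedLine (K := Qb) ℚ P.freyCurve P.p := by
  have : Fact P.p.Prime := ⟨P.pp⟩
  have hp2 : P.p ≠ 2 := by have := P.hp5; omega
  obtain ⟨hΔ, hIntA⟩ := hInt P
  obtain ⟨hfin, hnt, hcard⟩ := hTC (P.freyCurve⁄Qb) hΔ P.p P.pp hp2
  have : Finite (Vt P.freyCurve P.p) := hfin
  have h2 := finrank_le_two (W' := P.freyCurve) (p := P.p) hcard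
  rcases (Gal.not_irreducible_iff (W' := P.freyCurve) P.p).mp hred with h | ⟨N, hN, h0, h1⟩
  · exact absurd hnt h
  have : Module.Finite (ZMod P.p) (Vt P.freyCurve P.p) := Module.Finite.of_finite
  obtain ⟨P₀, hP₀, rfl⟩ := Gal.exists_eq_span_singleton h2 N h0 h1
  obtain ⟨M, hMfin, hM⟩ := hField P.freyCurve P.p hfin
  set L : Submodule (ZMod P.p) (Vt P.freyCurve P.p) := Submodule.span (ZMod P.p) {P₀} with hL
  -- the primes `q ≠ p`
  have hother : ∀ q : ℕ, q.Prime → q ≠ P.p → ∃ A : ValuationSubring Qb, A.LiesOverPrime q ∧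
      A.inertiaSubgroupIn ℚ ≤ Gal.trivOn L ∧ A.inertiaSubgroupIn ℚ ≤ Gal.trivOnQuot L := by
    intro q hq hqp
    obtain ⟨A, hA⟩ := hLies q hq
    refine ⟨A, hA, ?_⟩
    by_cases hq2 : q = 2
    · subst hq2
      have key : ∀ σ ∈ A.inertiaSubgroupIn ℚ, σ ∈ Gal.trivOn L ∧ σ ∈ Gal.trivOnQuot L := by
        intro σ hσ
        apply mem_trivOn_and_trivOnQuot_of_unipotent h2 hP₀ hN σ
        intro x
        apply Subtype.ext
        exact hL2a P A hA σ hσ (x : (P.freyCurve⁄Qb).Point) (torsion_V P x)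
      exact ⟨fun σ hσ => (key σ hσ).1, fun σ hσ => (key σ hσ).2⟩
    · have hunr := hS05 P hq hq2 hqp
      have key : ∀ σ ∈ A.inertiaSubgroupIn ℚ, ∀ x : Vt P.freyCurve P.p, σ • x = x :=
        fun σ hσ x => hunr A hA σ hσ x
      refine ⟨fun σ hσ x _ => key σ hσ x, fun σ hσ x => ?_⟩
      rw [key σ hσ x, sub_self]
      exact L.zero_mem
  -- the prime `p`
  obtain ⟨A, hA⟩ := hLies P.p P.pp
  obtain ⟨ord, hord, hQ⟩ := S05.exists_ord A P.pp hA
  have hW := hIntA A
  have hLP' : ∀ σ ∈ A.inertiaSubgroupIn ℚ, ∀ x : Vt P.freyCurve P.p,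
      σ • x - x ∈ V0 P.freyCurve P.p hord hW := by
    intro σ hσ x
    rw [mem_V0]
    exact hLP P A hA ord hord hQ σ hσ (x : (P.freyCurve⁄Qb).Point) (torsion_V P x)
  have mink : ∀ S : Subgroup GQ, S.Normal → M.fixingSubgroup ≤ S →
      (∀ q : ℕ, q.Prime → q ≠ P.p → ∃ A' : ValuationSubring Qb, A'.LiesOverPrime q ∧
        A'.inertiaSubgroupIn ℚ ≤ S) →
      A.inertiaSubgroupIn ℚ ≤ S → S = ⊤ := by
    intro S hSn hMS hoth hAp
    apply hMink S hSn M hMfin hMS
    intro q hq
    by_cases hqp : q = P.p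
    · rw [hqp]; exact ⟨A, hA, hAp⟩
    · exact hoth q hq hqp
  rcases Gal.le_or_inf_eq_bot_of_span_singleton P₀ (V0 P.freyCurve P.p hord hW) with hle | hinf
  · by_cases htop : V0 P.freyCurve P.p hord hW = ⊤
    · exfalso
      have hne : (P₀ : (P.freyCurve⁄Qb).Point) ≠ 0 := fun h => hP₀ (Subtype.ext h)
      -- all of `E[p]` lies in the kernel of reduction
      have hall : ∀ Q : (P.freyCurve⁄Qb).Point, ((P.p : ℕ) : ℤ) • Q = 0 →
          Q ∈ E1 (P.freyCurve⁄Qb) ord := by
        intro Q hQ0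
        have hmem : (⟨Q, (Submodule.mem_torsionBy_iff _ _).mpr hQ0⟩ : Vt P.freyCurve P.p) ∈
            V0 P.freyCurve P.p hord hW := by
          rw [htop]; exact Submodule.mem_top
        exact hmem
      have hp0 : (P.p : ℚ) ≠ 0 := by exact_mod_cast P.hp0
      have hordp : ord (P.p : Qb) = 1 := by
        have h := hQ (P.p : ℚ) hp0
        rw [map_natCast] at h
        rw [h]
        have := padicValRat.self (p := P.p) P.pp.one_lt
        exact_mod_cast this
      have hunits : ∀ k : ℕ, 0 < k → k < P.p → IsU ord (k : Qb) := by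
        intro k hk0 hkp
        have hk : (k : ℚ) ≠ 0 := by exact_mod_cast hk0.ne'
        have h := hQ (k : ℚ) hk
        rw [map_natCast] at h
        refine ⟨by exact_mod_cast hk0.ne', ?_⟩
        rw [h, padicValRat.of_nat]
        have : padicValNat P.p k = 0 :=
          padicValNat.eq_zero_of_not_dvd (Nat.not_dvd_of_pos_of_lt hk0 hkp)
        rw [this]; rfl
      apply hMass (P.freyCurve⁄Qb) A ord hord hW hΔ P.p P.pp hp2 (by rw [hordp]; norm_num) hunits
        hall (P₀ : (P.freyCurve⁄Qb).Point) hne (torsion_V P P₀)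
      intro k hk0 hkp x y hxy hk
      -- the point `k • P₀` as an element of `V`
      set Q₁ : Vt P.freyCurve P.p := (k : ℤ) • P₀ with hQ₁
      have hQ₁coe : (Q₁ : (P.freyCurve⁄Qb).Point) = Point.some x y hxy := by
        rw [hQ₁, Submodule.coe_smul, hk]
      have hQ₁L : Q₁ ∈ L := L.toAddSubgroup.zsmul_mem (Submodule.subset_span rfl) _
      have hQ₁ne : Q₁ ≠ 0 := by
        intro h
        have : (Q₁ : (P.freyCurve⁄Qb).Point) = 0 := by rw [h]; rfl
        rw [hQ₁coe] at this
        exact Point.some_ne_zero _ this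
      -- membership in `E₁`
      have hE1 : (Point.some x y hxy : (P.freyCurve⁄Qb).Point) ∈ E1 (P.freyCurve⁄Qb) ord := by
        rw [← hQ₁coe]
        exact hall _ (torsion_V P Q₁)
      obtain ⟨hx0, hox⟩ : x ≠ 0 ∧ ord x < 0 := by
        rcases hE1 with h | ⟨x', y', h', heq, hx', ho'⟩
        · exact absurd h (Point.some_ne_zero _)
        · have hxx : x = x' := by
            have := heq
            simp only [Point.some.injEq] at this
            exact this.1
          rw [hxx]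
          exact ⟨hx', ho'⟩
      -- the Galois orbit lies in `L ∖ {0}`
      have hsub : Set.range (fun σ : GQ => σ • (Point.some x y hxy : (P.freyCurve⁄Qb).Point)) ⊆
          (fun v : Vt P.freyCurve P.p => (v : (P.freyCurve⁄Qb).Point)) '' ((L : Set _) \ {0}) := by
        rintro _ ⟨σ, rfl⟩
        refine ⟨σ • Q₁, ⟨hN σ Q₁ hQ₁L, ?_⟩, ?_⟩
        · intro h
          exact hQ₁ne ((smul_eq_zero_iff_eq σ).mp h)
        · show ((σ • Q₁ : Vt P.freyCurve P.p) : (P.freyCurve⁄Qb).Point) = _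
          rw [coe_smul_V, hQ₁coe]
      have hLfin : ((L : Set (Vt P.freyCurve P.p)) \ {0}).Finite := Set.toFinite _
      have himfin := hLfin.image (fun v : Vt P.freyCurve P.p => (v : (P.freyCurve⁄Qb).Point))
      have hLcard : Nat.card L = P.p := by
        have h1 := Module.natCard_eq_pow_finrank (K := ZMod P.p) (V := L)
        have h3 : Module.finrank (ZMod P.p) L = 1 := finrank_span_singleton hP₀
        rw [Nat.card_zmod, h3, pow_one] at h1
        exact h1
      have hcardL : ((L : Set (Vt P.freyCurve P.p)) \ {0}).ncard = P.p - 1 := by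
        rw [Set.ncard_sdiff_singleton_of_mem
          (show (0 : Vt P.freyCurve P.p) ∈ (L : Set _) from L.zero_mem)]
        have h3 : (L : Set (Vt P.freyCurve P.p)).ncard = Nat.card L :=
          (Nat.card_coe_set_eq _).symm
        rw [h3, hLcard]
      have hncard : (Set.range fun σ : GQ =>
          σ • (Point.some x y hxy : (P.freyCurve⁄Qb).Point)).ncard ≤ P.p - 1 := by
        calc _ ≤ _ := Set.ncard_le_ncard hsub himfin
          _ ≤ ((L : Set (Vt P.freyCurve P.p)) \ {0}).ncard := Set.ncard_image_le hLfin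
          _ = P.p - 1 := hcardL
      have hpos : 0 < P.p - 1 := by have := P.hp5; omega
      have ht := hTame P.freyCurve A ord hord P.p P.pp hQ hW x y hxy (P.p - 1) hpos
        (himfin.subset hsub) hncard hx0 hox
      rw [hordp]
      have hcast : ((P.p - 1 : ℕ) : ℚ) = (P.p : ℚ) - 1 := by
        rw [Nat.cast_sub P.pp.one_le]; simp
      rw [hcast] at ht
      calc ord x ≤ -2 / ((P.p : ℚ) - 1) := ht
        _ = -2 * 1 / ((P.p : ℚ) - 1) := by ring
    · have hV0 : V0 P.freyCurve P.p hord hW = L := Gal.eq_of_le_of_ne_top h2 h0 hle htop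
      have hS : Gal.trivOnQuot L = ⊤ := by
        apply mink _ (Gal.trivOnQuot_normal hN) (Gal.fixingSubgroup_le_trivOnQuot hM)
        · intro q hq hqp
          obtain ⟨A', hA', -, h'⟩ := hother q hq hqp
          exact ⟨A', hA', h'⟩
        · intro σ hσ x
          rw [← hV0]
          exact hLP' σ hσ x
      exact Gal.hasCofixedLine_of_trivOnQuot_eq_top hN h0 h1 hS
  · exfalso
    have hS' : Gal.trivOn L = ⊤ := by
      apply mink _ (Gal.trivOn_normal hN) (Gal.fixingSubgroup_le_trivOn hM)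
      · intro q hq hqp
        obtain ⟨A', hA', h', -⟩ := hother q hq hqp
        exact ⟨A', hA', h'⟩
      · intro σ hσ
        rw [Gal.mem_trivOn_span_singleton]
        have h1' : σ • P₀ - P₀ ∈ L :=
          L.sub_mem (hN σ P₀ (Submodule.subset_span rfl)) (Submodule.subset_span rfl)
        have h2' := hLP' σ hσ P₀
        have h3 : σ • P₀ - P₀ ∈ L ⊓ V0 P.freyCurve P.p hord hW := ⟨h1', h2'⟩
        rw [hinf] at h3
        exact sub_eq_zero.mp ((Submodule.mem_bot _).mp h3)
    -- `P₀` is a rational point of order `p`: impossible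
    have hfix : ∀ σ : GQ, σ • P₀ = P₀ := by
      intro σ
      rw [← Gal.mem_trivOn_span_singleton, hS']
      exact Subgroup.mem_top σ
    have hne : (P₀ : (P.freyCurve⁄Qb).Point) ≠ 0 := fun h => hP₀ (Subtype.ext h)
    rcases hcoe : (P₀ : (P.freyCurve⁄Qb).Point) with _ | ⟨x, y, hxy⟩
    · exact hne hcoe
    · have hfix' : ∀ σ : GQ, σ • (Point.some x y hxy : (P.freyCurve⁄Qb).Point) = Point.some x y hxy := by
        intro σ
        rw [← hcoe, ← coe_smul_V, hfix σ]
      obtain ⟨x₀, y₀, rfl, rfl⟩ := hRat P.freyCurve x y hxy hfix'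
      apply hL2b P x₀ y₀ hxy
      rw [← hcoe]
      exact torsion_V P P₀

end main

end Fermat.Agent.S13.Assembly35
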