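/-
S13 (blueprint 7), glue for the assembly (helper14): the case analysis at the prime `p`
(step (4)), from the conclusion of `LPStmt` ("inertia moves `E[p]` into the kernel of
reduction `E1`").

`V0 := E[p] ∩ E1` is a `ZMod p`-subspace; for a Galois-stable line `N` in `V = E[p]`, `dim V ≤ 2`:
* `N ⊓ V0 = ⊥`  ⇒ inertia acts trivially on `N`          (`le_trivOn_of_inf_eq_bot`);
* `V0 = N`       ⇒ inertia acts trivially on `V/N`        (`le_trivOnQuot_of_eq`);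
* otherwise `V0 = ⊤`, i.e. all of `E[p]` lies in `E1`     (handled by `CaseC14`).
`trichotomy` packages the three cases.  No sorry.
-/
import Fermat.Agent.S13.Gal
import Fermat.Agent.S13.Interface
import Fermat.Agent.S13.L2Pole

set_option autoImplicit false

open WeierstrassCurve WeierstrassCurve.Affine WeierstrassCurve.Affine.Point

namespace Fermat.Agent.S13.CaseP14

open Fermat.Agent.S05 (IsOrd IsU IsIntegralW E1)

variable {W' : Affine ℚ} {p : ℕ} [Fact p.Prime] {A : ValuationSubring Qb} {ord : Qb → ℚ}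

/-- `E[p] ∩ E1` as an additive subgroup of `E[p]`. -/
noncomputable def V0add (hord : IsOrd A ord) (hW : IsIntegralW (W'⁄Qb) A) :
    AddSubgroup (Submodule.torsionBy ℤ (W'⁄Qb).Point p) where
  carrier := {x | (x : (W'⁄Qb).Point) ∈ E1 (W'⁄Qb) ord}
  zero_mem' := Or.inl rfl
  add_mem' := fun {x y} hx hy => by
    show ((x + y : Submodule.torsionBy ℤ (W'⁄Qb).Point p) : (W'⁄Qb).Point) ∈ E1 (W'⁄Qb) ord
    rw [Submodule.coe_add]
    exact L2Pole.E1_add_mem (W'⁄Qb) hord two_ne_zero hW hx hy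
  neg_mem' := fun {x} hx => by
    show ((-x : Submodule.torsionBy ℤ (W'⁄Qb).Point p) : (W'⁄Qb).Point) ∈ E1 (W'⁄Qb) ord
    rw [Submodule.coe_neg]
    exact Fermat.Agent.S05.E1_neg_mem (W'⁄Qb) hx

/-- `V⁰ = E[p] ∩ E1` as a `ZMod p`-subspace of `E[p]`. -/
noncomputable def V0 (hord : IsOrd A ord) (hW : IsIntegralW (W'⁄Qb) A) :
    Submodule (ZMod p) (Submodule.torsionBy ℤ (W'⁄Qb).Point p) :=
  AddSubgroup.toZModSubmodule p (V0add hord hW)

theorem mem_V0 (hord : IsOrd A ord) (hW : IsIntegralW (W'⁄Qb) A)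
    (x : Submodule.torsionBy ℤ (W'⁄Qb).Point p) :
    x ∈ V0 hord hW ↔ (x : (W'⁄Qb).Point) ∈ E1 (W'⁄Qb) ord := Iff.rfl

variable (N : Submodule (ZMod p) (Submodule.torsionBy ℤ (W'⁄Qb).Point p))

/-- the conclusion of `LPStmt`, for elements of `E[p]`. -/
theorem sub_mem_V0 (hord : IsOrd A ord) (hW : IsIntegralW (W'⁄Qb) A) (σ : GQ)
    (hσ : ∀ Q : (W'⁄Qb).Point, (p : ℤ) • Q = 0 → σ • Q - Q ∈ E1 (W'⁄Qb) ord)
    (x : Submodule.torsionBy ℤ (W'⁄Qb).Point p) : σ • x - x ∈ V0 hord hW := by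
  have hx : (p : ℤ) • (x : (W'⁄Qb).Point) = 0 := by
    have := x.2
    rwa [Submodule.mem_torsionBy_iff] at this
  exact hσ (x : (W'⁄Qb).Point) hx

/-- case (a): `N ∩ V⁰ = 0` ⇒ `σ` acts trivially on `N`. -/
theorem mem_trivOn_of_inf_eq_bot (hord : IsOrd A ord) (hW : IsIntegralW (W'⁄Qb) A)
    (hN : IsGaloisStable ℚ N) (hinf : N ⊓ V0 hord hW = ⊥) (σ : GQ)
    (hσ : ∀ Q : (W'⁄Qb).Point, (p : ℤ) • Q = 0 → σ • Q - Q ∈ E1 (W'⁄Qb) ord) :
    σ ∈ Gal.trivOn N := by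
  intro x hx
  have h1 : σ • x - x ∈ N := N.sub_mem (hN σ x hx) hx
  have h2 : σ • x - x ∈ V0 hord hW := sub_mem_V0 hord hW σ hσ x
  have h3 : σ • x - x ∈ N ⊓ V0 hord hW := ⟨h1, h2⟩
  rw [hinf, Submodule.mem_bot, sub_eq_zero] at h3
  exact h3

/-- case (b): `V⁰ ≤ N` ⇒ `σ` acts trivially on `V/N`. -/
theorem mem_trivOnQuot_of_le (hord : IsOrd A ord) (hW : IsIntegralW (W'⁄Qb) A)
    (hle : V0 hord hW ≤ N) (σ : GQ)
    (hσ : ∀ Q : (W'⁄Qb).Point, (p : ℤ) • Q = 0 → σ • Q - Q ∈ E1 (W'⁄Qb) ord) :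
    σ ∈ Gal.trivOnQuot N :=
  fun x => hle (sub_mem_V0 hord hW σ hσ x)

/-- **Case analysis at `p`.**  `N` a line in `V = E[p]`, `dim V ≤ 2`.  Either `N ∩ V⁰ = 0`,
or `V⁰ = N`, or all of `E[p]` lies in `E1`. -/
theorem trichotomy [FiniteDimensional (ZMod p) (Submodule.torsionBy ℤ (W'⁄Qb).Point p)]
    (h2 : Module.finrank (ZMod p) (Submodule.torsionBy ℤ (W'⁄Qb).Point p) ≤ 2)
    (hord : IsOrd A ord) (hW : IsIntegralW (W'⁄Qb) A)
    (hrank : Module.finrank (ZMod p) N = 1) :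
    N ⊓ V0 hord hW = ⊥ ∨ V0 hord hW = N ∨
      ∀ Q : (W'⁄Qb).Point, (p : ℤ) • Q = 0 → Q ∈ E1 (W'⁄Qb) ord := by
  have hN0 : N ≠ ⊥ := by
    intro h
    rw [h, finrank_bot] at hrank
    exact zero_ne_one hrank
  by_cases hinf : N ⊓ V0 (p := p) (W' := W') hord hW = ⊥
  · exact Or.inl hinf
  right
  -- `N ⊓ V⁰` is a nonzero subspace of the line `N`, hence equals `N`
  have hle : N ≤ V0 (p := p) (W' := W') hord hW := by
    have h1 : N ⊓ V0 (p := p) (W' := W') hord hW ≤ N := inf_le_left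
    have hpos : 0 < Module.finrank (ZMod p) ↥(N ⊓ V0 (p := p) (W' := W') hord hW) := by
      rw [Module.finrank_pos_iff]
      exact (Submodule.nontrivial_iff_ne_bot).mpr hinf
    have hle' : Module.finrank (ZMod p) ↥(N ⊓ V0 (p := p) (W' := W') hord hW) ≤ Module.finrank (ZMod p) N :=
      Submodule.finrank_mono h1
    have heq : N ⊓ V0 (p := p) (W' := W') hord hW = N :=
      Submodule.eq_of_le_of_finrank_eq h1 (by omega)
    rw [← heq]
    exact inf_le_right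
  by_cases htop : V0 (p := p) (W' := W') hord hW = ⊤
  · right
    intro Q hQ
    have hQ' : Q ∈ Submodule.torsionBy ℤ (W'⁄Qb).Point p := by
      rw [Submodule.mem_torsionBy_iff]; exact hQ
    have : (⟨Q, hQ'⟩ : Submodule.torsionBy ℤ (W'⁄Qb).Point p) ∈ V0 (p := p) (W' := W') hord hW := by
      rw [htop]; exact Submodule.mem_top
    exact this
  · left
    exact Gal.eq_of_le_of_ne_top (k := ZMod p) h2 hN0 hle htop

end Fermat.Agent.S13.CaseP14
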