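/-
S13 / DIV1 (helper37): the algebraic core of the torsion criterion.

Abstract setting: a field `F`, constants `b₂ b₄ b₆ b₈`, two sequences `x w : ℕ → F`
(`x k` = x-coordinate of `k • P`, `w k` = the "geometric" division sequence) such that
* `w (k+1) * w (k-1) = -(x k - x 1) * w k ^ 2`,
* the product and sum formulas of the group law hold for the pairs of multiples,
* duplication `x 2 * F(x 1) = Φ₂(x 1)` and `w 2 ^ 2 = F (x 1)`.
Then the difference formula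
`(x m - x n) * w m ^ 2 * w n ^ 2 = - w (m + n) * w (m - n)` holds.
The proof only uses that `Θ(a,b,c) = N(a,b) - c S(a,b) + c² (a-b)²` is a symmetric polynomial.
-/
import Mathlib

set_option autoImplicit false

namespace Fermat.Agent.S13.DivCore

variable {F : Type*} [Field F] (b₂ b₄ b₆ b₈ : F)

/-- numerator of `x(P+Q) x(P-Q)`. -/
def Nn (a b : F) : F := a ^ 2 * b ^ 2 - b₄ * a * b - b₆ * (a + b) - b₈

/-- numerator of `x(P+Q) + x(P-Q)`. -/
def Sn (a b : F) : F := 2 * a * b * (a + b) + b₂ * a * b + b₄ * (a + b) + b₆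

/-- `ψ₂² = 4x³ + b₂x² + 2b₄x + b₆`. -/
def Fp (a : F) : F := 4 * a ^ 3 + b₂ * a ^ 2 + 2 * b₄ * a + b₆

/-- `Φ₂ = x⁴ - b₄x² - 2b₆x - b₈`. -/
def Ph2 (a : F) : F := a ^ 4 - b₄ * a ^ 2 - 2 * b₆ * a - b₈

/-- the symmetric polynomial `Θ`. -/
def Th (a b c : F) : F := Nn b₄ b₆ b₈ a b - c * Sn b₂ b₄ b₆ a b + c ^ 2 * (a - b) ^ 2

theorem Th_symm₁ (a b c : F) : Th b₂ b₄ b₆ b₈ a b c = Th b₂ b₄ b₆ b₈ b a c := by
  simp only [Th, Nn, Sn]; ring

theorem Th_rot (a b c : F) : Th b₂ b₄ b₆ b₈ a b c = Th b₂ b₄ b₆ b₈ b c a := by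
  simp only [Th, Nn, Sn]; ring

theorem Th_diag (a b : F) : Th b₂ b₄ b₆ b₈ a b b = Ph2 b₄ b₆ b₈ b - a * Fp b₂ b₄ b₆ b := by
  simp only [Th, Nn, Sn, Ph2, Fp]; ring

/-- if `x₃ x₄ d² = N`, `(x₃+x₄) d² = S` then `(x₃-c)(x₄-c)d² = Θ(·,·,c)`. -/
theorem Th_of_prod_sum {a b x₃ x₄ : F} (hN : x₃ * x₄ * (a - b) ^ 2 = Nn b₄ b₆ b₈ a b)
    (hS : (x₃ + x₄) * (a - b) ^ 2 = Sn b₂ b₄ b₆ a b) (c : F) :
    (x₃ - c) * (x₄ - c) * (a - b) ^ 2 = Th b₂ b₄ b₆ b₈ a b c := by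
  simp only [Th]
  linear_combination hN - c * hS

section seq

variable {b₂ b₄ b₆ b₈}
variable {M : ℕ} {x w : ℕ → F}

/-- The hypotheses on the pair of sequences `(x, w)`, up to the bound `M`. -/
structure IsGeomSeq (b₂ b₄ b₆ b₈ : F) (M : ℕ) (x w : ℕ → F) : Prop where
  w0 : w 0 = 0
  w1 : w 1 = 1
  wne : ∀ k, 1 ≤ k → k ≤ M → w k ≠ 0
  wrec : ∀ k, 1 ≤ k → k + 1 ≤ M → w (k + 1) * w (k - 1) = -(x k - x 1) * w k ^ 2
  xne : ∀ n k, 1 ≤ n → 1 ≤ k → 2 * n + k ≤ M → x (n + k) ≠ x n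
  prod : ∀ n k, 1 ≤ n → 1 ≤ k → 2 * n + k ≤ M →
    x (2 * n + k) * x k * (x (n + k) - x n) ^ 2 = Nn b₄ b₆ b₈ (x (n + k)) (x n)
  sum : ∀ n k, 1 ≤ n → 1 ≤ k → 2 * n + k ≤ M →
    (x (2 * n + k) + x k) * (x (n + k) - x n) ^ 2 = Sn b₂ b₄ b₆ (x (n + k)) (x n)
  dbl : 2 ≤ M → x 2 * Fp b₂ b₄ b₆ (x 1) = Ph2 b₄ b₆ b₈ (x 1)
  w2sq : 2 ≤ M → w 2 ^ 2 = Fp b₂ b₄ b₆ (x 1)

variable (H : IsGeomSeq b₂ b₄ b₆ b₈ M x w)
include H

/-- `Θ`-form of the product/sum formulas for the pair `((n+k)P, nP)`. -/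
theorem theta_pair {n k : ℕ} (hn : 1 ≤ n) (hk : 1 ≤ k) (hM : 2 * n + k ≤ M) (c : F) :
    (x (2 * n + k) - c) * (x k - c) * (x (n + k) - x n) ^ 2 =
      Th b₂ b₄ b₆ b₈ (x (n + k)) (x n) c :=
  Th_of_prod_sum b₂ b₄ b₆ b₈ (H.prod n k hn hk hM) (H.sum n k hn hk hM) c

/-- `D(m,1)`. -/
theorem D_one {k : ℕ} (hk : 1 ≤ k) (hM : 2 + k ≤ M) :
    (x (1 + k) - x 1) * w (1 + k) ^ 2 * w 1 ^ 2 = - w (2 + k) * w k := by
  have h := H.wrec (1 + k) (by omega) (by omega)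
  have e1 : 1 + k + 1 = 2 + k := by omega
  have e2 : 1 + k - 1 = k := by omega
  rw [e1, e2] at h
  rw [H.w1]
  linear_combination h

/-- `D(m,2)`. -/
theorem D_two {k : ℕ} (hk : 1 ≤ k) (hM : 4 + k ≤ M) :
    (x (2 + k) - x 2) * w (2 + k) ^ 2 * w 2 ^ 2 = - w (4 + k) * w k := by
  have r1 := H.wrec (2 + k + 1) (by omega) (by omega)
  have r2 := H.wrec (2 + k - 1) (by omega) (by omega)
  have r3 := H.wrec (2 + k) (by omega) (by omega)
  have e1 : 2 + k + 1 + 1 = 4 + k := by omega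
  have e2 : 2 + k + 1 - 1 = 2 + k := by omega
  have e3 : 2 + k - 1 + 1 = 2 + k := by omega
  have e4 : 2 + k - 1 - 1 = k := by omega
  rw [e1, e2] at r1
  rw [e3, e4] at r2
  have t := theta_pair H (n := 1) (k := 1 + k) le_rfl (by omega) (by omega) (x 1)
  have e5 : 2 * 1 + (1 + k) = 2 + k + 1 := by omega
  have e6 : 1 + (1 + k) = 2 + k := by omega
  have e7 : 1 + k = 2 + k - 1 := by omega
  rw [e5, e6, Th_diag] at t
  rw [e7] at t
  have hd := H.dbl (by omega)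
  have h2 := H.w2sq (by omega)
  have hm : w (2 + k) ≠ 0 := H.wne _ (by omega) (by omega)
  have hm2 : w (2 + k) ^ 2 ≠ 0 := pow_ne_zero _ hm
  apply mul_left_cancel₀ hm2
  -- abbreviations
  set A := w (4 + k)
  set B := w k
  set wm := w (2 + k)
  set wp := w (2 + k + 1)
  set wq := w (2 + k - 1)
  set xm := x (2 + k)
  set xp := x (2 + k + 1)
  set xq := x (2 + k - 1)
  -- `A * B * wm²  = (xp - x1)(xq - x1) wp² wq² = (xp-x1)(xq-x1)(xm-x1)² wm⁴`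
  linear_combination (wm * B) * r1 + (-(xp - x 1) * wp ^ 2) * r2
    + ((xp - x 1) * (xq - x 1) * (wp * wq - (xm - x 1) * wm ^ 2)) * r3
    + (wm ^ 4) * t - (wm ^ 4) * hd + (wm ^ 4 * (xm - x 2)) * h2

/-- the inductive step `D(m,n-1), D(m,n) ⇒ D(m,n+1)`. -/
theorem D_step {n k : ℕ} (hn : 2 ≤ n) (hk : 1 ≤ k) (hM : 2 * (n + 1) + k ≤ M)
    (d1 : (x (n + (k + 1)) - x n) * w (n + (k + 1)) ^ 2 * w n ^ 2
      = - w (2 * n + (k + 1)) * w (k + 1))
    (d2 : (x (n - 1 + (k + 2)) - x (n - 1)) * w (n - 1 + (k + 2)) ^ 2 * w (n - 1) ^ 2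
      = - w (2 * (n - 1) + (k + 2)) * w (k + 2)) :
    (x (n + 1 + k) - x (n + 1)) * w (n + 1 + k) ^ 2 * w (n + 1) ^ 2
      = - w (2 * (n + 1) + k) * w k := by
  have em : n + (k + 1) = n + 1 + k := by omega
  have em' : n - 1 + (k + 2) = n + 1 + k := by omega
  have ec : 2 * (n - 1) + (k + 2) = 2 * n + k := by omega
  rw [em] at d1
  rw [em', ec] at d2
  have ra := H.wrec (2 * n + (k + 1)) (by omega) (by omega)
  have rb := H.wrec (k + 1) (by omega) (by omega)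
  have rc := H.wrec n (by omega) (by omega)
  have ea1 : 2 * n + (k + 1) + 1 = 2 * (n + 1) + k := by omega
  have ea2 : 2 * n + (k + 1) - 1 = 2 * n + k := by omega
  have eb1 : k + 1 + 1 = k + 2 := by omega
  have eb2 : k + 1 - 1 = k := by omega
  rw [ea1, ea2] at ra
  rw [eb1, eb2] at rb
  have t1 := theta_pair H (n := n) (k := k + 1) (by omega) (by omega) (by omega) (x 1)
  rw [em] at t1
  have t2 := theta_pair H (n := 1) (k := n - 1) le_rfl (by omega) (by omega) (x (n + 1 + k))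
  have et1 : 2 * 1 + (n - 1) = n + 1 := by omega
  have et2 : 1 + (n - 1) = n := by omega
  rw [et1, et2] at t2
  have hrot := Th_rot b₂ b₄ b₆ b₈ (x (n + 1 + k)) (x n) (x 1)
  have hC : w (2 * n + k) ≠ 0 := H.wne _ (by omega) (by omega)
  have hD : w (k + 2) ≠ 0 := H.wne _ (by omega) (by omega)
  have hwm : w (n + 1 + k) ≠ 0 := H.wne _ (by omega) (by omega)
  have hwn : w n ≠ 0 := H.wne _ (by omega) (by omega)
  have hne : w (2 * n + k) * w (k + 2) * w (n + 1 + k) ^ 2 * w n ^ 4 ≠ 0 :=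
    mul_ne_zero (mul_ne_zero (mul_ne_zero hC hD) (pow_ne_zero _ hwm)) (pow_ne_zero _ hwn)
  apply mul_left_cancel₀ hne
  set A := w (2 * (n + 1) + k)
  set B := w k
  set C := w (2 * n + k)
  set D := w (k + 2)
  set Em := w (2 * n + (k + 1))
  set Ff := w (k + 1)
  set wm := w (n + 1 + k)
  set wn := w n
  set wn1 := w (n + 1)
  set wp := w (n - 1)
  set xm := x (n + 1 + k)
  set xn := x n
  set xn1 := x (n + 1)
  set xp := x (n - 1)
  set xa := x (2 * n + (k + 1))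
  set xb := x (k + 1)
  set T1 := Th b₂ b₄ b₆ b₈ xm xn (x 1)
  set T2 := Th b₂ b₄ b₆ b₈ xn (x 1) xm
  linear_combination (D * B * wm ^ 2 * wn ^ 4) * ra + (-(xa - x 1) * Em ^ 2 * wm ^ 2 * wn ^ 4) * rb
    + ((xa - x 1) * (xb - x 1) * wm ^ 2 * wn ^ 4 * (Em * Ff - (xm - xn) * wm ^ 2 * wn ^ 2)) * d1
    + (wm ^ 6 * wn ^ 8) * t1 + (wm ^ 4 * wn ^ 4 * (xm - xn1) * wn1 ^ 2) * d2
    + (-(xm - xp) * (xm - xn1) * wm ^ 6 * wn ^ 4 * (wn1 * wp - (xn - x 1) * wn ^ 2)) * rc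
    - (wm ^ 6 * wn ^ 8) * t2 + (wm ^ 6 * wn ^ 8) * hrot

/-- **The difference formula** `D(m,n)`, `m = n + k`. -/
theorem D_main : ∀ n : ℕ, 1 ≤ n → ∀ k : ℕ, 1 ≤ k → 2 * n + k ≤ M →
    (x (n + k) - x n) * w (n + k) ^ 2 * w n ^ 2 = - w (2 * n + k) * w k := by
  intro n
  induction n using Nat.strong_induction_on with
  | _ n ih =>
    intro hn k hk hM
    rcases Nat.lt_or_ge n 3 with h3 | h3
    · interval_cases n
      · have := D_one H hk (by omega)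
        simpa using this
      · have := D_two H hk (by omega)
        simpa using this
    · obtain ⟨n', rfl⟩ : ∃ n', n = n' + 1 := ⟨n - 1, by omega⟩
      have d1 := ih n' (by omega) (by omega) (k + 1) (by omega) (by omega)
      have d2 := ih (n' - 1) (by omega) (by omega) (k + 2) (by omega) (by omega)
      exact D_step H (by omega) hk hM d1 d2

/-- `D(m,n)` in subtraction form. -/
theorem D_main' {m n : ℕ} (hn : 1 ≤ n) (hnm : n < m) (hM : m + n ≤ M) :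
    (x m - x n) * w m ^ 2 * w n ^ 2 = - w (m + n) * w (m - n) := by
  obtain ⟨k, rfl⟩ : ∃ k, m = n + k := ⟨m - n, by omega⟩
  have := D_main H n hn k (by omega) (by omega)
  have e1 : n + k + n = 2 * n + k := by omega
  have e2 : n + k - n = k := by omega
  rw [e1, e2]
  exact this

end seq

end Fermat.Agent.S13.DivCore
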