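/-
S13 / DIV2 (helper37), abstract part: a geometric sequence `(x, w)` (see `DivCore`) whose initial
values agree with those of `normEDS b c d` agrees with `normEDS b c d` up to the bound `M`.
-/
import Mathlib
import Fermat.Agent.S13.DivCore

set_option autoImplicit false

namespace Fermat.Agent.S13.DivEDS

open Fermat.Agent.S13.DivCore

variable {F : Type*} [Field F] {b₂ b₄ b₆ b₈ : F} {M : ℕ} {x w : ℕ → F}

/-- odd step: `w(m+2) w(m)³ - w(m-1) w(m+1)³ = w(2m+1)`. -/
theorem odd_step (H : IsGeomSeq b₂ b₄ b₆ b₈ M x w) {m : ℕ} (hm : 1 ≤ m) (hM : 2 * m + 1 ≤ M) :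
    w (m + 2) * w m ^ 3 - w (m - 1) * w (m + 1) ^ 3 = w (2 * m + 1) := by
  have d := D_main' H (m := m + 1) (n := m) hm (by omega) (by omega)
  have r1 := H.wrec (m + 1) (by omega) (by omega)
  have r2 := H.wrec m hm (by omega)
  have e1 : m + 1 + m = 2 * m + 1 := by omega
  have e2 : m + 1 - m = 1 := by omega
  have e3 : m + 1 + 1 = m + 2 := by omega
  have e4 : m + 1 - 1 = m := by omega
  rw [e1, e2, H.w1] at d
  rw [e3, e4] at r1
  linear_combination (w m ^ 2) * r1 - (w (m + 1) ^ 2) * r2 - d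

/-- even step: `w(m-1)² w(m) w(m+2) - w(m-2) w(m) w(m+1)² = w(2m) w(2)`. -/
theorem even_step (H : IsGeomSeq b₂ b₄ b₆ b₈ M x w) {m : ℕ} (hm : 2 ≤ m) (hM : 2 * m ≤ M) :
    w (m - 1) ^ 2 * w m * w (m + 2) - w (m - 2) * w m * w (m + 1) ^ 2 = w (2 * m) * w 2 := by
  have d := D_main' H (m := m + 1) (n := m - 1) (by omega) (by omega) (by omega)
  have r1 := H.wrec (m + 1) (by omega) (by omega)
  have r2 := H.wrec (m - 1) (by omega) (by omega)
  have e1 : m + 1 + (m - 1) = 2 * m := by omega
  have e2 : m + 1 - (m - 1) = 2 := by omega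
  have e3 : m + 1 + 1 = m + 2 := by omega
  have e4 : m + 1 - 1 = m := by omega
  have e5 : m - 1 + 1 = m := by omega
  have e6 : m - 1 - 1 = m - 2 := by omega
  rw [e1, e2] at d
  rw [e3, e4] at r1
  rw [e5, e6] at r2
  linear_combination (w (m - 1) ^ 2) * r1 - (w (m + 1) ^ 2) * r2 - d

/-- **DIV2 (abstract).** If `w 2 = b`, `w 3 = c`, `w 4 = d * b` then `normEDS b c d k = w k`
for all `k ≤ M`. -/
theorem normEDS_eq (H : IsGeomSeq b₂ b₄ b₆ b₈ M x w) {b c d : F}
    (hb : 2 ≤ M → w 2 = b) (hc : 3 ≤ M → w 3 = c) (hd : 4 ≤ M → w 4 = d * b) :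
    ∀ k : ℕ, k ≤ M → normEDS b c d (k : ℤ) = w k := by
  intro k
  induction k using Nat.strong_induction_on with
  | _ k ih =>
    intro hk
    rcases Nat.lt_or_ge k 5 with h5 | h5
    · interval_cases k
      · simp [H.w0]
      · simp [H.w1]
      · simpa using (hb hk).symm
      · simpa using (hc hk).symm
      · simpa using (hd hk).symm
    · rcases Nat.even_or_odd' k with ⟨m, rfl | rfl⟩
      · -- even
        have hm : 3 ≤ m := by omega
        have hb' : w 2 = b := hb (by omega)
        have hb0 : b ≠ 0 := by rw [← hb']; exact H.wne 2 (by omega) (by omega)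
        have hE := normEDS_even b c d (m : ℤ)
        have i1 := ih (m - 1) (by omega) (by omega)
        have i2 := ih m (by omega) (by omega)
        have i3 := ih (m + 2) (by omega) (by omega)
        have i4 := ih (m - 2) (by omega) (by omega)
        have i5 := ih (m + 1) (by omega) (by omega)
        have c1 : ((m - 1 : ℕ) : ℤ) = (m : ℤ) - 1 := by omega
        have c2 : ((m - 2 : ℕ) : ℤ) = (m : ℤ) - 2 := by omega
        have c3 : ((m + 2 : ℕ) : ℤ) = (m : ℤ) + 2 := by omega
        have c4 : ((m + 1 : ℕ) : ℤ) = (m : ℤ) + 1 := by omega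
        rw [c1] at i1
        rw [c2] at i4
        rw [c3] at i3
        rw [c4] at i5
        rw [i1, i2, i3, i4, i5, even_step H (by omega) hk, hb'] at hE
        have c5 : ((2 * m : ℕ) : ℤ) = 2 * (m : ℤ) := by omega
        rw [c5]
        exact mul_right_cancel₀ hb0 hE
      · -- odd
        have hm : 2 ≤ m := by omega
        have hO := normEDS_odd b c d (m : ℤ)
        have i1 := ih (m - 1) (by omega) (by omega)
        have i2 := ih m (by omega) (by omega)
        have i3 := ih (m + 2) (by omega) (by omega)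
        have i5 := ih (m + 1) (by omega) (by omega)
        have c1 : ((m - 1 : ℕ) : ℤ) = (m : ℤ) - 1 := by omega
        have c3 : ((m + 2 : ℕ) : ℤ) = (m : ℤ) + 2 := by omega
        have c4 : ((m + 1 : ℕ) : ℤ) = (m : ℤ) + 1 := by omega
        rw [c1] at i1
        rw [c3] at i3
        rw [c4] at i5
        rw [i1, i2, i3, i5, odd_step H (by omega) hk] at hO
        have c5 : ((2 * m + 1 : ℕ) : ℤ) = 2 * (m : ℤ) + 1 := by omega
        rw [c5]
        exact hO

end Fermat.Agent.S13.DivEDS
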