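/-
S13 / easy half of [T] (helper8): BRIDGE from helper37's abstract `DivCore` / `DivEDS`
(geometric sequences `(x, w)` and their identification with `normEDS`) to Mathlib's division
polynomials:

  `P = (x, y)` a point with `(p : ℤ) • P = 0`, `p` an odd prime  ⟹  `(W.preΨ p).eval x = 0`.

* `xco` : `x`-coordinate of a point (junk `0` at the origin);
* `wseq` : the geometric division sequence `w 0 = 0, w 1 = 1, w 2 = Y,
  w (k+1) = -(x k - x 1) w k ^ 2 / w (k-1)`;
* `isGeomSeq` : `DivCore.IsGeomSeq` for the multiples of a point all of whose multiples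
  `1 • P, …, M • P` are nonzero (from `S05.xadd`, `S05.xdbl`);
* `normEDS_eq_wseq` : `normEDS Y Ψ₃(x) preΨ₄(x) k = w k` for `k ≤ M`;
* `preΨ_eval_eq_zero_of_torsion` : the result.

Any field with `(2 : K) ≠ 0`.  No sorry.
-/
import Mathlib
import Fermat.Agent.S05.Defs
import Fermat.Agent.S05.XFormulas
import Fermat.Agent.S13.DivCore
import Fermat.Agent.S13.DivEDS

set_option autoImplicit false
set_option linter.unusedSectionVars false

namespace Fermat.Agent.S13.DivBridge8

open WeierstrassCurve WeierstrassCurve.Affine Polynomial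
open Fermat.Agent.S05 Fermat.Agent.S13.DivCore

variable {K : Type*} [Field K] [DecidableEq K] (W : Affine K)

/-- `x`-coordinate of a point (junk value `0` at the origin). -/
def xco : W.Point → K
  | .zero => 0
  | .some x _ _ => x

omit [DecidableEq K] in
@[simp] theorem xco_some {x y : K} (h : W.Nonsingular x y) : xco W (Point.some x y h) = x := rfl

theorem xco_neg (A : W.Point) : xco W (-A) = xco W A := by
  rcases A with _ | ⟨x, y, h⟩
  · rfl
  · rw [Point.neg_some]; rfl

/-- two nonzero points with the same `x`-coordinate are equal or opposite. -/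
theorem eq_or_eq_neg_of_xco_eq {A B : W.Point} (hA : A ≠ 0) (hB : B ≠ 0)
    (h : xco W A = xco W B) : A = B ∨ A = -B := by
  rcases A with _ | ⟨x₁, y₁, h₁⟩
  · exact absurd rfl hA
  rcases B with _ | ⟨x₂, y₂, h₂⟩
  · exact absurd rfl hB
  have hx : x₁ = x₂ := h
  subst hx
  rcases Y_eq_of_X_eq h₁.1 h₂.1 rfl with hy | hy
  · left; subst hy; rfl
  · right
    rw [Point.neg_some]
    subst hy; rfl

/-- product and sum formulas for `x(A+B)`, `x(A-B)`. -/
theorem xco_add_sub (h2 : (2 : K) ≠ 0) {A B : W.Point} (hA : A ≠ 0) (hB : B ≠ 0)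
    (hx : xco W A ≠ xco W B) :
    xco W (A + B) * xco W (A - B) * (xco W A - xco W B) ^ 2 = Nnum W (xco W A) (xco W B) ∧
    (xco W (A + B) + xco W (A - B)) * (xco W A - xco W B) ^ 2 =
      Snum W (xco W A) (xco W B) := by
  rcases A with _ | ⟨x₁, y₁, h₁⟩
  · exact absurd rfl hA
  rcases B with _ | ⟨x₂, y₂, h₂⟩
  · exact absurd rfl hB
  have hx' : x₁ ≠ x₂ := hx
  obtain ⟨x₃, y₃, x₄, y₄, h₃, h₄, e₃, e₄, hN, hS, -, -⟩ := xadd W h2 h₁ h₂ hx'
  rw [e₃, e₄]
  exact ⟨hN, hS⟩

/-- duplication formula. -/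
theorem xco_dbl (h2 : (2 : K) ≠ 0) {x y : K} (h : W.Nonsingular x y)
    (h2P : (2 : ℕ) • (Point.some x y h) ≠ 0) :
    Yc W x y ≠ 0 ∧ xco W ((2 : ℕ) • Point.some x y h) * Fpoly W x = Phi2 W x := by
  have hY : Yc W x y ≠ 0 := by
    intro hY
    apply h2P
    rw [two_nsmul]
    exact xdbl_zero W h2 h hY
  refine ⟨hY, ?_⟩
  obtain ⟨x₃, y₃, h₃, e₃, hD⟩ := xdbl W h2 h hY
  rw [two_nsmul, e₃]
  exact hD

/-- the geometric division sequence. -/
noncomputable def wseq (b : K) (xs : ℕ → K) : ℕ → K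
  | 0 => 0
  | 1 => 1
  | 2 => b
  | (k + 3) => -(xs (k + 2) - xs 1) * wseq b xs (k + 2) ^ 2 / wseq b xs (k + 1)

/-- `x`-coordinates of the multiples of `P`. -/
def xs (P : W.Point) (k : ℕ) : K := xco W (k • P)

section seq

variable {x y : K} (h : W.Nonsingular x y) {M : ℕ}
  (hne : ∀ j, 1 ≤ j → j ≤ M → j • (Point.some x y h) ≠ 0)
include hne

theorem xs_ne {a b : ℕ} (ha : 1 ≤ a) (hab : a < b) (hM : a + b ≤ M) :
    xs W (Point.some x y h) b ≠ xs W (Point.some x y h) a := by
  intro he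
  have hA := hne b (by omega) (by omega)
  have hB := hne a ha (by omega)
  rcases eq_or_eq_neg_of_xco_eq W hA hB he with e | e
  · apply hne (b - a) (by omega) (by omega)
    have : b • Point.some x y h = (b - a) • Point.some x y h + a • Point.some x y h := by
      rw [← add_nsmul]; congr 1; omega
    rw [this] at e
    exact add_eq_right.1 e
  · apply hne (a + b) (by omega) hM
    rw [add_nsmul, e, add_neg_cancel]

theorem wseq_ne (h2 : (2 : K) ≠ 0) :
    ∀ k, 1 ≤ k → k ≤ M → wseq (Yc W x y) (xs W (Point.some x y h)) k ≠ 0 := by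
  intro k
  induction k using Nat.strong_induction_on with
  | _ k ih =>
    intro hk hkM
    match k, hk, hkM, ih with
    | 1, _, _, _ => simp [wseq]
    | 2, _, hkM, _ =>
      simp only [wseq]
      exact (xco_dbl W h2 h (hne 2 (by omega) hkM)).1
    | (j + 3), _, hkM, ih =>
      simp only [wseq]
      have h1 := ih (j + 2) (by omega) (by omega) (by omega)
      have h0 := ih (j + 1) (by omega) (by omega) (by omega)
      have hx := xs_ne W h hne (a := 1) (b := j + 2) le_rfl (by omega) (by omega)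
      refine div_ne_zero (mul_ne_zero (neg_ne_zero.2 (sub_ne_zero.2 hx)) (pow_ne_zero _ h1)) h0

/-- the multiples of a point form a geometric sequence in the sense of `DivCore`. -/
theorem isGeomSeq (h2 : (2 : K) ≠ 0) :
    IsGeomSeq W.b₂ W.b₄ W.b₆ W.b₈ M (xs W (Point.some x y h))
      (wseq (Yc W x y) (xs W (Point.some x y h))) where
  w0 := rfl
  w1 := rfl
  wne := wseq_ne W h hne h2
  wrec := by
    intro k hk hkM
    match k, hk, hkM with
    | 1, _, _ => simp [wseq]
    | (j + 2), _, hkM =>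
      have h0 := wseq_ne W h hne h2 (j + 1) (by omega) (by omega)
      show wseq _ _ (j + 3) * wseq _ _ (j + 1) = _
      simp only [wseq]
      rw [div_mul_cancel₀ _ h0]
  xne := by
    intro n k hn hk hM
    exact xs_ne W h hne hn (by omega) (by omega)
  prod := by
    intro n k hn hk hM
    have hA := hne (n + k) (by omega) (by omega)
    have hB := hne n hn (by omega)
    have hx := xs_ne W h hne (a := n) (b := n + k) hn (by omega) (by omega)
    have key := (xco_add_sub W h2 hA hB hx).1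
    have e1 : (n + k) • Point.some x y h + n • Point.some x y h
        = (2 * n + k) • Point.some x y h := by
      rw [← add_nsmul]; congr 1; omega
    have e2 : (n + k) • Point.some x y h - n • Point.some x y h = k • Point.some x y h := by
      rw [add_comm n k, add_nsmul, add_sub_cancel_right]
    rw [e1, e2] at key
    exact key
  sum := by
    intro n k hn hk hM
    have hA := hne (n + k) (by omega) (by omega)
    have hB := hne n hn (by omega)
    have hx := xs_ne W h hne (a := n) (b := n + k) hn (by omega) (by omega)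
    have key := (xco_add_sub W h2 hA hB hx).2
    have e1 : (n + k) • Point.some x y h + n • Point.some x y h
        = (2 * n + k) • Point.some x y h := by
      rw [← add_nsmul]; congr 1; omega
    have e2 : (n + k) • Point.some x y h - n • Point.some x y h = k • Point.some x y h := by
      rw [add_comm n k, add_nsmul, add_sub_cancel_right]
    rw [e1, e2] at key
    exact key
  dbl := by
    intro hM
    have := (xco_dbl W h2 h (hne 2 (by omega) hM)).2
    show xs W _ 2 * Fpoly W (xs W _ 1) = Phi2 W (xs W _ 1)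
    have e1 : xs W (Point.some x y h) 1 = x := by simp [xs]
    rw [e1]
    exact this
  w2sq := by
    intro _
    show Yc W x y ^ 2 = Fpoly W (xs W _ 1)
    have e1 : xs W (Point.some x y h) 1 = x := by simp [xs]
    rw [e1]
    exact Yc_sq W h.1

end seq


/-! ### identification with Mathlib's division polynomials -/

section ident

omit [DecidableEq K] in
theorem eval_Ψ₂Sq (x : K) : (W.Ψ₂Sq).eval x = Fpoly W x := by
  simp [WeierstrassCurve.Ψ₂Sq, Fpoly]

omit [DecidableEq K] in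
/-- `Ψ₃(x) = -(x(2P) - x) F(x)`. -/
theorem eval_Ψ₃ {x x₂ : K} (hD : x₂ * Fpoly W x = Phi2 W x) :
    (W.Ψ₃).eval x = -(x₂ - x) * Fpoly W x := by
  have e : (W.Ψ₃).eval x =
      3 * x ^ 4 + W.b₂ * x ^ 3 + 3 * W.b₄ * x ^ 2 + 3 * W.b₆ * x + W.b₈ := by
    simp [WeierstrassCurve.Ψ₃]
  rw [e]
  simp only [Fpoly, Phi2] at hD ⊢
  linear_combination hD

omit [DecidableEq K] in
theorem eval_preΨ₄ (x : K) : (W.preΨ₄).eval x =
    2 * x ^ 6 + W.b₂ * x ^ 5 + 5 * W.b₄ * x ^ 4 + 10 * W.b₆ * x ^ 3 + 10 * W.b₈ * x ^ 2 +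
      (W.b₂ * W.b₈ - W.b₄ * W.b₆) * x + (W.b₄ * W.b₈ - W.b₆ ^ 2) := by
  simp [WeierstrassCurve.preΨ₄]

omit [DecidableEq K] in
/-- the algebraic identity behind `w 4 = preΨ₄(x) · w 2`. -/
theorem w4_identity (b₂ b₄ b₆ b₈ x x₂ x₃ : K) (hrel : 4 * b₈ = b₂ * b₆ - b₄ ^ 2)
    (hD : x₂ * Fp b₂ b₄ b₆ x = Ph2 b₄ b₆ b₈ x)
    (hS : (x₃ + x) * (x₂ - x) ^ 2 = Sn b₂ b₄ b₆ x₂ x) :
    -(x₃ - x) * (x₂ - x) ^ 2 * (Fp b₂ b₄ b₆ x) ^ 2 =
      (2 * x ^ 6 + b₂ * x ^ 5 + 5 * b₄ * x ^ 4 + 10 * b₆ * x ^ 3 + 10 * b₈ * x ^ 2 +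
        (b₂ * b₈ - b₄ * b₆) * x + (b₄ * b₈ - b₆ ^ 2)) * Fp b₂ b₄ b₆ x := by
  simp only [Fp, Ph2, Sn] at *
  linear_combination (-(4 * x ^ 3 + b₂ * x ^ 2 + 2 * b₄ * x + b₆) ^ 2) * hS +
    (-((4 * x ^ 3 + b₂ * x ^ 2 + 2 * b₄ * x + b₆) * (6 * x ^ 2 + b₂ * x + b₄))) * hD +
    (-((4 * x ^ 3 + b₂ * x ^ 2 + 2 * b₄ * x + b₆) * x ^ 2)) * hrel

variable {x y : K} (h : W.Nonsingular x y) {M : ℕ}
  (hne : ∀ j, 1 ≤ j → j ≤ M → j • (Point.some x y h) ≠ 0)
include hne

/-- `ψ_k(P) = w k` for `k ≤ M`, in the `normEDS` form. -/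
theorem normEDS_eq_wseq (h2 : (2 : K) ≠ 0) :
    ∀ k : ℕ, k ≤ M → normEDS (Yc W x y) ((W.Ψ₃).eval x) ((W.preΨ₄).eval x) (k : ℤ) =
      wseq (Yc W x y) (xs W (Point.some x y h)) k := by
  have H := isGeomSeq W h hne h2
  have e1 : xs W (Point.some x y h) 1 = x := by simp [xs]
  have hF : Yc W x y ^ 2 = Fpoly W x := Yc_sq W h.1
  refine DivEDS.normEDS_eq H (fun _ => rfl) ?_ ?_
  · intro hM
    have hD := (xco_dbl W h2 h (hne 2 (by omega) (by omega))).2
    simp only [wseq]
    rw [e1, div_one, eval_Ψ₃ W hD, hF]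
    rfl
  · intro hM
    obtain ⟨hY, hD⟩ := xco_dbl W h2 h (hne 2 (by omega) (by omega))
    have hS := H.sum 1 1 le_rfl le_rfl (by omega)
    have hS' : (xs W (Point.some x y h) 3 + x) * (xs W (Point.some x y h) 2 - x) ^ 2 =
        Sn W.b₂ W.b₄ W.b₆ (xs W (Point.some x y h) 2) x := by
      rw [e1] at hS; exact hS
    have key := w4_identity W.b₂ W.b₄ W.b₆ W.b₈ x (xs W (Point.some x y h) 2)
      (xs W (Point.some x y h) 3) W.b_relation hD hS'
    simp only [wseq]
    rw [e1, div_one, eval_preΨ₄, div_eq_iff hY]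
    have hF' : Fp W.b₂ W.b₄ W.b₆ x = Yc W x y ^ 2 := hF.symm
    rw [hF'] at key
    linear_combination key

end ident

/-! ### the result -/

section result

/-- **Easy half of the torsion criterion**: the `x`-coordinate of a point of odd prime order `p`
is a root of Mathlib's `preΨ p`. -/
theorem preΨ_eval_eq_zero_of_torsion (h2 : (2 : K) ≠ 0) {p : ℕ} (hp : p.Prime) (hp2 : p ≠ 2)
    {x y : K} (h : W.Nonsingular x y) (hP : (p : ℤ) • Point.some x y h = 0) :
    (W.preΨ (p : ℤ)).eval x = 0 := by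
  have hPn : p • Point.some x y h = 0 := by rw [← natCast_zsmul]; exact hP
  have hP0 : Point.some x y h ≠ (0 : W.Point) := Point.some_ne_zero h
  -- multiples `j • P`, `0 < j < p`, are nonzero
  have hne : ∀ j, 1 ≤ j → j ≤ p - 1 → j • (Point.some x y h) ≠ 0 := by
    intro j hj hjp hj0
    have d1 := addOrderOf_dvd_of_nsmul_eq_zero hPn
    have d2 := addOrderOf_dvd_of_nsmul_eq_zero hj0
    rcases (Nat.dvd_prime hp).1 d1 with e | e
    · exact hP0 (AddMonoid.addOrderOf_eq_one_iff.1 e)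
    · rw [e] at d2
      have := Nat.le_of_dvd (by omega) d2
      have := hp.two_le
      omega
  have hF : Yc W x y ^ 2 = Fpoly W x := Yc_sq W h.1
  have hp3 : 3 ≤ p := by
    have := hp.two_le
    omega
  obtain ⟨hY, hD⟩ := xco_dbl W h2 h (hne 2 (by omega) (by omega))
  -- `preΨ p (x) = normEDS Y Ψ₃(x) preΨ₄(x) p`
  have hodd : Odd p := hp.eq_two_or_odd'.resolve_left hp2
  have hbridge : (W.preΨ (p : ℤ)).eval x =
      normEDS (Yc W x y) ((W.Ψ₃).eval x) ((W.preΨ₄).eval x) (p : ℤ) := by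
    have hnE : ¬ Even (p : ℤ) := by
      rw [Int.not_even_iff_odd]; exact_mod_cast hodd
    rw [normEDS, if_neg hnE, mul_one, WeierstrassCurve.preΨ]
    have := map_preNormEDS (Polynomial.evalRingHom x) (W.Ψ₂Sq ^ 2) W.Ψ₃ W.preΨ₄ (p : ℤ)
    simp only [Polynomial.coe_evalRingHom] at this
    rw [this, Polynomial.eval_pow, eval_Ψ₂Sq, ← hF]
    congr 1
    ring
  rw [hbridge]
  obtain ⟨m, rfl⟩ : ∃ m, p = 2 * m + 1 := hodd
  have hm1 : 1 ≤ m := by omega
  -- `x_m = x_{m+1}`
  have hxm : xs W (Point.some x y h) m = xs W (Point.some x y h) (m + 1) := by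
    have e : m • Point.some x y h = -((m + 1) • Point.some x y h) := by
      rw [eq_neg_iff_add_eq_zero, ← add_nsmul]
      have : m + (m + 1) = 2 * m + 1 := by omega
      rw [this]; exact hPn
    simp only [xs]
    rw [e, xco_neg]
  rcases Nat.lt_or_ge m 2 with hm | hm
  · -- `p = 3`
    have hm' : m = 1 := by omega
    subst hm'
    have e3 : ((2 * 1 + 1 : ℕ) : ℤ) = 3 := by norm_num
    rw [e3, normEDS_three, eval_Ψ₃ W hD]
    have e1 : xs W (Point.some x y h) 1 = x := by simp [xs]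
    have : xco W ((2 : ℕ) • Point.some x y h) = x := by
      have := hxm
      rw [e1] at this
      exact this.symm
    rw [this]; ring
  · -- `p ≥ 5`
    have E := normEDS_eq_wseq W h hne h2
    have H := isGeomSeq W h hne h2
    have hO := normEDS_odd (Yc W x y) ((W.Ψ₃).eval x) ((W.preΨ₄).eval x) (m : ℤ)
    have i1 := E (m - 1) (by omega)
    have i2 := E m (by omega)
    have i3 := E (m + 2) (by omega)
    have i4 := E (m + 1) (by omega)
    have c1 : ((m - 1 : ℕ) : ℤ) = (m : ℤ) - 1 := by omega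
    have c3 : ((m + 2 : ℕ) : ℤ) = (m : ℤ) + 2 := by omega
    have c4 : ((m + 1 : ℕ) : ℤ) = (m : ℤ) + 1 := by omega
    rw [c1] at i1
    rw [c3] at i3
    rw [c4] at i4
    have c5 : ((2 * m + 1 : ℕ) : ℤ) = 2 * (m : ℤ) + 1 := by omega
    rw [c5, hO, i1, i2, i3, i4]
    have r1 := H.wrec (m + 1) (by omega) (by omega)
    have r2 := H.wrec m hm1 (by omega)
    have e3 : m + 1 + 1 = m + 2 := by omega
    have e4 : m + 1 - 1 = m := by omega
    rw [e3, e4] at r1
    rw [← hxm] at r1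
    linear_combination (wseq (Yc W x y) (xs W (Point.some x y h)) m ^ 2) * r1 -
      (wseq (Yc W x y) (xs W (Point.some x y h)) (m + 1) ^ 2) * r2

end result

end Fermat.Agent.S13.DivBridge8
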