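/-
S13, package [T], division-polynomial route (helper3): PACKAGING.  From the pointwise forward theorem
(`ForwardAll`: `DivGeneric3.ForwardStmt` for every field) we get `IsDivPoly W p θ` of
`Fermat/Agent/S13/Interface.lean` for `θ := C (p²)⁻¹ * ΨSq_p` (Mathlib's division polynomial), over
every field of characteristic `0`, hence `TDivPolyStmt` (and through the landed `TC29` /
`MassCount` files `TCountStmt` and `MassStmt`).  No `sorry`.
-/
import Fermat.Agent.S13.Interface
import Fermat.Agent.S13.DivZeros3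

set_option autoImplicit false

open WeierstrassCurve WeierstrassCurve.Affine Polynomial
open scoped Polynomial.Bivariate

namespace Fermat.Agent.S13.DivPoly3

open Fermat.Agent.S13.DivGeneric3 Fermat.Agent.S13.DivZeros3
open Fermat.Agent.S05 (IsOrd IsU IsIntegralW)

universe u

/-- The pointwise forward theorem for every field (of a fixed universe). -/
def ForwardAll : Prop := ∀ (F : Type u) [Field F] [DecidableEq F], ForwardStmt F

section integrality

variable {K : Type u} [Field K]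

/-- the coefficients of `ΨSq_n` lie in every subring containing the Weierstrass coefficients. -/
lemma coeff_ΨSq_mem (W : Affine K) (S : Subring K) (h₁ : W.a₁ ∈ S) (h₂ : W.a₂ ∈ S)
    (h₃ : W.a₃ ∈ S) (h₄ : W.a₄ ∈ S) (h₆ : W.a₆ ∈ S) (n : ℤ) (i : ℕ) :
    (W.ΨSq n).coeff i ∈ S := by
  let WS : WeierstrassCurve S := ⟨⟨W.a₁, h₁⟩, ⟨W.a₂, h₂⟩, ⟨W.a₃, h₃⟩, ⟨W.a₄, h₄⟩, ⟨W.a₆, h₆⟩⟩
  have hW : WS.map S.subtype = W := by
    ext <;> rfl
  rw [← hW, WeierstrassCurve.map_ΨSq, coeff_map]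
  exact Subtype.property _

end integrality

section main

variable {K : Type u} [Field K] [CharZero K] [DecidableEq K]

theorem isDivPoly (hfw : ForwardAll.{u}) (W : Affine K) (hΔ : W.Δ ≠ 0) (p : ℕ) (hp : p.Prime)
    (hp2 : p ≠ 2) : IsDivPoly W p (C (((p : K) ^ 2)⁻¹) * W.ΨSq p) := by
  classical
  have hpK : (p : K) ≠ 0 := Nat.cast_ne_zero.mpr hp.ne_zero
  have hpZ : (((p : ℤ) : K)) ≠ 0 := by rw [Int.cast_natCast]; exact hpK
  have hc : ((p : K) ^ 2)⁻¹ ≠ 0 := inv_ne_zero (pow_ne_zero 2 hpK)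
  have hodd : ¬ Even p := by
    intro he
    exact hp2 ((Nat.Prime.even_iff hp).mp he)
  have hsq : W.ΨSq (p : ℤ) = W.preΨ' p ^ 2 := by
    rw [WeierstrassCurve.ΨSq_ofNat, if_neg hodd, mul_one]
  refine ⟨?_, ?_, ?_, ?_, ?_⟩
  · -- monic
    unfold Polynomial.Monic
    rw [leadingCoeff_mul, leadingCoeff_C, WeierstrassCurve.leadingCoeff_ΨSq W hpZ,
      Int.cast_natCast]
    exact inv_mul_cancel₀ (pow_ne_zero 2 hpK)
  · -- degree
    rw [natDegree_C_mul hc, WeierstrassCurve.natDegree_ΨSq W hpZ, Int.natAbs_natCast]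
  · -- roots = torsion
    intro x y h
    have hroot : (C (((p : K) ^ 2)⁻¹) * W.ΨSq p).IsRoot x ↔ psiAt W x y p = 0 := by
      rw [IsRoot.def, eval_mul, eval_C, mul_eq_zero, or_iff_right hc, ← psiAt_sq W h.1]
      exact pow_eq_zero_iff two_ne_zero
    rw [hroot]
    constructor
    · exact psiAt_eq_zero_of_prime W (hfw K) h hp
    · exact zsmul_eq_zero_of_psiAt_eq_zero W (hfw K) (hfw W.FunctionField) hΔ h p hp.pos
  · -- double roots
    intro x₀ hx₀
    rw [IsRoot.def, eval_mul, eval_C, mul_eq_zero, or_iff_right hc, hsq, eval_pow] at hx₀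
    have h1 : (W.preΨ' p).IsRoot x₀ := (pow_eq_zero_iff two_ne_zero).mp hx₀
    have h2 : X - C x₀ ∣ W.preΨ' p := dvd_iff_isRoot.mpr h1
    rw [hsq]
    exact dvd_mul_of_dvd_right (pow_dvd_pow_of_dvd h2 2) _
  · -- integrality
    intro A ord _ hW _ i
    rw [coeff_C_mul, ← mul_assoc, mul_inv_cancel₀ (pow_ne_zero 2 hpK), one_mul]
    exact coeff_ΨSq_mem W A.toSubring hW.1 hW.2.1 hW.2.2.1 hW.2.2.2.1 hW.2.2.2.2 p i

end main

/-- `TDivPolyStmt` from the pointwise forward theorem. -/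
theorem tDivPolyStmt (hfw : ForwardAll.{0}) : TDivPolyStmt := by
  intro W hΔ p hp hp2
  exact ⟨_, isDivPoly hfw W hΔ p hp hp2⟩

end Fermat.Agent.S13.DivPoly3
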