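/-
S13 / DIV3 (helper37): link of the geometric division sequence with Mathlib's division
polynomials `W.ψ n`.

For `P = (x, y)` on `W` (field `F`, `2 ≠ 0`) with `k • P ≠ 0` for `1 ≤ k ≤ M`:
* `psi_eq_ws`   : `(W.ψ k).evalEval x y = ws W P k` for `k ≤ M`;
* `psi_ne_zero` : `(W.ψ k).evalEval x y ≠ 0` for `1 ≤ k ≤ M`;
* `x_sub_x`     : `(x(mP) - x(nP)) ψ_m(P)² ψ_n(P)² = - ψ_{m+n}(P) ψ_{m-n}(P)`;
* `psi_rec`     : `ψ_{k+1}(P) ψ_{k-1}(P) = -(x(kP) - x) ψ_k(P)²`.
(complete proofs)
-/
import Fermat.Agent.S13.DivGeom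

set_option autoImplicit false
set_option linter.unusedSectionVars false

namespace Fermat.Agent.S13.DivPsi

open WeierstrassCurve WeierstrassCurve.Affine Polynomial
open Fermat.Agent.S05 Fermat.Agent.S13.DivCore Fermat.Agent.S13.DivEDS Fermat.Agent.S13.DivGeom

variable {F : Type*} [Field F] [DecidableEq F] (W : Affine F)

/-- evaluation of `ψ_n` at a point is the normalised EDS with the evaluated initial values. -/
theorem evalEval_psi (x y : F) (n : ℤ) :
    (W.ψ n).evalEval x y =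
      normEDS (Yc W x y) ((W.Ψ₃).eval x) ((W.preΨ₄).eval x) n := by
  have h := map_normEDS (evalEvalRingHom x y) W.ψ₂ (C W.Ψ₃) (C W.preΨ₄) n
  rw [coe_evalEvalRingHom] at h
  rw [WeierstrassCurve.ψ, h, evalEval_C, evalEval_C, WeierstrassCurve.ψ₂,
    evalEval_polynomialY]
  rfl

theorem Psi3_eval (x : F) : (W.Ψ₃).eval x = x * Fpoly W x - Phi2 W x := by
  simp only [Ψ₃, Fpoly, Phi2, eval_add, eval_mul, eval_pow, eval_X, eval_C, eval_ofNat]
  ring

theorem prePsi4_eval (x : F) : (W.preΨ₄).eval x =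
    -((6 * x ^ 2 + W.b₂ * x + W.b₄) * Phi2 W x + (W.b₄ * x + W.b₆ - 2 * x ^ 3) * Fpoly W x) := by
  simp only [preΨ₄, Fpoly, Phi2, eval_add, eval_mul, eval_pow, eval_X, eval_C, eval_ofNat]
  linear_combination (x ^ 2 : F) * W.b_relation

/-- the identity behind `ψ₄ = preΨ₄ ψ₂`. -/
theorem prePsi4_identity (x x₂ : F) (h : x₂ * Fpoly W x = Phi2 W x) :
    (W.preΨ₄).eval x * Fpoly W x =
      -(Snum W x₂ x - 2 * x * (x₂ - x) ^ 2) * Fpoly W x ^ 2 := by
  rw [prePsi4_eval]
  simp only [Snum]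
  linear_combination (Fpoly W x * (6 * x ^ 2 + W.b₂ * x + W.b₄)) * h

section main

variable {W}
variable (h2 : (2 : F) ≠ 0) {x y : F} (h : W.Nonsingular x y) {M : ℕ}
  (hM : ∀ k : ℕ, 1 ≤ k → k ≤ M → k • (Point.some x y h) ≠ 0)
include h2 hM

theorem Yc_ne_zero (hM2 : 2 ≤ M) : Yc W x y ≠ 0 := by
  have := (isGeomSeq h2 hM).wne 2 (by omega) hM2
  simpa using this

theorem ws_three (hM3 : 3 ≤ M) : ws W (Point.some x y h) 3 = (W.Ψ₃).eval x := by
  have H := isGeomSeq h2 hM
  have e := ws_succ W (Point.some x y h) 0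
  simp only [zero_add] at e
  have hd := H.dbl (by omega)
  simp only [one_nsmul, xc_some] at hd
  change xc W (2 • Point.some x y h) * Fpoly W x = Phi2 W x at hd
  have hY := Yc_sq W h.1
  rw [e, ws_two, ws_one, div_one, Yp_some, xc_some, Psi3_eval, hY]
  linear_combination -hd

theorem ws_four (hM4 : 4 ≤ M) :
    ws W (Point.some x y h) 4 = (W.preΨ₄).eval x * Yc W x y := by
  have H := isGeomSeq h2 hM
  have e := ws_succ W (Point.some x y h) 1
  simp only [Nat.reduceAdd] at e
  have hY0 : Yc W x y ≠ 0 := Yc_ne_zero h2 h hM (by omega)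
  have hd := H.dbl (by omega)
  simp only [one_nsmul, xc_some] at hd
  change xc W (2 • Point.some x y h) * Fpoly W x = Phi2 W x at hd
  have hs := H.sum 1 1 le_rfl le_rfl (by omega)
  simp only [one_nsmul, xc_some, Nat.reduceAdd, Nat.reduceMul] at hs
  change (xc W (3 • Point.some x y h) + x) * (xc W (2 • Point.some x y h) - x) ^ 2 =
    Snum W (xc W (2 • Point.some x y h)) x at hs
  have hY := Yc_sq W h.1
  have hid := prePsi4_identity W x _ hd
  rw [e, ws_three h2 h hM (by omega), ws_two, Yp_some, xc_some, div_eq_iff hY0, Psi3_eval]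
  linear_combination (-((W.preΨ₄).eval x)) * hY - hid - (Fpoly W x) ^ 2 * hs
    + (xc W (3 • Point.some x y h) - x) *
      (xc W (2 • Point.some x y h) * Fpoly W x + Phi2 W x - 2 * x * Fpoly W x) * hd

/-- `ψ_k(P)` is the geometric division sequence. -/
theorem psi_eq_ws (k : ℕ) (hk : k ≤ M) :
    (W.ψ (k : ℤ)).evalEval x y = ws W (Point.some x y h) k := by
  rw [evalEval_psi]
  exact normEDS_eq (isGeomSeq h2 hM) (fun _ => by simp) (fun h3 => ws_three h2 h hM h3)
    (fun h4 => ws_four h2 h hM h4) k hk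

/-- (a) `ψ_k(P) ≠ 0` as long as `k • P ≠ 0`. -/
theorem psi_ne_zero (k : ℕ) (hk1 : 1 ≤ k) (hk : k ≤ M) : (W.ψ (k : ℤ)).evalEval x y ≠ 0 := by
  rw [psi_eq_ws h2 h hM k hk]
  exact (isGeomSeq h2 hM).wne k hk1 hk

/-- (b) the difference formula. -/
theorem x_sub_x {m n : ℕ} (hn : 1 ≤ n) (hnm : n < m) (hmn : m + n ≤ M) :
    (xc W (m • Point.some x y h) - xc W (n • Point.some x y h)) *
        (W.ψ (m : ℤ)).evalEval x y ^ 2 * (W.ψ (n : ℤ)).evalEval x y ^ 2 =
      -(W.ψ ((m + n : ℕ) : ℤ)).evalEval x y * (W.ψ ((m - n : ℕ) : ℤ)).evalEval x y := by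
  rw [psi_eq_ws h2 h hM m (by omega), psi_eq_ws h2 h hM n (by omega),
    psi_eq_ws h2 h hM (m + n) hmn, psi_eq_ws h2 h hM (m - n) (by omega)]
  exact D_main' (isGeomSeq h2 hM) hn hnm hmn

/-- (c) the three-term relation. -/
theorem psi_rec {k : ℕ} (hk : 1 ≤ k) (hk' : k + 1 ≤ M) :
    (W.ψ ((k + 1 : ℕ) : ℤ)).evalEval x y * (W.ψ ((k - 1 : ℕ) : ℤ)).evalEval x y =
      -(xc W (k • Point.some x y h) - x) * (W.ψ (k : ℤ)).evalEval x y ^ 2 := by
  rw [psi_eq_ws h2 h hM (k + 1) hk', psi_eq_ws h2 h hM (k - 1) (by omega),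
    psi_eq_ws h2 h hM k (by omega)]
  have := (isGeomSeq h2 hM).wrec k hk hk'
  simpa only [one_nsmul, xc_some] using this

/-- the evaluated EDS equals the geometric sequence (in `normEDS` form). -/
theorem normEDS_eq_ws (k : ℕ) (hk : k ≤ M) :
    normEDS (Yc W x y) ((W.Ψ₃).eval x) ((W.preΨ₄).eval x) (k : ℤ) =
      ws W (Point.some x y h) k := by
  rw [← evalEval_psi]
  exact psi_eq_ws h2 h hM k hk

/-- (d) at the exact order the division polynomial vanishes. -/
theorem psi_eq_zero_of_smul_eq_zero (hz : (M + 1) • Point.some x y h = 0) :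
    (W.ψ ((M + 1 : ℕ) : ℤ)).evalEval x y = 0 := by
  have H := isGeomSeq h2 hM
  have key := normEDS_eq_ws h2 h hM
  have hxeq : ∀ i j : ℕ, i + j = M + 1 →
      xc W (i • Point.some x y h) = xc W (j • Point.some x y h) := by
    intro i j hij
    have : i • Point.some x y h = -(j • Point.some x y h) := by
      rw [eq_neg_iff_add_eq_zero, ← add_nsmul, hij]; exact hz
    rw [this, xc_neg]
  rw [evalEval_psi]
  rcases Nat.lt_or_ge M 4 with h4 | h4
  · interval_cases M
    · -- d = 1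
      rw [zero_add, one_nsmul] at hz
      exact absurd hz (Point.some_ne_zero h)
    · -- d = 2
      have e : (((1 + 1 : ℕ)) : ℤ) = 2 := by norm_num
      rw [e, normEDS_two]
      by_contra hY
      obtain ⟨x₃, y₃, h₃, e3, -⟩ := xdbl W h2 h hY
      rw [← two_nsmul] at e3
      have : (1 + 1) • Point.some x y h = 2 • Point.some x y h := rfl
      rw [this, e3] at hz
      exact Point.some_ne_zero h₃ hz
    · -- d = 3
      have e : (((2 + 1 : ℕ)) : ℤ) = 3 := by norm_num
      rw [e, normEDS_three, Psi3_eval]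
      have hd := H.dbl (by omega)
      simp only [one_nsmul, xc_some] at hd
      change xc W (2 • Point.some x y h) * Fpoly W x = Phi2 W x at hd
      have hx := hxeq 2 1 (by omega)
      rw [one_nsmul, xc_some] at hx
      rw [hx] at hd
      linear_combination hd
    · -- d = 4
      have e : (((3 + 1 : ℕ)) : ℤ) = 4 := by norm_num
      rw [e, normEDS_four]
      have hY0 : Yc W x y ≠ 0 := Yc_ne_zero h2 h hM (by omega)
      have hd := H.dbl (by omega)
      simp only [one_nsmul, xc_some] at hd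
      change xc W (2 • Point.some x y h) * Fpoly W x = Phi2 W x at hd
      have hs := H.sum 1 1 le_rfl le_rfl (by omega)
      simp only [one_nsmul, xc_some, Nat.reduceAdd, Nat.reduceMul] at hs
      change (xc W (3 • Point.some x y h) + x) * (xc W (2 • Point.some x y h) - x) ^ 2 =
        Snum W (xc W (2 • Point.some x y h)) x at hs
      have hx := hxeq 3 1 (by omega)
      rw [one_nsmul, xc_some] at hx
      have hY := Yc_sq W h.1
      have hid := prePsi4_identity W x _ hd
      have hF : Fpoly W x ≠ 0 := by rw [← hY]; exact pow_ne_zero 2 hY0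
      have : (W.preΨ₄).eval x * Fpoly W x = 0 := by
        rw [hid, ← hs, hx]; ring
      rcases mul_eq_zero.mp this with h0 | h0
      · rw [h0, zero_mul]
      · exact absurd h0 hF
  · have hY0 : Yc W x y ≠ 0 := Yc_ne_zero h2 h hM (by omega)
    rcases Nat.even_or_odd' (M + 1) with ⟨m, hm | hm⟩
    · -- even: M + 1 = 2 m, m ≥ 3
      have hm3 : 3 ≤ m := by omega
      have hE := normEDS_even (Yc W x y) ((W.Ψ₃).eval x) ((W.preΨ₄).eval x) (m : ℤ)
      have c1 : ((m - 1 : ℕ) : ℤ) = (m : ℤ) - 1 := by omega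
      have c2 : ((m - 2 : ℕ) : ℤ) = (m : ℤ) - 2 := by omega
      have c3 : ((m + 2 : ℕ) : ℤ) = (m : ℤ) + 2 := by omega
      have c4 : ((m + 1 : ℕ) : ℤ) = (m : ℤ) + 1 := by omega
      have c5 : ((M + 1 : ℕ) : ℤ) = 2 * (m : ℤ) := by omega
      have i1 := key (m - 1) (by omega)
      have i2 := key m (by omega)
      have i3 := key (m + 2) (by omega)
      have i4 := key (m - 2) (by omega)
      have i5 := key (m + 1) (by omega)
      rw [c1] at i1
      rw [c2] at i4
      rw [c3] at i3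
      rw [c4] at i5
      rw [i1, i2, i3, i4, i5] at hE
      rw [c5]
      have r1 := H.wrec (m + 1) (by omega) (by omega)
      have r2 := H.wrec (m - 1) (by omega) (by omega)
      have e1 : m + 1 + 1 = m + 2 := by omega
      have e2 : m + 1 - 1 = m := by omega
      have e3 : m - 1 + 1 = m := by omega
      have e4 : m - 1 - 1 = m - 2 := by omega
      rw [e1, e2] at r1
      rw [e3, e4] at r2
      have hx := hxeq (m + 1) (m - 1) (by omega)
      rw [hx] at r1
      have : normEDS (Yc W x y) ((W.Ψ₃).eval x) ((W.preΨ₄).eval x) (2 * (m : ℤ)) *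
          Yc W x y = 0 := by
        rw [hE]
        linear_combination (ws W (Point.some x y h) (m - 1)) ^ 2 * r1
          - (ws W (Point.some x y h) (m + 1)) ^ 2 * r2
      rcases mul_eq_zero.mp this with h0 | h0
      · exact h0
      · exact absurd h0 hY0
    · -- odd: M + 1 = 2 m + 1, m ≥ 2
      have hm2 : 2 ≤ m := by omega
      have hO := normEDS_odd (Yc W x y) ((W.Ψ₃).eval x) ((W.preΨ₄).eval x) (m : ℤ)
      have c1 : ((m - 1 : ℕ) : ℤ) = (m : ℤ) - 1 := by omega
      have c3 : ((m + 2 : ℕ) : ℤ) = (m : ℤ) + 2 := by omega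
      have c4 : ((m + 1 : ℕ) : ℤ) = (m : ℤ) + 1 := by omega
      have c5 : ((M + 1 : ℕ) : ℤ) = 2 * (m : ℤ) + 1 := by omega
      have i1 := key (m - 1) (by omega)
      have i2 := key m (by omega)
      have i3 := key (m + 2) (by omega)
      have i5 := key (m + 1) (by omega)
      rw [c1] at i1
      rw [c3] at i3
      rw [c4] at i5
      rw [i1, i2, i3, i5] at hO
      rw [c5, hO]
      have r1 := H.wrec (m + 1) (by omega) (by omega)
      have r2 := H.wrec m (by omega) (by omega)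
      have e1 : m + 1 + 1 = m + 2 := by omega
      have e2 : m + 1 - 1 = m := by omega
      rw [e1, e2] at r1
      have hx := hxeq (m + 1) m (by omega)
      rw [hx] at r1
      linear_combination (ws W (Point.some x y h) m) ^ 2 * r1
        - (ws W (Point.some x y h) (m + 1)) ^ 2 * r2

end main

/-! ### Corollaries in terms of `addOrderOf` -/

section order

variable {W}
variable (h2 : (2 : F) ≠ 0) {x y : F} (h : W.Nonsingular x y)
include h2

/-- `ψ_k(P) ≠ 0` for `1 ≤ k` below the order of `P` (no condition if `P` has infinite order). -/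
theorem psi_ne_zero_of_lt_addOrderOf {k : ℕ} (hk1 : 1 ≤ k)
    (hk : addOrderOf (Point.some x y h) = 0 ∨ k < addOrderOf (Point.some x y h)) :
    (W.ψ (k : ℤ)).evalEval x y ≠ 0 := by
  refine psi_ne_zero h2 h (M := k) ?_ k hk1 le_rfl
  intro j hj1 hjk hj
  have hdvd := addOrderOf_dvd_of_nsmul_eq_zero hj
  rcases hk with h0 | hlt
  · rw [h0, zero_dvd_iff] at hdvd
    omega
  · have := Nat.le_of_dvd (by omega) hdvd
    omega

/-- `ψ_d(P) = 0` for `d` the (finite) order of `P`. -/
theorem psi_addOrderOf_eq_zero (hfin : addOrderOf (Point.some x y h) ≠ 0) :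
    (W.ψ ((addOrderOf (Point.some x y h) : ℕ) : ℤ)).evalEval x y = 0 := by
  set d := addOrderOf (Point.some x y h) with hd
  have hd1 : 1 ≤ d := Nat.one_le_iff_ne_zero.mpr hfin
  have hM : ∀ k : ℕ, 1 ≤ k → k ≤ d - 1 → k • (Point.some x y h) ≠ 0 := by
    intro j hj1 hjk hj
    have hdvd := addOrderOf_dvd_of_nsmul_eq_zero hj
    have := Nat.le_of_dvd (by omega) hdvd
    omega
  have hz : (d - 1 + 1) • Point.some x y h = 0 := by
    have e : d - 1 + 1 = d := by omega
    rw [e, hd]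
    exact addOrderOf_nsmul_eq_zero _
  have := psi_eq_zero_of_smul_eq_zero h2 h hM hz
  have e : d - 1 + 1 = d := by omega
  rwa [e] at this

/-- the easy half of the torsion criterion for a prime: `p • P = 0 ⇒ ψ_p(P) = 0`. -/
theorem psi_eq_zero_of_prime_nsmul {p : ℕ} (hp : p.Prime)
    (hz : p • Point.some x y h = 0) : (W.ψ (p : ℤ)).evalEval x y = 0 := by
  have hdvd := addOrderOf_dvd_of_nsmul_eq_zero hz
  rcases (Nat.dvd_prime hp).mp hdvd with h1 | h1
  · rw [AddMonoid.addOrderOf_eq_one_iff] at h1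
    exact absurd h1 (Point.some_ne_zero h)
  · have := psi_addOrderOf_eq_zero h2 h (by rw [h1]; exact hp.ne_zero)
    rwa [h1] at this

end order

/-! ### Univariate form (`preΨ`) -/

theorem Psi2Sq_eval (x : F) : (W.Ψ₂Sq).eval x = Fpoly W x := by
  simp only [Ψ₂Sq, Fpoly, eval_add, eval_mul, eval_pow, eval_X, eval_C]

/-- on the curve, `ψ_n(x,y) = preΨ_n(x) · (ψ₂(x,y) if n even else 1)`. -/
theorem evalEval_psi_eq_prePsi {x y : F} (h : W.Equation x y) (n : ℤ) :
    (W.ψ n).evalEval x y = (W.preΨ n).eval x * if Even n then Yc W x y else 1 := by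
  rw [evalEval_psi, normEDS]
  congr 1
  have h1 := map_preNormEDS (evalRingHom x) (W.Ψ₂Sq ^ 2) W.Ψ₃ W.preΨ₄ n
  rw [coe_evalRingHom] at h1
  rw [WeierstrassCurve.preΨ, h1, eval_pow, Psi2Sq_eval, ← Yc_sq W h]
  congr 1
  ring

/-- the easy half of the torsion criterion, univariate form: for an odd prime `p`,
`p • P = 0 ⇒ preΨ_p(x(P)) = 0`. -/
theorem prePsi_eq_zero_of_prime_nsmul (h2 : (2 : F) ≠ 0) {x y : F} (h : W.Nonsingular x y)
    {p : ℕ} (hp : p.Prime) (hp2 : p ≠ 2) (hz : p • Point.some x y h = 0) :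
    (W.preΨ (p : ℤ)).eval x = 0 := by
  have h0 := psi_eq_zero_of_prime_nsmul h2 h hp hz
  rw [evalEval_psi_eq_prePsi W h.1] at h0
  have hodd : ¬ Even (p : ℤ) := by
    rw [Int.even_coe_nat]
    exact fun he => hp2 ((Nat.Prime.even_iff hp).mp he)
  rwa [if_neg hodd, mul_one] at h0

/-- same with `ℤ`-scalars (the shape of `Submodule.torsionBy ℤ _ p`). -/
theorem prePsi_eq_zero_of_prime_zsmul (h2 : (2 : F) ≠ 0) {x y : F} (h : W.Nonsingular x y)
    {p : ℕ} (hp : p.Prime) (hp2 : p ≠ 2) (hz : (p : ℤ) • Point.some x y h = 0) :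
    (W.preΨ (p : ℤ)).eval x = 0 := by
  rw [natCast_zsmul] at hz
  exact prePsi_eq_zero_of_prime_nsmul W h2 h hp hp2 hz

end Fermat.Agent.S13.DivPsi
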