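/-
S13, package [T] COMPLETE via the division-polynomial route (helper3 + helper37):
`forwardAll` (the pointwise forward theorem, from helper37's `DivPsi`) ⟹ `tDivPolyStmt`
⟹ `tCountStmt`, `massStmt` (through the landed `TC29`, `MassCount`).  No `sorry`.
-/
import Fermat.Agent.S13.DivPoly3
import Fermat.Agent.S13.DivPsi
import Fermat.Agent.S13.TC29
import Fermat.Agent.S13.MassCount

set_option autoImplicit false
set_option linter.unusedSectionVars false

open WeierstrassCurve WeierstrassCurve.Affine Polynomial
open scoped Polynomial.Bivariate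

namespace Fermat.Agent.S13.DivFinal3

open Fermat.Agent.S13.DivGeneric3 Fermat.Agent.S13.DivPoly3
open Fermat.Agent.S13.DivGeom Fermat.Agent.S13.DivPsi

universe u

section

variable {F : Type u} [Field F] [DecidableEq F]

lemma px_eq_xc (W : Affine F) (Q : W.Point) : px Q = xc W Q := by
  cases Q <;> rfl

/-- helper37's `DivPsi` gives the forward statement consumed by `DivGeneric3`. -/
theorem forwardStmt : ForwardStmt F := by
  intro h2 W x y h M hM
  have hM' : ∀ k : ℕ, 1 ≤ k → k ≤ M → k • (Point.some x y h : W.Point) ≠ 0 := by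
    intro k hk1 hk
    have := hM k hk1 hk
    rwa [natCast_zsmul] at this
  refine ⟨?_, ?_, ?_⟩
  · intro k hk hkM
    exact psi_ne_zero h2 h hM' k hk hkM
  · intro k hk hkM
    unfold psiAt
    rw [natCast_zsmul, px_eq_xc]
    by_cases hz : (M + 1) • (Point.some x y h : W.Point) = 0
    · rcases Nat.lt_or_ge k M with hlt | hge
      · have := psi_rec h2 h hM' hk (by omega)
        rw [show (((k + 1 : ℕ) : ℤ)) = (k : ℤ) + 1 by push_cast; ring,
          show (((k - 1 : ℕ) : ℤ)) = (k : ℤ) - 1 by rw [Nat.cast_sub hk]; simp] at this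
        linear_combination -this
      · have hkM' : k = M := le_antisymm hkM hge
        subst hkM'
        have h0 := psi_eq_zero_of_smul_eq_zero h2 h hM' hz
        rw [show (((k + 1 : ℕ) : ℤ)) = (k : ℤ) + 1 by push_cast; ring] at h0
        have hneg : k • (Point.some x y h : W.Point) = - Point.some x y h := by
          have : (k + 1) • (Point.some x y h : W.Point) =
              k • (Point.some x y h : W.Point) + Point.some x y h := succ_nsmul _ _
          rw [hz] at this
          exact eq_neg_of_add_eq_zero_left this.symm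
        rw [hneg, xc_neg, xc_some, sub_self, mul_zero, h0, zero_mul]
    · have hM'' : ∀ j : ℕ, 1 ≤ j → j ≤ M + 1 → j • (Point.some x y h : W.Point) ≠ 0 := by
        intro j hj1 hj
        rcases Nat.lt_or_ge j (M + 1) with hlt | hge
        · exact hM' j hj1 (by omega)
        · have : j = M + 1 := le_antisymm hj hge
          subst this
          exact hz
      have := psi_rec h2 h hM'' hk (by omega)
      rw [show (((k + 1 : ℕ) : ℤ)) = (k : ℤ) + 1 by push_cast; ring,
        show (((k - 1 : ℕ) : ℤ)) = (k : ℤ) - 1 by rw [Nat.cast_sub hk]; simp] at this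
      linear_combination -this
  · intro m n hn hnm hmn
    unfold psiAt
    rw [natCast_zsmul, natCast_zsmul, px_eq_xc, px_eq_xc]
    have := x_sub_x h2 h hM' hn hnm hmn
    rw [show (((m + n : ℕ) : ℤ)) = (m : ℤ) + n by push_cast; ring,
      show (((m - n : ℕ) : ℤ)) = (m : ℤ) - n by rw [Nat.cast_sub hnm.le]] at this
    linear_combination this

end

/-- the pointwise forward theorem for every field. -/
theorem forwardAll : ForwardAll.{u} := fun _ _ _ => forwardStmt

/-- [T]: the `p`-division polynomial exists (`θ = p⁻² ΨSq_p`). -/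
theorem tDivPolyStmt : TDivPolyStmt := DivPoly3.tDivPolyStmt forwardAll

/-- [T-C]: `E[p]` is finite, nontrivial, of cardinality `< p³`. -/
theorem tCountStmt : TCountStmt := TC29.tCount_of_tDivPoly tDivPolyStmt

/-- [MASS]. -/
theorem massStmt : MassStmt := MassCount.massStmt_of_tDivPoly tDivPolyStmt

end Fermat.Agent.S13.DivFinal3
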