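/-
S13, package [T], division-polynomial route (helper3): from the pointwise FORWARD theorem
(`ForwardStmt`: along the multiples `kP ≠ 0`, `ψ_k(P) ≠ 0`, `x(kP) = x - ψ_{k+1}ψ_{k-1}/ψ_k²`
and the key identity `x(mP) - x(nP) = -ψ_{m+n}ψ_{m-n}/(ψ_mψ_n)²`) applied to the GENERIC point of
the curve over its function field we get the full elliptic-sequence relation
`ψ_{m+n}ψ_{m-n} = ψ_{m+1}ψ_{m-1}ψ_n² - ψ_{n+1}ψ_{n-1}ψ_m²` in the coordinate ring, hence at
every point of the curve.  No `sorry`.
-/
import Mathlib

set_option autoImplicit false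

open WeierstrassCurve WeierstrassCurve.Affine Polynomial
open scoped Polynomial.Bivariate

namespace Fermat.Agent.S13.DivGeneric3

universe u

section defs

variable {F : Type u} [Field F]

/-- `x`-coordinate of a point (junk value `0` at infinity). -/
def px {W : Affine F} : W.Point → F
  | .zero => 0
  | .some x _ _ => x

@[simp] lemma px_some {W : Affine F} {x y : F} (h : W.Nonsingular x y) :
    px (Point.some x y h) = x := rfl

/-- the value of the `n`-th division polynomial `ψ_n` at `(x, y)`. -/
noncomputable def psiAt (W : Affine F) (x y : F) (n : ℤ) : F := (W.ψ n).evalEval x y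

/-- The pointwise forward theorem (output of the packages DIV1 + DIV2), for one field `F`. -/
def ForwardStmt (F : Type u) [Field F] [DecidableEq F] : Prop :=
  (2 : F) ≠ 0 → ∀ (W : Affine F) (x y : F) (h : W.Nonsingular x y) (M : ℕ),
    (∀ k : ℕ, 0 < k → k ≤ M → (k : ℤ) • (Point.some x y h : W.Point) ≠ 0) →
    (∀ k : ℕ, 0 < k → k ≤ M → psiAt W x y k ≠ 0) ∧
    (∀ k : ℕ, 0 < k → k ≤ M →
      psiAt W x y k ^ 2 * (x - px ((k : ℤ) • (Point.some x y h : W.Point))) =
        psiAt W x y (k + 1) * psiAt W x y (k - 1)) ∧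
    (∀ m n : ℕ, 0 < n → n < m → m + n ≤ M →
      (px ((m : ℤ) • (Point.some x y h : W.Point)) -
          px ((n : ℤ) • (Point.some x y h : W.Point))) *
        (psiAt W x y m * psiAt W x y n) ^ 2 =
      - (psiAt W x y (m + n) * psiAt W x y (m - n)))

end defs

section basic

variable {F : Type u} [Field F] (W : Affine F)

lemma psiAt_zero (x y : F) : psiAt W x y 0 = 0 := by
  simp [psiAt, WeierstrassCurve.ψ_zero]

lemma psiAt_one (x y : F) : psiAt W x y 1 = 1 := by
  simp [psiAt, WeierstrassCurve.ψ_one]

lemma psiAt_two (x y : F) : psiAt W x y 2 = 2 * y + W.a₁ * x + W.a₃ := by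
  simp [psiAt, WeierstrassCurve.ψ_two, WeierstrassCurve.ψ₂, Affine.polynomialY, evalEval]
  ring

lemma psiAt_three (x y : F) : psiAt W x y 3 = W.Ψ₃.eval x := by
  simp [psiAt, WeierstrassCurve.ψ_three, evalEval_C]

lemma psiAt_four (x y : F) : psiAt W x y 4 = W.preΨ₄.eval x * psiAt W x y 2 := by
  have h2 : psiAt W x y 2 = W.ψ₂.evalEval x y := by simp [psiAt, WeierstrassCurve.ψ_two]
  rw [h2]
  simp [psiAt, WeierstrassCurve.ψ_four, evalEval_mul, evalEval_C]

lemma psiAt_neg (x y : F) (n : ℤ) : psiAt W x y (-n) = - psiAt W x y n := by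
  simp [psiAt, WeierstrassCurve.ψ_neg]

/-- evaluation of the coordinate ring at a point of the curve. -/
noncomputable def evalAt {x y : F} (h : W.Equation x y) : W.CoordinateRing →+* F :=
  AdjoinRoot.lift (evalRingHom x) y (by
    rw [eval₂_evalRingHom]; exact h)

lemma evalAt_mk {x y : F} (h : W.Equation x y) (p : F[X][Y]) :
    evalAt W h (CoordinateRing.mk W p) = p.evalEval x y := by
  unfold evalAt CoordinateRing.mk
  rw [AdjoinRoot.lift_mk, eval₂_evalRingHom]

/-- `ψ_n(P)² = ΨSq_n(x(P))`. -/
lemma psiAt_sq {x y : F} (h : W.Equation x y) (n : ℤ) :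
    psiAt W x y n ^ 2 = (W.ΨSq n).eval x := by
  have h1 := congrArg (evalAt W h) (Affine.CoordinateRing.mk_Ψ_sq W n)
  rw [← Affine.CoordinateRing.mk_ψ, map_pow, evalAt_mk, evalAt_mk, evalEval_C] at h1
  exact h1

end basic

section order

variable {F : Type u} [Field F] [DecidableEq F]

lemma two_zsmul_eq_zero_iff (W : Affine F) {x y : F} (h : W.Nonsingular x y) :
    (2 : ℤ) • (Point.some x y h : W.Point) = 0 ↔ psiAt W x y 2 = 0 := by
  rw [psiAt_two, two_zsmul]
  constructor
  · intro h0
    have h1 : (Point.some x y h : W.Point) = - Point.some x y h := eq_neg_of_add_eq_zero_left h0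
    rw [Point.neg_some] at h1
    have h2 : y = W.negY x y := by
      have := Point.some.inj h1
      exact this.2
    rw [Affine.negY] at h2
    linear_combination h2
  · intro h0
    have h2 : y = W.negY x y := by
      rw [Affine.negY]; linear_combination h0
    exact Point.add_self_of_Y_eq h2

/-- a point of exact order `d` is a zero of `ψ_d`. -/
lemma psiAt_eq_zero_of_order (hfw : ForwardStmt F) (h2 : (2 : F) ≠ 0) (W : Affine F) {x y : F}
    (h : W.Nonsingular x y) (d : ℕ)
    (hlt : ∀ k : ℕ, 0 < k → k < d → (k : ℤ) • (Point.some x y h : W.Point) ≠ 0)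
    (hd : (d : ℤ) • (Point.some x y h : W.Point) = 0) (hd0 : 0 < d) : psiAt W x y d = 0 := by
  rcases Nat.lt_or_ge d 3 with h3 | h3
  · interval_cases d
    · exfalso
      rw [Nat.cast_one, one_zsmul] at hd
      exact Point.some_ne_zero h hd
    · exact (two_zsmul_eq_zero_iff W h).mp (by exact_mod_cast hd)
  · obtain ⟨hF1, hF2, -⟩ := hfw h2 W x y h (d - 1) (fun k hk hkd => hlt k hk (by omega))
    have e1 := hF2 (d - 1) (by omega) le_rfl
    have hP : (((d - 1 : ℕ) : ℤ)) • (Point.some x y h : W.Point) = - Point.some x y h := by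
      have : (((d - 1 : ℕ) : ℤ)) = (d : ℤ) - 1 := by
        rw [Nat.cast_sub (by omega)]; simp
      rw [this, sub_zsmul, hd, one_zsmul]; simp
    rw [hP, Point.neg_some, px_some, sub_self, mul_zero] at e1
    have e2 : psiAt W x y (((d - 1 : ℕ) : ℤ) - 1) ≠ 0 := by
      have := hF1 (d - 2) (by omega) (by omega)
      have e : (((d - 2 : ℕ) : ℤ)) = (((d - 1 : ℕ) : ℤ)) - 1 := by
        rw [Nat.cast_sub (by omega), Nat.cast_sub (by omega)]; ring
      rwa [e] at this
    have e3 : (((d - 1 : ℕ) : ℤ)) + 1 = (d : ℤ) := by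
      rw [Nat.cast_sub (by omega)]; simp
    rw [e3] at e1
    rcases mul_eq_zero.mp e1.symm with h0 | h0
    · exact h0
    · exact absurd h0 e2

/-- the elliptic-sequence relation at a point all of whose multiples up to `m + n` are nonzero. -/
lemma eds_rel_of_forward (hfw : ForwardStmt F) (h2 : (2 : F) ≠ 0) (W : Affine F) {x y : F}
    (h : W.Nonsingular x y) (m n : ℕ) (hn : 0 < n) (hnm : n < m)
    (hM : ∀ k : ℕ, 0 < k → k ≤ m + n → (k : ℤ) • (Point.some x y h : W.Point) ≠ 0) :
    psiAt W x y (m + n) * psiAt W x y (m - n) =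
      psiAt W x y (m + 1) * psiAt W x y (m - 1) * psiAt W x y n ^ 2 -
        psiAt W x y (n + 1) * psiAt W x y (n - 1) * psiAt W x y m ^ 2 := by
  obtain ⟨-, hF2, hF3⟩ := hfw h2 W x y h (m + n) hM
  have e1 := hF2 m (by omega) (by omega)
  have e2 := hF2 n hn (by omega)
  have e3 := hF3 m n hn hnm le_rfl
  linear_combination e3 + psiAt W x y n ^ 2 * e1 - psiAt W x y m ^ 2 * e2

end order

section generic

variable {F : Type u} [Field F] (W : Affine F)

/-- the curve over its own function field -/
noncomputable abbrev WL : Affine W.FunctionField := W.map (algebraMap F W.FunctionField)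

/-- coordinates of the generic point -/
noncomputable def xg : W.FunctionField :=
  algebraMap W.CoordinateRing W.FunctionField (CoordinateRing.mk W (C X))

noncomputable def yg : W.FunctionField :=
  algebraMap W.CoordinateRing W.FunctionField (CoordinateRing.mk W X)

lemma evalEval_map_generic (p : F[X][Y]) :
    (p.map (mapRingHom (algebraMap F W.FunctionField))).evalEval (xg W) (yg W) =
      algebraMap W.CoordinateRing W.FunctionField (CoordinateRing.mk W p) := by
  have key : ((evalEvalRingHom (xg W) (yg W)).comp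
      (mapRingHom (mapRingHom (algebraMap F W.FunctionField)))) =
      (algebraMap W.CoordinateRing W.FunctionField).comp (CoordinateRing.mk W) := by
    apply Polynomial.ringHom_ext'
    · apply Polynomial.ringHom_ext'
      · ext a
        show evalEval (xg W) (yg W) (map (mapRingHom (algebraMap F W.FunctionField)) (C (C a))) =
          algebraMap W.CoordinateRing W.FunctionField (CoordinateRing.mk W (C (C a)))
        rw [map_C, coe_mapRingHom, map_C, evalEval_C, eval_C,
          IsScalarTower.algebraMap_apply F W.CoordinateRing W.FunctionField]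
        rfl
      · show evalEval (xg W) (yg W) (map (mapRingHom (algebraMap F W.FunctionField)) (C X)) =
          algebraMap W.CoordinateRing W.FunctionField (CoordinateRing.mk W (C X))
        rw [map_C, coe_mapRingHom, map_X, evalEval_C, eval_X]
        rfl
    · show evalEval (xg W) (yg W) (map (mapRingHom (algebraMap F W.FunctionField)) X) =
          algebraMap W.CoordinateRing W.FunctionField (CoordinateRing.mk W X)
      rw [map_X, evalEval_X]
      rfl
  exact congrFun (congrArg DFunLike.coe key) p

lemma generic_equation : (WL W).Equation (xg W) (yg W) := by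
  unfold Affine.Equation
  rw [show (WL W).polynomial = W.polynomial.map (mapRingHom (algebraMap F W.FunctionField)) from
    Affine.map_polynomial W _, evalEval_map_generic]
  rw [show CoordinateRing.mk W W.polynomial = 0 from AdjoinRoot.mk_self, map_zero]

lemma generic_nonsingular (hΔ : W.Δ ≠ 0) : (WL W).Nonsingular (xg W) (yg W) := by
  refine (Affine.equation_iff_nonsingular_of_Δ_ne_zero ?_).mp (generic_equation W)
  rw [show (WL W).Δ = algebraMap F W.FunctionField W.Δ from WeierstrassCurve.map_Δ W _]
  exact fun h => hΔ ((algebraMap F W.FunctionField).injective (by rw [h, map_zero]))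

lemma psiAt_generic (n : ℤ) :
    psiAt (WL W) (xg W) (yg W) n =
      algebraMap W.CoordinateRing W.FunctionField (CoordinateRing.mk W (W.ψ n)) := by
  unfold psiAt
  rw [show (WL W).ψ n = (W.ψ n).map (mapRingHom (algebraMap F W.FunctionField)) from
    WeierstrassCurve.map_ψ W _ n, evalEval_map_generic]

lemma mk_psi_ne_zero [CharZero F] {n : ℤ} (hn : n ≠ 0) : CoordinateRing.mk W (W.ψ n) ≠ 0 := by
  intro h
  have h1 := Affine.CoordinateRing.mk_Ψ_sq W n
  rw [← Affine.CoordinateRing.mk_ψ, h, zero_pow two_ne_zero] at h1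
  have h2 : W.ΨSq n ≠ 0 := WeierstrassCurve.ΨSq_ne_zero W (by exact_mod_cast hn)
  apply h2
  have h3 : (W.ΨSq n) • (1 : W.CoordinateRing) + (0 : F[X]) • CoordinateRing.mk W X = 0 := by
    rw [zero_smul, add_zero, CoordinateRing.smul, mul_one]; exact h1.symm
  exact (CoordinateRing.smul_basis_eq_zero h3).1

lemma psiAt_generic_ne_zero [CharZero F] {n : ℤ} (hn : n ≠ 0) :
    psiAt (WL W) (xg W) (yg W) n ≠ 0 := by
  rw [psiAt_generic]
  intro h
  exact mk_psi_ne_zero W hn
    (IsFractionRing.injective W.CoordinateRing W.FunctionField (by rw [h, map_zero]))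

lemma two_ne_zero_functionField [CharZero F] : (2 : W.FunctionField) ≠ 0 := by
  have : (2 : W.FunctionField) = algebraMap F W.FunctionField 2 :=
    (map_ofNat (algebraMap F W.FunctionField) 2).symm
  rw [this]
  exact fun h => two_ne_zero ((algebraMap F W.FunctionField).injective (by rw [h, map_zero]))

lemma generic_zsmul_ne_zero [CharZero F] [DecidableEq W.FunctionField]
    (hfw : ForwardStmt W.FunctionField) (hΔ : W.Δ ≠ 0) :
    ∀ k : ℕ, 0 < k →
      (k : ℤ) • (Point.some _ _ (generic_nonsingular W hΔ) : (WL W).Point) ≠ 0 := by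
  intro k
  induction k using Nat.strong_induction_on with
  | _ k ih =>
    intro hk h0
    have := psiAt_eq_zero_of_order hfw (two_ne_zero_functionField W) (WL W)
      (generic_nonsingular W hΔ) k (fun j hj hjk => ih j hjk hj) h0 hk
    exact psiAt_generic_ne_zero W (by exact_mod_cast hk.ne') this

/-- the elliptic-sequence relation in the coordinate ring. -/
theorem eds_rel_mk [CharZero F] [DecidableEq W.FunctionField]
    (hfw : ForwardStmt W.FunctionField) (hΔ : W.Δ ≠ 0) (m n : ℕ) (hn : 0 < n) (hnm : n < m) :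
    CoordinateRing.mk W (W.ψ (m + n)) * CoordinateRing.mk W (W.ψ (m - n)) =
      CoordinateRing.mk W (W.ψ (m + 1)) * CoordinateRing.mk W (W.ψ (m - 1)) *
          CoordinateRing.mk W (W.ψ n) ^ 2 -
        CoordinateRing.mk W (W.ψ (n + 1)) * CoordinateRing.mk W (W.ψ (n - 1)) *
          CoordinateRing.mk W (W.ψ m) ^ 2 := by
  apply IsFractionRing.injective W.CoordinateRing W.FunctionField
  have := eds_rel_of_forward hfw (two_ne_zero_functionField W) (WL W)
    (generic_nonsingular W hΔ) m n hn hnm (fun k hk _ => generic_zsmul_ne_zero W hfw hΔ k hk)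
  simp only [psiAt_generic] at this
  simp only [map_mul, map_sub, map_pow]
  exact this

/-- the elliptic-sequence relation at every point of the curve. -/
theorem eds_rel_at [CharZero F] [DecidableEq W.FunctionField]
    (hfw : ForwardStmt W.FunctionField) (hΔ : W.Δ ≠ 0) {x y : F} (h : W.Equation x y)
    (m n : ℕ) (hn : 0 < n) (hnm : n < m) :
    psiAt W x y (m + n) * psiAt W x y (m - n) =
      psiAt W x y (m + 1) * psiAt W x y (m - 1) * psiAt W x y n ^ 2 -
        psiAt W x y (n + 1) * psiAt W x y (n - 1) * psiAt W x y m ^ 2 := by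
  have := congrArg (evalAt W h) (eds_rel_mk W hfw hΔ m n hn hnm)
  simp only [map_mul, map_sub, map_pow, evalAt_mk] at this
  exact this

end generic

end Fermat.Agent.S13.DivGeneric3
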