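/-
S13 / DIV2 (helper37): geometric instantiation of `DivCore.IsGeomSeq`.

For a Weierstrass curve `W` over a field `F` with `2 ≠ 0` and a point `P` all of whose multiples
`k • P`, `1 ≤ k ≤ M`, are nonzero, the sequences `x k := x(k • P)` and
`w k := ψ_k(P)` (Mathlib's division polynomials `W.ψ k` evaluated at `P`) satisfy
`DivCore.IsGeomSeq`; consequently
* `ψ_k(P) ≠ 0` for `1 ≤ k ≤ M`,
* `(x_m - x_n) ψ_m(P)² ψ_n(P)² = - ψ_{m+n}(P) ψ_{m-n}(P)` for `1 ≤ n < m`, `m + n ≤ M`,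
* `ψ_{k+1}(P) ψ_{k-1}(P) = -(x_k - x_1) ψ_k(P)²`.
(complete proofs)
-/
import Fermat.Agent.S13.DivEDS
import Fermat.Agent.S05.XFormulas

set_option autoImplicit false
set_option linter.unusedSectionVars false

namespace Fermat.Agent.S13.DivGeom

open WeierstrassCurve WeierstrassCurve.Affine Polynomial
open Fermat.Agent.S05 Fermat.Agent.S13.DivCore

variable {F : Type*} [Field F] [DecidableEq F] (W : Affine F)

/-- `x`-coordinate of a point (junk value `0` at infinity). -/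
def xc : W.Point → F
  | .zero => 0
  | .some x _ _ => x

/-- `Y = 2y + a₁x + a₃` of a point (`0` at infinity). -/
def Yp : W.Point → F
  | .zero => 0
  | .some x y _ => Yc W x y

@[simp] theorem xc_some {x y : F} (h : W.Nonsingular x y) : xc W (Point.some x y h) = x := rfl

@[simp] theorem Yp_some {x y : F} (h : W.Nonsingular x y) :
    Yp W (Point.some x y h) = Yc W x y := rfl

theorem exists_some {Q : W.Point} (hQ : Q ≠ 0) :
    ∃ (x y : F) (h : W.Nonsingular x y), Q = Point.some x y h := by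
  cases Q with
  | zero => exact absurd rfl hQ
  | some x y h => exact ⟨x, y, h, rfl⟩

theorem xc_neg (Q : W.Point) : xc W (-Q) = xc W Q := by
  cases Q with
  | zero => rfl
  | some x y h => rfl

theorem eq_or_eq_neg_of_xc_eq {Q₁ Q₂ : W.Point} (h₁ : Q₁ ≠ 0) (h₂ : Q₂ ≠ 0)
    (hx : xc W Q₁ = xc W Q₂) : Q₁ = Q₂ ∨ Q₁ = -Q₂ := by
  obtain ⟨x₁, y₁, hn₁, rfl⟩ := exists_some W h₁
  obtain ⟨x₂, y₂, hn₂, rfl⟩ := exists_some W h₂
  simp only [xc_some] at hx
  subst hx
  rcases Y_eq_of_X_eq hn₁.1 hn₂.1 rfl with hy | hy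
  · left
    subst hy
    rfl
  · right
    rw [Point.neg_some]
    subst hy
    rfl

theorem add_sub_formulas (h2 : (2 : F) ≠ 0) {Q₁ Q₂ : W.Point} (h₁ : Q₁ ≠ 0) (h₂ : Q₂ ≠ 0)
    (hx : xc W Q₁ ≠ xc W Q₂) :
    xc W (Q₁ + Q₂) * xc W (Q₁ - Q₂) * (xc W Q₁ - xc W Q₂) ^ 2 =
        Nnum W (xc W Q₁) (xc W Q₂) ∧
      (xc W (Q₁ + Q₂) + xc W (Q₁ - Q₂)) * (xc W Q₁ - xc W Q₂) ^ 2 =
        Snum W (xc W Q₁) (xc W Q₂) := by
  obtain ⟨x₁, y₁, hn₁, rfl⟩ := exists_some W h₁
  obtain ⟨x₂, y₂, hn₂, rfl⟩ := exists_some W h₂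
  simp only [xc_some] at hx ⊢
  obtain ⟨x₃, y₃, x₄, y₄, h₃, h₄, e₃, e₄, hN, hS, -, -⟩ := xadd W h2 hn₁ hn₂ hx
  rw [e₃, e₄]
  exact ⟨hN, hS⟩

theorem Yp_ne_zero (h2 : (2 : F) ≠ 0) {Q : W.Point} (hQ : Q ≠ 0) (h2Q : Q + Q ≠ 0) :
    Yp W Q ≠ 0 := by
  obtain ⟨x, y, hn, rfl⟩ := exists_some W hQ
  intro h
  exact h2Q (xdbl_zero W h2 hn h)

theorem add_self_eq_zero_of_Yp (h2 : (2 : F) ≠ 0) {Q : W.Point} (h : Yp W Q = 0) :
    Q + Q = 0 := by
  cases Q with
  | zero => exact add_zero _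
  | some x y hn => exact xdbl_zero W h2 hn h

theorem dbl_formula (h2 : (2 : F) ≠ 0) {Q : W.Point} (hQ : Q ≠ 0) (h2Q : Q + Q ≠ 0) :
    xc W (Q + Q) * Fpoly W (xc W Q) = Phi2 W (xc W Q) := by
  have hY := Yp_ne_zero W h2 hQ h2Q
  obtain ⟨x, y, hn, rfl⟩ := exists_some W hQ
  obtain ⟨x₃, y₃, h₃, e, hf⟩ := xdbl W h2 hn hY
  rw [e]
  exact hf

theorem Yp_sq {Q : W.Point} (hQ : Q ≠ 0) : Yp W Q ^ 2 = Fpoly W (xc W Q) := by
  obtain ⟨x, y, hn, rfl⟩ := exists_some W hQ
  exact Yc_sq W hn.1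

/-- the geometric division sequence `w k = ψ_k(P)`, defined by the recursion
`w (k+1) w (k-1) = -(x k - x 1) w k²`. -/
noncomputable def ws (P : W.Point) : ℕ → F
  | 0 => 0
  | 1 => 1
  | 2 => Yp W P
  | (k + 3) => -(xc W ((k + 2) • P) - xc W P) * ws P (k + 2) ^ 2 / ws P (k + 1)

@[simp] theorem ws_zero (P : W.Point) : ws W P 0 = 0 := by simp [ws]
@[simp] theorem ws_one (P : W.Point) : ws W P 1 = 1 := by simp [ws]
@[simp] theorem ws_two (P : W.Point) : ws W P 2 = Yp W P := by simp [ws]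
theorem ws_succ (P : W.Point) (k : ℕ) :
    ws W P (k + 3) = -(xc W ((k + 2) • P) - xc W P) * ws W P (k + 2) ^ 2 / ws W P (k + 1) := by
  rw [ws]

section main

variable {W}
variable (h2 : (2 : F) ≠ 0) {P : W.Point} {M : ℕ}
  (hM : ∀ k : ℕ, 1 ≤ k → k ≤ M → k • P ≠ 0)
include h2 hM

theorem xs_ne {n k : ℕ} (hn : 1 ≤ n) (hk : 1 ≤ k) (h : 2 * n + k ≤ M) :
    xc W ((n + k) • P) ≠ xc W (n • P) := by
  intro hx
  rcases eq_or_eq_neg_of_xc_eq W (hM (n + k) (by omega) (by omega)) (hM n hn (by omega)) hx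
    with e | e
  · apply hM k hk (by omega)
    have : n • P + k • P = n • P + 0 := by rw [← add_nsmul, e, add_zero]
    exact add_left_cancel this
  · apply hM (2 * n + k) (by omega) h
    have : (2 * n + k) • P = (n + k) • P + n • P := by
      rw [← add_nsmul]; congr 1; omega
    rw [this, e, neg_add_cancel]

theorem xs_prod_sum {n k : ℕ} (hn : 1 ≤ n) (hk : 1 ≤ k) (h : 2 * n + k ≤ M) :
    xc W ((2 * n + k) • P) * xc W (k • P) * (xc W ((n + k) • P) - xc W (n • P)) ^ 2 =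
        Nnum W (xc W ((n + k) • P)) (xc W (n • P)) ∧
      (xc W ((2 * n + k) • P) + xc W (k • P)) * (xc W ((n + k) • P) - xc W (n • P)) ^ 2 =
        Snum W (xc W ((n + k) • P)) (xc W (n • P)) := by
  have e1 : (n + k) • P + n • P = (2 * n + k) • P := by
    rw [← add_nsmul]; congr 1; omega
  have e2 : (n + k) • P - n • P = k • P := by rw [add_nsmul, add_sub_cancel_left]
  have := add_sub_formulas W h2 (hM (n + k) (by omega) (by omega)) (hM n hn (by omega))
    (xs_ne h2 hM hn hk h)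
  rwa [e1, e2] at this

theorem ws_ne_zero : ∀ k : ℕ, 1 ≤ k → k ≤ M → ws W P k ≠ 0 := by
  intro k
  induction k using Nat.strong_induction_on with
  | _ k ih =>
    intro h1 hk
    match k, ih, h1, hk with
    | 1, _, _, _ => simp
    | 2, _, _, hk =>
      rw [ws_two]
      refine Yp_ne_zero W h2 ?_ ?_
      · have := hM 1 le_rfl (by omega); rwa [one_nsmul] at this
      · have := hM 2 (by omega) hk; rwa [two_nsmul] at this
    | (j + 3), ih, _, hk =>
      rw [ws_succ]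
      have hx := xs_ne h2 hM (n := 1) (k := j + 1) le_rfl (by omega) (by omega)
      have e : 1 + (j + 1) = j + 2 := by omega
      rw [e, one_nsmul] at hx
      have i1 := ih (j + 2) (by omega) (by omega) (by omega)
      have i2 := ih (j + 1) (by omega) (by omega) (by omega)
      exact div_ne_zero (mul_ne_zero (neg_ne_zero.mpr (sub_ne_zero.mpr hx)) (pow_ne_zero 2 i1)) i2

theorem ws_rec {k : ℕ} (hk : 1 ≤ k) (hk' : k + 1 ≤ M) :
    ws W P (k + 1) * ws W P (k - 1) = -(xc W (k • P) - xc W (1 • P)) * ws W P k ^ 2 := by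
  match k, hk, hk' with
  | 1, _, _ => simp
  | (j + 2), _, hk' =>
    have e1 : j + 2 + 1 = j + 3 := by omega
    have e2 : j + 2 - 1 = j + 1 := by omega
    rw [e1, e2, ws_succ, one_nsmul]
    have i2 := ws_ne_zero h2 hM (j + 1) (by omega) (by omega)
    exact div_mul_cancel₀ _ i2

/-- the main structural statement. -/
theorem isGeomSeq :
    IsGeomSeq W.b₂ W.b₄ W.b₆ W.b₈ M (fun k => xc W (k • P)) (ws W P) where
  w0 := ws_zero W P
  w1 := ws_one W P
  wne := ws_ne_zero h2 hM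
  wrec := fun k hk hk' => ws_rec h2 hM hk hk'
  xne := fun n k hn hk h => xs_ne h2 hM hn hk h
  prod := fun n k hn hk h => (xs_prod_sum h2 hM hn hk h).1
  sum := fun n k hn hk h => (xs_prod_sum h2 hM hn hk h).2
  dbl := fun hM2 => by
    have h1 : P ≠ 0 := by have := hM 1 le_rfl (by omega); rwa [one_nsmul] at this
    have h2P : P + P ≠ 0 := by have := hM 2 (by omega) hM2; rwa [two_nsmul] at this
    have := dbl_formula W h2 h1 h2P
    simp only [one_nsmul, two_nsmul]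
    exact this
  w2sq := fun hM2 => by
    have h1 : P ≠ 0 := by have := hM 1 le_rfl (by omega); rwa [one_nsmul] at this
    have := Yp_sq W h1
    simp only [one_nsmul, ws_two]
    exact this

end main

end Fermat.Agent.S13.DivGeom
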