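/-
S13, package [T], division-polynomial route (helper3): ZERO STRUCTURE of the division polynomials at
a point.  For a point `P` of exact order `d ≥ 2`: `ψ_d(P) = 0`, `ψ_{d+1}(P) ψ_{d-1}(P) ≠ 0`, and
`ψ_n(P) ≠ 0` whenever `d ∤ n`.  Hence `ψ_n(P) = 0 → n • P = 0` for every `n > 0`, and
`p • P = 0 → ψ_p(P) = 0` for primes `p`.  Input: the pointwise forward theorem `ForwardStmt` for
the base field and for the function field of the curve (see `DivGeneric3`).  No `sorry`.
-/
import Fermat.Agent.S13.DivGeneric3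

set_option autoImplicit false
set_option linter.unusedSectionVars false

open WeierstrassCurve WeierstrassCurve.Affine Polynomial
open scoped Polynomial.Bivariate

namespace Fermat.Agent.S13.DivZeros3

open Fermat.Agent.S13.DivGeneric3

universe u

section small

variable {F : Type u} [Field F] (W : Affine F)

/-- at a `2`-torsion point, `ψ₃ = -W_X²`. -/
lemma psiAt_three_of_two (h2 : (2 : F) ≠ 0) {x y : F} (h : W.Nonsingular x y)
    (h0 : psiAt W x y 2 = 0) : psiAt W x y 3 ≠ 0 := by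
  rw [psiAt_two] at h0
  rw [psiAt_three]
  obtain ⟨heq, hns⟩ := (W.nonsingular_iff' x y).mp h
  have hX : W.a₁ * y - (3 * x ^ 2 + 2 * W.a₂ * x + W.a₄) ≠ 0 := by
    rcases hns with h1 | h1
    · exact h1
    · exact absurd h0 h1
  rw [W.equation_iff] at heq
  have hy : y = -(W.a₁ * x + W.a₃) / 2 := by
    field_simp
    linear_combination h0
  have key : W.Ψ₃.eval x = -(W.a₁ * y - (3 * x ^ 2 + 2 * W.a₂ * x + W.a₄)) ^ 2 := by
    simp only [WeierstrassCurve.Ψ₃, WeierstrassCurve.b₂, WeierstrassCurve.b₄,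
      WeierstrassCurve.b₆, WeierstrassCurve.b₈, eval_add, eval_mul, eval_pow, eval_X, eval_C,
      eval_ofNat]
    subst hy
    field_simp at heq ⊢
    linear_combination (-(12 * x + (W.a₁ ^ 2 + 4 * W.a₂))) * heq
  rw [key]
  exact neg_ne_zero.mpr (pow_ne_zero 2 hX)

/-- `preΨ₄ = (F'/2) Ψ₃ - F²`. -/
lemma preΨ₄_identity (x : F) :
    W.preΨ₄.eval x = (6 * x ^ 2 + W.b₂ * x + W.b₄) * W.Ψ₃.eval x - (W.Ψ₂Sq.eval x) ^ 2 := by
  simp only [WeierstrassCurve.preΨ₄, WeierstrassCurve.Ψ₃, WeierstrassCurve.Ψ₂Sq, eval_add,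
    eval_mul, eval_pow, eval_X, eval_C, eval_ofNat]
  linear_combination x ^ 2 * W.b_relation

lemma psiAt_four_of_three {x y : F} (h : W.Equation x y)
    (h3 : psiAt W x y 3 = 0) (h2 : psiAt W x y 2 ≠ 0) : psiAt W x y 4 ≠ 0 := by
  rw [psiAt_four]
  refine mul_ne_zero ?_ h2
  rw [psiAt_three] at h3
  rw [preΨ₄_identity, h3, mul_zero, zero_sub]
  have := psiAt_sq W h 2
  rw [WeierstrassCurve.ΨSq_two] at this
  rw [← this]
  exact neg_ne_zero.mpr (pow_ne_zero 2 (pow_ne_zero 2 h2))

end small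

section zeros

variable {F : Type u} [Field F] [CharZero F] [DecidableEq F] (W : Affine F)
  [DecidableEq W.FunctionField]

/-- integer-index form of the elliptic-sequence relation at a point. -/
lemma eds_rel_int (hfwL : ForwardStmt W.FunctionField) (hΔ : W.Δ ≠ 0) {x y : F}
    (h : W.Equation x y) (a b : ℤ) (hb : 0 < b) (hab : b < a) :
    psiAt W x y (a + b) * psiAt W x y (a - b) =
      psiAt W x y (a + 1) * psiAt W x y (a - 1) * psiAt W x y b ^ 2 -
        psiAt W x y (b + 1) * psiAt W x y (b - 1) * psiAt W x y a ^ 2 := by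
  lift b to ℕ using hb.le
  lift a to ℕ using (hb.trans hab).le
  exact eds_rel_at W hfwL hΔ h a b (by exact_mod_cast hb) (by exact_mod_cast hab)

variable (hfwF : ForwardStmt F) (hfwL : ForwardStmt W.FunctionField) (hΔ : W.Δ ≠ 0)
  {x y : F} (h : W.Nonsingular x y) {d : ℕ}
  (hlt : ∀ k : ℕ, 0 < k → k < d → (k : ℤ) • (Point.some x y h : W.Point) ≠ 0)
  (hd : (d : ℤ) • (Point.some x y h : W.Point) = 0) (hd2 : 2 ≤ d)

include hfwF hlt in
lemma psiAt_ne_zero_of_lt (k : ℤ) (hk : 0 < k) (hkd : k < d) : psiAt W x y k ≠ 0 := by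
  lift k to ℕ using hk.le
  have hk' : 0 < k := by exact_mod_cast hk
  have hkd' : k < d := by exact_mod_cast hkd
  exact (hfwF two_ne_zero W x y h (d - 1) (fun j hj hjd => hlt j hj (by omega))).1 k hk'
    (by omega)

include hfwF hlt hd hd2 in
lemma psiAt_order : psiAt W x y d = 0 :=
  psiAt_eq_zero_of_order hfwF two_ne_zero W h d hlt hd (by omega)

include hfwF hfwL hΔ hlt hd hd2 in
lemma c_ne_zero : psiAt W x y (d + 1) * psiAt W x y (d - 1) ≠ 0 := by
  have hne := psiAt_ne_zero_of_lt W hfwF h hlt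
  have h0 := psiAt_order W hfwF h hlt hd hd2
  have heq : W.Equation x y := h.1
  rcases Nat.lt_or_ge d 4 with h4 | h4
  · interval_cases d
    · -- d = 2
      have e1 : psiAt W x y ((2 : ℕ) - 1) = 1 := by
        rw [show (((2 : ℕ) : ℤ) - 1) = 1 by norm_num]; exact psiAt_one W x y
      have e2 : psiAt W x y ((2 : ℕ) + 1) ≠ 0 := by
        rw [show (((2 : ℕ) : ℤ) + 1) = 3 by norm_num]
        exact psiAt_three_of_two W two_ne_zero h (by exact_mod_cast h0)
      rw [e1, mul_one]; exact e2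
    · -- d = 3
      have e1 : psiAt W x y ((3 : ℕ) - 1) ≠ 0 := hne _ (by norm_num) (by norm_num)
      have e2 : psiAt W x y ((3 : ℕ) + 1) ≠ 0 := by
        rw [show (((3 : ℕ) : ℤ) + 1) = 4 by norm_num]
        refine psiAt_four_of_three W heq (by exact_mod_cast h0) ?_
        exact hne 2 (by norm_num) (by norm_num)
      exact mul_ne_zero e2 e1
  · have hd4 : (4 : ℤ) ≤ d := by exact_mod_cast h4
    have e1 : psiAt W x y (d - 1) ≠ 0 := hne _ (by omega) (by omega)
    have e3 : psiAt W x y 3 ≠ 0 := hne _ (by norm_num) (by omega)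
    have rel := eds_rel_int W hfwL hΔ heq ((d : ℤ) - 1) 2 (by norm_num) (by omega)
    rw [show (d : ℤ) - 1 + 2 = d + 1 by ring, show (d : ℤ) - 1 + 1 = d by ring, h0,
      show (2 : ℤ) + 1 = 3 by norm_num, show (2 : ℤ) - 1 = 1 by norm_num, psiAt_one] at rel
    have e2 : psiAt W x y (d + 1) ≠ 0 := by
      intro hz
      rw [hz] at rel
      have : psiAt W x y 3 * psiAt W x y (d - 1) ^ 2 = 0 := by linear_combination rel
      exact mul_ne_zero e3 (pow_ne_zero 2 e1) this
    exact mul_ne_zero e2 e1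

include hfwF hfwL hΔ hlt hd hd2 in
/-- `ψ_n(P) ≠ 0` if the order of `P` does not divide `n`. -/
lemma psiAt_ne_zero_of_not_dvd : ∀ n : ℕ, 0 < n → ¬ d ∣ n → psiAt W x y n ≠ 0 := by
  have hne := psiAt_ne_zero_of_lt W hfwF h hlt
  have h0 := psiAt_order W hfwF h hlt hd hd2
  have hc := c_ne_zero W hfwF hfwL hΔ h hlt hd hd2
  have heq : W.Equation x y := h.1
  intro n
  induction n using Nat.strong_induction_on with
  | _ n ih =>
    intro hn hdn
    rcases Nat.lt_or_ge n d with h1 | h1
    · exact hne n (by exact_mod_cast hn) (by exact_mod_cast h1)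
    have hnd : n ≠ d := fun e => hdn (e ▸ dvd_rfl)
    rcases Nat.lt_or_ge n (2 * d) with h2 | h2
    · -- d < n < 2d
      have hk : psiAt W x y ((n : ℤ) - d) ≠ 0 := hne _ (by omega) (by omega)
      have rel := eds_rel_int W hfwL hΔ heq (d : ℤ) ((n : ℤ) - d) (by omega) (by omega)
      rw [show (d : ℤ) + ((n : ℤ) - d) = n by ring, h0] at rel
      intro hz
      rw [hz] at rel
      have : psiAt W x y (d + 1) * psiAt W x y (d - 1) * psiAt W x y ((n : ℤ) - d) ^ 2 = 0 := by
        linear_combination -rel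
      exact mul_ne_zero hc (pow_ne_zero 2 hk) this
    · -- 2d < n
      have hn2 : n ≠ 2 * d := fun e => hdn (e ▸ Dvd.intro_left 2 rfl)
      have hk : psiAt W x y ((n : ℤ) - d) ≠ 0 := by
        have := ih (n - d) (by omega) (by omega) (fun hdvd => hdn (by
          have := Nat.dvd_add hdvd (dvd_refl d)
          rwa [Nat.sub_add_cancel h1] at this))
        rwa [Nat.cast_sub h1] at this
      have rel := eds_rel_int W hfwL hΔ heq ((n : ℤ) - d) (d : ℤ) (by omega) (by omega)
      rw [show (n : ℤ) - d + d = n by ring, h0] at rel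
      intro hz
      rw [hz] at rel
      have : psiAt W x y (d + 1) * psiAt W x y (d - 1) * psiAt W x y ((n : ℤ) - d) ^ 2 = 0 := by
        linear_combination rel
      exact mul_ne_zero hc (pow_ne_zero 2 hk) this

include hfwF hfwL hΔ in
/-- CONVERSE: a zero of `ψ_n` is an `n`-torsion point. -/
theorem zsmul_eq_zero_of_psiAt_eq_zero (n : ℕ) (hn : 0 < n) (hpsi : psiAt W x y n = 0) :
    (n : ℤ) • (Point.some x y h : W.Point) = 0 := by
  by_contra hne
  by_cases hex : ∃ k : ℕ, 0 < k ∧ (k : ℤ) • (Point.some x y h : W.Point) = 0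
  · classical
    let d := Nat.find hex
    have hd : 0 < d ∧ (d : ℤ) • (Point.some x y h : W.Point) = 0 := Nat.find_spec hex
    have hlt : ∀ k : ℕ, 0 < k → k < d → (k : ℤ) • (Point.some x y h : W.Point) ≠ 0 :=
      fun k hk hkd h0 => Nat.find_min hex hkd ⟨hk, h0⟩
    have hd2 : 2 ≤ d := by
      by_contra hlt2
      have h1 : d = 1 := by omega
      have := hd.2
      rw [h1, Nat.cast_one, one_zsmul] at this
      exact Point.some_ne_zero h this
    by_cases hdn : d ∣ n
    · obtain ⟨c, rfl⟩ := hdn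
      apply hne
      rw [Nat.cast_mul, mul_comm, mul_zsmul, hd.2, smul_zero]
    · exact psiAt_ne_zero_of_not_dvd W hfwF hfwL hΔ h hlt hd.2 hd2 n hn hdn hpsi
  · have hM : ∀ k : ℕ, 0 < k → k ≤ n → (k : ℤ) • (Point.some x y h : W.Point) ≠ 0 :=
      fun k hk _ h0 => hex ⟨k, hk, h0⟩
    exact (hfwF two_ne_zero W x y h n hM).1 n hn le_rfl hpsi

include hfwF in
omit [DecidableEq W.FunctionField] in
/-- FORWARD for primes: a nonzero `p`-torsion point is a zero of `ψ_p`. -/
theorem psiAt_eq_zero_of_prime {p : ℕ} (hp : p.Prime)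
    (hP : (p : ℤ) • (Point.some x y h : W.Point) = 0) : psiAt W x y p = 0 := by
  refine psiAt_eq_zero_of_order hfwF two_ne_zero W h p ?_ hP hp.pos
  intro k hk hkp h0
  have hcop : IsCoprime (k : ℤ) (p : ℤ) := by
    rw [Nat.isCoprime_iff_coprime]
    exact (Nat.coprime_of_lt_prime (n := k) (p := p) hk.ne' hkp hp).symm
  obtain ⟨a, b, hab⟩ := hcop
  have : (Point.some x y h : W.Point) = 0 := by
    calc (Point.some x y h : W.Point) = (1 : ℤ) • Point.some x y h := (one_zsmul _).symm
      _ = (a * k + b * p) • Point.some x y h := by rw [hab]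
      _ = 0 := by rw [add_zsmul, mul_zsmul, mul_zsmul, h0, hP, smul_zero, smul_zero, add_zero]
  exact Point.some_ne_zero h this

end zeros

end Fermat.Agent.S13.DivZeros3
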