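import Fermat.Agent.S13.Assembly
import Fermat.Agent.S13.MassCount
import Fermat.Agent.S13.TC29

/-!
# S13: from the easy half of the division-polynomial criterion to `TFinStmt` and `MassExtraStmt`
(helper34)

`EasyHalfStmt` : for `W` over `ℚ̄` with `Δ ≠ 0` and an odd prime `p`, a `p`-torsion point
`(x, y)` has `(W.preΨ p).eval x = 0` (Mathlib's division polynomial).  This file derives from it
the two statements consumed by `Assembly.s13_of_weak`:
* `tFin_of_easy : EasyHalfStmt → Asm.TFinStmt`  (via `TC29.finite_and_card_le`, `θ = preΨ p`);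
* `massExtra_of_easy : EasyHalfStmt → Asm.MassExtraStmt`  (via `MassCount.mass_false_of_extra`,
  `N = ΨSq p = (preΨ p)²`, integral with leading coefficient `p²`).
-/

set_option autoImplicit false

namespace Fermat.Agent.S13.EasyGlue34

open WeierstrassCurve WeierstrassCurve.Affine WeierstrassCurve.Affine.Point Polynomial
open Fermat.Agent.S05 (IsOrd IsU IsIntegralW E1)

/-- the easy half of the division polynomial criterion: torsion ⇒ root of `preΨ_p`. -/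
def EasyHalfStmt : Prop :=
  ∀ (W : Affine Qb), W.Δ ≠ 0 → ∀ p : ℕ, p.Prime → p ≠ 2 →
    ∀ (x y : Qb) (h : W.Nonsingular x y), (p : ℤ) • Point.some x y h = 0 →
      (W.preΨ (p : ℤ)).eval x = 0

section generic

variable {K : Type*} [Field K]

/-- the coefficients of `ΨSq n` are integral when the Weierstrass coefficients are. -/
theorem coeff_ΨSq_mem (A : ValuationSubring K) (W : WeierstrassCurve K) (hW : IsIntegralW W A)
    (n : ℤ) (i : ℕ) : (W.ΨSq n).coeff i ∈ A := by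
  let WA : WeierstrassCurve A :=
    ⟨⟨W.a₁, hW.1⟩, ⟨W.a₂, hW.2.1⟩, ⟨W.a₃, hW.2.2.1⟩, ⟨W.a₄, hW.2.2.2.1⟩, ⟨W.a₆, hW.2.2.2.2⟩⟩
  have hmap : WA.map A.subtype = W := by ext <;> rfl
  rw [← hmap, map_ΨSq, coeff_map]
  exact ((WA.ΨSq n).coeff i).2

theorem natCast_ne_zero_of_prime [CharZero K] {p : ℕ} (hp : p.Prime) : ((p : ℤ) : K) ≠ 0 := by
  have : (p : K) ≠ 0 := Nat.cast_ne_zero.mpr hp.ne_zero
  exact_mod_cast this

/-- for odd `p`, `ΨSq p = (preΨ p)²`. -/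
theorem ΨSq_odd_prime (W : WeierstrassCurve K) {p : ℕ} (hp : p.Prime) (hp2 : p ≠ 2) :
    W.ΨSq (p : ℤ) = W.preΨ (p : ℤ) ^ 2 := by
  have hodd : ¬ Even (p : ℤ) := by
    rw [Int.not_even_iff_odd]
    exact_mod_cast hp.odd_of_ne_two hp2
  rw [ΨSq, if_neg hodd, mul_one]

theorem sq_dvd_ΨSq_of_root (W : WeierstrassCurve K) {p : ℕ} (hp : p.Prime) (hp2 : p ≠ 2)
    {x : K} (hx : (W.preΨ (p : ℤ)).eval x = 0) : (X - C x) ^ 2 ∣ W.ΨSq (p : ℤ) := by
  rw [ΨSq_odd_prime W hp hp2]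
  exact pow_dvd_pow_of_dvd (dvd_iff_isRoot.2 hx) 2

end generic

/-- [T-fin] from the easy half. -/
theorem tFin_of_easy (hE : EasyHalfStmt) : Asm.TFinStmt := by
  intro W hΔ p hp hp2
  have hp0 : ((p : ℤ) : Qb) ≠ 0 := natCast_ne_zero_of_prime hp
  have hθ0 : W.preΨ (p : ℤ) ≠ 0 := W.preΨ_ne_zero hp0
  obtain ⟨hfin, hcard⟩ := TC29.finite_and_card_le W p (W.preΨ (p : ℤ)) hθ0
    (fun {x y} h hpP => hE W hΔ p hp hp2 x y h hpP)
  refine ⟨hfin, lt_of_le_of_lt hcard ?_⟩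
  have hdeg : (W.preΨ (p : ℤ)).natDegree ≤ (p ^ 2 - 1) / 2 := by
    have h := W.natDegree_preΨ_le (p : ℤ)
    have hodd : ¬ Even (p : ℤ) := by
      rw [Int.not_even_iff_odd]
      exact_mod_cast hp.odd_of_ne_two hp2
    rw [if_neg hodd, Int.natAbs_natCast] at h
    exact h
  have hp3 : 3 ≤ p := by
    have := hp.two_le
    omega
  have h1 : 1 + 2 * (W.preΨ (p : ℤ)).natDegree ≤ p ^ 2 := by
    have h2 : 2 * ((p ^ 2 - 1) / 2) ≤ p ^ 2 - 1 := Nat.mul_div_le _ _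
    have h3 : 1 ≤ p ^ 2 := Nat.one_le_pow _ _ hp.pos
    omega
  calc 1 + 2 * (W.preΨ (p : ℤ)).natDegree ≤ p ^ 2 := h1
    _ < p ^ 3 := Nat.pow_lt_pow_right hp.one_lt (by norm_num)

/-- [MASS-extra] from the easy half. -/
theorem massExtra_of_easy (hE : EasyHalfStmt) : Asm.MassExtraStmt := by
  intro W A ord hord hW hΔ p hp hp2 hpos _hU hall P₀ hP₀ hpP₀ hdeep Q hpQ hQ
  have hp0 : ((p : ℤ) : Qb) ≠ 0 := natCast_ne_zero_of_prime hp
  have hpK : (p : Qb) ≠ 0 := Nat.cast_ne_zero.mpr hp.ne_zero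
  have hN0 : W.ΨSq (p : ℤ) ≠ 0 := W.ΨSq_ne_zero hp0
  have hlc : ord (W.ΨSq (p : ℤ)).leadingCoeff ≤ 2 * ord (p : Qb) := by
    rw [W.leadingCoeff_ΨSq hp0]
    have : (((p : ℤ) : Qb)) ^ 2 = (p : Qb) ^ 2 := by push_cast; rfl
    rw [this, pow_two, hord.map_mul hpK hpK]
    linarith
  exact MassCount.mass_false_of_extra (W := W) hord hp hp2 hpos hN0
    (fun i => coeff_ΨSq_mem A W hW (p : ℤ) i) hlc
    (fun x y h hpP => sq_dvd_ΨSq_of_root W hp hp2 (hE W hΔ p hp hp2 x y h hpP))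
    hall P₀ hP₀ hpP₀ hdeep Q hpQ hQ

end Fermat.Agent.S13.EasyGlue34
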