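import Fermat.Agent.S13.EasyGlue34
import Fermat.Agent.S13.Mink67
import Fermat.Agent.S13.L2a
import Fermat.Agent.S13.L2b
import Fermat.Agent.S13.LPStmt48
import Fermat.Agent.Lib.TorsionExists.Corollary

/-!
# S13 from the easy half of the division-polynomial criterion alone (helper34)

Everything else is landed: `Mink67.mink`, `L2a.l2Unipotent`, `L2b.l2NoRational`,
`LPStmt48.freyIntegralStmt`, `TorsionExists.nontrivial_torsionBy`, `Asm.s13_of_weak`,
`EasyGlue34.tFin_of_easy / massExtra_of_easy`.
-/

set_option autoImplicit false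

namespace Fermat.Agent.S13.Final34

open WeierstrassCurve WeierstrassCurve.Affine WeierstrassCurve.Affine.Point

/-- [T-ex] in the shape of `Assembly.lean`. -/
theorem tNontriv : Asm.TNontrivStmt := by
  intro W hΔ p hp _
  exact Fermat.Agent.Lib.TorsionExists.nontrivial_torsionBy W hΔ p hp.two_le

/-- **S13 modulo the easy half** `torsion ⇒ root of preΨ_p`. -/
theorem s13_of_easy (hE : EasyGlue34.EasyHalfStmt) (P : FreyPackage)
    (hred : ¬ GaloisRepIsIrreducible (K := AlgebraicClosure ℚ) ℚ P.freyCurve P.p) :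
    HasGaloisStableCofixedLine (K := AlgebraicClosure ℚ) ℚ P.freyCurve P.p :=
  Asm.s13_of_weak (EasyGlue34.tFin_of_easy hE) tNontriv (EasyGlue34.massExtra_of_easy hE)
    Mink67.mink LPStmt48.freyIntegralStmt L2a.l2Unipotent L2b.l2NoRational P hred

end Fermat.Agent.S13.Final34
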