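/-
S13 package L2a (helper8): Frey instantiation of the abstract core `L2aCore.unipotent_core`:
inertia at `2` acts unipotently on `E[p]` of the Frey curve.  Final theorem
`l2Unipotent : L2UnipotentStmt` (exact Interface shape).  No sorry.
-/
import Fermat.Agent.S13.Interface
import Fermat.Agent.S13.L2aCore
import Fermat.Agent.S13.L2Frey2
import Fermat.Agent.S05.Inertia
import Fermat.Agent.S05.OrdConstruct

set_option autoImplicit false

namespace Fermat.Agent.S13.L2aFrey8

open WeierstrassCurve WeierstrassCurve.Affine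
open Fermat.Agent.S05

/-- the Frey curve has a node at `(0,0)` modulo `2` in the sense of `L2Branch.NodeZero`. -/
theorem frey_nodeZero (P : FreyPackage) {A : ValuationSubring Qb} {ord : Qb → ℚ}
    (hQ : ∀ x : ℚ, x ≠ 0 → ord (algebraMap ℚ Qb x) = padicValRat 2 x) :
    L2Branch.NodeZero (P.freyCurve⁄Qb) A ord where
  a₃_eq := L2Frey2.bc_a₃ P
  a₆_eq := L2Frey2.bc_a₆ P
  a₁_mem := by rw [L2Frey2.bc_a₁]; exact A.one_mem
  a₂_mem := (L2Frey2.frey_isIntegralW P A).2.1
  a₄_ne := by rw [← L2Frey2.alpha4_zero_eq_a₄]; exact L2Frey2.alpha4_ne_zero P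
  b₂_unit := by
    have h := L2Frey2.isU_beta2 P hQ
    rwa [beta2, mul_zero, add_zero] at h

/-- **[L2a]** inertia at `2` acts unipotently on `E[p]` of the Frey curve. -/
theorem l2Unipotent : L2UnipotentStmt := by
  intro P A hA σ hσ Q hQ
  obtain ⟨ord, hord, hQr⟩ := exists_ord A Nat.prime_two hA
  have hσ' : IsInertial A σ := isInertial_of_mem A σ hσ
  have h2 : ord (2 : Qb) = 1 := L2Frey2.ord_two hQr
  have hh : 0 < ord (P.freyCurve⁄Qb).a₄ := by
    rw [← L2Frey2.alpha4_zero_eq_a₄, L2Frey2.ord_alpha4 P hQr]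
    exact L2Frey2.hNat_pos_rat P
  have hp2 : P.p ≠ 2 := by have := P.hp5; omega
  exact L2aCore.unipotent_core P.freyCurve hord two_ne_zero (by rw [h2]; norm_num)
    (L2Frey2.frey_isIntegralW P A) (frey_nodeZero P hQr) hh σ hσ' P.pp hp2 hQ

end Fermat.Agent.S13.L2aFrey8
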