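/-
S13 package L2b, SECOND SEAT (helper40): the Frey curve has no rational point of order `p`.

Proof (2-adic, blueprint 7 item (5)).  `T` rational, `p • T = 0`.  With `w` the distance to the
identity component at `2` (node at `x ≡ 0`, `h = ord₂ a₄ = p·v₂(b) - 4`), `w(T)` is an integer in
`[0,h]` with `p·w(T) ∈ 2hℤ` and `p ∤ h`, hence `w(T) = 0`; `E₁` has no odd torsion, so `x(T)` is a
`2`-adic unit, i.e. `x(T) ≡ 1 mod 2`.  The same holds for `2T`.  Modulo the maximal ideal the curve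
is `y² + y ≡ 1 + a₂` at `x ≡ 1`, so `y(T) ≡ y(2T)` or `y(T) ≡ y(-2T)`; by the congruence lemma
`T - 2T ∈ E₁` or `T + 2T ∈ E₁`, i.e. `T = 0` or `3T = 0`; with `p ≥ 5` this forces `T = 0`.
-/
import Fermat.Agent.S13.Interface
import Fermat.Agent.S13.GalStmts
import Fermat.Agent.S13.L2Frey2
import Fermat.Agent.S13.L2KH
import Fermat.Agent.S13.L2Congr
import Fermat.Agent.S13.L2Branch

set_option autoImplicit false

namespace Fermat.Agent.S13.L2b40

open WeierstrassCurve WeierstrassCurve.Affine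
open Fermat.Agent.S05
open Fermat.Agent.S13.L2Branch (nu_add nu_neg nu_sub nu_mul_left nu_mul_right nu_mem nu_zero
  nu_of_mul)

/-! ### Abstract part: the reduction at `x ≡ 1` of a curve `y² + xy = x³ + a₂x² + a₄x`, `a₄ ∈ 𝔪` -/

section abstract

variable {K : Type*} [Field K] [DecidableEq K] {A : ValuationSubring K} {ord : K → ℚ}

omit [DecidableEq K] in
/-- at `x ≡ 1` the curve reduces to `y² + y ≡ 1 + a₂`. -/
theorem resid_eq (W : Affine K) (hW : IsIntegralW W A) (ha1 : W.a₁ = 1) (ha3 : W.a₃ = 0)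
    (ha6 : W.a₆ = 0) (ha4 : W.a₄ ∈ A.nonunits) {x y : K} (h : W.Equation x y)
    (hx : x - 1 ∈ A.nonunits) : y ∈ A ∧ y ^ 2 + y - (1 + W.a₂) ∈ A.nonunits := by
  have hxA : x ∈ A := by
    have : x = (x - 1) + 1 := by ring
    rw [this]; exact add_mem (nu_mem hx) A.one_mem
  have hyA : y ∈ A := F_y_mem W hW h hxA
  refine ⟨hyA, ?_⟩
  obtain ⟨-, h2, -, -, -⟩ := hW
  rw [W.equation_iff, ha1, ha3, ha6] at h
  have e : y ^ 2 + y - (1 + W.a₂) =
      (x - 1) * (-y + (x ^ 2 + x + 1) + W.a₂ * (x + 1)) + W.a₄ * x := by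
    linear_combination h
  rw [e]
  refine nu_add (nu_mul_right hx ?_) (nu_mul_right ha4 hxA)
  exact add_mem (add_mem (neg_mem hyA) (add_mem (add_mem (pow_mem hxA 2) hxA) A.one_mem))
    (mul_mem h2 (add_mem hxA A.one_mem))

/-- two points with `x ≡ 1`: their difference or their sum lies in the kernel of reduction. -/
theorem sub_or_add_mem_E1 (W : Affine K) (hord : IsOrd A ord) (hW : IsIntegralW W A)
    (h2 : (2 : K) ∈ A.nonunits) (ha1 : W.a₁ = 1) (ha3 : W.a₃ = 0) (ha6 : W.a₆ = 0)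
    (ha4 : W.a₄ ∈ A.nonunits) {x₁ y₁ x₂ y₂ : K} (h₁ : W.Nonsingular x₁ y₁)
    (h₂ : W.Nonsingular x₂ y₂) (hx₁ : x₁ - 1 ∈ A.nonunits) (hx₂ : x₂ - 1 ∈ A.nonunits) :
    Point.some x₁ y₁ h₁ - Point.some x₂ y₂ h₂ ∈ E1 W ord ∨
      Point.some x₁ y₁ h₁ + Point.some x₂ y₂ h₂ ∈ E1 W ord := by
  obtain ⟨hy₁, he₁⟩ := resid_eq W hW ha1 ha3 ha6 ha4 h₁.1 hx₁
  obtain ⟨hy₂, he₂⟩ := resid_eq W hW ha1 ha3 ha6 ha4 h₂.1 hx₂
  have hxA : ∀ {x : K}, x - 1 ∈ A.nonunits → x ∈ A := by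
    intro x hx
    have : x = (x - 1) + 1 := by ring
    rw [this]; exact add_mem (nu_mem hx) A.one_mem
  have hx₁A := hxA hx₁
  have hx₂A := hxA hx₂
  have hxx : x₁ - x₂ ∈ A.nonunits := by
    have : x₁ - x₂ = (x₁ - 1) - (x₂ - 1) := by ring
    rw [this]; exact nu_sub hx₁ hx₂
  -- `Y(P₁) = 2y₁ + x₁` is a unit
  have hU : IsU ord (Yc W x₁ y₁) := by
    have e : Yc W x₁ y₁ = 1 + (2 * y₁ + (x₁ - 1)) := by
      simp only [Yc, ha1, ha3]; ring
    rw [e]
    exact hord.IsU_add_nonunit hord.isU_one (nu_add (nu_mul_right h2 hy₁) hx₁)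
  have hprod : (y₁ - y₂) * (y₁ + y₂ + 1) ∈ A.nonunits := by
    have : (y₁ - y₂) * (y₁ + y₂ + 1) =
        (y₁ ^ 2 + y₁ - (1 + W.a₂)) - (y₂ ^ 2 + y₂ - (1 + W.a₂)) := by ring
    rw [this]; exact nu_sub he₁ he₂
  rcases nu_of_mul (sub_mem hy₁ hy₂) (add_mem (add_mem hy₁ hy₂) A.one_mem) hprod with hc | hc
  · exact Or.inl (L2Congr.sub_mem_E1_of_congr_Y W hord hW h₁ h₂ hx₁A hU hx₂A hxx hc)
  · right
    have hneg : W.Nonsingular x₂ (W.negY x₂ y₂) := (W.nonsingular_neg x₂ y₂).2 h₂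
    have hyy : y₁ - W.negY x₂ y₂ ∈ A.nonunits := by
      have : y₁ - W.negY x₂ y₂ = (y₁ + y₂ + 1) + (x₂ - 1) := by
        simp only [negY, ha1, ha3]; ring
      rw [this]; exact nu_add hc hx₂
    have key := L2Congr.sub_mem_E1_of_congr_Y W hord hW h₁ hneg hx₁A hU hx₂A hxx hyy
    have e : Point.some x₁ y₁ h₁ + Point.some x₂ y₂ h₂ =
        Point.some x₁ y₁ h₁ - Point.some x₂ (W.negY x₂ y₂) hneg := by
      rw [sub_eq_add_neg, Point.neg_some]
      congr 2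
      simp only [negY]; ring
    rw [e]; exact key

end abstract

/-! ### Rational numbers modulo `2` -/

section rat

variable {A : ValuationSubring Qb} {ord : Qb → ℚ}

/-- a rational number which is a `2`-adic unit is `≡ 1 mod 𝔪`. -/
theorem rat_unit_sub_one (hord : IsOrd A ord)
    (hQ : ∀ x : ℚ, x ≠ 0 → ord (algebraMap ℚ Qb x) = padicValRat 2 x)
    (h2 : (2 : Qb) ∈ A.nonunits) {u : ℚ} (hu : IsU ord (algebraMap ℚ Qb u)) :
    algebraMap ℚ Qb u - 1 ∈ A.nonunits := by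
  have hu0 : u ≠ 0 := by
    rintro rfl; exact hu.1 (map_zero _)
  have hv : padicValRat 2 u = 0 := by
    have := hQ u hu0
    rw [hu.2] at this
    exact_mod_cast this.symm
  have hv' : padicValNat 2 u.num.natAbs = padicValNat 2 u.den := by
    have : (padicValInt 2 u.num : ℤ) - (padicValNat 2 u.den : ℤ) = 0 := hv
    have h3 : (padicValInt 2 u.num : ℤ) = (padicValNat 2 u.den : ℤ) := by linarith
    have h4 : padicValInt 2 u.num = padicValNat 2 u.den := by exact_mod_cast h3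
    exact h4
  have hnum0 : u.num.natAbs ≠ 0 := by
    rw [Ne, Int.natAbs_eq_zero, Rat.num_eq_zero]; exact hu0
  have hden0 : u.den ≠ 0 := u.den_nz
  have hdodd : ¬ 2 ∣ u.den := by
    intro hd
    have h1 : 1 ≤ padicValNat 2 u.den := one_le_padicValNat_of_dvd hden0 hd
    rw [← hv'] at h1
    have hn : 2 ∣ u.num.natAbs := dvd_of_one_le_padicValNat h1
    have hg : 2 ∣ Nat.gcd u.num.natAbs u.den := Nat.dvd_gcd hn hd
    have : Nat.gcd u.num.natAbs u.den = 1 := u.reduced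
    rw [this] at hg
    omega
  have hnodd : ¬ 2 ∣ u.num.natAbs := by
    intro hn
    have h1 : 1 ≤ padicValNat 2 u.num.natAbs := one_le_padicValNat_of_dvd hnum0 hn
    rw [hv', padicValNat.eq_zero_of_not_dvd hdodd] at h1
    omega
  -- `den = 2k+1`, `num - den = 2m`
  obtain ⟨k, hk⟩ : ∃ k : ℕ, u.den = 2 * k + 1 := ⟨u.den / 2, by omega⟩
  have hnodd' : ¬ (2 : ℤ) ∣ u.num := by
    intro h; exact hnodd (Int.natCast_dvd.1 (by simpa using h))
  obtain ⟨m, hm⟩ : ∃ m : ℤ, u.num - (u.den : ℤ) = 2 * m := by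
    refine ⟨(u.num - (u.den : ℤ)) / 2, ?_⟩
    omega
  -- the denominator is a unit of `A`
  have hdU : IsU ord ((u.den : ℕ) : Qb) := by
    have e : ((u.den : ℕ) : Qb) = 1 + 2 * ((k : ℕ) : Qb) := by
      rw [hk]; push_cast; ring
    rw [e]
    exact hord.IsU_add_nonunit hord.isU_one (nu_mul_right h2 (natCast_mem A k))
  have hd0 : ((u.den : ℕ) : Qb) ≠ 0 := hdU.1
  have hmul : ((u.den : ℕ) : Qb) * (algebraMap ℚ Qb u - 1) = 2 * ((m : ℤ) : Qb) := by
    have h1 : (u.den : ℚ) * u = u.num := Rat.den_mul_eq_num u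
    have h2' : algebraMap ℚ Qb ((u.den : ℚ) * u) = algebraMap ℚ Qb (u.num : ℚ) := by rw [h1]
    rw [map_mul, map_natCast, map_intCast] at h2'
    have h3 : ((u.num : ℤ) : Qb) - ((u.den : ℕ) : Qb) = 2 * ((m : ℤ) : Qb) := by
      have : ((u.num - (u.den : ℤ) : ℤ) : Qb) = ((2 * m : ℤ) : Qb) := by rw [hm]
      push_cast at this
      exact this
    rw [mul_sub, mul_one, h2', h3]
  have e : algebraMap ℚ Qb u - 1 = ((u.den : ℕ) : Qb)⁻¹ * (2 * ((m : ℤ) : Qb)) := by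
    rw [← hmul, ← mul_assoc, inv_mul_cancel₀ hd0, one_mul]
  rw [e]
  exact nu_mul_left (hord.IsU_mem (hord.IsU_inv hdU)) (nu_mul_right h2 (intCast_mem A m))

end rat

/-! ### The Frey curve at `2` -/

section frey

variable (P : FreyPackage) {A : ValuationSubring Qb} {ord : Qb → ℚ}

theorem wK_nonneg (ord : Qb → ℚ) {h : ℚ} (hh : 0 < h) (ξ : Qb) : 0 ≤ wK ord h ξ := by
  unfold wK
  split_ifs
  · exact hh.le
  · exact le_max_left _ _

theorem wK_le (ord : Qb → ℚ) {h : ℚ} (hh : 0 < h) (ξ : Qb) : wK ord h ξ ≤ h := by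
  unfold wK
  split_ifs
  · exact le_rfl
  · exact max_le hh.le (min_le_right _ _)

theorem wK_eq_zero (ord : Qb → ℚ) {h : ℚ} (hh : 0 < h) {ξ : Qb} (hw : wK ord h ξ = 0) :
    ξ ≠ 0 ∧ ord ξ ≤ 0 := by
  unfold wK at hw
  split_ifs at hw with h0
  · exact absurd hw hh.ne'
  · refine ⟨h0, ?_⟩
    by_contra hpos
    push Not at hpos
    have : 0 < min (ord ξ) h := lt_min hpos hh
    have h1 : min (ord ξ) h ≤ max 0 (min (ord ξ) h) := le_max_right _ _
    linarith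

/-- a rational `p`-torsion point of the Frey curve has `x ≡ 1 mod 2`. -/
theorem x_sub_one_mem (hA : A.LiesOverPrime 2) (hord : IsOrd A ord)
    (hQ : ∀ x : ℚ, x ≠ 0 → ord (algebraMap ℚ Qb x) = padicValRat 2 x)
    {x₀ y₀ : ℚ} (hns : (P.freyCurve⁄Qb).Nonsingular (algebraMap ℚ Qb x₀) (algebraMap ℚ Qb y₀))
    (hT : (P.p : ℤ) • (Point.some _ _ hns : (P.freyCurve⁄Qb).Point) = 0) :
    algebraMap ℚ Qb x₀ - 1 ∈ A.nonunits := by
  obtain ⟨h20, h2nu, hord2, hW, -, hF, hβ, hα0, hα, hhpos, hph⟩ := L2Frey2.frey_two_data P hQ hA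
  have hp2 : P.p ≠ 2 := by have := P.hp5; omega
  obtain ⟨j, hj⟩ := L2KH.torsion_w hord (P.freyCurve⁄Qb) h20 hhpos hF hβ hα0 hα P.pp hp2 hT
  have hwdef : wPt ord (L2Frey2.hNat P : ℚ) 0
      (Point.some _ _ hns : (P.freyCurve⁄Qb).Point) =
      wK ord (L2Frey2.hNat P : ℚ) (algebraMap ℚ Qb x₀ - 0) := rfl
  have hs0 : wPt ord (L2Frey2.hNat P : ℚ) 0
      (Point.some _ _ hns : (P.freyCurve⁄Qb).Point) = 0 := by
    refine L2Frey2.eq_zero_of_int_of_torsion P.pp hp2 (L2Frey2.hNat_pos P) hph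
      (L2Frey2.wPt_rat_int P hQ (L2Frey2.hNat P) hns) ?_ ?_ ⟨j, hj⟩
    · rw [hwdef]; exact wK_nonneg ord hhpos _
    · rw [hwdef]; exact wK_le ord hhpos _
  rw [hwdef, sub_zero] at hs0
  obtain ⟨hx0, hxle⟩ := wK_eq_zero ord hhpos hs0
  have h2pos : 0 < ord (2 : Qb) := by rw [hord2]; norm_num
  rcases lt_or_eq_of_le hxle with hlt | heq
  · exfalso
    have hE1 : (Point.some _ _ hns : (P.freyCurve⁄Qb).Point) ∈ E1 (P.freyCurve⁄Qb) ord :=
      Or.inr ⟨_, _, hns, rfl, hx0, hlt⟩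
    have := L2Pole.E1_odd_torsion_free_zsmul (P.freyCurve⁄Qb) hord h20 h2pos hW P.hp_odd hE1 hT
    exact Point.some_ne_zero hns this
  · exact rat_unit_sub_one hord hQ h2nu ⟨hx0, heq⟩

/-- **[L2b]** the Frey curve has no rational point of order `p`. -/
theorem l2NoRational : L2NoRationalStmt := by
  intro P x₀ y₀ hns hT
  obtain ⟨A, hA⟩ := galLiesOver 2 Nat.prime_two
  obtain ⟨ord, hord, hQ⟩ := exists_ord A Nat.prime_two hA
  obtain ⟨h20, h2nu, hord2, hW, -, hF, hβ, hα0, hα, hhpos, hph⟩ := L2Frey2.frey_two_data P hQ hA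
  have h2pos : 0 < ord (2 : Qb) := by rw [hord2]; norm_num
  have ha4 : (P.freyCurve⁄Qb).a₄ ∈ A.nonunits := by
    rw [← L2Frey2.alpha4_zero_eq_a₄]
    exact hord.mem_nonunits_of_pos (by rw [hα]; exact hhpos)
  set T : (P.freyCurve⁄Qb).Point := Point.some _ _ hns with hTdef
  have hT0 : T ≠ 0 := Point.some_ne_zero hns
  -- `T` is fixed by Galois
  have hfix : ∀ σ : GQ, σ • T = T := fun σ =>
    Gal.smul_eq_self_of_coordSet σ T (by
      intro c hc
      simp only [hTdef, Gal.coordSet, Set.mem_insert_iff, Set.mem_singleton_iff] at hc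
      rcases hc with rfl | rfl <;> exact σ.commutes _)
  -- `T + T ≠ 0`
  have hTT : T + T ≠ 0 := by
    intro h
    obtain ⟨k, hk⟩ := P.hp_odd
    have h1 : (P.p : ℤ) • T = (k : ℤ) • (T + T) + T := by
      rw [hk]; push_cast
      module
    rw [hT, h, zsmul_zero, zero_add] at h1
    exact hT0 h1.symm
  obtain ⟨x₂, y₂, h₂, hT2⟩ : ∃ (x y : Qb) (h : (P.freyCurve⁄Qb).Nonsingular x y),
      T + T = Point.some x y h := by
    cases hc : T + T with
    | zero => exact absurd hc hTT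
    | some x y h' => exact ⟨x, y, h', rfl⟩
  have hfix2 : ∀ σ : GQ, σ • (Point.some x₂ y₂ h₂ : (P.freyCurve⁄Qb).Point) =
      Point.some x₂ y₂ h₂ := by
    intro σ; rw [← hT2, smul_add σ T T, hfix σ]
  obtain ⟨x₂', y₂', rfl, rfl⟩ := galRational P.freyCurve x₂ y₂ h₂ hfix2
  have hT2p : (P.p : ℤ) • (Point.some _ _ h₂ : (P.freyCurve⁄Qb).Point) = 0 := by
    rw [← hT2, smul_add (P.p : ℤ) T T, hT, add_zero]
  have hx1 := x_sub_one_mem P hA hord hQ hns hT
  have hx2 := x_sub_one_mem P hA hord hQ h₂ hT2p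
  rcases sub_or_add_mem_E1 (P.freyCurve⁄Qb) hord hW h2nu (L2Frey2.bc_a₁ P) (L2Frey2.bc_a₃ P)
    (L2Frey2.bc_a₆ P) ha4 hns h₂ hx1 hx2 with h | h
  · -- `T - 2T = -T ∈ E₁`
    rw [← hTdef, ← hT2] at h
    have h1 : T - (T + T) = -T := by abel
    rw [h1] at h
    have h3 : T ∈ E1 (P.freyCurve⁄Qb) ord := by
      have := E1_neg_mem (P.freyCurve⁄Qb) h
      rwa [neg_neg] at this
    exact hT0 (L2Pole.E1_odd_torsion_free_zsmul (P.freyCurve⁄Qb) hord h20 h2pos hW P.hp_odd h3 hT)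
  · -- `T + 2T = 3T ∈ E₁`
    rw [← hTdef, ← hT2] at h
    have h3p : (P.p : ℤ) • (T + (T + T)) = 0 := by
      rw [smul_add (P.p : ℤ) T (T + T), smul_add (P.p : ℤ) T T, hT, add_zero, add_zero]
    have h3 : T + (T + T) = 0 :=
      L2Pole.E1_odd_torsion_free_zsmul (P.freyCurve⁄Qb) hord h20 h2pos hW P.hp_odd h h3p
    have h3' : (3 : ℤ) • T = 0 := by
      rw [← h3]
      module
    have hcop : IsCoprime (3 : ℤ) (P.p : ℤ) := by
      have : Nat.Coprime 3 P.p := by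
        rw [Nat.coprime_primes Nat.prime_three P.pp]
        have := P.hp5; omega
      exact_mod_cast Nat.isCoprime_iff_coprime.2 this
    obtain ⟨a, b, hab⟩ := hcop
    have : T = a • ((3 : ℤ) • T) + b • ((P.p : ℤ) • T) := by
      have h5 : a • ((3 : ℤ) • T) + b • ((P.p : ℤ) • T) = (a * 3 + b * (P.p : ℤ)) • T := by
        module
      rw [h5, hab, one_zsmul]
    rw [h3', hT, zsmul_zero, zsmul_zero, add_zero] at this
    exact hT0 this

end frey

end Fermat.Agent.S13.L2b40
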