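/-
S13 (blueprint 7, package T0): the x-only multiplication recurrence `xs W n : RatFunc K`,
shared by packages T-H, T-L, T-S.  `xs W n` is (for `n ≥ 1`) the rational function with
`x(nP) = (xs W n)(x(P))`; `xs W 0 = 0` is a junk value.  No sorry in this file.
-/
import Mathlib.FieldTheory.RatFunc.AsPolynomial
import Fermat.Agent.S05.Defs

set_option autoImplicit false

namespace Fermat.Agent.S13.XsDef

open Fermat.Agent.S05

variable {K : Type*} [Field K]

/-- The base change of `W` to the rational function field `K(X)`. -/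
noncomputable def WR (W : WeierstrassCurve K) : WeierstrassCurve (RatFunc K) :=
  W.map (algebraMap K (RatFunc K))

@[simp] lemma WR_b₂ (W : WeierstrassCurve K) : (WR W).b₂ = algebraMap K (RatFunc K) W.b₂ := by
  simp [WR]

@[simp] lemma WR_b₄ (W : WeierstrassCurve K) : (WR W).b₄ = algebraMap K (RatFunc K) W.b₄ := by
  simp [WR]

@[simp] lemma WR_b₆ (W : WeierstrassCurve K) : (WR W).b₆ = algebraMap K (RatFunc K) W.b₆ := by
  simp [WR]

@[simp] lemma WR_b₈ (W : WeierstrassCurve K) : (WR W).b₈ = algebraMap K (RatFunc K) W.b₈ := by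
  simp [WR]

/-- The `x`-only recurrence: `xs 1 = X`, `xs 2 = Φ₂(X)/F(X)`,
`xs (n+3) = S(xs (n+2), X) / (xs (n+2) - X)^2 - xs (n+1)` (`S`, `Φ₂`, `F` are the S05
polynomials `Snum`, `Phi2`, `Fpoly` of the base-changed curve). -/
noncomputable def xs (W : WeierstrassCurve K) : ℕ → RatFunc K
  | 0 => 0
  | 1 => RatFunc.X
  | 2 => Phi2 (WR W) RatFunc.X / Fpoly (WR W) RatFunc.X
  | (n + 3) => Snum (WR W) (xs W (n + 2)) RatFunc.X / (xs W (n + 2) - RatFunc.X) ^ 2 - xs W (n + 1)

@[simp] lemma xs_zero (W : WeierstrassCurve K) : xs W 0 = 0 := by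
  simp [xs]

@[simp] lemma xs_one (W : WeierstrassCurve K) : xs W 1 = RatFunc.X := by
  simp [xs]

lemma xs_two (W : WeierstrassCurve K) :
    xs W 2 = Phi2 (WR W) RatFunc.X / Fpoly (WR W) RatFunc.X := by
  simp [xs]

lemma xs_add_three (W : WeierstrassCurve K) (n : ℕ) :
    xs W (n + 3) =
      Snum (WR W) (xs W (n + 2)) RatFunc.X / (xs W (n + 2) - RatFunc.X) ^ 2 - xs W (n + 1) := by
  rw [xs]

end Fermat.Agent.S13.XsDef
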