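/-
S13 (blueprint 7, package T-L = item T3): leading term at infinity of the multiplication
functions `xs W n`:  `xs W n = X / n^2 + O(1)`.  Consequences: `intDegree = 1`,
`num.natDegree = denom.natDegree + 1`, `num.leadingCoeff = 1 / n^2`.
No sorry in this file.
-/
import Mathlib
import Fermat.Agent.S13.XsDef

set_option autoImplicit false

namespace Fermat.Agent.S13.TL

open Fermat.Agent.S05 Fermat.Agent.S13.XsDef
open Classical WithZero

variable {K : Type*} [Field K]

/-- the valuation at infinity of `K(X)` -/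
noncomputable abbrev vinf (K : Type*) [Field K] : Valuation (RatFunc K) ℤᵐ⁰ :=
  RatFunc.inftyValuation K

/-- congruence modulo the maximal ideal of the place at infinity -/
def Cong (x y : RatFunc K) : Prop := vinf K (x - y) < 1

lemma cong_refl (x : RatFunc K) : Cong x x := by
  simp [Cong]

lemma Cong.symm {x y : RatFunc K} (h : Cong x y) : Cong y x := by
  unfold Cong at *
  rwa [← Valuation.map_neg, neg_sub]

lemma Cong.trans {x y z : RatFunc K} (h₁ : Cong x y) (h₂ : Cong y z) : Cong x z := by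
  unfold Cong at *
  have : x - z = (x - y) + (y - z) := by ring
  rw [this]
  exact Valuation.map_add_lt _ h₁ h₂

lemma Cong.add {x x' y y' : RatFunc K} (h₁ : Cong x x') (h₂ : Cong y y') :
    Cong (x + y) (x' + y') := by
  unfold Cong at *
  have : x + y - (x' + y') = (x - x') + (y - y') := by ring
  rw [this]
  exact Valuation.map_add_lt _ h₁ h₂

lemma Cong.sub {x x' y y' : RatFunc K} (h₁ : Cong x x') (h₂ : Cong y y') :
    Cong (x - y) (x' - y') := by
  unfold Cong at *
  have : x - y - (x' - y') = (x - x') + (y' - y) := by ring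
  rw [this]
  refine Valuation.map_add_lt _ h₁ ?_
  rwa [← Valuation.map_neg, neg_sub]

lemma Cong.mul {x x' y y' : RatFunc K} (h₁ : Cong x x') (h₂ : Cong y y')
    (hx : vinf K x ≤ 1) (hy' : vinf K y' ≤ 1) : Cong (x * y) (x' * y') := by
  unfold Cong at *
  have : x * y - x' * y' = x * (y - y') + (x - x') * y' := by ring
  rw [this]
  refine Valuation.map_add_lt _ ?_ ?_
  · rw [map_mul]
    calc vinf K x * vinf K (y - y') ≤ 1 * vinf K (y - y') := by gcongr
      _ < 1 := by rwa [one_mul]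
  · rw [map_mul]
    calc vinf K (x - x') * vinf K y' ≤ vinf K (x - x') * 1 := by gcongr
      _ < 1 := by rwa [mul_one]

/-- a congruence forces equal valuation when the right hand side is a unit -/
lemma Cong.val_eq_one {x y : RatFunc K} (h : Cong x y) (hy : vinf K y = 1) : vinf K x = 1 := by
  unfold Cong at h
  have : x = (x - y) + y := by ring
  rw [this, Valuation.map_add_eq_of_lt_right _ (by rwa [hy]), hy]

lemma Cong.val_le_one {x y : RatFunc K} (h : Cong x y) (hy : vinf K y ≤ 1) : vinf K x ≤ 1 := by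
  unfold Cong at h
  have : x = (x - y) + y := by ring
  rw [this]
  exact (Valuation.map_add _ _ _).trans (max_le h.le hy)

lemma Cong.inv {x y : RatFunc K} (h : Cong x y) (hy : vinf K y = 1) : Cong x⁻¹ y⁻¹ := by
  have hx : vinf K x = 1 := h.val_eq_one hy
  have hx0 : x ≠ 0 := by
    intro h0; rw [h0, map_zero] at hx; exact zero_ne_one hx
  have hy0 : y ≠ 0 := by
    intro h0; rw [h0, map_zero] at hy; exact zero_ne_one hy
  unfold Cong at *
  have : x⁻¹ - y⁻¹ = (y - x) * (x⁻¹ * y⁻¹) := by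
    field_simp
  rw [this, map_mul, map_mul, map_inv₀, map_inv₀, hx, hy]
  simp only [inv_one, mul_one]
  rwa [← Valuation.map_neg, neg_sub]

lemma Cong.div {x x' y y' : RatFunc K} (h₁ : Cong x x') (h₂ : Cong y y')
    (hx : vinf K x ≤ 1) (hy' : vinf K y' = 1) : Cong (x / y) (x' / y') := by
  rw [div_eq_mul_inv, div_eq_mul_inv]
  refine Cong.mul h₁ (h₂.inv hy') hx ?_
  rw [map_inv₀, hy', inv_one]

/-! ### constants and the uniformizer `t = X⁻¹` -/

lemma vinf_C_le (k : K) : vinf K (RatFunc.C k) ≤ 1 := by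
  by_cases hk : k = 0
  · simp [hk]
  · exact (RatFunc.inftyValuation.C K hk).le

lemma vinf_C_eq {k : K} (hk : k ≠ 0) : vinf K (RatFunc.C k) = 1 :=
  RatFunc.inftyValuation.C K hk

lemma vinf_X : vinf K (RatFunc.X) = exp (1 : ℤ) := RatFunc.inftyValuation.X K

lemma vinf_Xinv_lt : vinf K ((RatFunc.X : RatFunc K)⁻¹) < 1 := by
  rw [map_inv₀, vinf_X, ← exp_neg, ← exp_zero, exp_lt_exp]
  norm_num

/-- anything of the form `X⁻¹ * s` with `s` integral at infinity is small -/
lemma small_of_tmul {s : RatFunc K} (hs : vinf K s ≤ 1) :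
    vinf K ((RatFunc.X : RatFunc K)⁻¹ * s) < 1 := by
  rw [map_mul]
  calc vinf K ((RatFunc.X : RatFunc K)⁻¹) * vinf K s
      ≤ vinf K ((RatFunc.X : RatFunc K)⁻¹) * 1 := by gcongr
    _ < 1 := by rw [mul_one]; exact vinf_Xinv_lt

lemma vle_add {x y : RatFunc K} (hx : vinf K x ≤ 1) (hy : vinf K y ≤ 1) : vinf K (x + y) ≤ 1 :=
  (Valuation.map_add _ _ _).trans (max_le hx hy)

lemma vle_mul {x y : RatFunc K} (hx : vinf K x ≤ 1) (hy : vinf K y ≤ 1) : vinf K (x * y) ≤ 1 := by
  rw [map_mul]; exact mul_le_one' hx hy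

lemma vle_pow {x : RatFunc K} (hx : vinf K x ≤ 1) (n : ℕ) : vinf K (x ^ n) ≤ 1 := by
  rw [map_pow]; exact pow_le_one' hx n

lemma vle_Xinv : vinf K ((RatFunc.X : RatFunc K)⁻¹) ≤ 1 := vinf_Xinv_lt.le

/-- `r = c X + O(1)` at infinity, in normalised form: `r / X ≡ c`. -/
def LeadN (r : RatFunc K) (c : K) : Prop := Cong (r / RatFunc.X) (RatFunc.C c)


lemma cong_of_eq_add_tmul {x y s : RatFunc K} (h : x = y + (RatFunc.X : RatFunc K)⁻¹ * s)
    (hs : vinf K s ≤ 1) : Cong x y := by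
  unfold Cong
  have : x - y = (RatFunc.X : RatFunc K)⁻¹ * s := by rw [h]; ring
  rw [this]
  exact small_of_tmul hs

lemma X_ne_zero' : (RatFunc.X : RatFunc K) ≠ 0 := RatFunc.X_ne_zero

/-- base case `n = 1` -/
lemma leadN_X : LeadN (RatFunc.X : RatFunc K) 1 := by
  unfold LeadN
  rw [div_self X_ne_zero', map_one]
  exact cong_refl _

/-- base case `n = 2` -/
lemma leadN_two (W : WeierstrassCurve K) (h4 : (4 : K) ≠ 0) :
    LeadN (Phi2 (WR W) RatFunc.X / Fpoly (WR W) RatFunc.X) (4 : K)⁻¹ := by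
  unfold LeadN
  set t : RatFunc K := (RatFunc.X : RatFunc K)⁻¹ with ht
  have hX : (RatFunc.X : RatFunc K) ≠ 0 := X_ne_zero'
  have htX : t * RatFunc.X = 1 := inv_mul_cancel₀ hX
  have hvt : vinf K t ≤ 1 := vle_Xinv
  -- numerator
  have hnum : Cong (Phi2 (WR W) RatFunc.X / RatFunc.X ^ 4) (RatFunc.C 1) := by
    refine cong_of_eq_add_tmul (s := -(RatFunc.C W.b₄ * t + 2 * RatFunc.C W.b₆ * t ^ 2
      + RatFunc.C W.b₈ * t ^ 3)) ?_ ?_
    · rw [map_one, ← ht]
      simp only [Phi2, WR_b₄, WR_b₆, WR_b₈, RatFunc.algebraMap_eq_C]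
      rw [ht]
      field_simp
      ring
    · rw [Valuation.map_neg]
      refine vle_add (vle_add (vle_mul (vinf_C_le _) hvt) (vle_mul (vle_mul ?_ (vinf_C_le _))
        (vle_pow hvt 2))) (vle_mul (vinf_C_le _) (vle_pow hvt 3))
      have : (2 : RatFunc K) = RatFunc.C 2 := (map_ofNat (RatFunc.C (K := K)) 2).symm
      rw [this]; exact vinf_C_le _
  have hden : Cong (Fpoly (WR W) RatFunc.X / RatFunc.X ^ 3) (RatFunc.C 4) := by
    refine cong_of_eq_add_tmul (s := (RatFunc.C W.b₂ + 2 * RatFunc.C W.b₄ * t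
      + RatFunc.C W.b₆ * t ^ 2)) ?_ ?_
    · rw [← ht]
      simp only [Fpoly, WR_b₂, WR_b₄, WR_b₆, RatFunc.algebraMap_eq_C]
      rw [ht]
      have : (RatFunc.C (4 : K) : RatFunc K) = 4 := map_ofNat (RatFunc.C (K := K)) 4
      rw [this]
      field_simp
      ring
    · refine vle_add (vle_add (vinf_C_le _) (vle_mul (vle_mul ?_ (vinf_C_le _)) hvt))
        (vle_mul (vinf_C_le _) (vle_pow hvt 2))
      have : (2 : RatFunc K) = RatFunc.C 2 := (map_ofNat (RatFunc.C (K := K)) 2).symm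
      rw [this]; exact vinf_C_le _
  have hdiv := Cong.div hnum hden (hnum.val_le_one (vinf_C_le _)) (vinf_C_eq h4)
  have hF : Fpoly (WR W) RatFunc.X ≠ 0 := by
    intro h0
    have := hden.val_eq_one (vinf_C_eq h4)
    rw [h0, zero_div, map_zero] at this
    exact zero_ne_one this
  have e1 : Phi2 (WR W) RatFunc.X / Fpoly (WR W) RatFunc.X / RatFunc.X
      = (Phi2 (WR W) RatFunc.X / RatFunc.X ^ 4) / (Fpoly (WR W) RatFunc.X / RatFunc.X ^ 3) := by
    field_simp
  have e2 : (RatFunc.C (4 : K)⁻¹ : RatFunc K) = RatFunc.C 1 / RatFunc.C 4 := by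
    rw [map_one, one_div, map_inv₀]
  rw [e1, e2]
  exact hdiv

/-- the recurrence step -/
lemma leadN_step (W : WeierstrassCurve K) {a b : RatFunc K} {c d : K}
    (ha : LeadN a c) (hb : LeadN b d) (hc : c ≠ 1) :
    LeadN (Snum (WR W) a RatFunc.X / (a - RatFunc.X) ^ 2 - b)
      (2 * c * (c + 1) / (c - 1) ^ 2 - d) := by
  unfold LeadN at *
  set t : RatFunc K := (RatFunc.X : RatFunc K)⁻¹ with ht
  set â : RatFunc K := a / RatFunc.X with hâ
  have hX : (RatFunc.X : RatFunc K) ≠ 0 := X_ne_zero'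
  have hvt : vinf K t ≤ 1 := vle_Xinv
  have hvâ : vinf K â ≤ 1 := ha.val_le_one (vinf_C_le _)
  have haX : a = â * RatFunc.X := by rw [hâ]; field_simp
  have h2 : (2 : RatFunc K) = RatFunc.C 2 := (map_ofNat (RatFunc.C (K := K)) 2).symm
  have hv2 : vinf K (2 : RatFunc K) ≤ 1 := by rw [h2]; exact vinf_C_le _
  have h1 : Cong (â + 1) (RatFunc.C (c + 1)) := by
    rw [map_add, map_one]; exact ha.add (cong_refl 1)
  have hv1 : vinf K (â + 1) ≤ 1 := h1.val_le_one (vinf_C_le _)
  -- numerator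
  have hnum1 : Cong (Snum (WR W) a RatFunc.X / RatFunc.X ^ 3) (2 * â * (â + 1)) := by
    refine cong_of_eq_add_tmul (s := (RatFunc.C W.b₂ * â + RatFunc.C W.b₄ * (â + 1) * t
      + RatFunc.C W.b₆ * t ^ 2)) ?_ ?_
    · simp only [Snum, WR_b₂, WR_b₄, WR_b₆, RatFunc.algebraMap_eq_C]
      rw [haX, ht]
      field_simp
      ring
    · exact vle_add (vle_add (vle_mul (vinf_C_le _) hvâ)
        (vle_mul (vle_mul (vinf_C_le _) hv1) hvt)) (vle_mul (vinf_C_le _) (vle_pow hvt 2))
  have hnum2 : Cong (2 * â * (â + 1)) (RatFunc.C (2 * c * (c + 1))) := by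
    rw [map_mul, map_mul]
    refine Cong.mul (Cong.mul ?_ ha hv2 (vinf_C_le _)) h1 (vle_mul hv2 hvâ) (vinf_C_le _)
    rw [← h2]; exact cong_refl _
  have hnum := hnum1.trans hnum2
  -- denominator
  have hm1 : Cong (â - 1) (RatFunc.C (c - 1)) := by
    rw [map_sub, map_one]; exact ha.sub (cong_refl 1)
  have hvm1 : vinf K (â - 1) ≤ 1 := hm1.val_le_one (vinf_C_le _)
  have hden : Cong ((â - 1) ^ 2) (RatFunc.C ((c - 1) ^ 2)) := by
    rw [pow_two, pow_two, map_mul]
    exact Cong.mul hm1 hm1 hvm1 (vinf_C_le _)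
  have hc2 : (c - 1) ^ 2 ≠ 0 := pow_ne_zero 2 (sub_ne_zero.mpr hc)
  have hdiv := Cong.div hnum hden (hnum.val_le_one (vinf_C_le _)) (vinf_C_eq hc2)
  have hâ1 : â - 1 ≠ 0 := by
    intro h0
    have := hden.val_eq_one (vinf_C_eq hc2)
    rw [h0] at this
    simp at this
  have haX' : a - RatFunc.X ≠ 0 := by
    intro h0
    apply hâ1
    rw [hâ, sub_eq_zero.mp h0, div_self hX, sub_self]
  have e1 : (Snum (WR W) a RatFunc.X / (a - RatFunc.X) ^ 2 - b) / RatFunc.X
      = (Snum (WR W) a RatFunc.X / RatFunc.X ^ 3) / ((â - 1) ^ 2) - b / RatFunc.X := by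
    have : â - 1 = (a - RatFunc.X) / RatFunc.X := by rw [hâ]; field_simp
    rw [this]
    field_simp
  have e2 : (RatFunc.C (2 * c * (c + 1) / (c - 1) ^ 2 - d) : RatFunc K)
      = RatFunc.C (2 * c * (c + 1)) / RatFunc.C ((c - 1) ^ 2) - RatFunc.C d := by
    rw [map_sub, map_div₀]
  rw [e1, e2]
  exact hdiv.sub hb


/-- the arithmetic identity behind the induction: with `c = 1/m²`,
`2c(c+1)/(c-1)² - 1/(m-1)² = 1/(m+1)²`. -/
lemma lead_identity (m : K) (hm : m ≠ 0) (hm1 : m - 1 ≠ 0) (hm2 : m + 1 ≠ 0) :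
    2 * (m ^ 2)⁻¹ * ((m ^ 2)⁻¹ + 1) / ((m ^ 2)⁻¹ - 1) ^ 2 - ((m - 1) ^ 2)⁻¹
      = ((m + 1) ^ 2)⁻¹ := by
  have h1 : (m ^ 2)⁻¹ - 1 = (1 - m ^ 2) / m ^ 2 := by field_simp
  have h2 : (1 - m ^ 2) ≠ 0 := by
    have : (1 - m ^ 2) = -((m - 1) * (m + 1)) := by ring
    rw [this]; exact neg_ne_zero.mpr (mul_ne_zero hm1 hm2)
  have h3 : (1 - m ^ 2) = -((m - 1) * (m + 1)) := by ring
  rw [h1]
  field_simp
  rw [h3]
  field_simp
  ring

/-- **T-L, main statement**: `xs W n = X / n² + O(1)` at infinity. -/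
theorem leadN_xs [CharZero K] (W : WeierstrassCurve K) :
    ∀ n : ℕ, 1 ≤ n → LeadN (xs W n) (((n : K) ^ 2)⁻¹) := by
  have key : ∀ n : ℕ, LeadN (xs W (n + 1)) ((((n + 1 : ℕ) : K) ^ 2)⁻¹) ∧
      LeadN (xs W (n + 2)) ((((n + 2 : ℕ) : K) ^ 2)⁻¹) := by
    intro n
    induction n with
    | zero =>
      refine ⟨?_, ?_⟩
      · simp only [zero_add, xs_one, Nat.cast_one, one_pow, inv_one]
        exact leadN_X
      · rw [zero_add, xs_two]
        have h4 : (4 : K) ≠ 0 := by norm_num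
        have : (((2 : ℕ) : K) ^ 2)⁻¹ = (4 : K)⁻¹ := by norm_num
        rw [this]
        exact leadN_two W h4
    | succ n ih =>
      refine ⟨ih.2, ?_⟩
      have hstep := leadN_step W ih.2 ih.1 (c := (((n + 2 : ℕ) : K) ^ 2)⁻¹)
        (d := (((n + 1 : ℕ) : K) ^ 2)⁻¹) ?_
      · have e : n + 1 + 2 = n + 3 := by ring
        rw [e, xs_add_three]
        have hm : ((n + 2 : ℕ) : K) ≠ 0 := Nat.cast_ne_zero.mpr (by omega)
        have hm1 : ((n + 2 : ℕ) : K) - 1 ≠ 0 := by
          have : ((n + 2 : ℕ) : K) - 1 = ((n + 1 : ℕ) : K) := by push_cast; ring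
          rw [this]; exact Nat.cast_ne_zero.mpr (by omega)
        have hm2 : ((n + 2 : ℕ) : K) + 1 ≠ 0 := by
          have : ((n + 2 : ℕ) : K) + 1 = ((n + 3 : ℕ) : K) := by push_cast; ring
          rw [this]; exact Nat.cast_ne_zero.mpr (by omega)
        have hid := lead_identity ((n + 2 : ℕ) : K) hm hm1 hm2
        have e1 : ((n + 2 : ℕ) : K) - 1 = ((n + 1 : ℕ) : K) := by push_cast; ring
        have e2 : ((n + 2 : ℕ) : K) + 1 = ((n + 3 : ℕ) : K) := by push_cast; ring
        rw [e1, e2] at hid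
        rw [← hid]
        exact hstep
      · -- c ≠ 1
        intro h
        have hm : ((n + 2 : ℕ) : K) ^ 2 = 1 := by
          have := congrArg (fun z => z⁻¹) h
          simpa using this
        have : (((n + 2) ^ 2 : ℕ) : K) = ((1 : ℕ) : K) := by push_cast; simpa using hm
        have h3 : (n + 2) ^ 2 = 1 := Nat.cast_injective this
        have h4 : 2 ^ 2 ≤ (n + 2) ^ 2 := Nat.pow_le_pow_left (by omega) 2
        omega
  intro n hn
  obtain ⟨m, rfl⟩ : ∃ m, n = m + 1 := ⟨n - 1, by omega⟩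
  exact (key m).1


/-! ### extraction of degree and leading coefficient -/

lemma LeadN.vinf_eq {r : RatFunc K} {c : K} (h : LeadN r c) (hc : c ≠ 0) :
    vinf K r = exp (1 : ℤ) := by
  have h1 : vinf K (r / RatFunc.X) = 1 := Cong.val_eq_one h (vinf_C_eq hc)
  rw [map_div₀, vinf_X] at h1
  have hne : (exp (1 : ℤ) : ℤᵐ⁰) ≠ 0 := exp_ne_zero
  field_simp at h1
  exact h1

lemma LeadN.ne_zero {r : RatFunc K} {c : K} (h : LeadN r c) (hc : c ≠ 0) : r ≠ 0 := by
  intro h0
  have := h.vinf_eq hc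
  rw [h0, map_zero] at this
  exact exp_ne_zero this.symm

lemma LeadN.intDegree_eq {r : RatFunc K} {c : K} (h : LeadN r c) (hc : c ≠ 0) :
    r.intDegree = 1 := by
  have h1 := h.vinf_eq hc
  rw [RatFunc.inftyValuation_apply, RatFunc.inftyValuation_of_nonzero K (h.ne_zero hc)] at h1
  exact exp_injective h1

lemma LeadN.natDegree_num {r : RatFunc K} {c : K} (h : LeadN r c) (hc : c ≠ 0) :
    r.num.natDegree = r.denom.natDegree + 1 := by
  have h1 := h.intDegree_eq hc
  unfold RatFunc.intDegree at h1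
  omega

lemma LeadN.leadingCoeff_num {r : RatFunc K} {c : K} (h : LeadN r c) (hc : c ≠ 0) :
    r.num.leadingCoeff = c := by
  have hdeg := h.natDegree_num hc
  have hmonic : r.denom.Monic := RatFunc.monic_denom r
  have hD0 : algebraMap (Polynomial K) (RatFunc K) r.denom ≠ 0 := by
    simpa using RatFunc.denom_ne_zero r
  set P : Polynomial K := r.num - Polynomial.C c * Polynomial.X * r.denom with hP
  -- `P` has degree at most `deg denom`
  have hPdeg : P.natDegree < r.denom.natDegree + 1 ∨ P = 0 := by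
    by_cases hP0 : P = 0
    · exact Or.inr hP0
    left
    have hval : vinf K (algebraMap (Polynomial K) (RatFunc K) P) = exp (P.natDegree : ℤ) := by
      rw [RatFunc.inftyValuation_apply, RatFunc.inftyValuation.polynomial K hP0]
    have hvalD : vinf K (algebraMap (Polynomial K) (RatFunc K) r.denom)
        = exp (r.denom.natDegree : ℤ) := by
      rw [RatFunc.inftyValuation_apply, RatFunc.inftyValuation.polynomial K (RatFunc.denom_ne_zero r)]
    have heq : algebraMap (Polynomial K) (RatFunc K) P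
        = (r / RatFunc.X - RatFunc.C c) *
          (RatFunc.X * algebraMap (Polynomial K) (RatFunc K) r.denom) := by
      have hN : algebraMap (Polynomial K) (RatFunc K) r.num
          = r * algebraMap (Polynomial K) (RatFunc K) r.denom :=
        (div_eq_iff hD0).mp (RatFunc.num_div_denom r)
      rw [hP, map_sub, map_mul, map_mul, RatFunc.algebraMap_X, RatFunc.algebraMap_C, hN]
      have hX : (RatFunc.X : RatFunc K) ≠ 0 := X_ne_zero'
      field_simp
    have hlt : vinf K (algebraMap (Polynomial K) (RatFunc K) P)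
        < exp ((r.denom.natDegree : ℤ) + 1) := by
      rw [heq, map_mul, map_mul, vinf_X, hvalD]
      have h' : vinf K (r / RatFunc.X - RatFunc.C c) < 1 := h
      calc vinf K (r / RatFunc.X - RatFunc.C c) * (exp (1 : ℤ) * exp (r.denom.natDegree : ℤ))
          < 1 * (exp (1 : ℤ) * exp (r.denom.natDegree : ℤ)) := by
            apply mul_lt_mul_of_pos_right h'
            rw [← exp_add]; exact exp_pos
        _ = exp ((r.denom.natDegree : ℤ) + 1) := by rw [one_mul, ← exp_add, add_comm]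
    rw [hval, exp_lt_exp] at hlt
    exact_mod_cast hlt
  have hcoeff : P.coeff (r.denom.natDegree + 1) = 0 := by
    rcases hPdeg with h1 | h1
    · exact Polynomial.coeff_eq_zero_of_natDegree_lt h1
    · rw [h1, Polynomial.coeff_zero]
  rw [hP, Polynomial.coeff_sub, mul_assoc, Polynomial.coeff_C_mul, Polynomial.coeff_X_mul,
    sub_eq_zero] at hcoeff
  rw [Polynomial.leadingCoeff, hdeg, hcoeff]
  have : r.denom.coeff r.denom.natDegree = 1 := hmonic
  rw [this, mul_one]

/-! ### the exported statements for `xs W n` -/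

section Exports

variable [CharZero K] (W : WeierstrassCurve K) {n : ℕ}

private lemma inv_sq_ne_zero (hn : 1 ≤ n) : (((n : K) ^ 2)⁻¹) ≠ 0 :=
  inv_ne_zero (pow_ne_zero 2 (Nat.cast_ne_zero.mpr (by omega)))

theorem xs_ne_zero (hn : 1 ≤ n) : xs W n ≠ 0 :=
  (leadN_xs W n hn).ne_zero (inv_sq_ne_zero hn)

theorem xs_intDegree (hn : 1 ≤ n) : (xs W n).intDegree = 1 :=
  (leadN_xs W n hn).intDegree_eq (inv_sq_ne_zero hn)

theorem xs_natDegree_num (hn : 1 ≤ n) :
    (xs W n).num.natDegree = (xs W n).denom.natDegree + 1 :=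
  (leadN_xs W n hn).natDegree_num (inv_sq_ne_zero hn)

theorem xs_leadingCoeff_num (hn : 1 ≤ n) :
    (xs W n).num.leadingCoeff = ((n : K) ^ 2)⁻¹ :=
  (leadN_xs W n hn).leadingCoeff_num (inv_sq_ne_zero hn)

/-- `n² · num(xs n)` is monic (the form used by the integrality package T-I). -/
theorem xs_sq_smul_num_monic (hn : 1 ≤ n) :
    (Polynomial.C ((n : K) ^ 2) * (xs W n).num).Monic := by
  have h0 : ((n : K) ^ 2) ≠ 0 := pow_ne_zero 2 (Nat.cast_ne_zero.mpr (by omega))
  unfold Polynomial.Monic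
  rw [Polynomial.leadingCoeff_mul, Polynomial.leadingCoeff_C, xs_leadingCoeff_num W hn,
    mul_inv_cancel₀ h0]

/-- combining with the height statement of T-H (`deg (xs n) = n²`): the exact degrees. -/
theorem xs_natDegree_of_height (hn : 1 ≤ n)
    (hh : max (xs W n).num.natDegree (xs W n).denom.natDegree = n ^ 2) :
    (xs W n).num.natDegree = n ^ 2 ∧ (xs W n).denom.natDegree = n ^ 2 - 1 := by
  have h1 := xs_natDegree_num W hn
  rw [h1, max_eq_left (Nat.le_succ _)] at hh
  have hh' : (xs W n).denom.natDegree + 1 = n ^ 2 := hh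
  exact ⟨by rw [h1, hh'], by omega⟩

end Exports

end Fermat.Agent.S13.TL
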