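/-
S13 (blueprint 7), package T-H (helper51): the multiplication-by-`n` recurrence `xs W n` computes
`x(nP)` for every point with transcendental `x`-coordinate, and `h (xs W n) = n²`
(parallelogram-law induction).  The two height inputs (U) [package T-U] and (D) [package T-D]
are hypotheses on an abstract height `h : RatFunc K → ℕ` (structure `HeightAxioms`).
Complete (no placeholders).
-/
import Mathlib
import Fermat.Agent.S05.Defs
import Fermat.Agent.S05.XFormulas
import Fermat.Agent.S13.XsDef

set_option autoImplicit false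

namespace Fermat.Agent.S13.TH

open WeierstrassCurve WeierstrassCurve.Affine Fermat.Agent.S05 Fermat.Agent.S13.XsDef

section ev

variable {K : Type*} [Field K] {L : Type*} [Field L] [Algebra K L]

/-- evaluation of rational functions at a transcendental element. -/
noncomputable def ev {x : L} (hx : Transcendental K x) : RatFunc K →ₐ[K] L :=
  RatFunc.liftAlgHom (Polynomial.aeval x) (by
    intro p hp
    have hinj := transcendental_iff_injective.mp hx
    rw [Submonoid.mem_comap]
    apply mem_nonZeroDivisors_of_ne_zero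
    intro h0
    have : p = 0 := hinj (by rw [h0, map_zero])
    exact (nonZeroDivisors.ne_zero hp) this)

theorem ev_injective {x : L} (hx : Transcendental K x) : Function.Injective (ev hx) :=
  RatFunc.liftAlgHom_injective _ (transcendental_iff_injective.mp hx)

@[simp] theorem ev_X {x : L} (hx : Transcendental K x) : ev hx RatFunc.X = x := by
  have : (RatFunc.X : RatFunc K) = algebraMap (Polynomial K) (RatFunc K) Polynomial.X := by
    rw [RatFunc.algebraMap_X]
  rw [ev, this, RatFunc.liftAlgHom_apply]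
  simp

theorem ev_algebraMap {x : L} (hx : Transcendental K x) (c : K) :
    ev hx (algebraMap K (RatFunc K) c) = algebraMap K L c := (ev hx).commutes c

theorem ev_apply {x : L} (hx : Transcendental K x) (f : RatFunc K) :
    ev hx f = Polynomial.aeval x f.num / Polynomial.aeval x f.denom := by
  rw [ev, RatFunc.liftAlgHom_apply]

variable (W : WeierstrassCurve K) {x : L} (hx : Transcendental K x)

theorem ev_Snum (a b : RatFunc K) :
    ev hx (Snum (WR W) a b) = Snum (W.map (algebraMap K L)) (ev hx a) (ev hx b) := by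
  simp only [Snum, WR_b₂, WR_b₄, WR_b₆, map_add, map_mul, map_ofNat, ev_algebraMap,
    WeierstrassCurve.map_b₂, WeierstrassCurve.map_b₄, WeierstrassCurve.map_b₆]

theorem ev_Nnum (a b : RatFunc K) :
    ev hx (Nnum (WR W) a b) = Nnum (W.map (algebraMap K L)) (ev hx a) (ev hx b) := by
  simp only [Nnum, WR_b₄, WR_b₆, WR_b₈, map_add, map_sub, map_mul, map_pow,
    ev_algebraMap, WeierstrassCurve.map_b₄, WeierstrassCurve.map_b₆, WeierstrassCurve.map_b₈]

theorem ev_Fpoly (a : RatFunc K) :
    ev hx (Fpoly (WR W) a) = Fpoly (W.map (algebraMap K L)) (ev hx a) := by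
  simp only [Fpoly, WR_b₂, WR_b₄, WR_b₆, map_add, map_mul, map_pow, map_ofNat, ev_algebraMap,
    WeierstrassCurve.map_b₂, WeierstrassCurve.map_b₄, WeierstrassCurve.map_b₆]

theorem ev_Phi2 (a : RatFunc K) :
    ev hx (Phi2 (WR W) a) = Phi2 (W.map (algebraMap K L)) (ev hx a) := by
  simp only [Phi2, WR_b₄, WR_b₆, WR_b₈, map_sub, map_mul, map_pow, map_ofNat, ev_algebraMap,
    WeierstrassCurve.map_b₄, WeierstrassCurve.map_b₆, WeierstrassCurve.map_b₈]

end ev

section identities

variable {F : Type*} [Field F] (W : WeierstrassCurve F)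

/-- `S(a,b)² - 4 N(a,b) (a-b)² = F(a) F(b)`: the discriminant of the quadratic with roots
`x(P+Q)`, `x(P-Q)`. -/
theorem disc_identity (a b : F) :
    Snum W a b ^ 2 - 4 * Nnum W a b * (a - b) ^ 2 = Fpoly W a * Fpoly W b := by
  simp only [Snum, Nnum, Fpoly, WeierstrassCurve.b₂, WeierstrassCurve.b₄, WeierstrassCurve.b₆,
    WeierstrassCurve.b₈]
  ring

end identities


section main

variable {K : Type*} [Field K] (W : WeierstrassCurve K)

/-- The properties of the height `h` used by the induction: normalisation, the (U)-lemma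
(package T-U) and the duplication lemma (D) (package T-D). -/
structure HeightAxioms (h : RatFunc K → ℕ) : Prop where
  zero : h 0 = 0
  X : h RatFunc.X = 1
  U : ∀ {a b c d : RatFunc K}, a ≠ b →
    c + d = Snum (WR W) a b / (a - b) ^ 2 → c * d = Nnum (WR W) a b / (a - b) ^ 2 →
    h c + h d ≤ 2 * h a + 2 * h b
  D : ∀ a : RatFunc K, h (Phi2 (WR W) a / Fpoly (WR W) a) = 4 * h a

variable {W}
variable {L : Type*} [Field L] [Algebra K L] [DecidableEq L]

/-- if `F(a) = 0` then `a` has height `0`. -/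
theorem HeightAxioms.h_eq_zero_of_Fpoly {h : RatFunc K → ℕ} (hh : HeightAxioms W h)
    {a : RatFunc K} (ha : Fpoly (WR W) a = 0) : h a = 0 := by
  have := hh.D a
  rw [ha, div_zero, hh.zero] at this
  omega

/-- The statement proved by induction for a point `P = (x,y)` with transcendental `x`. -/
def Good (h : RatFunc K → ℕ) {x y : L} (hx : Transcendental K x)
    (hP : (W.map (algebraMap K L)).toAffine.Nonsingular x y) (n : ℕ) : Prop :=
  (∃ (y' : L) (h' : (W.map (algebraMap K L)).toAffine.Nonsingular (ev hx (xs W n)) y'),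
      n • (Point.some x y hP) = Point.some (ev hx (xs W n)) y' h') ∧
    h (xs W n) = n ^ 2

variable {h : RatFunc K → ℕ} {x y : L} (hx : Transcendental K x)
  (hP : (W.map (algebraMap K L)).toAffine.Nonsingular x y)

theorem good_one (hh : HeightAxioms W h) : Good h hx hP 1 := by
  refine ⟨⟨y, by simpa using hP, ?_⟩, by simpa using hh.X⟩
  simp

omit [DecidableEq L] in
include hx in
/-- `F(x) ≠ 0` for transcendental `x` (characteristic `≠ 2`). -/
theorem Fpoly_ne_zero_of_transcendental (h2 : (2 : L) ≠ 0) :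
    Fpoly (W.map (algebraMap K L)) x ≠ 0 := by
  classical
  let p : Polynomial K := Polynomial.C 4 * Polynomial.X ^ 3 + Polynomial.C W.b₂ * Polynomial.X ^ 2
    + Polynomial.C (2 * W.b₄) * Polynomial.X + Polynomial.C W.b₆
  have hp : Polynomial.aeval x p = Fpoly (W.map (algebraMap K L)) x := by
    simp only [p, Fpoly, map_add, map_mul, map_pow, Polynomial.aeval_C, Polynomial.aeval_X,
      WeierstrassCurve.map_b₂, WeierstrassCurve.map_b₄, WeierstrassCurve.map_b₆, map_ofNat]
  intro h0
  have hp0 : p = 0 := (transcendental_iff_injective.mp hx) (by rw [hp, h0, map_zero])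
  have h4 : p.coeff 3 = 4 := by
    simp only [p, Polynomial.coeff_add, Polynomial.coeff_C_mul, Polynomial.coeff_X_pow,
      Polynomial.coeff_X, Polynomial.coeff_C]
    norm_num
  rw [hp0, Polynomial.coeff_zero] at h4
  have : (4 : L) = 0 := by
    have h5 := congrArg (algebraMap K L) h4
    rw [map_zero, map_ofNat] at h5
    exact h5.symm
  apply h2
  have h22 : (2 : L) * 2 = 0 := by rw [← this]; norm_num
  exact (mul_self_eq_zero.mp h22)

omit [DecidableEq L] in
include hx hP in
theorem Yc_ne_zero_of_transcendental (h2 : (2 : L) ≠ 0) :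
    Yc (W.map (algebraMap K L)) x y ≠ 0 := by
  intro h0
  have := Yc_sq (W.map (algebraMap K L)) hP.1
  rw [h0] at this
  exact Fpoly_ne_zero_of_transcendental hx h2 (by rw [← this]; ring)

theorem good_two (hh : HeightAxioms W h) (h2 : (2 : L) ≠ 0) : Good h hx hP 2 := by
  have hY := Yc_ne_zero_of_transcendental hx hP h2
  obtain ⟨x₃, y₃, h₃, hadd, hx₃⟩ := xdbl (W.map (algebraMap K L)) h2 hP hY
  have hF := Fpoly_ne_zero_of_transcendental (W := W) hx h2
  have hx3 : x₃ = ev hx (xs W 2) := by
    rw [xs_two, map_div₀, ev_Phi2, ev_Fpoly, ev_X, eq_div_iff hF, hx₃]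
  subst hx3
  refine ⟨⟨y₃, h₃, ?_⟩, ?_⟩
  · rw [two_nsmul, hadd]
  · rw [xs_two, hh.D, hh.X]; norm_num

theorem good_step (hh : HeightAxioms W h) (h2 : (2 : L) ≠ 0) (n : ℕ)
    (g2 : Good h hx hP 2) (gd : Good h hx hP (n + 1)) (ga : Good h hx hP (n + 2)) :
    Good h hx hP (n + 3) := by
  obtain ⟨⟨ya, ha, hma⟩, hha⟩ := ga
  obtain ⟨⟨yd, hd, hmd⟩, hhd⟩ := gd
  obtain ⟨⟨y2, h2', hm2⟩, hh2⟩ := g2
  have hX1 : h (RatFunc.X : RatFunc K) = 1 := hh.X
  -- `a = xs (n+2) ≠ X`
  have haX : xs W (n + 2) ≠ RatFunc.X := by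
    intro e
    rw [e, hX1] at hha
    have h4 : 2 ^ 2 ≤ (n + 2) ^ 2 := Nat.pow_le_pow_left (by omega) 2
    omega
  have hevaX : ev hx (xs W (n + 2)) ≠ x := by
    intro e
    apply haX
    apply ev_injective hx
    rw [e, ev_X]
  obtain ⟨x₃, y₃, x₄, y₄, h₃, h₄, hadd, hsub, hprod, hsum, -, -⟩ :=
    xadd (W.map (algebraMap K L)) h2 ha hP hevaX
  -- `(n+1)P = (n+2)P - P`
  have hsub' : (n + 1) • Point.some x y hP = Point.some x₄ y₄ h₄ := by
    rw [← hsub, ← hma, succ_nsmul (Point.some x y hP) (n + 1)]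
    abel
  rw [hmd] at hsub'
  have hx4 : ev hx (xs W (n + 1)) = x₄ := by
    injection hsub'
  have hne : (ev hx (xs W (n + 2)) - x) ^ 2 ≠ 0 := pow_ne_zero 2 (sub_ne_zero.mpr hevaX)
  have hneR : (xs W (n + 2) - RatFunc.X) ^ 2 ≠ 0 := pow_ne_zero 2 (sub_ne_zero.mpr haX)
  have hx3 : x₃ = ev hx (xs W (n + 3)) := by
    rw [xs_add_three, map_sub, map_div₀, ev_Snum, map_pow, map_sub, ev_X, hx4, ← hsum]
    field_simp
    ring
  -- sum and product relations in `K(X)`
  have hcd_sum : xs W (n + 3) + xs W (n + 1) =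
      Snum (WR W) (xs W (n + 2)) RatFunc.X / (xs W (n + 2) - RatFunc.X) ^ 2 := by
    rw [xs_add_three]; ring
  have hcd_prod : xs W (n + 3) * xs W (n + 1) =
      Nnum (WR W) (xs W (n + 2)) RatFunc.X / (xs W (n + 2) - RatFunc.X) ^ 2 := by
    apply ev_injective hx
    rw [map_mul, map_div₀, ev_Nnum, map_pow, map_sub, ev_X, ← hx3, hx4, eq_div_iff hne]
    exact hprod
  have hU1 := hh.U haX hcd_sum hcd_prod
  -- `F(X) ≠ 0`
  have hFX : Fpoly (WR W) (RatFunc.X : RatFunc K) ≠ 0 := by
    intro e
    have := congrArg (ev hx) e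
    rw [ev_Fpoly, ev_X, map_zero] at this
    exact Fpoly_ne_zero_of_transcendental hx h2 this
  -- `c ≠ d`
  have hcd : xs W (n + 3) ≠ xs W (n + 1) := by
    intro e
    have hdisc : Snum (WR W) (xs W (n + 2)) RatFunc.X ^ 2
        - 4 * Nnum (WR W) (xs W (n + 2)) RatFunc.X * (xs W (n + 2) - RatFunc.X) ^ 2 = 0 := by
      have e1 : Snum (WR W) (xs W (n + 2)) RatFunc.X
          = (xs W (n + 3) + xs W (n + 1)) * (xs W (n + 2) - RatFunc.X) ^ 2 := by
        rw [hcd_sum, div_mul_cancel₀ _ hneR]
      have e2 : Nnum (WR W) (xs W (n + 2)) RatFunc.X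
          = (xs W (n + 3) * xs W (n + 1)) * (xs W (n + 2) - RatFunc.X) ^ 2 := by
        rw [hcd_prod, div_mul_cancel₀ _ hneR]
      rw [e1, e2, e]
      ring
    rw [disc_identity] at hdisc
    rcases mul_eq_zero.mp hdisc with h0 | h0
    · have := hh.h_eq_zero_of_Fpoly h0
      rw [this] at hha
      have h4 : 0 < (n + 2) ^ 2 := by positivity
      omega
    · exact hFX h0
  have hevcd : ev hx (xs W (n + 3)) ≠ ev hx (xs W (n + 1)) := fun e => hcd (ev_injective hx e)
  subst hx3
  have hm3 : (n + 3) • Point.some x y hP = Point.some (ev hx (xs W (n + 3))) y₃ h₃ := by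
    rw [← hadd, ← hma, succ_nsmul (Point.some x y hP) (n + 2)]
  obtain ⟨x₅, y₅, x₆, y₆, h₅, h₆, hadd2, hsub2, hprod2, hsum2, -, -⟩ :=
    xadd (W.map (algebraMap K L)) h2 h₃ hd hevcd
  -- difference is `2P`
  have hx6 : ev hx (xs W 2) = x₆ := by
    have : (2 : ℕ) • Point.some x y hP = Point.some x₆ y₆ h₆ := by
      rw [← hsub2, ← hm3, ← hmd, show n + 3 = (n + 1) + 2 by ring, add_nsmul]
      abel
    rw [hm2] at this
    injection this
  -- sum is `2 (n+2) P`
  have hsum' : Point.some (ev hx (xs W (n + 2))) ya ha + Point.some (ev hx (xs W (n + 2))) ya ha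
      = Point.some x₅ y₅ h₅ := by
    rw [← hadd2, ← hm3, ← hmd, ← hma, ← add_nsmul, ← add_nsmul]
    congr 1
    ring
  have hYa : Yc (W.map (algebraMap K L)) (ev hx (xs W (n + 2))) ya ≠ 0 := by
    intro h0
    have := xdbl_zero (W.map (algebraMap K L)) h2 ha h0
    rw [hsum'] at this
    exact Point.some_ne_zero _ this
  obtain ⟨x₇, y₇, h₇, hdbl, hx₇⟩ := xdbl (W.map (algebraMap K L)) h2 ha hYa
  have hx57 : x₇ = x₅ := by
    rw [hsum'] at hdbl
    injection hdbl with e1 e2
    exact e1.symm
  have hFa : Fpoly (W.map (algebraMap K L)) (ev hx (xs W (n + 2))) ≠ 0 := by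
    rw [← Yc_sq (W.map (algebraMap K L)) ha.1]
    exact pow_ne_zero 2 hYa
  have hne2 : (ev hx (xs W (n + 3)) - ev hx (xs W (n + 1))) ^ 2 ≠ 0 :=
    pow_ne_zero 2 (sub_ne_zero.mpr hevcd)
  have hev_e : ev hx (Phi2 (WR W) (xs W (n + 2)) / Fpoly (WR W) (xs W (n + 2))) = x₅ := by
    rw [map_div₀, ev_Phi2, ev_Fpoly, ← hx57, div_eq_iff hFa, hx₇]
  have he_sum : Phi2 (WR W) (xs W (n + 2)) / Fpoly (WR W) (xs W (n + 2)) + xs W 2 =
      Snum (WR W) (xs W (n + 3)) (xs W (n + 1)) / (xs W (n + 3) - xs W (n + 1)) ^ 2 := by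
    apply ev_injective hx
    rw [map_add, hev_e, hx6, map_div₀, ev_Snum, map_pow, map_sub, eq_div_iff hne2]
    exact hsum2
  have he_prod : Phi2 (WR W) (xs W (n + 2)) / Fpoly (WR W) (xs W (n + 2)) * xs W 2 =
      Nnum (WR W) (xs W (n + 3)) (xs W (n + 1)) / (xs W (n + 3) - xs W (n + 1)) ^ 2 := by
    apply ev_injective hx
    rw [map_mul, hev_e, hx6, map_div₀, ev_Nnum, map_pow, map_sub, eq_div_iff hne2]
    exact hprod2
  have hU2 := hh.U hcd he_sum he_prod
  rw [hh.D, hha, hhd, hh2] at hU2
  rw [hha, hhd, hX1] at hU1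
  refine ⟨⟨y₃, h₃, hm3⟩, ?_⟩
  nlinarith

/-- all multiples `nP`, `n ≥ 1`, of a point with transcendental `x` are good. -/
theorem good_all (hh : HeightAxioms W h) (h2 : (2 : L) ≠ 0) (n : ℕ) (hn : 1 ≤ n) :
    Good h hx hP n := by
  induction n using Nat.strong_induction_on with
  | _ n ih =>
    match n, hn, ih with
    | 1, _, _ => exact good_one hx hP hh
    | 2, _, _ => exact good_two hx hP hh h2
    | (m + 3), _, ih =>
      exact good_step hx hP hh h2 m (good_two hx hP hh h2) (ih (m + 1) (by omega) (by omega))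
        (ih (m + 2) (by omega) (by omega))

end main

section model

variable {K : Type*} [Field K] (W : WeierstrassCurve K)

/-- a generic point: a point with transcendental `x`-coordinate over an extension field. -/
theorem exists_generic_point (h2 : (2 : K) ≠ 0) :
    ∃ (x y : AlgebraicClosure (RatFunc K)), Transcendental K x ∧
      (2 : AlgebraicClosure (RatFunc K)) ≠ 0 ∧
      (W.map (algebraMap K (AlgebraicClosure (RatFunc K)))).toAffine.Nonsingular x y := by
  classical
  set L := AlgebraicClosure (RatFunc K) with hL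
  set x : L := algebraMap (RatFunc K) L RatFunc.X with hxdef
  have hx : Transcendental K x := by
    rw [hxdef, transcendental_algebraMap_iff (algebraMap (RatFunc K) L).injective]
    exact RatFunc.transcendental_X
  have h2L : (2 : L) ≠ 0 := by
    intro h0
    apply h2
    have : algebraMap K L 2 = 0 := by rw [map_ofNat]; exact h0
    exact (map_eq_zero (algebraMap K L)).mp this
  set WL := W.map (algebraMap K L) with hWL
  -- a root `y` of the Weierstrass equation in `y`
  let q : Polynomial L := Polynomial.X ^ 2 + Polynomial.C (WL.a₁ * x + WL.a₃) * Polynomial.X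
    - Polynomial.C (x ^ 3 + WL.a₂ * x ^ 2 + WL.a₄ * x + WL.a₆)
  have hq : q.degree ≠ 0 := by
    have : q.degree = 2 := by
      simp only [q]
      compute_degree!
    rw [this]; norm_num
  obtain ⟨y, hy⟩ := IsAlgClosed.exists_root q hq
  have hE : WL.toAffine.Equation x y := by
    rw [WeierstrassCurve.Affine.equation_iff]
    simp only [q, Polynomial.IsRoot, Polynomial.eval_sub, Polynomial.eval_add, Polynomial.eval_pow,
      Polynomial.eval_X, Polynomial.eval_mul, Polynomial.eval_C] at hy
    linear_combination hy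
  refine ⟨x, y, hx, h2L, ?_⟩
  rw [WeierstrassCurve.Affine.nonsingular_iff]
  refine ⟨hE, Or.inr ?_⟩
  intro h0
  have hY : Yc WL x y = 0 := by
    simp only [Yc]
    linear_combination h0
  have := Yc_sq WL hE
  rw [hY] at this
  exact Fpoly_ne_zero_of_transcendental (W := W) hx h2L (by rw [← this]; ring)

variable {W} in
/-- **T2**: `h (xs W n) = n²`. -/
theorem h_xs {h : RatFunc K → ℕ} (hh : HeightAxioms W h) (h2 : (2 : K) ≠ 0) (n : ℕ)
    (hn : 1 ≤ n) : h (xs W n) = n ^ 2 := by
  classical
  obtain ⟨x, y, hx, h2L, hP⟩ := exists_generic_point W h2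
  exact (good_all hx hP hh h2L n hn).2

end model

section T1

variable {K : Type*} [Field K] {W : WeierstrassCurve K}
variable {L : Type*} [Field L] [Algebra K L] [DecidableEq L]

/-- **T1**: for a point `P = (x,y)` over an extension `L ⊇ K` with `x` transcendental over `K`,
`nP` is affine with `x(nP) = (xs W n)(x)` for every `n ≥ 1`. -/
theorem nsmul_some {h : RatFunc K → ℕ} (hh : HeightAxioms W h) (h2 : (2 : L) ≠ 0) {x y : L}
    (hx : Transcendental K x) (hP : (W.map (algebraMap K L)).toAffine.Nonsingular x y)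
    (n : ℕ) (hn : 1 ≤ n) :
    ∃ (y' : L) (h' : (W.map (algebraMap K L)).toAffine.Nonsingular (ev hx (xs W n)) y'),
      n • (Point.some x y hP) = Point.some (ev hx (xs W n)) y' h' :=
  (good_all hx hP hh h2 n hn).1

end T1

end Fermat.Agent.S13.TH
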