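/-
S13 blueprint (id 7), package T-D (helper35): the duplication map multiplies the
function-field height by 4.

* `ratDeg r = max (natDegree r.num) (natDegree r.denom)` is the height of `r : RatFunc K`;
  `ratDeg r = [K(X) : K(r)]` (Mathlib, Lüroth file).
* `ratDeg_aeval_div`: for coprime `p q : K[X]`, `q ≠ 0`, and every `a : RatFunc K`,
  `ratDeg (p(a) / q(a)) = max (natDegree p) (natDegree q) * ratDeg a`.
* `ratDeg_dup`: `ratDeg (Φ₂(a) / F(a)) = 4 * ratDeg a` when `Δ ≠ 0`.
-/
import Mathlib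
import Fermat.Agent.S05.Defs

set_option autoImplicit false

namespace Fermat.Agent.S13.TD

open Polynomial IntermediateField

variable {K : Type*} [Field K]

/-- the height of a rational function: `max (deg num) (deg denom)`. -/
noncomputable def ratDeg (r : RatFunc K) : ℕ := max r.num.natDegree r.denom.natDegree

theorem ratDeg_eq_finrank (r : RatFunc K) :
    ratDeg r = Module.finrank K⟮r⟯ (RatFunc K) :=
  (RatFunc.finrank_eq_max_natDegree r).symm

@[simp] theorem ratDeg_C (c : K) : ratDeg (RatFunc.C c) = 0 := by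
  simp [ratDeg]

@[simp] theorem ratDeg_zero : ratDeg (0 : RatFunc K) = 0 := by
  simp [ratDeg]

@[simp] theorem ratDeg_X : ratDeg (RatFunc.X : RatFunc K) = 1 := by
  simp [ratDeg]


theorem ratDeg_eq_zero_iff (a : RatFunc K) : ratDeg a = 0 ↔ ∃ c, a = RatFunc.C c := by
  rw [RatFunc.eq_C_iff, ratDeg, Nat.max_eq_zero_iff]

/-- numerator / denominator degrees of a fraction of coprime polynomials. -/
theorem natDegree_num_denom_of_isCoprime {p q : K[X]} (hpq : IsCoprime p q) (hq : q ≠ 0) :
    (algebraMap K[X] (RatFunc K) p / algebraMap K[X] (RatFunc K) q).num.natDegree = p.natDegree ∧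
    (algebraMap K[X] (RatFunc K) p / algebraMap K[X] (RatFunc K) q).denom.natDegree
      = q.natDegree := by
  set r : RatFunc K := algebraMap K[X] (RatFunc K) p / algebraMap K[X] (RatFunc K) q with hr
  have hq' : algebraMap K[X] (RatFunc K) q ≠ 0 := by
    simpa using (map_ne_zero_iff _ (RatFunc.algebraMap_injective K)).mpr hq
  have hd' : algebraMap K[X] (RatFunc K) r.denom ≠ 0 := by
    simpa using (map_ne_zero_iff _ (RatFunc.algebraMap_injective K)).mpr r.denom_ne_zero
  have h1 : algebraMap K[X] (RatFunc K) r.num / algebraMap K[X] (RatFunc K) r.denom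
      = algebraMap K[X] (RatFunc K) p / algebraMap K[X] (RatFunc K) q := RatFunc.num_div_denom r
  rw [div_eq_div_iff hd' hq', ← map_mul, ← map_mul] at h1
  have h2 : r.num * q = p * r.denom := RatFunc.algebraMap_injective K h1
  have hcop := r.isCoprime_num_denom
  by_cases hp : p = 0
  · -- then q is a unit
    subst hp
    have hr0 : r = 0 := by simp [hr]
    have hqu : IsUnit q := by
      have := hpq
      rwa [isCoprime_zero_left] at this
    rw [hr0]
    simp [natDegree_eq_zero_of_isUnit hqu]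
  have hn0 : r.num ≠ 0 := by
    intro h
    rw [h, zero_mul] at h2
    exact (mul_ne_zero hp r.denom_ne_zero) h2.symm
  constructor
  · apply le_antisymm
    · apply natDegree_le_of_dvd _ hp
      exact hcop.dvd_of_dvd_mul_right ⟨q, h2.symm⟩
    · apply natDegree_le_of_dvd _ hn0
      exact hpq.dvd_of_dvd_mul_right ⟨r.denom, h2⟩
  · apply le_antisymm
    · apply natDegree_le_of_dvd _ hq
      exact hcop.symm.dvd_of_dvd_mul_left ⟨p, by rw [h2, mul_comm]⟩
    · apply natDegree_le_of_dvd _ r.denom_ne_zero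
      exact hpq.symm.dvd_of_dvd_mul_left ⟨r.num, by rw [← h2, mul_comm]⟩

/-- substitution `X ↦ a` for a transcendental (= non-constant) `a`. -/
noncomputable def subst (a : RatFunc K) (ha : Transcendental K a) : RatFunc K →ₐ[K] RatFunc K :=
  (K⟮a⟯).val.comp (RatFunc.algEquivOfTranscendental a ha).toAlgHom

theorem subst_X (a : RatFunc K) (ha : Transcendental K a) : subst a ha RatFunc.X = a := by
  simp [subst]

theorem subst_algebraMap (a : RatFunc K) (ha : Transcendental K a) (p : K[X]) :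
    subst a ha (algebraMap K[X] (RatFunc K) p) = aeval a p := by
  rw [← RatFunc.aeval_X_left_eq_algebraMap, ← Polynomial.aeval_algHom_apply, subst_X]

theorem subst_div (a : RatFunc K) (ha : Transcendental K a) (p q : K[X]) :
    subst a ha (algebraMap K[X] (RatFunc K) p / algebraMap K[X] (RatFunc K) q)
      = aeval a p / aeval a q := by
  rw [map_div₀, subst_algebraMap, subst_algebraMap]

theorem ratDeg_subst (a : RatFunc K) (ha : Transcendental K a) (r : RatFunc K) :
    ratDeg (subst a ha r) = ratDeg r * ratDeg a := by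
  rw [ratDeg_eq_finrank, ratDeg_eq_finrank r, ratDeg_eq_finrank a]
  have h1 : (K⟮r⟯).map (subst a ha) = K⟮subst a ha r⟯ := by
    rw [IntermediateField.adjoin_map, Set.image_singleton]
  have h2 : (⊤ : IntermediateField K (RatFunc K)).map (subst a ha) = K⟮a⟯ := by
    rw [← RatFunc.adjoin_X, IntermediateField.adjoin_map, Set.image_singleton, subst_X]
  have hle : K⟮subst a ha r⟯ ≤ K⟮a⟯ := by
    rw [← h1, ← h2]
    exact IntermediateField.map_mono _ le_top
  rw [← IntermediateField.relfinrank_mul_finrank_top hle, ← h1, ← h2,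
    IntermediateField.relfinrank_map_map, IntermediateField.relfinrank_top_right]

theorem aeval_C_eq (c : K) (f : K[X]) :
    aeval (RatFunc.C c : RatFunc K) f = RatFunc.C (f.eval c) := by
  rw [← RatFunc.algebraMap_eq_C]
  exact aeval_algebraMap_apply_eq_algebraMap_eval c f

/-- **Heights are multiplicative under composition.** -/
theorem ratDeg_aeval_div {p q : K[X]} (hpq : IsCoprime p q) (hq : q ≠ 0) (a : RatFunc K) :
    ratDeg (aeval a p / aeval a q) = max p.natDegree q.natDegree * ratDeg a := by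
  by_cases hc : ∃ c, a = RatFunc.C c
  · obtain ⟨c, rfl⟩ := hc
    rw [aeval_C_eq, aeval_C_eq, ← map_div₀, ratDeg_C, ratDeg_C, mul_zero]
  · have ha := RatFunc.transcendental_of_ne_C a hc
    rw [← subst_div a ha, ratDeg_subst]
    obtain ⟨h1, h2⟩ := natDegree_num_denom_of_isCoprime hpq hq
    rw [ratDeg, h1, h2]

section weierstrass

variable (W : WeierstrassCurve K)

/-- `Φ₂ = X⁴ - b₄X² - 2b₆X - b₈` as a polynomial. -/
noncomputable def Phi2P : K[X] := X ^ 4 - C W.b₄ * X ^ 2 - C (2 * W.b₆) * X - C W.b₈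

/-- `F = 4X³ + b₂X² + 2b₄X + b₆` as a polynomial. -/
noncomputable def FP : K[X] := C 4 * X ^ 3 + C W.b₂ * X ^ 2 + C (2 * W.b₄) * X + C W.b₆

theorem eval_Phi2P (x : K) : (Phi2P W).eval x = S05.Phi2 W x := by
  simp [Phi2P, S05.Phi2]

theorem eval_FP (x : K) : (FP W).eval x = S05.Fpoly W x := by
  simp [FP, S05.Fpoly]

theorem aeval_Phi2P {L : Type*} [Field L] [Algebra K L] (x : L) :
    aeval x (Phi2P W) = S05.Phi2 (W.map (algebraMap K L)) x := by
  simp [Phi2P, S05.Phi2, map_ofNat]

theorem aeval_FP {L : Type*} [Field L] [Algebra K L] (x : L) :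
    aeval x (FP W) = S05.Fpoly (W.map (algebraMap K L)) x := by
  simp [FP, S05.Fpoly, map_ofNat]

/-- explicit Bezout certificate: `Δ = B·Φ₂ + A·F`. -/
theorem certificate :
    (-48 * X ^ 2 - 8 * C W.b₂ * X + C W.b₂ ^ 2 - 32 * C W.b₄) * Phi2P W
      + (12 * X ^ 3 - C W.b₂ * X ^ 2 - 10 * C W.b₄ * X + C W.b₂ * C W.b₄ - 27 * C W.b₆) * FP W
      = C W.Δ := by
  have h := congrArg C W.b_relation
  simp only [map_mul, map_sub, map_pow, map_ofNat] at h
  simp only [Phi2P, FP, WeierstrassCurve.Δ, map_add, map_sub, map_mul, map_neg, map_pow, map_ofNat]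
  linear_combination (12 * X ^ 2 + 2 * C W.b₂ * X + 8 * C W.b₄) * h

theorem isCoprime_Phi2P_FP (hΔ : W.Δ ≠ 0) : IsCoprime (Phi2P W) (FP W) := by
  refine ⟨C W.Δ⁻¹ * (-48 * X ^ 2 - 8 * C W.b₂ * X + C W.b₂ ^ 2 - 32 * C W.b₄),
    C W.Δ⁻¹ * (12 * X ^ 3 - C W.b₂ * X ^ 2 - 10 * C W.b₄ * X + C W.b₂ * C W.b₄ - 27 * C W.b₆), ?_⟩
  calc _ = C W.Δ⁻¹ * ((-48 * X ^ 2 - 8 * C W.b₂ * X + C W.b₂ ^ 2 - 32 * C W.b₄) * Phi2P W
      + (12 * X ^ 3 - C W.b₂ * X ^ 2 - 10 * C W.b₄ * X + C W.b₂ * C W.b₄ - 27 * C W.b₆) * FP W) := by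
        ring
    _ = 1 := by rw [certificate, ← map_mul, inv_mul_cancel₀ hΔ, map_one]

end weierstrass

section weierstrass2

variable (W : WeierstrassCurve K)

theorem natDegree_Phi2P : (Phi2P W).natDegree = 4 := by
  unfold Phi2P
  compute_degree!

theorem natDegree_FP_le : (FP W).natDegree ≤ 3 := by
  unfold FP
  compute_degree

theorem FP_ne_zero (hΔ : W.Δ ≠ 0) : FP W ≠ 0 := by
  intro h
  have hc := isCoprime_Phi2P_FP W hΔ
  rw [h, isCoprime_zero_right] at hc
  have := natDegree_eq_zero_of_isUnit hc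
  rw [natDegree_Phi2P] at this
  exact absurd this (by norm_num)

/-- **(D)** the duplication map multiplies heights by `4`: polynomial form. -/
theorem ratDeg_dup (hΔ : W.Δ ≠ 0) (a : RatFunc K) :
    ratDeg (aeval a (Phi2P W) / aeval a (FP W)) = 4 * ratDeg a := by
  rw [ratDeg_aeval_div (isCoprime_Phi2P_FP W hΔ) (FP_ne_zero W hΔ), natDegree_Phi2P,
    max_eq_left ((natDegree_FP_le W).trans (by norm_num))]

/-- **(D)** in terms of the S05 expressions `Phi2`, `Fpoly` of the base-changed curve. -/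
theorem ratDeg_dup' (hΔ : W.Δ ≠ 0) (a : RatFunc K) :
    ratDeg (S05.Phi2 (W.map (algebraMap K (RatFunc K))) a /
      S05.Fpoly (W.map (algebraMap K (RatFunc K))) a) = 4 * ratDeg a := by
  rw [← aeval_Phi2P, ← aeval_FP, ratDeg_dup W hΔ]

end weierstrass2

section moebius

/-- `ratDeg (a⁻¹) = ratDeg a`. -/
theorem ratDeg_inv (a : RatFunc K) : ratDeg a⁻¹ = ratDeg a := by
  have h := ratDeg_aeval_div (p := (1 : K[X])) (q := X) isCoprime_one_left X_ne_zero a
  simpa using h

/-- `ratDeg (a + c) = ratDeg a`. -/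
theorem ratDeg_add_C (a : RatFunc K) (c : K) : ratDeg (a + RatFunc.C c) = ratDeg a := by
  have h := ratDeg_aeval_div (p := (X + C c : K[X])) (q := 1) isCoprime_one_right one_ne_zero a
  simpa [RatFunc.algebraMap_eq_C] using h

/-- `ratDeg (c * a) = ratDeg a` for `c ≠ 0`. -/
theorem ratDeg_C_mul (a : RatFunc K) {c : K} (hc : c ≠ 0) : ratDeg (RatFunc.C c * a) = ratDeg a := by
  have h := ratDeg_aeval_div (p := (C c * X : K[X])) (q := 1) isCoprime_one_right one_ne_zero a
  have hd : (C c * X : K[X]).natDegree = 1 := by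
    rw [natDegree_C_mul hc, natDegree_X]
  simpa [RatFunc.algebraMap_eq_C, hd] using h

end moebius

end Fermat.Agent.S13.TD
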