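/-
S13 / package T-U (blueprint 7, owner helper4; this file: helper28).
The "U-lemma" for function-field heights:
if `a ≠ b`, `c + d = S(a,b)/(a-b)^2`, `c d = N(a,b)/(a-b)^2` in `RatFunc K`, then
`hdeg c + hdeg d ≤ 2 hdeg a + 2 hdeg b`, where `hdeg r = max (natDegree num) (natDegree denom)`.
Proof: Gauss lemma for `(c₂ T - c₁)(d₂ T - d₁)` in explicit Bezout form + degree bookkeeping.
No sorry.
-/
import Mathlib
import Fermat.Agent.S05.Defs

set_option autoImplicit false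

namespace Fermat.Agent.S13.TU

open Polynomial

/-- Gauss lemma for a product of two primitive linear forms, in explicit Bezout form:
if `D T² - S T + N` is proportional (over the fraction field) to
`(c₂ T - c₁)(d₂ T - d₁)` with `(c₁,c₂) = 1 = (d₁,d₂)`, the proportionality factor is integral. -/
theorem exists_cofactor {R : Type*} [CommRing R] [IsDomain R] {c₁ c₂ d₁ d₂ D S N : R}
    (hc : IsCoprime c₁ c₂) (hd : IsCoprime d₁ d₂) (hc₂ : c₂ ≠ 0) (hd₂ : d₂ ≠ 0)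
    (hS : (c₁ * d₂ + c₂ * d₁) * D = S * (c₂ * d₂)) (hN : c₁ * d₁ * D = N * (c₂ * d₂)) :
    ∃ l : R, D = l * (c₂ * d₂) ∧ S = l * (c₁ * d₂ + c₂ * d₁) ∧ N = l * (c₁ * d₁) := by
  obtain ⟨u, v, huv⟩ := (hc.pow (m := 2) (n := 2))
  obtain ⟨s, t, hst⟩ := (hd.pow (m := 2) (n := 2))
  have he₂ : c₂ * d₂ ≠ 0 := mul_ne_zero hc₂ hd₂
  have hD : D = (u * s * (c₁ * d₁) * N + u * t * (c₁ * d₂ * S - c₁ * d₁ * D)
      + v * s * (c₂ * d₁ * S - c₁ * d₁ * D) + v * t * (c₂ * d₂) * D) * (c₂ * d₂) := by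
    linear_combination (-D) * huv + (-D * (u * c₁ ^ 2 + v * c₂ ^ 2)) * hst
      + (u * s * (c₁ * d₁)) * hN + (u * t * (c₁ * d₂) + v * s * (c₂ * d₁)) * hS
  refine ⟨_, hD, ?_, ?_⟩
  · apply mul_right_cancel₀ he₂
    rw [← hS]
    set l := (u * s * (c₁ * d₁) * N + u * t * (c₁ * d₂ * S - c₁ * d₁ * D)
      + v * s * (c₂ * d₁ * S - c₁ * d₁ * D) + v * t * (c₂ * d₂) * D) with hl
    calc (c₁ * d₂ + c₂ * d₁) * D = (c₁ * d₂ + c₂ * d₁) * (l * (c₂ * d₂)) := by rw [← hD]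
      _ = l * (c₁ * d₂ + c₂ * d₁) * (c₂ * d₂) := by ring
  · apply mul_right_cancel₀ he₂
    rw [← hN]
    set l := (u * s * (c₁ * d₁) * N + u * t * (c₁ * d₂ * S - c₁ * d₁ * D)
      + v * s * (c₂ * d₁ * S - c₁ * d₁ * D) + v * t * (c₂ * d₂) * D) with hl
    calc c₁ * d₁ * D = c₁ * d₁ * (l * (c₂ * d₂)) := by rw [← hD]
      _ = l * (c₁ * d₁) * (c₂ * d₂) := by ring

section degree

variable {K : Type*} [Field K]

/-- Gauss norm multiplicativity for two linear forms: the maximum coefficient degree of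
`(c₂ T - c₁)(d₂ T - d₁)` is at least the sum of the heights of the factors. -/
theorem max_add_max_le {c₁ c₂ d₁ d₂ : K[X]} (hc₂ : c₂ ≠ 0) (hd₂ : d₂ ≠ 0) :
    max c₁.natDegree c₂.natDegree + max d₁.natDegree d₂.natDegree ≤
      max (c₁ * d₁).natDegree (max (c₁ * d₂ + c₂ * d₁).natDegree (c₂ * d₂).natDegree) := by
  rcases le_or_gt c₁.natDegree c₂.natDegree with h1 | h1 <;>
    rcases le_or_gt d₁.natDegree d₂.natDegree with h2 | h2
  · rw [max_eq_right h1, max_eq_right h2, ← natDegree_mul hc₂ hd₂]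
    exact le_trans (le_max_right _ _) (le_max_right _ _)
  · have hd₁ : d₁ ≠ 0 := by
      rintro rfl; simp at h2
    rw [max_eq_right h1, max_eq_left h2.le]
    refine le_trans ?_ (le_trans (le_max_left _ _) (le_max_right _ _))
    rcases eq_or_ne c₁ 0 with rfl | hc₁
    · simp [natDegree_mul hc₂ hd₁]
    · rw [add_comm (c₁ * d₂), natDegree_add_eq_left_of_natDegree_lt, natDegree_mul hc₂ hd₁]
      rw [natDegree_mul hc₂ hd₁, natDegree_mul hc₁ hd₂]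
      omega
  · have hc₁ : c₁ ≠ 0 := by
      rintro rfl; simp at h1
    rw [max_eq_left h1.le, max_eq_right h2]
    refine le_trans ?_ (le_trans (le_max_left _ _) (le_max_right _ _))
    rcases eq_or_ne d₁ 0 with rfl | hd₁
    · simp [natDegree_mul hc₁ hd₂]
    · rw [natDegree_add_eq_left_of_natDegree_lt, natDegree_mul hc₁ hd₂]
      rw [natDegree_mul hc₂ hd₁, natDegree_mul hc₁ hd₂]
      omega
  · have hc₁ : c₁ ≠ 0 := by
      rintro rfl; simp at h1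
    have hd₁ : d₁ ≠ 0 := by
      rintro rfl; simp at h2
    rw [max_eq_left h1.le, max_eq_left h2.le, ← natDegree_mul hc₁ hd₁]
    exact le_max_left _ _

theorem natDegree_le_of_mul_eq {l e P : K[X]} {B : ℕ} (hP : P = l * e) (hl : l ≠ 0)
    (hB : P.natDegree ≤ B) : e.natDegree ≤ B := by
  rcases eq_or_ne e 0 with rfl | he
  · simp
  · refine le_trans ?_ hB
    rw [hP, natDegree_mul hl he]
    omega

/-- Polynomial core of the U-lemma. -/
theorem core {c₁ c₂ d₁ d₂ D S N : K[X]} {B : ℕ}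
    (hc : IsCoprime c₁ c₂) (hd : IsCoprime d₁ d₂) (hc₂ : c₂ ≠ 0) (hd₂ : d₂ ≠ 0) (hD0 : D ≠ 0)
    (hS : (c₁ * d₂ + c₂ * d₁) * D = S * (c₂ * d₂)) (hN : c₁ * d₁ * D = N * (c₂ * d₂))
    (hDB : D.natDegree ≤ B) (hSB : S.natDegree ≤ B) (hNB : N.natDegree ≤ B) :
    max c₁.natDegree c₂.natDegree + max d₁.natDegree d₂.natDegree ≤ B := by
  obtain ⟨l, h2, h1, h0⟩ := exists_cofactor hc hd hc₂ hd₂ hS hN
  have hl : l ≠ 0 := by
    rintro rfl; exact hD0 (by simpa using h2)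
  refine le_trans (max_add_max_le hc₂ hd₂) ?_
  refine max_le (natDegree_le_of_mul_eq h0 hl hNB) (max_le (natDegree_le_of_mul_eq h1 hl hSB)
    (natDegree_le_of_mul_eq h2 hl hDB))

end degree

section ratfunc

variable {K : Type*} [Field K]

/-- the function-field height of a rational function: `max (deg num) (deg denom)`. -/
noncomputable def hdeg (r : RatFunc K) : ℕ := max r.num.natDegree r.denom.natDegree

theorem hdeg_def (r : RatFunc K) : hdeg r = max r.num.natDegree r.denom.natDegree := rfl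

theorem natDegree_num_le_hdeg (r : RatFunc K) : r.num.natDegree ≤ hdeg r := le_max_left _ _

theorem natDegree_denom_le_hdeg (r : RatFunc K) : r.denom.natDegree ≤ hdeg r := le_max_right _ _

/-- homogenised `S`-form (bidegree `(2,2)`). -/
noncomputable def Sh (β₂ β₄ β₆ : K) (a₁ a₂ b₁ b₂ : K[X]) : K[X] :=
  C 2 * (a₁ * a₁ * b₁ * b₂) + C 2 * (a₁ * a₂ * b₁ * b₁) + C β₂ * (a₁ * a₂ * b₁ * b₂)
    + C β₄ * (a₁ * a₂ * b₂ * b₂) + C β₄ * (a₂ * a₂ * b₁ * b₂) + C β₆ * (a₂ * a₂ * b₂ * b₂)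

/-- homogenised `N`-form (bidegree `(2,2)`). -/
noncomputable def Nh (β₄ β₆ β₈ : K) (a₁ a₂ b₁ b₂ : K[X]) : K[X] :=
  C 1 * (a₁ * a₁ * b₁ * b₁) + C (-β₄) * (a₁ * a₂ * b₁ * b₂) + C (-β₆) * (a₁ * a₂ * b₂ * b₂)
    + C (-β₆) * (a₂ * a₂ * b₁ * b₂) + C (-β₈) * (a₂ * a₂ * b₂ * b₂)

/-- homogenised `(a-b)^2` (bidegree `(2,2)`). -/
noncomputable def Dh (a₁ a₂ b₁ b₂ : K[X]) : K[X] :=
  C 1 * (a₁ * a₁ * b₂ * b₂) + C (-2) * (a₁ * a₂ * b₁ * b₂) + C 1 * (a₂ * a₂ * b₁ * b₁)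

theorem natDegree_mono4 {m n : ℕ} {p q r s : K[X]} (κ : K) (hp : p.natDegree ≤ m)
    (hq : q.natDegree ≤ m) (hr : r.natDegree ≤ n) (hs : s.natDegree ≤ n) :
    (C κ * (p * q * r * s)).natDegree ≤ 2 * m + 2 * n := by
  refine le_trans (natDegree_C_mul_le _ _) ?_
  refine le_trans (natDegree_mul_le_of_le (natDegree_mul_le_of_le
    (natDegree_mul_le_of_le hp hq) hr) hs) (by omega)

theorem natDegree_Sh_le (β₂ β₄ β₆ : K) {m n : ℕ} {a₁ a₂ b₁ b₂ : K[X]}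
    (h1 : a₁.natDegree ≤ m) (h2 : a₂.natDegree ≤ m) (h3 : b₁.natDegree ≤ n)
    (h4 : b₂.natDegree ≤ n) : (Sh β₂ β₄ β₆ a₁ a₂ b₁ b₂).natDegree ≤ 2 * m + 2 * n := by
  unfold Sh
  refine natDegree_add_le_of_degree_le (natDegree_add_le_of_degree_le
    (natDegree_add_le_of_degree_le (natDegree_add_le_of_degree_le
    (natDegree_add_le_of_degree_le ?_ ?_) ?_) ?_) ?_) ?_ <;>
  apply natDegree_mono4 <;> assumption

theorem natDegree_Nh_le (β₄ β₆ β₈ : K) {m n : ℕ} {a₁ a₂ b₁ b₂ : K[X]}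
    (h1 : a₁.natDegree ≤ m) (h2 : a₂.natDegree ≤ m) (h3 : b₁.natDegree ≤ n)
    (h4 : b₂.natDegree ≤ n) : (Nh β₄ β₆ β₈ a₁ a₂ b₁ b₂).natDegree ≤ 2 * m + 2 * n := by
  unfold Nh
  refine natDegree_add_le_of_degree_le (natDegree_add_le_of_degree_le
    (natDegree_add_le_of_degree_le (natDegree_add_le_of_degree_le ?_ ?_) ?_) ?_) ?_ <;>
  apply natDegree_mono4 <;> assumption

theorem natDegree_Dh_le {m n : ℕ} {a₁ a₂ b₁ b₂ : K[X]}
    (h1 : a₁.natDegree ≤ m) (h2 : a₂.natDegree ≤ m) (h3 : b₁.natDegree ≤ n)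
    (h4 : b₂.natDegree ≤ n) : (Dh a₁ a₂ b₁ b₂).natDegree ≤ 2 * m + 2 * n := by
  unfold Dh
  refine natDegree_add_le_of_degree_le (natDegree_add_le_of_degree_le ?_ ?_) ?_ <;>
  apply natDegree_mono4 <;> assumption

theorem C_two_eq : (C (2 : K) : K[X]) = 2 := map_ofNat C 2

theorem Dh_eq (a₁ a₂ b₁ b₂ : K[X]) : Dh a₁ a₂ b₁ b₂ = (a₁ * b₂ - a₂ * b₁) ^ 2 := by
  unfold Dh
  simp only [map_one, map_neg, one_mul, C_two_eq]
  ring

theorem field_S {F : Type*} [Field F] (β₂ β₄ β₆ A₁ A₂ B₁ B₂ : F) (hA₂ : A₂ ≠ 0) (hB₂ : B₂ ≠ 0) :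
    2 * (A₁ / A₂) * (B₁ / B₂) * (A₁ / A₂ + B₁ / B₂) + β₂ * (A₁ / A₂) * (B₁ / B₂)
      + β₄ * (A₁ / A₂ + B₁ / B₂) + β₆
    = (2 * (A₁ * A₁ * B₁ * B₂) + 2 * (A₁ * A₂ * B₁ * B₁) + β₂ * (A₁ * A₂ * B₁ * B₂)
      + β₄ * (A₁ * A₂ * B₂ * B₂) + β₄ * (A₂ * A₂ * B₁ * B₂) + β₆ * (A₂ * A₂ * B₂ * B₂))
      / (A₂ * B₂) ^ 2 := by
  field_simp
  ring

theorem field_N {F : Type*} [Field F] (β₄ β₆ β₈ A₁ A₂ B₁ B₂ : F) (hA₂ : A₂ ≠ 0) (hB₂ : B₂ ≠ 0) :
    (A₁ / A₂) ^ 2 * (B₁ / B₂) ^ 2 - β₄ * (A₁ / A₂) * (B₁ / B₂) - β₆ * (A₁ / A₂ + B₁ / B₂) - β₈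
    = (1 * (A₁ * A₁ * B₁ * B₁) + (-β₄) * (A₁ * A₂ * B₁ * B₂) + (-β₆) * (A₁ * A₂ * B₂ * B₂)
      + (-β₆) * (A₂ * A₂ * B₁ * B₂) + (-β₈) * (A₂ * A₂ * B₂ * B₂)) / (A₂ * B₂) ^ 2 := by
  field_simp
  ring

theorem field_D {F : Type*} [Field F] (A₁ A₂ B₁ B₂ : F) (hA₂ : A₂ ≠ 0) (hB₂ : B₂ ≠ 0) :
    (A₁ / A₂ - B₁ / B₂) ^ 2
    = (1 * (A₁ * A₁ * B₂ * B₂) + (-2) * (A₁ * A₂ * B₁ * B₂) + 1 * (A₂ * A₂ * B₁ * B₁))
      / (A₂ * B₂) ^ 2 := by
  field_simp
  ring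

theorem field_add {F : Type*} [Field F] (C₁ C₂ D₁ D₂ : F) (hC₂ : C₂ ≠ 0) (hD₂ : D₂ ≠ 0) :
    C₁ / C₂ + D₁ / D₂ = (C₁ * D₂ + C₂ * D₁) / (C₂ * D₂) := by
  field_simp

theorem field_mul {F : Type*} [Field F] (C₁ C₂ D₁ D₂ : F) :
    C₁ / C₂ * (D₁ / D₂) = (C₁ * D₁) / (C₂ * D₂) := by
  rw [div_mul_div_comm]

/-- **U-lemma**, raw form with explicit constants `β₂ β₄ β₆ β₈ : K`. -/
theorem U_raw (β₂ β₄ β₆ β₈ : K) {a b c d : RatFunc K} (hab : a ≠ b)
    (hs : c + d = (2 * a * b * (a + b) + RatFunc.C β₂ * a * b + RatFunc.C β₄ * (a + b)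
      + RatFunc.C β₆) / (a - b) ^ 2)
    (hp : c * d = (a ^ 2 * b ^ 2 - RatFunc.C β₄ * a * b - RatFunc.C β₆ * (a + b)
      - RatFunc.C β₈) / (a - b) ^ 2) :
    hdeg c + hdeg d ≤ 2 * hdeg a + 2 * hdeg b := by
  have hinj : Function.Injective (algebraMap K[X] (RatFunc K)) := RatFunc.algebraMap_injective K
  have ha := RatFunc.num_div_denom a
  have hb := RatFunc.num_div_denom b
  have hc := RatFunc.num_div_denom c
  have hd := RatFunc.num_div_denom d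
  have ha₂ : algebraMap K[X] (RatFunc K) a.denom ≠ 0 := RatFunc.algebraMap_ne_zero a.denom_ne_zero
  have hb₂ : algebraMap K[X] (RatFunc K) b.denom ≠ 0 := RatFunc.algebraMap_ne_zero b.denom_ne_zero
  have hc₂ : algebraMap K[X] (RatFunc K) c.denom ≠ 0 := RatFunc.algebraMap_ne_zero c.denom_ne_zero
  have hd₂ : algebraMap K[X] (RatFunc K) d.denom ≠ 0 := RatFunc.algebraMap_ne_zero d.denom_ne_zero
  have hD0 : Dh a.num a.denom b.num b.denom ≠ 0 := by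
    rw [Dh_eq]
    refine pow_ne_zero 2 ?_
    intro h
    apply hab
    rw [← ha, ← hb, div_eq_div_iff ha₂ hb₂, ← map_mul, ← map_mul]
    congr 1
    linear_combination h
  have hφD0 : algebraMap K[X] (RatFunc K) (Dh a.num a.denom b.num b.denom) ≠ 0 :=
    RatFunc.algebraMap_ne_zero hD0
  have hab2 : (algebraMap K[X] (RatFunc K) a.denom * algebraMap K[X] (RatFunc K) b.denom) ^ 2 ≠ 0 :=
    pow_ne_zero 2 (mul_ne_zero ha₂ hb₂)
  have hcd₂ : algebraMap K[X] (RatFunc K) (c.denom * d.denom) ≠ 0 :=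
    RatFunc.algebraMap_ne_zero (mul_ne_zero c.denom_ne_zero d.denom_ne_zero)
  have e3 : (a - b) ^ 2 = algebraMap K[X] (RatFunc K) (Dh a.num a.denom b.num b.denom)
      / (algebraMap K[X] (RatFunc K) a.denom * algebraMap K[X] (RatFunc K) b.denom) ^ 2 := by
    conv_lhs => rw [← ha, ← hb]
    rw [field_D _ _ _ _ ha₂ hb₂]
    unfold Dh
    simp only [map_add, map_mul, map_one, map_neg, map_ofNat]
  have eS : (2 * a * b * (a + b) + RatFunc.C β₂ * a * b + RatFunc.C β₄ * (a + b)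
      + RatFunc.C β₆) = algebraMap K[X] (RatFunc K) (Sh β₂ β₄ β₆ a.num a.denom b.num b.denom)
        / (algebraMap K[X] (RatFunc K) a.denom * algebraMap K[X] (RatFunc K) b.denom) ^ 2 := by
    conv_lhs => rw [← ha, ← hb]
    rw [field_S _ _ _ _ _ _ _ ha₂ hb₂]
    unfold Sh
    simp only [map_add, map_mul, RatFunc.algebraMap_C, map_ofNat]
  have eN : (a ^ 2 * b ^ 2 - RatFunc.C β₄ * a * b - RatFunc.C β₆ * (a + b)
      - RatFunc.C β₈) = algebraMap K[X] (RatFunc K) (Nh β₄ β₆ β₈ a.num a.denom b.num b.denom)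
        / (algebraMap K[X] (RatFunc K) a.denom * algebraMap K[X] (RatFunc K) b.denom) ^ 2 := by
    conv_lhs => rw [← ha, ← hb]
    rw [field_N _ _ _ _ _ _ _ ha₂ hb₂]
    unfold Nh
    simp only [map_add, map_mul, map_one, map_neg, RatFunc.algebraMap_C]
  have e1 : c + d = algebraMap K[X] (RatFunc K) (c.num * d.denom + c.denom * d.num)
      / algebraMap K[X] (RatFunc K) (c.denom * d.denom) := by
    conv_lhs => rw [← hc, ← hd]
    rw [field_add _ _ _ _ hc₂ hd₂]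
    simp only [map_add, map_mul]
  have e0 : c * d = algebraMap K[X] (RatFunc K) (c.num * d.num)
      / algebraMap K[X] (RatFunc K) (c.denom * d.denom) := by
    conv_lhs => rw [← hc, ← hd]
    rw [field_mul]
    simp only [map_mul]
  have hS : (c.num * d.denom + c.denom * d.num) * Dh a.num a.denom b.num b.denom
      = Sh β₂ β₄ β₆ a.num a.denom b.num b.denom * (c.denom * d.denom) := by
    apply hinj
    rw [map_mul, map_mul]
    rw [e1, eS, e3, div_div_div_cancel_right₀ hab2, div_eq_div_iff hcd₂ hφD0] at hs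
    exact hs
  have hN : c.num * d.num * Dh a.num a.denom b.num b.denom
      = Nh β₄ β₆ β₈ a.num a.denom b.num b.denom * (c.denom * d.denom) := by
    apply hinj
    rw [map_mul (algebraMap K[X] (RatFunc K)) (c.num * d.num),
      map_mul (algebraMap K[X] (RatFunc K)) (Nh β₄ β₆ β₈ a.num a.denom b.num b.denom)]
    rw [e0, eN, e3, div_div_div_cancel_right₀ hab2, div_eq_div_iff hcd₂ hφD0] at hp
    exact hp
  exact core (RatFunc.isCoprime_num_denom c) (RatFunc.isCoprime_num_denom d)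
    c.denom_ne_zero d.denom_ne_zero hD0 hS hN
    (natDegree_Dh_le (natDegree_num_le_hdeg a) (natDegree_denom_le_hdeg a)
      (natDegree_num_le_hdeg b) (natDegree_denom_le_hdeg b))
    (natDegree_Sh_le _ _ _ (natDegree_num_le_hdeg a) (natDegree_denom_le_hdeg a)
      (natDegree_num_le_hdeg b) (natDegree_denom_le_hdeg b))
    (natDegree_Nh_le _ _ _ (natDegree_num_le_hdeg a) (natDegree_denom_le_hdeg a)
      (natDegree_num_le_hdeg b) (natDegree_denom_le_hdeg b))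

/-- **U-lemma** for a Weierstrass curve `W` over `K`, base-changed to `RatFunc K`
(`S05.Snum`, `S05.Nnum` are the numerators of `x(P+Q) + x(P-Q)` and `x(P+Q) x(P-Q)`). -/
theorem U (W : WeierstrassCurve K) {a b c d : RatFunc K} (hab : a ≠ b)
    (hs : c + d = S05.Snum (W.map (algebraMap K (RatFunc K))) a b / (a - b) ^ 2)
    (hp : c * d = S05.Nnum (W.map (algebraMap K (RatFunc K))) a b / (a - b) ^ 2) :
    hdeg c + hdeg d ≤ 2 * hdeg a + 2 * hdeg b := by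
  apply U_raw W.b₂ W.b₄ W.b₆ W.b₈ hab
  · rw [hs]
    simp only [S05.Snum, WeierstrassCurve.map_b₂, WeierstrassCurve.map_b₄,
      WeierstrassCurve.map_b₆, RatFunc.algebraMap_eq_C]
  · rw [hp]
    simp only [S05.Nnum, WeierstrassCurve.map_b₄, WeierstrassCurve.map_b₆,
      WeierstrassCurve.map_b₈, RatFunc.algebraMap_eq_C]

/-- the same with the `W⁄(RatFunc K)` notation of Mathlib (`WeierstrassCurve.baseChange`). -/
theorem U_baseChange (W : WeierstrassCurve K) {a b c d : RatFunc K} (hab : a ≠ b)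
    (hs : c + d = S05.Snum (W.baseChange (RatFunc K)) a b / (a - b) ^ 2)
    (hp : c * d = S05.Nnum (W.baseChange (RatFunc K)) a b / (a - b) ^ 2) :
    hdeg c + hdeg d ≤ 2 * hdeg a + 2 * hdeg b :=
  U W hab hs hp

end ratfunc

end Fermat.Agent.S13.TU
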