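/-
S13 (blueprint 7), package T-H final (helper51): the abstract height of `TH.lean` instantiated
with `TU.hdeg` (= `TD.ratDeg`), using the landed (U)-lemma `TU.U` and duplication lemma
`TD.ratDeg_dup'`.  Hypothesis-free versions of T1 (`x(nP) = (xs W n)(x)`) and
T2 (`hdeg (xs W n) = n²`).  Complete (no placeholders).
-/
import Mathlib
import Fermat.Agent.S13.TH
import Fermat.Agent.S13.TU
import Fermat.Agent.S13.TD

set_option autoImplicit false

namespace Fermat.Agent.S13.THFinal

open WeierstrassCurve WeierstrassCurve.Affine Fermat.Agent.S05 Fermat.Agent.S13.XsDef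
open Fermat.Agent.S13.TH

variable {K : Type*} [Field K] {W : WeierstrassCurve K}

/-- `TU.hdeg` satisfies the height axioms of `TH.lean` (needs `Δ ≠ 0` for (D)). -/
theorem heightAxioms (hΔ : W.Δ ≠ 0) : HeightAxioms W (TU.hdeg : RatFunc K → ℕ) where
  zero := by simp [TU.hdeg]
  X := by simp [TU.hdeg]
  U := fun hab hs hp => TU.U W hab hs hp
  D := fun a => TD.ratDeg_dup' W hΔ a

/-- **T2**: the height of `xs W n` is `n²`. -/
theorem hdeg_xs (hΔ : W.Δ ≠ 0) (h2 : (2 : K) ≠ 0) (n : ℕ) (hn : 1 ≤ n) :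
    TU.hdeg (xs W n) = n ^ 2 :=
  h_xs (heightAxioms hΔ) h2 n hn

/-- `max (deg num) (deg denom)` of `xs W n` is `n²`. -/
theorem max_natDegree_xs (hΔ : W.Δ ≠ 0) (h2 : (2 : K) ≠ 0) (n : ℕ) (hn : 1 ≤ n) :
    max (xs W n).num.natDegree (xs W n).denom.natDegree = n ^ 2 :=
  hdeg_xs hΔ h2 n hn

variable {L : Type*} [Field L] [Algebra K L] [DecidableEq L]

/-- **T1**: for a point `P = (x,y)` over an extension `L ⊇ K` with `x` transcendental over `K`,
`nP` is affine with `x(nP) = (xs W n)(x)` for every `n ≥ 1`. -/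
theorem nsmul_some (hΔ : W.Δ ≠ 0) (h2 : (2 : L) ≠ 0) {x y : L}
    (hx : Transcendental K x) (hP : (W.map (algebraMap K L)).toAffine.Nonsingular x y)
    (n : ℕ) (hn : 1 ≤ n) :
    ∃ (y' : L) (h' : (W.map (algebraMap K L)).toAffine.Nonsingular (ev hx (xs W n)) y'),
      n • (Point.some x y hP) = Point.some (ev hx (xs W n)) y' h' :=
  TH.nsmul_some (heightAxioms hΔ) h2 hx hP n hn

/-- T1 with the evaluation written out: `x(nP) = num(x) / denom(x)`. -/
theorem nsmul_some' (hΔ : W.Δ ≠ 0) (h2 : (2 : L) ≠ 0) {x y : L}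
    (hx : Transcendental K x) (hP : (W.map (algebraMap K L)).toAffine.Nonsingular x y)
    (n : ℕ) (hn : 1 ≤ n) :
    ∃ (x' y' : L) (h' : (W.map (algebraMap K L)).toAffine.Nonsingular x' y'),
      n • (Point.some x y hP) = Point.some x' y' h' ∧
      x' = Polynomial.aeval x (xs W n).num / Polynomial.aeval x (xs W n).denom ∧
      Polynomial.aeval x (xs W n).denom ≠ 0 := by
  obtain ⟨y', h', e⟩ := nsmul_some hΔ h2 hx hP n hn
  refine ⟨_, y', h', e, ev_apply hx _, ?_⟩
  intro h0
  exact (xs W n).denom_ne_zero ((transcendental_iff_injective.mp hx) (by rw [h0, map_zero]))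

end Fermat.Agent.S13.THFinal
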