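import Mathlib
import Fermat.Agent.S05.Defs
import Fermat.Agent.S05.OrdApi

/-!
# S13, package T-M: local models over `K((t))`

* `laurentVS K`: the valuation subring `K[[t]] ⊆ K((t))`; `lord K f = ord_t f` (as a rational
  number, junk value `0` at `0`); `isOrd_lord : S05.IsOrd (laurentVS K) (lord K)`.
* `exists_local_point`: every nonsingular point `(x₀, y₀)` of a Weierstrass curve over `K` lifts to
  a point with power series coordinates `(x₀ + t, Y(t))` or `(X(t), y₀ + t)` over `K((t))`.
-/

set_option autoImplicit false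
set_option linter.unusedSimpArgs false

open HahnSeries WeierstrassCurve

namespace Fermat.Agent.S13.TM

variable (K : Type*) [Field K]

/-- `ord_t`, with value `0` at `0`. -/
noncomputable def lord (f : LaurentSeries K) : ℚ := (f.order : ℚ)

variable {K}

lemma lord_mul {f g : LaurentSeries K} (hf : f ≠ 0) (hg : g ≠ 0) :
    lord K (f * g) = lord K f + lord K g := by
  unfold lord
  rw [HahnSeries.order_mul hf hg]
  push_cast
  ring

lemma order_inv {f : LaurentSeries K} (hf : f ≠ 0) : (f⁻¹).order = - f.order := by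
  have h := HahnSeries.order_mul hf (inv_ne_zero hf)
  rw [mul_inv_cancel₀ hf, HahnSeries.order_one] at h
  omega

variable (K)

/-- The valuation subring `K[[t]]` of `K((t))`. -/
noncomputable def laurentVS : ValuationSubring (LaurentSeries K) where
  carrier := {f | 0 ≤ f.order}
  mul_mem' := by
    intro f g hf hg
    simp only [Set.mem_ofPred_eq] at hf hg ⊢
    by_cases hf0 : f = 0
    · simp [hf0]
    by_cases hg0 : g = 0
    · simp [hg0]
    rw [HahnSeries.order_mul hf0 hg0]
    omega
  one_mem' := by simp
  add_mem' := by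
    intro f g hf hg
    simp only [Set.mem_ofPred_eq] at hf hg ⊢
    by_cases h : f + g = 0
    · simp [h]
    exact le_trans (le_min hf hg) (HahnSeries.min_order_le_order_add h)
  zero_mem' := by simp
  neg_mem' := by
    intro f hf
    simp only [Set.mem_ofPred_eq] at hf ⊢
    rwa [HahnSeries.order_neg]
  mem_or_inv_mem' := by
    intro f
    by_cases hf0 : f = 0
    · left; simp [hf0]
    simp only [Set.mem_ofPred_eq]
    rw [order_inv hf0]
    omega

variable {K}

lemma mem_laurentVS {f : LaurentSeries K} : f ∈ laurentVS K ↔ 0 ≤ f.order := Iff.rfl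

theorem isOrd_lord : S05.IsOrd (laurentVS K) (lord K) where
  map_mul := fun hx hy => lord_mul hx hy
  mem_iff := fun {x} _ => by
    rw [mem_laurentVS, lord]
    exact_mod_cast Iff.rfl

/-! ### Constants, power series, residues -/

lemma algebraMap_eq_single (c : K) :
    algebraMap K (LaurentSeries K) c = HahnSeries.single 0 c := by
  have h1 : algebraMap K (PowerSeries K) c = PowerSeries.C c := by
    simp
  rw [HahnSeries.algebraMap_apply', h1, HahnSeries.ofPowerSeries_C]
  rfl

lemma ofPowerSeries_coeff_neg (g : PowerSeries K) {k : ℤ} (hk : k < 0) :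
    (HahnSeries.ofPowerSeries ℤ K g).coeff k = 0 := by
  rw [HahnSeries.ofPowerSeries_apply]
  refine HahnSeries.embDomain_of_notMem_range ?_
  rintro ⟨m, rfl⟩
  exact absurd hk (not_lt.mpr (Int.natCast_nonneg m))

lemma ofPowerSeries_ne_zero {g : PowerSeries K} (hg : g ≠ 0) :
    HahnSeries.ofPowerSeries ℤ K g ≠ 0 := fun h =>
  hg (HahnSeries.ofPowerSeries_injective (by rw [h, map_zero]))

lemma lord_algebraMap {c : K} (hc : c ≠ 0) : lord K (algebraMap K (LaurentSeries K) c) = 0 := by
  rw [lord, algebraMap_eq_single, HahnSeries.order_single hc]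
  rfl

lemma algebraMap_mem (c : K) : algebraMap K (LaurentSeries K) c ∈ laurentVS K := by
  rw [mem_laurentVS, algebraMap_eq_single]
  by_cases hc : c = 0
  · simp [hc]
  · rw [HahnSeries.order_single hc]

lemma isU_algebraMap {c : K} (hc : c ≠ 0) :
    S05.IsU (lord K) (algebraMap K (LaurentSeries K) c) :=
  ⟨(map_ne_zero _).mpr hc, lord_algebraMap hc⟩

lemma isU_natCast [CharZero K] {n : ℕ} (hn : n ≠ 0) : S05.IsU (lord K) (n : LaurentSeries K) := by
  have h := isU_algebraMap (K := K) (c := (n : K)) (by exact_mod_cast hn)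
  rwa [map_natCast] at h

lemma isU_two [CharZero K] : S05.IsU (lord K) (2 : LaurentSeries K) := by
  have := isU_natCast (K := K) (n := 2) (by norm_num)
  exact_mod_cast this

lemma ofPowerSeries_mem (g : PowerSeries K) : HahnSeries.ofPowerSeries ℤ K g ∈ laurentVS K := by
  rw [mem_laurentVS]
  by_cases hg : g = 0
  · simp [hg]
  · by_contra hneg
    push Not at hneg
    exact ofPowerSeries_ne_zero hg
      (HahnSeries.coeff_order_eq_zero.mp (ofPowerSeries_coeff_neg g hneg))

lemma mem_laurentVS_iff {f : LaurentSeries K} :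
    f ∈ laurentVS K ↔ ∃ g : PowerSeries K, HahnSeries.ofPowerSeries ℤ K g = f := by
  constructor
  · intro hf
    rw [mem_laurentVS] at hf
    have h := LaurentSeries.single_order_mul_powerSeriesPart f
    obtain ⟨n, hn⟩ := Int.eq_ofNat_of_zero_le hf
    refine ⟨PowerSeries.X ^ n * LaurentSeries.powerSeriesPart f, ?_⟩
    rw [map_mul, map_pow, HahnSeries.ofPowerSeries_X, HahnSeries.single_pow, one_pow]
    conv_rhs => rw [← h, hn]
    simp
  · rintro ⟨g, rfl⟩
    exact ofPowerSeries_mem g

/-- `t = single 1 1`. -/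
lemma lord_single {n : ℤ} {c : K} (hc : c ≠ 0) : lord K (HahnSeries.single n c) = n := by
  rw [lord, HahnSeries.order_single hc]

/-- a power series is congruent to its constant coefficient modulo `t`. -/
lemma ofPowerSeries_sub_const_mem_nonunits (g : PowerSeries K) :
    HahnSeries.ofPowerSeries ℤ K g - algebraMap K (LaurentSeries K) (PowerSeries.constantCoeff g)
      ∈ (laurentVS K).nonunits := by
  obtain ⟨g', hg'⟩ : ∃ g', g - PowerSeries.C (PowerSeries.constantCoeff g) = PowerSeries.X * g' := by
    have : PowerSeries.X ∣ g - PowerSeries.C (PowerSeries.constantCoeff g) := by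
      rw [PowerSeries.X_dvd_iff]; simp
    exact this
  have h1 : HahnSeries.ofPowerSeries ℤ K g - algebraMap K (LaurentSeries K)
      (PowerSeries.constantCoeff g) = HahnSeries.single 1 1 * HahnSeries.ofPowerSeries ℤ K g' := by
    rw [← HahnSeries.ofPowerSeries_X, ← map_mul, ← hg', map_sub, HahnSeries.ofPowerSeries_C,
      algebraMap_eq_single]
    rfl
  rw [h1]
  by_cases hg0 : g' = 0
  · simp [hg0]
  refine isOrd_lord.mem_nonunits_of_pos ?_
  rw [lord_mul (by simp) (ofPowerSeries_ne_zero hg0), lord_single one_ne_zero]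
  have := (isOrd_lord (K := K)).nonneg_of_mem (ofPowerSeries_ne_zero hg0) (ofPowerSeries_mem g')
  push_cast
  linarith

/-! ### Hensel's lemma in `K[[t]]` and the local point -/

open Polynomial in
/-- Hensel's lemma in `K[[t]]`, in terms of constant coefficients. -/
theorem hensel_powerSeries (f : (PowerSeries K)[X]) (hf : f.Monic) (a₀ : K)
    (h0 : PowerSeries.constantCoeff (f.eval (PowerSeries.C a₀)) = 0)
    (h1 : PowerSeries.constantCoeff (f.derivative.eval (PowerSeries.C a₀)) ≠ 0) :
    ∃ a : PowerSeries K, f.IsRoot a ∧ PowerSeries.constantCoeff a = a₀ := by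
  have hmem : ∀ g : PowerSeries K, g ∈ (Ideal.span {PowerSeries.X} : Ideal (PowerSeries K)) ↔
      PowerSeries.constantCoeff g = 0 := by
    intro g
    rw [Ideal.mem_span_singleton, PowerSeries.X_dvd_iff]
  obtain ⟨a, ha, ha0⟩ := HenselianRing.is_henselian
    (I := (Ideal.span {PowerSeries.X} : Ideal (PowerSeries K))) f hf (PowerSeries.C a₀)
    ((hmem _).mpr h0)
    (IsUnit.map _ (PowerSeries.isUnit_iff_constantCoeff.mpr (isUnit_iff_ne_zero.mpr h1)))
  refine ⟨a, ha, ?_⟩
  have := (hmem _).mp ha0
  rw [map_sub, PowerSeries.constantCoeff_C, sub_eq_zero] at this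
  exact this

section LocalPoint

/-- Hensel for a monic quadratic over `K[[t]]`. -/
theorem hensel_quadratic (b c : PowerSeries K) (a₀ : K)
    (h0 : a₀ ^ 2 + PowerSeries.constantCoeff b * a₀ + PowerSeries.constantCoeff c = 0)
    (h1 : 2 * a₀ + PowerSeries.constantCoeff b ≠ 0) :
    ∃ a : PowerSeries K, a ^ 2 + b * a + c = 0 ∧ PowerSeries.constantCoeff a = a₀ := by
  have hfm : (Polynomial.X ^ 2 + (Polynomial.C b * Polynomial.X + Polynomial.C c) :
      Polynomial (PowerSeries K)).Monic :=
    Polynomial.monic_X_pow_add (lt_of_le_of_lt Polynomial.degree_linear_le (by norm_num))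
  obtain ⟨a, hroot, ha0⟩ := hensel_powerSeries _ hfm a₀ (by
      simp only [Polynomial.eval_add, Polynomial.eval_mul, Polynomial.eval_pow, Polynomial.eval_X,
        Polynomial.eval_C, map_add, map_mul, map_pow, PowerSeries.constantCoeff_C]
      linear_combination h0) (by
      simp only [Polynomial.derivative_add, Polynomial.derivative_mul, Polynomial.derivative_X_pow,
        Polynomial.derivative_C, Polynomial.derivative_X, Polynomial.eval_add, Polynomial.eval_mul,
        Polynomial.eval_pow, Polynomial.eval_X, Polynomial.eval_C, map_add, map_mul, map_pow,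
        PowerSeries.constantCoeff_C, Polynomial.eval_zero, map_zero, Polynomial.eval_one, map_one,
        Polynomial.eval_natCast, map_natCast]
      intro h
      apply h1
      linear_combination h)
  refine ⟨a, ?_, ha0⟩
  have := hroot
  simp only [Polynomial.IsRoot.def, Polynomial.eval_add, Polynomial.eval_mul, Polynomial.eval_pow,
    Polynomial.eval_X, Polynomial.eval_C] at this
  linear_combination this

/-- Hensel for a monic cubic over `K[[t]]`. -/
theorem hensel_cubic (b c d : PowerSeries K) (a₀ : K)
    (h0 : a₀ ^ 3 + PowerSeries.constantCoeff b * a₀ ^ 2 + PowerSeries.constantCoeff c * a₀ +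
      PowerSeries.constantCoeff d = 0)
    (h1 : 3 * a₀ ^ 2 + 2 * PowerSeries.constantCoeff b * a₀ + PowerSeries.constantCoeff c ≠ 0) :
    ∃ a : PowerSeries K, a ^ 3 + b * a ^ 2 + c * a + d = 0 ∧
      PowerSeries.constantCoeff a = a₀ := by
  have hfm : (Polynomial.X ^ 3 + (Polynomial.C b * Polynomial.X ^ 2 + Polynomial.C c * Polynomial.X
      + Polynomial.C d) : Polynomial (PowerSeries K)).Monic :=
    Polynomial.monic_X_pow_add (lt_of_le_of_lt Polynomial.degree_quadratic_le (by norm_num))
  obtain ⟨a, hroot, ha0⟩ := hensel_powerSeries _ hfm a₀ (by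
      simp only [Polynomial.eval_add, Polynomial.eval_mul, Polynomial.eval_pow, Polynomial.eval_X,
        Polynomial.eval_C, map_add, map_mul, map_pow, PowerSeries.constantCoeff_C]
      linear_combination h0) (by
      simp only [Polynomial.derivative_add, Polynomial.derivative_mul, Polynomial.derivative_X_pow,
        Polynomial.derivative_C, Polynomial.derivative_X, Polynomial.eval_add, Polynomial.eval_mul,
        Polynomial.eval_pow, Polynomial.eval_X, Polynomial.eval_C, map_add, map_mul, map_pow,
        PowerSeries.constantCoeff_C, Polynomial.eval_zero, map_zero, Polynomial.eval_one, map_one,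
        Polynomial.eval_natCast, map_natCast]
      intro h
      apply h1
      linear_combination h)
  refine ⟨a, ?_, ha0⟩
  have := hroot
  simp only [Polynomial.IsRoot.def, Polynomial.eval_add, Polynomial.eval_mul, Polynomial.eval_pow,
    Polynomial.eval_X, Polynomial.eval_C] at this
  linear_combination this

variable (W : Affine K)

/-- The curve over `K[[t]]`. -/
noncomputable abbrev curvePS : Affine (PowerSeries K) :=
  W.map (PowerSeries.C : K →+* PowerSeries K)

lemma ne_zero_of_constantCoeff_ne_zero {g : PowerSeries K}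
    (h : PowerSeries.constantCoeff g ≠ 0) : g ≠ 0 := by
  rintro rfl
  exact h (map_zero _)

/-- **Local model over `K[[t]]`**: a nonsingular point `(x₀,y₀)` lifts to a point with power
series coordinates, with `x = x₀ + t` if the point is not `2`-torsion (`2y₀+a₁x₀+a₃ ≠ 0`) and
`y = y₀ + t` otherwise. -/
theorem exists_local_point_powerSeries {x₀ y₀ : K} (h : W.Nonsingular x₀ y₀) :
    ∃ Xs Ys : PowerSeries K, PowerSeries.constantCoeff Xs = x₀ ∧
      PowerSeries.constantCoeff Ys = y₀ ∧ (curvePS W).Nonsingular Xs Ys ∧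
      (2 * y₀ + W.a₁ * x₀ + W.a₃ ≠ 0 → Xs = PowerSeries.C x₀ + PowerSeries.X) ∧
      (2 * y₀ + W.a₁ * x₀ + W.a₃ = 0 → Ys = PowerSeries.C y₀ + PowerSeries.X) := by
  rw [Affine.nonsingular_iff', Affine.equation_iff'] at h
  obtain ⟨heq, hns⟩ := h
  by_cases hD : 2 * y₀ + W.a₁ * x₀ + W.a₃ = 0
  · -- solve for `x`
    have hDx : W.a₁ * y₀ - (3 * x₀ ^ 2 + 2 * W.a₂ * x₀ + W.a₄) ≠ 0 := by
      rcases hns with h1 | h1
      · exact h1
      · exact absurd hD h1
    obtain ⟨Xs, hroot, hX0⟩ := hensel_cubic (PowerSeries.C W.a₂)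
      (PowerSeries.C W.a₄ - PowerSeries.C W.a₁ * (PowerSeries.C y₀ + PowerSeries.X))
      (PowerSeries.C W.a₆ - (PowerSeries.C y₀ + PowerSeries.X) ^ 2
        - PowerSeries.C W.a₃ * (PowerSeries.C y₀ + PowerSeries.X)) x₀ (by
        simp only [map_add, map_mul, map_pow, map_sub, PowerSeries.constantCoeff_C,
          PowerSeries.constantCoeff_X]
        linear_combination -heq) (by
        simp only [map_add, map_mul, map_pow, map_sub, PowerSeries.constantCoeff_C,
          PowerSeries.constantCoeff_X]
        intro h0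
        apply hDx
        linear_combination -h0)
    refine ⟨Xs, PowerSeries.C y₀ + PowerSeries.X, hX0, by simp, ?_, fun h => absurd hD h,
      fun _ => rfl⟩
    rw [Affine.nonsingular_iff', Affine.equation_iff']
    simp only [WeierstrassCurve.map_a₁, WeierstrassCurve.map_a₂, WeierstrassCurve.map_a₃,
      WeierstrassCurve.map_a₄, WeierstrassCurve.map_a₆]
    refine ⟨by linear_combination -hroot, Or.inl (ne_zero_of_constantCoeff_ne_zero ?_)⟩
    simp only [map_add, map_mul, map_pow, map_sub, PowerSeries.constantCoeff_C,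
      PowerSeries.constantCoeff_X, hX0, map_ofNat]
    simpa using hDx
  · -- solve for `y`
    obtain ⟨Ys, hroot, hY0⟩ := hensel_quadratic
      (PowerSeries.C W.a₁ * (PowerSeries.C x₀ + PowerSeries.X) + PowerSeries.C W.a₃)
      (-((PowerSeries.C x₀ + PowerSeries.X) ^ 3 + PowerSeries.C W.a₂ *
        (PowerSeries.C x₀ + PowerSeries.X) ^ 2 + PowerSeries.C W.a₄ *
        (PowerSeries.C x₀ + PowerSeries.X) + PowerSeries.C W.a₆)) y₀ (by
        simp only [map_add, map_mul, map_pow, map_neg, PowerSeries.constantCoeff_C,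
          PowerSeries.constantCoeff_X]
        linear_combination heq) (by
        simp only [map_add, map_mul, map_pow, map_neg, PowerSeries.constantCoeff_C,
          PowerSeries.constantCoeff_X]
        intro h0
        apply hD
        linear_combination h0)
    refine ⟨PowerSeries.C x₀ + PowerSeries.X, Ys, by simp, hY0, ?_, fun _ => rfl,
      fun h => absurd h hD⟩
    rw [Affine.nonsingular_iff', Affine.equation_iff']
    simp only [WeierstrassCurve.map_a₁, WeierstrassCurve.map_a₂, WeierstrassCurve.map_a₃,
      WeierstrassCurve.map_a₄, WeierstrassCurve.map_a₆]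
    refine ⟨by linear_combination hroot, Or.inr (ne_zero_of_constantCoeff_ne_zero ?_)⟩
    simp only [map_add, map_mul, map_pow, PowerSeries.constantCoeff_C,
      PowerSeries.constantCoeff_X, hY0, map_ofNat]
    simpa using hD

lemma ofPowerSeries_comp_C :
    (HahnSeries.ofPowerSeries ℤ K : PowerSeries K →+* LaurentSeries K).comp PowerSeries.C
      = algebraMap K (LaurentSeries K) := by
  ext c : 1
  rw [RingHom.comp_apply, HahnSeries.ofPowerSeries_C, algebraMap_eq_single]
  rfl

lemma curvePS_map : (curvePS W).map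
    (HahnSeries.ofPowerSeries ℤ K : PowerSeries K →+* LaurentSeries K)
      = Affine.baseChange W (LaurentSeries K) := by
  show (WeierstrassCurve.map (WeierstrassCurve.map W _) _) = WeierstrassCurve.map W _
  rw [WeierstrassCurve.map_map, ofPowerSeries_comp_C]

/-- **Local model over `K((t))`** (package T-M / T4): a nonsingular point `(x₀,y₀)` of `W` over `K`
lifts to a nonsingular point of `W` over `K((t))` with power series coordinates reducing to
`(x₀,y₀)` modulo `t`, with `x = x₀ + t` (if `2y₀+a₁x₀+a₃ ≠ 0`) or `y = y₀ + t` (otherwise). -/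
theorem exists_local_point {x₀ y₀ : K} (h : W.Nonsingular x₀ y₀) :
    ∃ Xs Ys : PowerSeries K, PowerSeries.constantCoeff Xs = x₀ ∧
      PowerSeries.constantCoeff Ys = y₀ ∧
      (Affine.baseChange W (LaurentSeries K)).Nonsingular
        (HahnSeries.ofPowerSeries ℤ K Xs) (HahnSeries.ofPowerSeries ℤ K Ys) ∧
      (2 * y₀ + W.a₁ * x₀ + W.a₃ ≠ 0 → Xs = PowerSeries.C x₀ + PowerSeries.X) ∧
      (2 * y₀ + W.a₁ * x₀ + W.a₃ = 0 → Ys = PowerSeries.C y₀ + PowerSeries.X) := by
  obtain ⟨Xs, Ys, hX, hY, hns, h1, h2⟩ := exists_local_point_powerSeries W h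
  refine ⟨Xs, Ys, hX, hY, ?_, h1, h2⟩
  rw [← curvePS_map]
  exact (Affine.map_nonsingular (curvePS W) HahnSeries.ofPowerSeries_injective Xs Ys).mpr hns

/-- the coordinates of the local point reduce to `(x₀, y₀)` modulo `t`. -/
lemma ofPowerSeries_sub_mem_nonunits {g : PowerSeries K} {c : K}
    (hg : PowerSeries.constantCoeff g = c) :
    HahnSeries.ofPowerSeries ℤ K g - algebraMap K (LaurentSeries K) c ∈ (laurentVS K).nonunits := by
  rw [← hg]
  exact ofPowerSeries_sub_const_mem_nonunits g

/-- `ord_t (x₀ + t - x₀) = 1`. -/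
lemma lord_ofPowerSeries_C_add_X_sub (c : K) :
    lord K (HahnSeries.ofPowerSeries ℤ K (PowerSeries.C c + PowerSeries.X)
      - algebraMap K (LaurentSeries K) c) = 1 := by
  rw [map_add, HahnSeries.ofPowerSeries_C, HahnSeries.ofPowerSeries_X, algebraMap_eq_single]
  have : (HahnSeries.C c + HahnSeries.single 1 1 - HahnSeries.single 0 c : LaurentSeries K)
      = HahnSeries.single 1 1 := by
    show HahnSeries.single 0 c + HahnSeries.single 1 1 - HahnSeries.single 0 c = _
    rw [add_sub_cancel_left]
  rw [this, lord_single one_ne_zero]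
  norm_num

/-- the base-changed curve has coefficients in `K[[t]]`. -/
lemma isIntegralW_baseChange :
    S05.IsIntegralW (Affine.baseChange W (LaurentSeries K)) (laurentVS K) := by
  refine ⟨?_, ?_, ?_, ?_, ?_⟩ <;>
  · simp only [Affine.baseChange, WeierstrassCurve.baseChange, WeierstrassCurve.map_a₁,
      WeierstrassCurve.map_a₂, WeierstrassCurve.map_a₃, WeierstrassCurve.map_a₄,
      WeierstrassCurve.map_a₆]
    exact algebraMap_mem _

/-- the discriminant of the base-changed curve is a unit of `K[[t]]`. -/
lemma isU_Δ_baseChange (hΔ : W.Δ ≠ 0) :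
    S05.IsU (lord K) (Affine.baseChange W (LaurentSeries K)).Δ := by
  have : (Affine.baseChange W (LaurentSeries K)).Δ = algebraMap K (LaurentSeries K) W.Δ := by
    simp only [Affine.baseChange, WeierstrassCurve.baseChange, WeierstrassCurve.map_Δ]
  rw [this]
  exact isU_algebraMap hΔ

end LocalPoint

end Fermat.Agent.S13.TM
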