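/-
S13 (blueprint 7, heights route = BACKUP), package T-S (helper51): SPECIALISATION.
For a "local model" `(L, A, ord)` over `K` (valued extension with residue field `K`), a point
`P = (x, y)` of `W` over `L` with `x` transcendental over `K` reducing to `Q₀ = (x₀, y₀)`, and
`φ/θ = xs W n` in lowest terms:
* `n • Q₀ = 0  →  θ(x₀) = 0`;
* `n • Q₀ = (xₙ, yₙ)  →  θ(x₀) ≠ 0 ∧ xₙ θ(x₀) = φ(x₀)`;
* if moreover `ord (x - x₀) = 1` and `Q₀` is not `2`-torsion: `n • Q₀ = 0 → (X - x₀)² ∣ θ`.
Complete (no placeholders).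
-/
import Mathlib
import Fermat.Agent.S05.Defs
import Fermat.Agent.S05.OrdApi
import Fermat.Agent.S05.XFormulas
import Fermat.Agent.S05.Pole
import Fermat.Agent.S05.Congr
import Fermat.Agent.S05.Good
import Fermat.Agent.S13.XsDef
import Fermat.Agent.S13.TH
import Fermat.Agent.S13.THFinal
import Fermat.Agent.S13.TM46

set_option autoImplicit false

namespace Fermat.Agent.S13.TS51

open WeierstrassCurve WeierstrassCurve.Affine Fermat.Agent.S05 Fermat.Agent.S13.XsDef Polynomial

/-- A valued extension `L ⊇ K` with residue field `K`: nonzero constants are units and every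
integral element is congruent to a constant modulo the maximal ideal. -/
structure IsLocalModel (K : Type*) {L : Type*} [Field K] [Field L] [Algebra K L]
    (A : ValuationSubring L) (ord : L → ℚ) : Prop where
  isOrd : IsOrd A ord
  const : ∀ c : K, c ≠ 0 → IsU ord (algebraMap K L c)
  res : ∀ z ∈ A, ∃ c : K, z - algebraMap K L c ∈ A.nonunits

namespace IsLocalModel

variable {K : Type*} {L : Type*} [Field K] [Field L] [Algebra K L]
  {A : ValuationSubring L} {ord : L → ℚ} (M : IsLocalModel K A ord)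
include M

theorem const_mem (c : K) : algebraMap K L c ∈ A := by
  by_cases hc : c = 0
  · rw [hc, map_zero]; exact A.zero_mem
  · exact M.isOrd.IsU_mem (M.const c hc)

theorem const_eq_zero {c : K} (hc : algebraMap K L c ∈ A.nonunits) : c = 0 := by
  by_contra h
  exact ((M.isOrd.isU_iff_mem_not_nonunits).mp (M.const c h)).2 hc

theorem aeval_mem {x : L} (hx : x ∈ A) (q : K[X]) : aeval x q ∈ A := by
  rw [aeval_eq_sum_range]
  refine sum_mem fun i _ => ?_
  rw [Algebra.smul_def]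
  exact mul_mem (M.const_mem _) (pow_mem hx i)

theorem pow_sub_pow_mem_nonunits {x a : L} (hx : x ∈ A) (ha : a ∈ A)
    (hxa : x - a ∈ A.nonunits) (n : ℕ) : x ^ n - a ^ n ∈ A.nonunits := by
  induction n with
  | zero => simp only [pow_zero, sub_self]; exact A.nonunits.zero_mem
  | succ k ih =>
    have : x ^ (k + 1) - a ^ (k + 1) = x * (x ^ k - a ^ k) + a ^ k * (x - a) := by ring
    rw [this]
    exact GoodRed.GR_nonunits_add (GoodRed.GR_mul_nonunits hx ih)
      (GoodRed.GR_mul_nonunits (pow_mem ha k) hxa)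

theorem aeval_sub_mem_nonunits {x : L} {x₀ : K} (hx : x ∈ A)
    (hxa : x - algebraMap K L x₀ ∈ A.nonunits) (q : K[X]) :
    aeval x q - algebraMap K L (q.eval x₀) ∈ A.nonunits := by
  have h1 : algebraMap K L (q.eval x₀) = aeval (algebraMap K L x₀) q := by
    rw [aeval_algebraMap_apply, coe_aeval_eq_eval]
  rw [h1, aeval_eq_sum_range, aeval_eq_sum_range' (lt_add_one q.natDegree), ← Finset.sum_sub_distrib]
  have hsum : ∀ s : Finset ℕ, (∑ i ∈ s, (q.coeff i • x ^ i - q.coeff i • algebraMap K L x₀ ^ i))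
      ∈ A.nonunits := by
    intro s
    induction s using Finset.induction_on with
    | empty => simp only [Finset.sum_empty]; exact A.nonunits.zero_mem
    | insert a s ha ih =>
      rw [Finset.sum_insert ha]
      refine GoodRed.GR_nonunits_add ?_ ih
      rw [← smul_sub, Algebra.smul_def]
      exact GoodRed.GR_mul_nonunits (M.const_mem _)
        (M.pow_sub_pow_mem_nonunits hx (M.const_mem _) hxa a)
  exact hsum _

end IsLocalModel

section curve

variable {K : Type*} {L : Type*} [Field K] [Field L] [Algebra K L] [DecidableEq K] [DecidableEq L]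
  {A : ValuationSubring L} {ord : L → ℚ} (M : IsLocalModel K A ord) (W : Affine K)

include M in
theorem isIntegralW : IsIntegralW (W⁄L) A := by
  refine ⟨?_, ?_, ?_, ?_, ?_⟩ <;>
  · simp only [Affine.baseChange, WeierstrassCurve.baseChange, WeierstrassCurve.map_a₁,
      WeierstrassCurve.map_a₂, WeierstrassCurve.map_a₃, WeierstrassCurve.map_a₄,
      WeierstrassCurve.map_a₆]
    exact M.const_mem _

include M in
theorem isU_Δ (hΔ : W.Δ ≠ 0) : IsU ord (W⁄L).Δ := by
  have : (W⁄L).Δ = algebraMap K L W.Δ := by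
    simp only [Affine.baseChange, WeierstrassCurve.baseChange, WeierstrassCurve.map_Δ]
  rw [this]
  exact M.const _ hΔ

/-- base change of points from `K` to `L` ("constant points"). -/
noncomputable def bc : W.Point →+ (W⁄L).Point :=
  (Point.map (W' := W) (Algebra.ofId K L) : (W⁄K).Point →+ (W⁄L).Point)

theorem bc_some {x y : K} (h : W.Nonsingular x y) :
    ∃ h' : (W⁄L).Nonsingular (algebraMap K L x) (algebraMap K L y),
      bc (L := L) W (Point.some x y h) = Point.some (algebraMap K L x) (algebraMap K L y) h' :=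
  ⟨_, Point.map_some (W' := W) (Algebra.ofId K L) (x := x) (y := y) h⟩

include M in
/-- a constant point in the kernel of reduction is zero. -/
theorem eq_zero_of_bc_mem_E1 {R : W.Point} (hR : bc (L := L) W R ∈ E1 (W⁄L) ord) : R = 0 := by
  rcases R with _ | ⟨x, y, h⟩
  · rfl
  · exfalso
    obtain ⟨h', e⟩ := bc_some (L := L) W h
    have e' : bc (L := L) W (Point.some x y h) = Point.some _ _ h' := e
    rw [e'] at hR
    rcases hR with h0 | ⟨x', y', h'', e2, hx0, hlt⟩
    · exact Point.some_ne_zero _ h0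
    · injection e2 with e3 e4
      rw [← e3] at hx0 hlt
      have hx : x ≠ 0 := by
        intro h0; apply hx0; rw [h0, map_zero]
      rw [(M.const x hx).2] at hlt
      exact lt_irrefl _ hlt

variable {W}

include M in
theorem E1_nsmul_mem (h2 : IsU ord (2 : L)) {P : (W⁄L).Point} (hP : P ∈ E1 (W⁄L) ord) (n : ℕ) :
    n • P ∈ E1 (W⁄L) ord := by
  induction n with
  | zero => rw [zero_nsmul]; exact Or.inl rfl
  | succ k ih =>
    rw [succ_nsmul]
    exact E1_add_mem (W⁄L) M.isOrd h2 (isIntegralW M W) ih hP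

include M in
theorem poleSet_nsmul_mem (h2 : IsU ord (2 : L)) {b : ℚ} (hb : b < 0) {P : (W⁄L).Point}
    (hP : P ∈ poleSet (W⁄L) ord b) (n : ℕ) : n • P ∈ poleSet (W⁄L) ord b := by
  induction n with
  | zero => rw [zero_nsmul]; exact Or.inl rfl
  | succ k ih =>
    rw [succ_nsmul]
    exact poleSet_add_mem (W⁄L) M.isOrd h2 (isIntegralW M W) hb ih hP

include M in
theorem E1_sub_mem (h2 : IsU ord (2 : L)) {P Q : (W⁄L).Point} (hP : P ∈ E1 (W⁄L) ord)
    (hQ : Q ∈ E1 (W⁄L) ord) : P - Q ∈ E1 (W⁄L) ord := by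
  rw [sub_eq_add_neg]
  exact E1_add_mem (W⁄L) M.isOrd h2 (isIntegralW M W) hP (E1_neg_mem (W⁄L) hQ)

end curve

section spec

variable {K : Type*} {L : Type*} [Field K] [Field L] [Algebra K L] [DecidableEq K] [DecidableEq L]
  {A : ValuationSubring L} {ord : L → ℚ} (M : IsLocalModel K A ord) {W : Affine K}

include M in
/-- an integral point of `W⁄L` congruent to a constant point differs from it by an element of
`E₁`. -/
theorem sub_bc_mem_E1 (h2 : IsU ord (2 : L)) (hΔ : W.Δ ≠ 0) {x y : L}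
    (hP : (W⁄L).Nonsingular x y) {x₀ y₀ : K} (h₀ : W.Nonsingular x₀ y₀) (hxA : x ∈ A)
    (hxr : x - algebraMap K L x₀ ∈ A.nonunits) (hyr : y - algebraMap K L y₀ ∈ A.nonunits) :
    Point.some x y hP - bc (L := L) W (Point.some x₀ y₀ h₀) ∈ E1 (W⁄L) ord := by
  obtain ⟨h', e⟩ := bc_some (L := L) W h₀
  rw [e]
  have hns : IsNsInt (W⁄L) A ord x y :=
    GoodRed.isNsInt_of_good (W⁄L) M.isOrd h2 (isIntegralW M W) (isU_Δ M W hΔ) hP.1 hxA
  exact sub_mem_E1_of_congr (W⁄L) M.isOrd h2 (isIntegralW M W) hP h' hns (M.const_mem _)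
    (M.const_mem _) hxr hyr

include M in
/-- reduction of an integral point: it is congruent to a constant point. -/
theorem exists_reduction (h2 : IsU ord (2 : L)) (hΔ : W.Δ ≠ 0) {x y : L}
    (hP : (W⁄L).Nonsingular x y) (hxA : x ∈ A) :
    ∃ (x₀ y₀ : K) (h₀ : W.Nonsingular x₀ y₀), x - algebraMap K L x₀ ∈ A.nonunits ∧
      y - algebraMap K L y₀ ∈ A.nonunits := by
  have hns : IsNsInt (W⁄L) A ord x y :=
    GoodRed.isNsInt_of_good (W⁄L) M.isOrd h2 (isIntegralW M W) (isU_Δ M W hΔ) hP.1 hxA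
  have hyA : y ∈ A := hns.2.1
  obtain ⟨x₀, hx₀⟩ := M.res x hxA
  obtain ⟨y₀, hy₀⟩ := M.res y hyA
  have hE : W.Equation x₀ y₀ := by
    rw [Affine.equation_iff]
    have hEL := hP.1
    rw [Affine.equation_iff] at hEL
    simp only [Affine.baseChange, WeierstrassCurve.baseChange, WeierstrassCurve.map_a₁,
      WeierstrassCurve.map_a₂, WeierstrassCurve.map_a₃, WeierstrassCurve.map_a₄,
      WeierstrassCurve.map_a₆] at hEL
    -- the Weierstrass polynomial at `(x₀,y₀)` is a constant in the maximal ideal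
    have hcongr : algebraMap K L (y₀ ^ 2 + W.a₁ * x₀ * y₀ + W.a₃ * y₀
        - (x₀ ^ 3 + W.a₂ * x₀ ^ 2 + W.a₄ * x₀ + W.a₆)) ∈ A.nonunits := by
      have hid : algebraMap K L (y₀ ^ 2 + W.a₁ * x₀ * y₀ + W.a₃ * y₀
          - (x₀ ^ 3 + W.a₂ * x₀ ^ 2 + W.a₄ * x₀ + W.a₆))
          = (y - algebraMap K L y₀) * (-(y + algebraMap K L y₀ + algebraMap K L W.a₁ * x
              + algebraMap K L W.a₃))
            + (x - algebraMap K L x₀) * (-(algebraMap K L W.a₁ * algebraMap K L y₀)
              + (x ^ 2 + x * algebraMap K L x₀ + algebraMap K L x₀ ^ 2)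
              + algebraMap K L W.a₂ * (x + algebraMap K L x₀) + algebraMap K L W.a₄) := by
        simp only [map_sub, map_add, map_mul, map_pow]
        linear_combination hEL
      rw [hid]
      have cA := fun c : K => M.const_mem c
      refine add_mem ?_ ?_
      · rw [mul_comm]
        refine GoodRed.GR_mul_nonunits ?_ hy₀
        exact neg_mem (add_mem (add_mem (add_mem hyA (cA _)) (mul_mem (cA _) hxA)) (cA _))
      · rw [mul_comm]
        refine GoodRed.GR_mul_nonunits ?_ hx₀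
        refine add_mem (add_mem (add_mem (neg_mem (mul_mem (cA _) (cA _))) ?_) ?_) (cA _)
        · exact add_mem (add_mem (pow_mem hxA 2) (mul_mem hxA (cA _))) (pow_mem (cA _) 2)
        · exact mul_mem (cA _) (add_mem hxA (cA _))
    have := M.const_eq_zero hcongr
    linear_combination this
  exact ⟨x₀, y₀, (Affine.equation_iff_nonsingular_of_Δ_ne_zero hΔ).mp hE, hx₀, hy₀⟩

end spec

section main

variable {K : Type*} {L : Type*} [Field K] [Field L] [Algebra K L] [DecidableEq K] [DecidableEq L]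
  {A : ValuationSubring L} {ord : L → ℚ} (M : IsLocalModel K A ord) {W : Affine K}

include M in
/-- core of the specialisation argument. -/
theorem spec_core (h2 : IsU ord (2 : L)) (hΔ : W.Δ ≠ 0) {x y : L}
    (hP : (W⁄L).Nonsingular x y) (hx : Transcendental K x) {x₀ y₀ : K}
    (h₀ : W.Nonsingular x₀ y₀) (hxA : x ∈ A)
    (hxr : x - algebraMap K L x₀ ∈ A.nonunits) (hyr : y - algebraMap K L y₀ ∈ A.nonunits)
    (n : ℕ) (hn : 1 ≤ n) :
    ∃ (X Y : L) (hS : (W⁄L).Nonsingular X Y), n • (Point.some x y hP) = Point.some X Y hS ∧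
      X * aeval x (xs W n).denom = aeval x (xs W n).num ∧ aeval x (xs W n).denom ≠ 0 ∧
      Point.some X Y hS - bc (L := L) W (n • Point.some x₀ y₀ h₀) ∈ E1 (W⁄L) ord := by
  obtain ⟨X, Y, hS, e, hX, hden⟩ : ∃ (X Y : L) (hS : (W⁄L).Nonsingular X Y),
      n • (Point.some x y hP : (W⁄L).Point) = Point.some X Y hS ∧
      X = aeval x (xs W n).num / aeval x (xs W n).denom ∧ aeval x (xs W n).denom ≠ 0 :=
    THFinal.nsmul_some' (W := W) (L := L) hΔ h2.1 hx hP n hn
  refine ⟨X, Y, hS, e, ?_, hden, ?_⟩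
  · rw [hX, div_mul_cancel₀ _ hden]
  · have hD := sub_bc_mem_E1 M h2 hΔ hP h₀ hxA hxr hyr
    have hnD := E1_nsmul_mem M h2 hD n
    rw [smul_sub, ← map_nsmul, e] at hnD
    exact hnD

include M in
/-- **specialisation, torsion case**: `n • Q₀ = 0 → θₙ(x₀) = 0`. -/
theorem spec_zero (h2 : IsU ord (2 : L)) (hΔ : W.Δ ≠ 0) {x y : L}
    (hP : (W⁄L).Nonsingular x y) (hx : Transcendental K x) {x₀ y₀ : K}
    (h₀ : W.Nonsingular x₀ y₀) (hxA : x ∈ A)
    (hxr : x - algebraMap K L x₀ ∈ A.nonunits) (hyr : y - algebraMap K L y₀ ∈ A.nonunits)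
    (n : ℕ) (hn : 1 ≤ n) (hQ : n • Point.some x₀ y₀ h₀ = 0) :
    (xs W n).denom.eval x₀ = 0 := by
  obtain ⟨X, Y, hS, -, hX, hden, hE⟩ := spec_core M h2 hΔ hP hx h₀ hxA hxr hyr n hn
  rw [hQ, map_zero, sub_zero] at hE
  rcases hE with h0 | ⟨X', Y', hS', e2, hX0, hlt⟩
  · exact absurd h0 (Point.some_ne_zero _)
  injection e2 with e3 e4
  rw [← e3] at hX0 hlt
  by_contra hθ
  have hU : IsU ord (aeval x (xs W n).denom) :=
    M.isOrd.IsU_of_sub_mem_nonunits (M.const _ hθ) (M.aeval_sub_mem_nonunits hxA hxr _)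
  have hXA : X ∈ A := by
    have : X = aeval x (xs W n).num * (aeval x (xs W n).denom)⁻¹ := by
      rw [← hX, mul_assoc, mul_inv_cancel₀ hden, mul_one]
    rw [this]
    exact mul_mem (M.aeval_mem hxA _) (M.isOrd.IsU_mem (M.isOrd.IsU_inv hU))
  exact absurd hXA ((M.isOrd.not_mem_iff hX0).2 hlt)

include M in
/-- **specialisation, non-torsion case**: if `n • Q₀ = (xₙ, yₙ)` then `θₙ(x₀) ≠ 0` and
`xₙ θₙ(x₀) = φₙ(x₀)`. -/
theorem spec_some (h2 : IsU ord (2 : L)) (hΔ : W.Δ ≠ 0) {x y : L}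
    (hP : (W⁄L).Nonsingular x y) (hx : Transcendental K x) {x₀ y₀ : K}
    (h₀ : W.Nonsingular x₀ y₀) (hxA : x ∈ A)
    (hxr : x - algebraMap K L x₀ ∈ A.nonunits) (hyr : y - algebraMap K L y₀ ∈ A.nonunits)
    (n : ℕ) (hn : 1 ≤ n) {xₙ yₙ : K} {hₙ : W.Nonsingular xₙ yₙ}
    (hQ : n • Point.some x₀ y₀ h₀ = Point.some xₙ yₙ hₙ) :
    (xs W n).denom.eval x₀ ≠ 0 ∧ xₙ * (xs W n).denom.eval x₀ = (xs W n).num.eval x₀ := by
  obtain ⟨X, Y, hS, -, hX, hden, hE⟩ := spec_core M h2 hΔ hP hx h₀ hxA hxr hyr n hn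
  -- Step A: `X ∈ A`
  have hXA : X ∈ A := by
    by_contra hXA
    have hX0 : X ≠ 0 := fun h0 => hXA (h0 ▸ A.zero_mem)
    have hSE : Point.some X Y hS ∈ E1 (W⁄L) ord :=
      Or.inr ⟨X, Y, hS, rfl, hX0, (M.isOrd.not_mem_iff hX0).1 hXA⟩
    have := E1_sub_mem M h2 hSE hE
    rw [sub_sub_cancel] at this
    have h0 := eq_zero_of_bc_mem_E1 M W this
    rw [hQ] at h0
    exact Point.some_ne_zero _ h0
  have hres_θ := M.aeval_sub_mem_nonunits hxA hxr (xs W n).denom
  have hres_φ := M.aeval_sub_mem_nonunits hxA hxr (xs W n).num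
  -- Step B: `θ(x₀) ≠ 0`
  have hθ : (xs W n).denom.eval x₀ ≠ 0 := by
    intro hθ
    rw [hθ, map_zero, sub_zero] at hres_θ
    have hφm : aeval x (xs W n).num ∈ A.nonunits := by
      rw [← hX]; exact GoodRed.GR_mul_nonunits hXA hres_θ
    have hφ0 : (xs W n).num.eval x₀ = 0 := by
      apply M.const_eq_zero
      have := sub_mem hφm hres_φ
      rwa [sub_sub_cancel] at this
    obtain ⟨u, v, huv⟩ := RatFunc.isCoprime_num_denom (xs W n)
    have := congrArg (Polynomial.eval x₀) huv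
    rw [eval_add, eval_mul, eval_mul, hφ0, hθ, mul_zero, mul_zero, add_zero, eval_one] at this
    exact zero_ne_one this
  refine ⟨hθ, ?_⟩
  -- Step C: reduce the point `(X, Y)`
  obtain ⟨x', y', h', hx', hy'⟩ := exists_reduction M h2 hΔ hS hXA
  have hE' := sub_bc_mem_E1 M h2 hΔ hS h' hXA hx' hy'
  have hdiff := E1_sub_mem M h2 hE hE'
  rw [sub_sub_sub_cancel_left, ← map_sub] at hdiff
  have h0 := eq_zero_of_bc_mem_E1 M W hdiff
  rw [sub_eq_zero, hQ] at h0
  injection h0 with e1 e2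
  subst e1
  -- now `x' θ(x₀) = φ(x₀)`
  have hmem : algebraMap K L (x' * (xs W n).denom.eval x₀ - (xs W n).num.eval x₀) ∈ A.nonunits := by
    have hid : algebraMap K L (x' * (xs W n).denom.eval x₀ - (xs W n).num.eval x₀)
        = (aeval x (xs W n).num - algebraMap K L ((xs W n).num.eval x₀))
          - X * (aeval x (xs W n).denom - algebraMap K L ((xs W n).denom.eval x₀))
          - algebraMap K L ((xs W n).denom.eval x₀) * (X - algebraMap K L x') := by
      simp only [map_sub, map_mul]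
      linear_combination hX
    rw [hid]
    refine sub_mem (sub_mem hres_φ (GoodRed.GR_mul_nonunits hXA hres_θ)) ?_
    exact GoodRed.GR_mul_nonunits (M.const_mem _) hx'
  have := M.const_eq_zero hmem
  linear_combination this

end main

section double

variable {K : Type*} {L : Type*} [Field K] [Field L] [Algebra K L] [DecidableEq K] [DecidableEq L]
  {A : ValuationSubring L} {ord : L → ℚ} (M : IsLocalModel K A ord) {W : Affine K}

include M in
/-- **specialisation, multiplicity**: if `x - x₀` is a uniformiser and `Q₀` is not `2`-torsion,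
then `n • Q₀ = 0` forces `(X - x₀)² ∣ θₙ`. -/
theorem spec_sq (h2 : IsU ord (2 : L)) (hΔ : W.Δ ≠ 0) {x y : L}
    (hP : (W⁄L).Nonsingular x y) (hx : Transcendental K x) {x₀ y₀ : K}
    (h₀ : W.Nonsingular x₀ y₀) (hxA : x ∈ A)
    (hxr : x - algebraMap K L x₀ ∈ A.nonunits) (hyr : y - algebraMap K L y₀ ∈ A.nonunits)
    (hunif : ord (x - algebraMap K L x₀) = 1) (hY₀ : Yc W x₀ y₀ ≠ 0)
    (n : ℕ) (hn : 1 ≤ n) (hQ : n • Point.some x₀ y₀ h₀ = 0) :
    (X - C x₀) ^ 2 ∣ (xs W n).denom := by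
  have hord := M.isOrd
  have hW := isIntegralW M W (L := L)
  have cA := fun c : K => M.const_mem (A := A) (ord := ord) (L := L) c
  -- `x ≠ x₀`
  have hne : x ≠ algebraMap K L x₀ := by
    intro e
    rw [e] at hx
    exact hx (isAlgebraic_algebraMap x₀)
  have hd0 : x - algebraMap K L x₀ ≠ 0 := sub_ne_zero.mpr hne
  obtain ⟨h', e⟩ := bc_some (L := L) W h₀
  obtain ⟨x₃, y₃, x₄, y₄, h₃, h₄, -, hsub, -, -, -, h4x₄⟩ := xadd (W⁄L) h2.1 hP h' hne
  -- the right-hand side of the difference formula is a unit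
  have hy_mem : y ∈ A :=
    (GoodRed.isNsInt_of_good (W⁄L) hord h2 hW (isU_Δ M W hΔ) hP.1 hxA).2.1
  have hYc_const : Yc (W⁄L) (algebraMap K L x₀) (algebraMap K L y₀)
      = algebraMap K L (Yc W x₀ y₀) := by
    simp only [Yc, Affine.baseChange, WeierstrassCurve.baseChange, WeierstrassCurve.map_a₁,
      WeierstrassCurve.map_a₃, map_add, map_mul, map_ofNat]
  have hUY : IsU ord (Yc (W⁄L) x y + Yc (W⁄L) (algebraMap K L x₀) (algebraMap K L y₀)) := by
    have hsplit : Yc (W⁄L) x y + Yc (W⁄L) (algebraMap K L x₀) (algebraMap K L y₀)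
        = 2 * algebraMap K L (Yc W x₀ y₀)
          + (2 * (y - algebraMap K L y₀) + (W⁄L).a₁ * (x - algebraMap K L x₀)) := by
      rw [hYc_const.symm]
      simp only [Yc]
      ring
    rw [hsplit]
    refine hord.IsU_add_nonunit (hord.IsU_mul h2 (M.const _ hY₀)) ?_
    exact add_mem (GoodRed.GR_mul_nonunits (hord.IsU_mem h2) hyr)
      (GoodRed.GR_mul_nonunits hW.1 hxr)
  have hb2 : (W⁄L).b₂ ∈ A := GoodRed.GR_b₂_mem (W⁄L) hW
  have h4A : (4 : L) ∈ A := by
    have : (4 : L) = 2 * 2 := by norm_num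
    rw [this]; exact mul_mem (hord.IsU_mem h2) (hord.IsU_mem h2)
  have hURHS : IsU ord ((Yc (W⁄L) x y + Yc (W⁄L) (algebraMap K L x₀) (algebraMap K L y₀)) ^ 2
      - ((W⁄L).b₂ + 4 * (x + algebraMap K L x₀)) * (x - algebraMap K L x₀) ^ 2) := by
    refine hord.IsU_sub_nonunit (hord.IsU_pow hUY 2) ?_
    refine GoodRed.GR_mul_nonunits (add_mem hb2 (mul_mem h4A (add_mem hxA (cA _)))) ?_
    rw [pow_two]
    exact GoodRed.GR_mul_nonunits (hord.nonunits_subset hxr) hxr
  rw [← h4x₄] at hURHS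
  -- so `ord x₄ = -2`
  have hx₄0 : x₄ ≠ 0 := by
    intro h0
    rw [h0, mul_zero, zero_mul] at hURHS
    exact hURHS.1 rfl
  have h4U : IsU ord (4 : L) := by
    have : (4 : L) = 2 * 2 := by norm_num
    rw [this]; exact hord.IsU_mul h2 h2
  have hordx₄ : ord x₄ = -2 := by
    have h1 := hURHS.2
    rw [hord.ord_mul (mul_ne_zero h4U.1 hx₄0) (pow_ne_zero 2 hd0),
      hord.ord_mul h4U.1 hx₄0, h4U.2, hord.ord_pow hd0, hunif] at h1
    push_cast at h1
    linarith
  -- `D = P - Q₀ ∈ poleSet (-2)`, hence `n • D` too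
  have hD : Point.some x y hP - bc (L := L) W (Point.some x₀ y₀ h₀) ∈ poleSet (W⁄L) ord (-2) := by
    rw [e, hsub]
    exact Or.inr ⟨x₄, y₄, h₄, rfl, hx₄0, hordx₄.le⟩
  have hnD := poleSet_nsmul_mem M h2 (by norm_num : (-2 : ℚ) < 0) hD n
  obtain ⟨X', Y', hS, eS, hX, hden, -⟩ := spec_core M h2 hΔ hP hx h₀ hxA hxr hyr n hn
  rw [smul_sub, ← map_nsmul, hQ, map_zero, sub_zero, eS] at hnD
  rcases hnD with h0 | ⟨X'', Y'', hS', e2, hX0, hle⟩
  · exact absurd h0 (Point.some_ne_zero _)
  injection e2 with e3 e4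
  rw [← e3] at hX0 hle
  -- `ord (θ(x)) ≥ 2`
  have hφ0 : aeval x (xs W n).num ≠ 0 := by
    rw [← hX]; exact mul_ne_zero hX0 hden
  have hφA : 0 ≤ ord (aeval x (xs W n).num) := hord.nonneg_of_mem hφ0 (M.aeval_mem hxA _)
  have hordθ : 2 ≤ ord (aeval x (xs W n).denom) := by
    have h1 := hord.ord_mul hX0 hden
    rw [hX] at h1
    linarith
  -- first root
  have hθ0 : (xs W n).denom.IsRoot x₀ := by
    apply M.const_eq_zero
    have hm : aeval x (xs W n).denom ∈ A.nonunits := hord.mem_nonunits_of_pos (by linarith)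
    have := sub_mem hm (M.aeval_sub_mem_nonunits hxA hxr (xs W n).denom)
    rwa [sub_sub_cancel] at this
  obtain ⟨θ₁, hθ₁⟩ := dvd_iff_isRoot.mpr hθ0
  have haθ : aeval x (xs W n).denom = (x - algebraMap K L x₀) * aeval x θ₁ := by
    rw [hθ₁, map_mul, map_sub, aeval_X, aeval_C]
  have hθ₁0 : aeval x θ₁ ≠ 0 := by
    intro h0; apply hden; rw [haθ, h0, mul_zero]
  have hordθ₁ : 0 < ord (aeval x θ₁) := by
    have h1 := hord.ord_mul hd0 hθ₁0
    rw [← haθ, hunif] at h1
    linarith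
  have hθ₁root : θ₁.IsRoot x₀ := by
    apply M.const_eq_zero
    have hm : aeval x θ₁ ∈ A.nonunits := hord.mem_nonunits_of_pos hordθ₁
    have := sub_mem hm (M.aeval_sub_mem_nonunits hxA hxr θ₁)
    rwa [sub_sub_cancel] at this
  obtain ⟨θ₂, hθ₂⟩ := dvd_iff_isRoot.mpr hθ₁root
  exact ⟨θ₂, by rw [hθ₁, hθ₂]; ring⟩

end double

section transc

variable {K : Type*} {L : Type*} [Field K] [Field L] [Algebra K L]
  {A : ValuationSubring L} {ord : L → ℚ} (M : IsLocalModel K A ord)

include M in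
/-- a nonzero element of the maximal ideal is transcendental over the constants. -/
theorem transcendental_of_mem_nonunits {h : L} (h0 : h ≠ 0) (hm : h ∈ A.nonunits) :
    Transcendental K h := by
  have hA : h ∈ A := M.isOrd.nonunits_subset hm
  have key : ∀ p : K[X], p ≠ 0 → aeval h p ≠ 0 := by
    intro p
    induction p using Polynomial.recOnHorner with
    | M0 => intro h; exact absurd rfl h
    | MC p a hp0 ha _ =>
      intro _ hz
      -- `aeval h p ∈ m` since `p` has no constant term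
      have hpX : p = p.divX * X := by
        have := Polynomial.divX_mul_X_add p
        rw [hp0, map_zero, add_zero] at this
        exact this.symm
      have hpm : aeval h p ∈ A.nonunits := by
        rw [hpX, map_mul, aeval_X]
        exact GoodRed.GR_mul_nonunits (M.aeval_mem hA _) hm
      rw [map_add, aeval_C] at hz
      have : algebraMap K L a ∈ A.nonunits := by
        have e : algebraMap K L a = -aeval h p := by linear_combination hz
        rw [e]; exact neg_mem hpm
      exact ha (M.const_eq_zero this)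
    | MX p hp ih =>
      intro _
      rw [map_mul, aeval_X]
      exact mul_ne_zero (ih hp) h0
  intro halg
  obtain ⟨p, hp0, hp⟩ := halg
  exact key p hp0 hp

end transc

/-! ### The Laurent series model -/

section laurent

open Fermat.Agent.S13.TM

variable {K : Type*} [Field K]

theorem isLocalModel_laurent : IsLocalModel K (laurentVS K) (lord K) where
  isOrd := isOrd_lord
  const := fun _ hc => isU_algebraMap hc
  res := fun z hz => by
    obtain ⟨g, rfl⟩ := mem_laurentVS_iff.mp hz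
    exact ⟨PowerSeries.constantCoeff g, ofPowerSeries_sub_const_mem_nonunits g⟩

end laurent

section laurent2

open Fermat.Agent.S13.TM

variable {K : Type*} [Field K] (W : Affine K)

/-- the local point of `TM46` has transcendental `x`-coordinate. -/
theorem exists_transcendental_local_point {x₀ y₀ : K} (h₀ : W.Nonsingular x₀ y₀) :
    ∃ (x y : LaurentSeries K) (_ : (W⁄(LaurentSeries K)).Nonsingular x y),
      Transcendental K x ∧ x ∈ laurentVS K ∧
      x - algebraMap K (LaurentSeries K) x₀ ∈ (laurentVS K).nonunits ∧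
      y - algebraMap K (LaurentSeries K) y₀ ∈ (laurentVS K).nonunits ∧
      (Yc W x₀ y₀ ≠ 0 → lord K (x - algebraMap K (LaurentSeries K) x₀) = 1) := by
  have M := isLocalModel_laurent (K := K)
  obtain ⟨Xs, Ys, hX0, hY0, hns, hcase1, hcase2⟩ := exists_local_point W h₀
  have hxr := ofPowerSeries_sub_mem_nonunits hX0
  have hyr := ofPowerSeries_sub_mem_nonunits hY0
  refine ⟨HahnSeries.ofPowerSeries ℤ K Xs, HahnSeries.ofPowerSeries ℤ K Ys, hns, ?_,
    ofPowerSeries_mem Xs, hxr, hyr, ?_⟩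
  · -- transcendence
    have htr_of : ∀ {z : LaurentSeries K} {c : K}, z - algebraMap K (LaurentSeries K) c ≠ 0 →
        z - algebraMap K (LaurentSeries K) c ∈ (laurentVS K).nonunits → Transcendental K z := by
      intro z c hne hm halg
      exact transcendental_of_mem_nonunits M hne hm (halg.sub (isAlgebraic_algebraMap c))
    by_cases hxc : HahnSeries.ofPowerSeries ℤ K Xs - algebraMap K (LaurentSeries K) x₀ = 0
    · -- then `y` is algebraic, but `y - y₀ = t`
      exfalso
      have hYc : 2 * y₀ + W.a₁ * x₀ + W.a₃ = 0 := by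
        by_contra hne
        have := hcase1 hne
        rw [this] at hxc
        have h1 := lord_ofPowerSeries_C_add_X_sub (K := K) x₀
        rw [hxc] at h1
        simp [lord] at h1
      have hYs := hcase2 hYc
      have hyne : HahnSeries.ofPowerSeries ℤ K Ys - algebraMap K (LaurentSeries K) y₀ ≠ 0 := by
        intro h0
        have h1 := lord_ofPowerSeries_C_add_X_sub (K := K) y₀
        rw [← hYs, h0] at h1
        simp [lord] at h1
      have hytr : Transcendental K (HahnSeries.ofPowerSeries ℤ K Ys) := htr_of hyne hyr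
      apply hytr
      -- `y` is a root of the Weierstrass quadratic with constant coefficients
      have hxe : HahnSeries.ofPowerSeries ℤ K Xs = algebraMap K (LaurentSeries K) x₀ :=
        sub_eq_zero.mp hxc
      have hE := hns.1
      rw [Affine.equation_iff, hxe] at hE
      simp only [Affine.baseChange, WeierstrassCurve.baseChange, WeierstrassCurve.map_a₁,
        WeierstrassCurve.map_a₂, WeierstrassCurve.map_a₃, WeierstrassCurve.map_a₄,
        WeierstrassCurve.map_a₆] at hE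
      have hq0 : ∀ b c : K, (X ^ 2 + C b * X - C c : K[X]) ≠ 0 := by
        intro b c h0
        have := congrArg (fun q : K[X] => q.coeff 2) h0
        simp only [coeff_sub, coeff_add, coeff_X_pow, coeff_C_mul, coeff_X, coeff_C,
          coeff_zero] at this
        norm_num at this
      refine ⟨X ^ 2 + C (W.a₁ * x₀ + W.a₃) * X - C (x₀ ^ 3 + W.a₂ * x₀ ^ 2 + W.a₄ * x₀ + W.a₆),
        hq0 _ _, ?_⟩
      simp only [map_sub, map_add, map_mul, map_pow, aeval_X, aeval_C]
      linear_combination hE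
    · exact htr_of hxc hxr
  · intro hY
    have := hcase1 hY
    rw [this]
    exact lord_ofPowerSeries_C_add_X_sub x₀

end laurent2

/-! ### Final statements over `K` -/

section final

open Fermat.Agent.S13.TM

variable {K : Type*} [Field K] [CharZero K] [DecidableEq K] {W : Affine K}

/-- `n • Q₀ = 0 → θₙ(x₀) = 0`. -/
theorem denom_isRoot_of_nsmul_eq_zero (hΔ : W.Δ ≠ 0) {x₀ y₀ : K} (h₀ : W.Nonsingular x₀ y₀)
    (n : ℕ) (hn : 1 ≤ n) (hQ : n • Point.some x₀ y₀ h₀ = 0) : (xs W n).denom.IsRoot x₀ := by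
  classical
  obtain ⟨x, y, hP, hx, hxA, hxr, hyr, -⟩ := exists_transcendental_local_point W h₀
  exact spec_zero isLocalModel_laurent isU_two hΔ hP hx h₀ hxA hxr hyr n hn hQ

/-- `n • Q₀ = (xₙ, yₙ) → θₙ(x₀) ≠ 0 ∧ xₙ θₙ(x₀) = φₙ(x₀)`. -/
theorem denom_ne_zero_of_nsmul_eq_some (hΔ : W.Δ ≠ 0) {x₀ y₀ : K} (h₀ : W.Nonsingular x₀ y₀)
    (n : ℕ) (hn : 1 ≤ n) {xₙ yₙ : K} {hₙ : W.Nonsingular xₙ yₙ}
    (hQ : n • Point.some x₀ y₀ h₀ = Point.some xₙ yₙ hₙ) :
    (xs W n).denom.eval x₀ ≠ 0 ∧ xₙ * (xs W n).denom.eval x₀ = (xs W n).num.eval x₀ := by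
  classical
  obtain ⟨x, y, hP, hx, hxA, hxr, hyr, -⟩ := exists_transcendental_local_point W h₀
  exact spec_some isLocalModel_laurent isU_two hΔ hP hx h₀ hxA hxr hyr n hn hQ

/-- **root_iff**: `n • Q₀ = 0 ↔ θₙ(x₀) = 0` (`θₙ` = denominator of `xs W n`). -/
theorem nsmul_eq_zero_iff (hΔ : W.Δ ≠ 0) {x₀ y₀ : K} (h₀ : W.Nonsingular x₀ y₀)
    (n : ℕ) (hn : 1 ≤ n) : n • Point.some x₀ y₀ h₀ = 0 ↔ (xs W n).denom.IsRoot x₀ := by
  refine ⟨denom_isRoot_of_nsmul_eq_zero hΔ h₀ n hn, fun hroot => ?_⟩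
  by_contra hne
  rcases hQ : n • Point.some x₀ y₀ h₀ with _ | ⟨xₙ, yₙ, hₙ⟩
  · exact hne hQ
  · exact (denom_ne_zero_of_nsmul_eq_some hΔ h₀ n hn hQ).1 hroot

/-- **sq_dvd**: at a non-`2`-torsion point, `n • Q₀ = 0 → (X - x₀)² ∣ θₙ`. -/
theorem sq_dvd_denom (hΔ : W.Δ ≠ 0) {x₀ y₀ : K} (h₀ : W.Nonsingular x₀ y₀)
    (hY : Yc W x₀ y₀ ≠ 0) (n : ℕ) (hn : 1 ≤ n) (hQ : n • Point.some x₀ y₀ h₀ = 0) :
    (X - C x₀) ^ 2 ∣ (xs W n).denom := by
  classical
  obtain ⟨x, y, hP, hx, hxA, hxr, hyr, hunif⟩ := exists_transcendental_local_point W h₀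
  exact spec_sq isLocalModel_laurent isU_two hΔ hP hx h₀ hxA hxr hyr (hunif hY) hY n hn hQ

end final

end Fermat.Agent.S13.TS51
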