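/-
S13 (blueprint 7, heights route = BACKUP), packages T-I + [T] assembly (helper51):
`θ := denominator of xs W p` is a `p`-division polynomial in the sense of `Interface.IsDivPoly`:
monic of degree `p² - 1`, roots = `x`-coordinates of the nonzero `p`-torsion points, all roots
double, and `p² θ` integral over every valuation ring over which `W` is integral and `2` a unit.
Final theorem `tDivPoly : TDivPolyStmt`.  Complete (no placeholders).
-/
import Mathlib
import Fermat.Agent.S13.Interface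
import Fermat.Agent.S13.TS51
import Fermat.Agent.S13.TL

set_option autoImplicit false

namespace Fermat.Agent.S13.TDivPoly51

open WeierstrassCurve WeierstrassCurve.Affine Fermat.Agent.S05 Fermat.Agent.S13.XsDef Polynomial

section general

variable {K : Type*} [Field K] [IsAlgClosed K] [CharZero K] [DecidableEq K] {W : Affine K}

omit [CharZero K] [DecidableEq K] in
/-- over an algebraically closed field every `x` is the `x`-coordinate of a point. -/
theorem exists_point (hΔ : W.Δ ≠ 0) (x₀ : K) : ∃ y₀ : K, W.Nonsingular x₀ y₀ := by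
  let q : K[X] := X ^ 2 + C (W.a₁ * x₀ + W.a₃) * X
    - C (x₀ ^ 3 + W.a₂ * x₀ ^ 2 + W.a₄ * x₀ + W.a₆)
  have hq : q.degree ≠ 0 := by
    have : q.degree = 2 := by
      simp only [q]
      compute_degree!
    rw [this]; norm_num
  obtain ⟨y₀, hy⟩ := IsAlgClosed.exists_root q hq
  refine ⟨y₀, (Affine.equation_iff_nonsingular_of_Δ_ne_zero hΔ).mp ?_⟩
  rw [Affine.equation_iff]
  simp only [q, IsRoot, eval_sub, eval_add, eval_pow, eval_X, eval_mul, eval_C] at hy
  linear_combination hy

/-- a point killed by an odd `n` is not `2`-torsion. -/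
theorem Yc_ne_zero_of_odd_nsmul {x₀ y₀ : K} (h₀ : W.Nonsingular x₀ y₀) {n : ℕ} (hodd : Odd n)
    (hQ : n • Point.some x₀ y₀ h₀ = 0) : Yc W x₀ y₀ ≠ 0 := by
  intro hY
  have h2 : (2 : K) ≠ 0 := two_ne_zero
  have h2Q := xdbl_zero W h2 h₀ hY
  obtain ⟨k, rfl⟩ := hodd
  have : (2 * k + 1) • Point.some x₀ y₀ h₀ = Point.some x₀ y₀ h₀ := by
    rw [add_nsmul, mul_nsmul, two_nsmul, h2Q, nsmul_zero, zero_add, one_nsmul]
  rw [this] at hQ
  exact Point.some_ne_zero _ hQ

end general

section integrality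

variable {K : Type*} [Field K] [DecidableEq K] {W : Affine K}
  {A : ValuationSubring K} {ord : K → ℚ}

theorem E1_nsmul_mem (hord : IsOrd A ord) (h2 : IsU ord (2 : K)) (hW : IsIntegralW W A)
    {P : W.Point} (hP : P ∈ E1 W ord) (n : ℕ) : n • P ∈ E1 W ord := by
  induction n with
  | zero => rw [zero_nsmul]; exact Or.inl rfl
  | succ k ih =>
    rw [succ_nsmul]
    exact E1_add_mem W hord h2 hW ih hP

omit [DecidableEq K] in
/-- a product of `X - r` with all `r ∈ A` has coefficients in `A`. -/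
theorem coeff_prod_X_sub_C_mem (s : Multiset K) (hs : ∀ r ∈ s, r ∈ A) (i : ℕ) :
    ((s.map fun r => X - C r).prod).coeff i ∈ A := by
  induction s using Multiset.induction_on generalizing i with
  | empty =>
    simp only [Multiset.map_zero, Multiset.prod_zero, coeff_one]
    split_ifs
    · exact A.one_mem
    · exact A.zero_mem
  | cons a s ih =>
    rw [Multiset.map_cons, Multiset.prod_cons, sub_mul, coeff_sub, coeff_C_mul]
    have ha : a ∈ A := hs a (Multiset.mem_cons_self a s)
    have ih' := fun j => ih (fun r hr => hs r (Multiset.mem_cons_of_mem hr)) j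
    refine sub_mem ?_ (mul_mem ha (ih' i))
    cases i with
    | zero => rw [coeff_X_mul_zero]; exact A.zero_mem
    | succ j => rw [coeff_X_mul]; exact ih' j

variable [IsAlgClosed K]

omit [DecidableEq K] in
/-- a monic polynomial over an algebraically closed field all of whose roots are in `A` has
coefficients in `A`. -/
theorem coeff_mem_of_monic_of_roots_mem {f : K[X]} (hf : f.Monic) (hr : ∀ r ∈ f.roots, r ∈ A)
    (i : ℕ) : f.coeff i ∈ A := by
  have hsplit : f.Splits := IsAlgClosed.splits f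
  have := hsplit.eq_prod_roots_of_monic hf
  rw [this]
  exact coeff_prod_X_sub_C_mem _ hr i

end integrality

section TI

variable {K : Type*} [Field K] [IsAlgClosed K] [CharZero K] [DecidableEq K] {W : Affine K}
  {A : ValuationSubring K} {ord : K → ℚ}

/-- **T7, key step**: for `c ∈ A`, every root of `φ - cθ` lies in `A`. -/
theorem root_mem (hΔ : W.Δ ≠ 0) (hord : IsOrd A ord) (h2 : IsU ord (2 : K))
    (hW : IsIntegralW W A) {n : ℕ} (hn : 1 ≤ n) {c : K} (hc : c ∈ A) {r : K}
    (hr : (xs W n).num.eval r = c * (xs W n).denom.eval r) : r ∈ A := by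
  by_contra hrA
  have hr0 : r ≠ 0 := fun h0 => hrA (h0 ▸ A.zero_mem)
  -- `θ(r) ≠ 0` by coprimality
  have hθ : (xs W n).denom.eval r ≠ 0 := by
    intro hθ
    rw [hθ, mul_zero] at hr
    obtain ⟨u, v, huv⟩ := RatFunc.isCoprime_num_denom (xs W n)
    have := congrArg (Polynomial.eval r) huv
    rw [eval_add, eval_mul, eval_mul, hr, hθ, mul_zero, mul_zero, add_zero, eval_one] at this
    exact zero_ne_one this
  obtain ⟨y, hQ⟩ := exists_point hΔ r
  -- `n • Q ≠ 0`
  have hne : n • Point.some r y hQ ≠ 0 := fun h0 =>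
    hθ ((TS51.nsmul_eq_zero_iff hΔ hQ n hn).mp h0)
  rcases hnQ : n • Point.some r y hQ with _ | ⟨xₙ, yₙ, hₙ⟩
  · exact hne hnQ
  obtain ⟨-, hxn⟩ := TS51.denom_ne_zero_of_nsmul_eq_some hΔ hQ n hn hnQ
  have hxc : xₙ = c := by
    rw [hr] at hxn
    exact mul_right_cancel₀ hθ hxn
  -- but `Q ∈ E₁`, so `n • Q ∈ E₁`
  have hQE : Point.some r y hQ ∈ E1 W ord :=
    Or.inr ⟨r, y, hQ, rfl, hr0, (hord.not_mem_iff hr0).1 hrA⟩
  have hnE := E1_nsmul_mem hord h2 hW hQE n
  rw [hnQ] at hnE
  rcases hnE with h0 | ⟨x', y', h', e, hx0, hlt⟩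
  · exact Point.some_ne_zero _ h0
  injection e with e1 e2
  rw [← e1, hxc] at hx0 hlt
  exact ((hord.not_mem_iff hx0).2 hlt) hc

/-- **T7**: `n² θₙ` has coefficients in `A`. -/
theorem sq_mul_denom_coeff_mem (hΔ : W.Δ ≠ 0) (hord : IsOrd A ord) (h2 : IsU ord (2 : K))
    (hW : IsIntegralW W A) {n : ℕ} (hn : 1 ≤ n) (i : ℕ) :
    (n : K) ^ 2 * (xs W n).denom.coeff i ∈ A := by
  have h2K : (2 : K) ≠ 0 := two_ne_zero
  have hdeg := TL.xs_natDegree_of_height W hn (THFinal.max_natDegree_xs hΔ h2K n hn)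
  have hn0 : ((n : K) ^ 2) ≠ 0 := pow_ne_zero 2 (Nat.cast_ne_zero.mpr (by omega))
  have hmon0 : (C ((n : K) ^ 2) * (xs W n).num).Monic := TL.xs_sq_smul_num_monic W hn
  have hnpos : 0 < n ^ 2 := by positivity
  -- `g₀ = n² φ`, `g₁ = n² φ - n² θ`
  have hroots0 : ∀ r ∈ (C ((n : K) ^ 2) * (xs W n).num).roots, r ∈ A := by
    intro r hr
    rw [mem_roots hmon0.ne_zero, IsRoot, eval_mul, eval_C] at hr
    have hφ : (xs W n).num.eval r = 0 := (mul_eq_zero.mp hr).resolve_left hn0
    exact root_mem hΔ hord h2 hW hn A.zero_mem (c := 0) (by rw [hφ, zero_mul])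
  have hlt : (C ((n : K) ^ 2) * (xs W n).denom).degree < (C ((n : K) ^ 2) * (xs W n).num).degree := by
    rw [degree_C_mul hn0, degree_C_mul hn0]
    apply degree_lt_degree
    rw [hdeg.1, hdeg.2]
    omega
  have hmon1 : (C ((n : K) ^ 2) * (xs W n).num - C ((n : K) ^ 2) * (xs W n).denom).Monic :=
    hmon0.sub_of_left hlt
  have hroots1 : ∀ r ∈ (C ((n : K) ^ 2) * (xs W n).num - C ((n : K) ^ 2) * (xs W n).denom).roots,
      r ∈ A := by
    intro r hr
    rw [mem_roots hmon1.ne_zero, IsRoot, eval_sub, eval_mul, eval_mul, eval_C, ← mul_sub] at hr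
    have hφ : (xs W n).num.eval r - (xs W n).denom.eval r = 0 :=
      (mul_eq_zero.mp hr).resolve_left hn0
    exact root_mem hΔ hord h2 hW hn A.one_mem (c := 1) (by rw [one_mul]; linear_combination hφ)
  have h0 := coeff_mem_of_monic_of_roots_mem hmon0 hroots0 i
  have h1 := coeff_mem_of_monic_of_roots_mem hmon1 hroots1 i
  rw [coeff_C_mul] at h0
  rw [coeff_sub, coeff_C_mul, coeff_C_mul] at h1
  have := sub_mem h0 h1
  rwa [sub_sub_cancel] at this

end TI

section assembly

variable {K : Type*} [Field K] [IsAlgClosed K] [CharZero K] [DecidableEq K] {W : Affine K}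

/-- **[T]** (heights route): the denominator of `xs W p` is a `p`-division polynomial. -/
theorem isDivPoly (hΔ : W.Δ ≠ 0) {p : ℕ} (hp : p.Prime) (hp2 : p ≠ 2) :
    IsDivPoly W p (xs W p).denom := by
  have hn : 1 ≤ p := hp.one_lt.le
  have h2K : (2 : K) ≠ 0 := two_ne_zero
  have hodd : Odd p := hp.odd_of_ne_two hp2
  have hroot : ∀ {x y : K} (h : W.Nonsingular x y),
      (p : ℤ) • (Point.some x y h) = 0 ↔ (xs W p).denom.IsRoot x := by
    intro x y h
    rw [natCast_zsmul]
    exact TS51.nsmul_eq_zero_iff hΔ h p hn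
  refine ⟨RatFunc.monic_denom _, ?_, hroot, ?_, ?_⟩
  · exact (TL.xs_natDegree_of_height W hn (THFinal.max_natDegree_xs hΔ h2K p hn)).2
  · intro x₀ hx₀
    obtain ⟨y₀, h₀⟩ := exists_point hΔ x₀
    have hQ : p • Point.some x₀ y₀ h₀ = 0 := (TS51.nsmul_eq_zero_iff hΔ h₀ p hn).mpr hx₀
    exact TS51.sq_dvd_denom hΔ h₀ (Yc_ne_zero_of_odd_nsmul h₀ hodd hQ) p hn hQ
  · intro A ord hord hW hunits i
    have h2 : IsU ord (2 : K) := by
      have := hunits 2 (by norm_num) (by
        have := hp.two_le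
        omega)
      exact_mod_cast this
    exact sq_mul_denom_coeff_mem hΔ hord h2 hW hn i

end assembly

/-- **[T]**: `TDivPolyStmt` (exact `Interface` shape). -/
theorem tDivPoly : TDivPolyStmt := by
  intro W hΔ p hp hp2
  exact ⟨_, isDivPoly hΔ hp hp2⟩

end Fermat.Agent.S13.TDivPoly51
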