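/-
S13 (blueprint 7), heights route (BACKUP for the Wronskian route), final exports (helper51):
`TCountStmt` and `MassStmt` in the exact `Interface` shapes, from `TDivPoly51.tDivPoly`
through `TC29.tCount_of_tDivPoly` (helper29) and `MassCount.massStmt_of_tDivPoly` (helper86).
Complete (no placeholders).
-/
import Fermat.Agent.S13.TDivPoly51
import Fermat.Agent.S13.TC29
import Fermat.Agent.S13.MassCount

set_option autoImplicit false

namespace Fermat.Agent.S13.TBackup51

/-- [T-C] via the heights route. -/
theorem tCount : TCountStmt := TC29.tCount_of_tDivPoly TDivPoly51.tDivPoly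

/-- [MASS] via the heights route. -/
theorem mass : MassStmt := MassCount.massStmt_of_tDivPoly TDivPoly51.tDivPoly

end Fermat.Agent.S13.TBackup51
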