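/-
S13 (blueprint 7), package T-S = item T5 (helper95): SPECIALISATION of the multiplication
functions `xs W n` at an arbitrary point `Q₀ = (x₀,y₀)` of `E(K)`, via the Laurent series point
`P(t) ≡ Q₀ mod t` of `E(K((t)))` (package T-M) and the S05 congruence lemma over `(K((t)), ord_t)`.

Main results (`θ = (xs W n).denom`, `φ = (xs W n).num`):
* `nsmul_some_eq_zero_iff`  : `n • Q₀ = 0 ↔ θ(x₀) = 0`;
* `x_nsmul_eq`              : `n • Q₀ = (x',y') → x' = φ(x₀)/θ(x₀)`;
* `sq_dvd_denom`             : `n • Q₀ = 0`, `Q₀` not 2-torsion `→ (X - x₀)² ∣ θ`.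
No sorry in this file.
-/
import Mathlib
import Fermat.Agent.S05.Defs
import Fermat.Agent.S05.OrdApi
import Fermat.Agent.S05.ResApi
import Fermat.Agent.S05.Pole
import Fermat.Agent.S05.Congr
import Fermat.Agent.S05.Good
import Fermat.Agent.S13.XsDef
import Fermat.Agent.S13.TU
import Fermat.Agent.S13.TD
import Fermat.Agent.S13.TH
import Fermat.Agent.S13.TM46

set_option autoImplicit false
set_option linter.unusedSectionVars false

namespace Fermat.Agent.S13.TS95

open WeierstrassCurve WeierstrassCurve.Affine Fermat.Agent.S05 Fermat.Agent.S13.XsDef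
open Polynomial

/-! ### The height axioms hold for `hdeg` (glue of T-U and T-D) -/

section glue

variable {K : Type*} [Field K]

theorem heightAxioms (W : WeierstrassCurve K) (hΔ : W.Δ ≠ 0) :
    TH.HeightAxioms W (TU.hdeg (K := K)) where
  zero := by simp [TU.hdeg]
  X := by simp [TU.hdeg]
  U := fun hab hs hp => TU.U W hab hs hp
  D := fun a => TD.ratDeg_dup' W hΔ a

end glue

/-! ### Polynomial congruences modulo the maximal ideal -/

section polycongr

variable {K : Type*} [Field K] {L : Type*} [Field L] [Algebra K L]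
variable {A : ValuationSubring L} {ord : L → ℚ}

/-- constants are integral and nonzero constants are units -/
structure ConstUnits (K : Type*) [Field K] {L : Type*} [Field L] [Algebra K L]
    (A : ValuationSubring L) : Prop where
  mem : ∀ c : K, algebraMap K L c ∈ A
  unit : ∀ c : K, c ≠ 0 → algebraMap K L c ∉ A.nonunits

theorem nu_add {x y : L} (hx : x ∈ A.nonunits) (hy : y ∈ A.nonunits) : x + y ∈ A.nonunits := by
  rw [ValuationSubring.mem_nonunits_iff] at *
  exact Valuation.map_add_lt _ hx hy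

theorem nu_neg {x : L} (hx : x ∈ A.nonunits) : -x ∈ A.nonunits := by
  rw [ValuationSubring.mem_nonunits_iff] at *
  rwa [Valuation.map_neg]

theorem nu_sub {x y : L} (hx : x ∈ A.nonunits) (hy : y ∈ A.nonunits) : x - y ∈ A.nonunits := by
  rw [sub_eq_add_neg]
  exact nu_add hx (nu_neg hy)

theorem nu_mul_left {a x : L} (ha : a ∈ A) (hx : x ∈ A.nonunits) : a * x ∈ A.nonunits :=
  F_mul_mem_nonunits ha hx

theorem nu_mem {x : L} (hx : x ∈ A.nonunits) : x ∈ A := A.nonunits_subset hx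

theorem nu_zero : (0 : L) ∈ A.nonunits := by
  rw [ValuationSubring.mem_nonunits_iff]
  simp

/-- `x ≡ x₀` implies `f(x) ≡ f(x₀)` for every polynomial `f` with constant coefficients. -/
theorem aeval_congr (hc : ConstUnits K A) {x : L} {x₀ : K}
    (hx : x - algebraMap K L x₀ ∈ A.nonunits) (f : K[X]) :
    aeval x f ∈ A ∧ aeval x f - algebraMap K L (f.eval x₀) ∈ A.nonunits := by
  have hxA : x ∈ A := by
    have : x = (x - algebraMap K L x₀) + algebraMap K L x₀ := by ring
    rw [this]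
    exact A.add_mem _ _ (nu_mem hx) (hc.mem x₀)
  induction f using Polynomial.induction_on' with
  | add p q hp hq =>
    refine ⟨by rw [map_add]; exact A.add_mem _ _ hp.1 hq.1, ?_⟩
    have : aeval x (p + q) - algebraMap K L ((p + q).eval x₀)
        = (aeval x p - algebraMap K L (p.eval x₀)) + (aeval x q - algebraMap K L (q.eval x₀)) := by
      rw [map_add, eval_add, map_add]; ring
    rw [this]
    exact nu_add hp.2 hq.2
  | monomial n a =>
    have hpow : ∀ n : ℕ, x ^ n ∈ A ∧ x ^ n - algebraMap K L (x₀ ^ n) ∈ A.nonunits := by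
      intro n
      induction n with
      | zero => simp [A.one_mem]
      | succ k ih =>
        refine ⟨A.pow_mem hxA _, ?_⟩
        have : x ^ (k + 1) - algebraMap K L (x₀ ^ (k + 1))
            = x ^ k * (x - algebraMap K L x₀)
              + algebraMap K L x₀ * (x ^ k - algebraMap K L (x₀ ^ k)) := by
          rw [map_pow, map_pow]; ring
        rw [this]
        exact nu_add (nu_mul_left ih.1 hx) (nu_mul_left (hc.mem x₀) ih.2)
    have e1 : aeval x (monomial n a) = algebraMap K L a * x ^ n := by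
      rw [aeval_monomial]
    have e2 : (monomial n a).eval x₀ = a * x₀ ^ n := by
      rw [eval_monomial]
    refine ⟨by rw [e1]; exact A.mul_mem _ _ (hc.mem a) (hpow n).1, ?_⟩
    have : aeval x (monomial n a) - algebraMap K L ((monomial n a).eval x₀)
        = algebraMap K L a * (x ^ n - algebraMap K L (x₀ ^ n)) := by
      rw [e1, e2, map_mul]; ring
    rw [this]
    exact nu_mul_left (hc.mem a) (hpow n).2

theorem aeval_mem (hc : ConstUnits K A) {x : L} {x₀ : K}
    (hx : x - algebraMap K L x₀ ∈ A.nonunits) (f : K[X]) : aeval x f ∈ A :=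
  (aeval_congr hc hx f).1

/-- if `f(x₀) = 0` then `f(x)` is in the maximal ideal -/
theorem aeval_mem_nonunits (hc : ConstUnits K A) {x : L} {x₀ : K}
    (hx : x - algebraMap K L x₀ ∈ A.nonunits) {f : K[X]} (hf : f.eval x₀ = 0) :
    aeval x f ∈ A.nonunits := by
  have := (aeval_congr hc hx f).2
  rwa [hf, map_zero, sub_zero] at this

/-- if `f(x₀) ≠ 0` then `f(x)` is a unit -/
theorem aeval_not_mem_nonunits (hc : ConstUnits K A) {x : L} {x₀ : K}
    (hx : x - algebraMap K L x₀ ∈ A.nonunits) {f : K[X]} (hf : f.eval x₀ ≠ 0) :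
    aeval x f ∉ A.nonunits := by
  intro h
  have h2 := (aeval_congr hc hx f).2
  have : algebraMap K L (f.eval x₀) = aeval x f - (aeval x f - algebraMap K L (f.eval x₀)) := by
    ring
  exact hc.unit _ hf (this ▸ nu_sub h h2)

end polycongr


/-! ### Transcendence of non-constant elements congruent to a constant -/

section transc

variable {K : Type*} [Field K] {L : Type*} [Field L] [Algebra K L]
variable {A : ValuationSubring L}

theorem transcendental_of_congr (hc : ConstUnits K A) {x : L} {x₀ : K}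
    (hx : x - algebraMap K L x₀ ∈ A.nonunits) (hne : x - algebraMap K L x₀ ≠ 0) :
    Transcendental K x := by
  rintro ⟨p, hp0, hp⟩
  obtain ⟨q, hq, hndvd⟩ := Polynomial.exists_eq_pow_rootMultiplicity_mul_and_not_dvd p hp0 x₀
  have hq0 : q.eval x₀ ≠ 0 := by
    intro h0
    exact hndvd (Polynomial.dvd_iff_isRoot.mpr h0)
  rw [hq, map_mul, map_pow, map_sub, aeval_X, aeval_C] at hp
  have h1 : aeval x q = 0 := by
    rcases mul_eq_zero.mp hp with h | h
    · exact absurd h (pow_ne_zero _ hne)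
    · exact h
  have := aeval_not_mem_nonunits hc hx hq0
  rw [h1] at this
  exact this nu_zero

end transc

/-! ### The generic specialisation argument -/

section spec

variable {K : Type*} [Field K] [DecidableEq K] {L : Type*} [Field L] [Algebra K L]
  [DecidableEq L]
variable {A : ValuationSubring L} {ord : L → ℚ} (W : Affine K)

/-- the inclusion `E(K) → E(L)` -/
noncomputable def iota : W.Point →+ (W⁄L).Point :=
  (Point.map (W' := W) (Algebra.ofId K L) : (W⁄K).Point →+ (W⁄L).Point)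

theorem iota_injective : Function.Injective (iota (L := L) W) :=
  Point.map_injective (W' := W) (Algebra.ofId K L)

theorem nonsingular_const {x₀ y₀ : K} (h₀ : W.Nonsingular x₀ y₀) :
    (W⁄L).Nonsingular (algebraMap K L x₀) (algebraMap K L y₀) :=
  (W.baseChange_nonsingular (Algebra.ofId K L).injective x₀ y₀).mpr h₀

theorem iota_some {x₀ y₀ : K} (h₀ : W.Nonsingular x₀ y₀) :
    iota (L := L) W (Point.some x₀ y₀ h₀)
      = Point.some (algebraMap K L x₀) (algebraMap K L y₀) (nonsingular_const W h₀) :=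
  rfl

variable {W}

theorem E1_zero_mem : (0 : (W⁄L).Point) ∈ E1 (W⁄L) ord := Or.inl rfl

theorem E1_nsmul_mem (hord : IsOrd A ord) (h2 : IsU ord (2 : L)) (hW : IsIntegralW (W⁄L) A)
    {P : (W⁄L).Point} (hP : P ∈ E1 (W⁄L) ord) (n : ℕ) : n • P ∈ E1 (W⁄L) ord := by
  induction n with
  | zero => rw [zero_smul]; exact E1_zero_mem
  | succ k ih => rw [succ_nsmul]; exact E1_add_mem (W⁄L) hord h2 hW ih hP

theorem poleSet_nsmul_mem (hord : IsOrd A ord) (h2 : IsU ord (2 : L))
    (hW : IsIntegralW (W⁄L) A) {b : ℚ} (hb : b < 0)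
    {P : (W⁄L).Point} (hP : P ∈ poleSet (W⁄L) ord b) (n : ℕ) : n • P ∈ poleSet (W⁄L) ord b := by
  induction n with
  | zero => rw [zero_smul]; exact Or.inl rfl
  | succ k ih => rw [succ_nsmul]; exact poleSet_add_mem (W⁄L) hord h2 hW hb ih hP

/-- a point with integral `x`-coordinate is not in `E₁` -/
theorem not_mem_E1_of_mem {u v : L} (hord : IsOrd A ord) (h : (W⁄L).Nonsingular u v)
    (hu : u ∈ A) : Point.some u v h ∉ E1 (W⁄L) ord := by
  rintro (h0 | ⟨x, y, h', he, hx0, hlt⟩)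
  · exact Point.some_ne_zero h h0
  · have hx : u = x := by
      have := he
      simp only [Point.some.injEq] at this
      exact this.1
    rw [← hx] at hx0 hlt
    exact ((hord.not_mem_iff hx0).2 hlt) hu

/-- an `E₁` point which is affine has non-integral `x`-coordinate -/
theorem ord_neg_of_mem_E1 {u v : L} (h : (W⁄L).Nonsingular u v)
    (hm : Point.some u v h ∈ E1 (W⁄L) ord) : u ≠ 0 ∧ ord u < 0 := by
  rcases hm with h0 | ⟨x, y, h', he, hx0, hlt⟩
  · exact absurd h0 (Point.some_ne_zero h)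
  · have hx : u = x := by
      have := he
      simp only [Point.some.injEq] at this
      exact this.1
    rw [hx]; exact ⟨hx0, hlt⟩

/-- converse of the congruence lemma for the `x`-coordinate: if two points with integral
coordinates differ by an element of `E₁`, their `x`-coordinates are congruent. -/
theorem x_congr_of_sub_mem_E1 (hord : IsOrd A ord) (hW : IsIntegralW (W⁄L) A)
    {u v x' y' : L} (h₁ : (W⁄L).Nonsingular u v) (h₂ : (W⁄L).Nonsingular x' y')
    (hu : u ∈ A) (hv : v ∈ A) (hx' : x' ∈ A) (hy' : y' ∈ A)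
    (hm : Point.some u v h₁ - Point.some x' y' h₂ ∈ E1 (W⁄L) ord) : u - x' ∈ A.nonunits := by
  by_contra hnu
  have hmem : u - x' ∈ A := sub_mem hu hx'
  have hU : IsU ord (u - x') := hord.isU_iff_mem_not_nonunits.2 ⟨hmem, hnu⟩
  have hne : u ≠ x' := fun h => hU.1 (sub_eq_zero.mpr h)
  obtain ⟨ha1, ha2, ha3, ha4, ha6⟩ := hW
  rw [sub_eq_add_neg, Point.neg_some, Point.add_of_X_ne hne] at hm
  apply not_mem_E1_of_mem hord _ _ hm
  rw [Affine.slope_of_X_ne hne]
  simp only [Affine.addX, Affine.negY]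
  have hinv : (u - x')⁻¹ ∈ A := (hord.isU_iff.1 hU).2.2
  have hsl : (v - (-y' - (W⁄L).a₁ * x' - (W⁄L).a₃)) / (u - x') ∈ A := by
    rw [div_eq_mul_inv]
    refine mul_mem (sub_mem hv (sub_mem (sub_mem (neg_mem hy')
      (mul_mem ha1 hx')) ha3)) hinv
  exact sub_mem (sub_mem (sub_mem (add_mem (pow_mem hsl 2)
    (mul_mem ha1 hsl)) ha2) hu) hx'

end spec


/-! ### The core: a generic point specialising to `Q₀` -/

section core

variable {K : Type*} [Field K] [DecidableEq K] {L : Type*} [Field L] [Algebra K L]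
  [DecidableEq L]

/-- A point `(x,y)` of `E(L)`, congruent to the constant point `Q₀ = (x₀,y₀)` of `E(K)` modulo
the maximal ideal of a valuation ring `A` of `L` whose units contain `K^×`, and with `x ≠ x₀`. -/
structure Spec (W : Affine K) (A : ValuationSubring L) (ord : L → ℚ) (x y : L) (x₀ y₀ : K) :
    Prop where
  hord : IsOrd A ord
  h2 : IsU ord (2 : L)
  hc : ConstUnits K A
  hΔK : W.Δ ≠ 0
  hP : (W⁄L).Nonsingular x y
  h₀ : W.Nonsingular x₀ y₀
  hx : x - algebraMap K L x₀ ∈ A.nonunits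
  hy : y - algebraMap K L y₀ ∈ A.nonunits
  hne : x - algebraMap K L x₀ ≠ 0

variable {W : Affine K} {A : ValuationSubring L} {ord : L → ℚ} {x y : L} {x₀ y₀ : K}

namespace Spec

variable (S : Spec W A ord x y x₀ y₀)
include S

theorem isU_const {c : K} (hc0 : c ≠ 0) : IsU ord (algebraMap K L c) :=
  S.hord.isU_iff_mem_not_nonunits.2 ⟨S.hc.mem c, S.hc.unit c hc0⟩

theorem hW : IsIntegralW (W⁄L) A := by
  refine ⟨?_, ?_, ?_, ?_, ?_⟩ <;>
  · simp only [Affine.baseChange, WeierstrassCurve.baseChange, WeierstrassCurve.map_a₁,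
      WeierstrassCurve.map_a₂, WeierstrassCurve.map_a₃, WeierstrassCurve.map_a₄,
      WeierstrassCurve.map_a₆]
    exact S.hc.mem _

theorem hΔ : IsU ord (W⁄L).Δ := by
  have : (W⁄L).Δ = algebraMap K L W.Δ := by
    simp only [Affine.baseChange, WeierstrassCurve.baseChange, WeierstrassCurve.map_Δ]
  rw [this]
  exact S.isU_const S.hΔK

theorem transc : Transcendental K x := transcendental_of_congr S.hc S.hx S.hne

theorem xA : x ∈ A := by
  have : x = (x - algebraMap K L x₀) + algebraMap K L x₀ := by ring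
  rw [this]
  exact add_mem (nu_mem S.hx) (S.hc.mem x₀)

/-- `P(t) - Q₀ ∈ E₁` -/
theorem sub_mem_E1 :
    Point.some x y S.hP - iota (L := L) W (Point.some x₀ y₀ S.h₀) ∈ E1 (W⁄L) ord := by
  rw [iota_some]
  exact sub_mem_E1_of_congr (W⁄L) S.hord S.h2 S.hW S.hP (nonsingular_const W S.h₀)
    (GoodRed.isNsInt_of_good (W⁄L) S.hord S.h2 S.hW S.hΔ S.hP.1 S.xA) (S.hc.mem x₀) (S.hc.mem y₀)
    S.hx S.hy

/-- the value `(xs W n)(x)` -/
noncomputable def val (_ : Spec W A ord x y x₀ y₀) (n : ℕ) : L :=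
  aeval x (xs W n).num / aeval x (xs W n).denom

theorem denom_aeval_ne_zero (n : ℕ) : aeval x (xs W n).denom ≠ 0 := by
  intro h
  have hinj := transcendental_iff_injective.mp S.transc
  have : (xs W n).denom = 0 := hinj (by rw [h, map_zero])
  exact RatFunc.denom_ne_zero _ this

/-- **T1** for the generic point -/
theorem nsmul_gen (n : ℕ) (hn : 1 ≤ n) :
    ∃ (y' : L) (h' : (W⁄L).Nonsingular (S.val n) y'),
      n • Point.some x y S.hP = Point.some (S.val n) y' h' := by
  have h2L : (2 : L) ≠ 0 := S.h2.1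
  obtain ⟨y', h', he⟩ := TH.nsmul_some (heightAxioms W S.hΔK) h2L S.transc S.hP n hn
  have hv : TH.ev S.transc (xs W n) = S.val n := TH.ev_apply _ _
  revert he h'
  rw [hv]
  intro h' he
  exact ⟨y', h', he⟩

/-- numerator and denominator do not vanish simultaneously -/
theorem num_eval_ne_zero (n : ℕ) (h : (xs W n).denom.eval x₀ = 0) :
    (xs W n).num.eval x₀ ≠ 0 := by
  intro h'
  obtain ⟨u, v, huv⟩ := RatFunc.isCoprime_num_denom (xs W n)
  have := congrArg (Polynomial.eval x₀) huv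
  rw [eval_add, eval_mul, eval_mul, h, h', mul_zero, mul_zero, add_zero, eval_one] at this
  exact zero_ne_one this

/-- if `θ(x₀) ≠ 0` the value is integral and reduces to `φ(x₀)/θ(x₀)` -/
theorem val_congr (n : ℕ) (h : (xs W n).denom.eval x₀ ≠ 0) :
    S.val n ∈ A ∧ S.val n - algebraMap K L ((xs W n).num.eval x₀ / (xs W n).denom.eval x₀)
      ∈ A.nonunits := by
  set a := aeval x (xs W n).num with ha
  set b := aeval x (xs W n).denom with hb
  set φ₀ := (xs W n).num.eval x₀ with hφ₀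
  set θ₀ := (xs W n).denom.eval x₀ with hθ₀
  have haA := aeval_congr S.hc S.hx (xs W n).num
  have hbA := aeval_congr S.hc S.hx (xs W n).denom
  have hbU : IsU ord b :=
    S.hord.isU_iff_mem_not_nonunits.2 ⟨hbA.1, aeval_not_mem_nonunits S.hc S.hx h⟩
  have hθU : IsU ord (algebraMap K L θ₀) := S.isU_const h
  have hbinv : b⁻¹ ∈ A := (S.hord.isU_iff.1 hbU).2.2
  have hθinv : (algebraMap K L θ₀)⁻¹ ∈ A := (S.hord.isU_iff.1 hθU).2.2
  have hval : S.val n = a * b⁻¹ := by rw [val, div_eq_mul_inv]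
  refine ⟨by rw [hval]; exact mul_mem haA.1 hbinv, ?_⟩
  have e : S.val n - algebraMap K L (φ₀ / θ₀)
      = ((a - algebraMap K L φ₀) * algebraMap K L θ₀
          - algebraMap K L φ₀ * (b - algebraMap K L θ₀)) * (b⁻¹ * (algebraMap K L θ₀)⁻¹) := by
    rw [hval, map_div₀]
    have h1 := hbU.1
    have h2 := hθU.1
    field_simp
    ring
  rw [e]
  refine F_mul_mem_nonunits' (mul_mem hbinv hθinv) ?_
  exact nu_sub (F_mul_mem_nonunits' (S.hc.mem _) haA.2) (nu_mul_left (S.hc.mem _) hbA.2)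

/-- if `θ(x₀) = 0` the value has a pole, of order `ord θ(x)` -/
theorem val_pole (n : ℕ) (h : (xs W n).denom.eval x₀ = 0) :
    S.val n ≠ 0 ∧ ord (S.val n) = - ord (aeval x (xs W n).denom) ∧
      0 < ord (aeval x (xs W n).denom) := by
  have haA := aeval_congr S.hc S.hx (xs W n).num
  have haU : IsU ord (aeval x (xs W n).num) :=
    S.hord.isU_iff_mem_not_nonunits.2
      ⟨haA.1, aeval_not_mem_nonunits S.hc S.hx (S.num_eval_ne_zero n h)⟩
  have hb0 := S.denom_aeval_ne_zero n
  have hbnu := aeval_mem_nonunits S.hc S.hx h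
  refine ⟨div_ne_zero haU.1 hb0, ?_, S.hord.pos_of_mem_nonunits hb0 hbnu⟩
  rw [val, S.hord.ord_div haU.1 hb0, haU.2, zero_sub]

/-- **T5 (a)**: `n • Q₀ = 0 → θ(x₀) = 0`. -/
theorem denom_eval_eq_zero (n : ℕ) (hn : 1 ≤ n) (h0 : n • Point.some x₀ y₀ S.h₀ = 0) :
    (xs W n).denom.eval x₀ = 0 := by
  by_contra hθ
  obtain ⟨y', h', he⟩ := S.nsmul_gen n hn
  have hR := E1_nsmul_mem S.hord S.h2 S.hW S.sub_mem_E1 n
  rw [smul_sub, ← map_nsmul, h0, map_zero, sub_zero, he] at hR
  exact not_mem_E1_of_mem S.hord h' (S.val_congr n hθ).1 hR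

/-- **T5 (b)**: `n • Q₀ = (x',y') → θ(x₀) ≠ 0 ∧ x' = φ(x₀)/θ(x₀)`. -/
theorem x_nsmul (n : ℕ) (hn : 1 ≤ n) {x' y' : K} (hQ : W.Nonsingular x' y')
    (h0 : n • Point.some x₀ y₀ S.h₀ = Point.some x' y' hQ) :
    (xs W n).denom.eval x₀ ≠ 0 ∧
      x' = (xs W n).num.eval x₀ / (xs W n).denom.eval x₀ := by
  obtain ⟨y'', h'', he⟩ := S.nsmul_gen n hn
  have hR := E1_nsmul_mem S.hord S.h2 S.hW S.sub_mem_E1 n
  rw [smul_sub, ← map_nsmul, h0, iota_some, he] at hR
  have hθ : (xs W n).denom.eval x₀ ≠ 0 := by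
    intro hθ
    obtain ⟨hv0, hvord, hpos⟩ := S.val_pole n hθ
    have hvE1 : Point.some (S.val n) y'' h'' ∈ E1 (W⁄L) ord :=
      Or.inr ⟨_, _, h'', rfl, hv0, by rw [hvord]; linarith⟩
    have hc' : Point.some (algebraMap K L x') (algebraMap K L y') (nonsingular_const W hQ)
        ∈ E1 (W⁄L) ord := by
      have := E1_add_mem (W⁄L) S.hord S.h2 S.hW hvE1 (E1_neg_mem (W⁄L) hR)
      rwa [neg_sub, add_sub_cancel] at this
    exact not_mem_E1_of_mem S.hord _ (S.hc.mem x') hc'
  refine ⟨hθ, ?_⟩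
  obtain ⟨hvA, hvc⟩ := S.val_congr n hθ
  have hy''A : y'' ∈ A := GoodRed.GR_y_mem (W⁄L) S.hord S.hW h''.1 hvA
  have hcx := x_congr_of_sub_mem_E1 S.hord S.hW h'' (nonsingular_const W hQ) hvA hy''A
    (S.hc.mem x') (S.hc.mem y') hR
  have hdiff : algebraMap K L (x' - (xs W n).num.eval x₀ / (xs W n).denom.eval x₀)
      ∈ A.nonunits := by
    have : algebraMap K L (x' - (xs W n).num.eval x₀ / (xs W n).denom.eval x₀)
        = (S.val n - algebraMap K L ((xs W n).num.eval x₀ / (xs W n).denom.eval x₀))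
          - (S.val n - algebraMap K L x') := by
      rw [map_sub]; ring
    rw [this]
    exact nu_sub hvc hcx
  by_contra hne
  exact S.hc.unit _ (sub_ne_zero.mpr hne) hdiff

/-- `P(t) - Q₀` has a pole of order exactly `2 ord (x - x₀)` when `Q₀` is not `2`-torsion. -/
theorem sub_mem_poleSet (hY : 2 * y₀ + W.a₁ * x₀ + W.a₃ ≠ 0) :
    Point.some x y S.hP - iota (L := L) W (Point.some x₀ y₀ S.h₀)
      ∈ poleSet (W⁄L) ord (-2 * ord (x - algebraMap K L x₀)) := by
  have hord := S.hord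
  set τ := x - algebraMap K L x₀ with hτ
  have hτ0 : τ ≠ 0 := S.hne
  have hτpos : 0 < ord τ := hord.pos_of_mem_nonunits hτ0 S.hx
  have hne : x ≠ algebraMap K L x₀ := fun h => hτ0 (sub_eq_zero.mpr h)
  have ha1 : (W⁄L).a₁ = algebraMap K L W.a₁ := by
    simp only [Affine.baseChange, WeierstrassCurve.baseChange, WeierstrassCurve.map_a₁]
  have ha2 : (W⁄L).a₂ = algebraMap K L W.a₂ := by
    simp only [Affine.baseChange, WeierstrassCurve.baseChange, WeierstrassCurve.map_a₂]
  have ha3 : (W⁄L).a₃ = algebraMap K L W.a₃ := by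
    simp only [Affine.baseChange, WeierstrassCurve.baseChange, WeierstrassCurve.map_a₃]
  rw [iota_some, sub_eq_add_neg, Point.neg_some, Point.add_of_X_ne hne]
  refine Or.inr ⟨_, _, _, rfl, ?_⟩
  rw [Affine.slope_of_X_ne hne]
  simp only [Affine.addX, Affine.negY]
  rw [ha1, ha2, ha3]
  -- the numerator of the slope is a unit
  set N : L := y - (-algebraMap K L y₀ - algebraMap K L W.a₁ * algebraMap K L x₀
    - algebraMap K L W.a₃) with hN
  have hNU : IsU ord N := by
    have hY' : IsU ord (algebraMap K L (2 * y₀ + W.a₁ * x₀ + W.a₃)) := S.isU_const hY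
    have : N = algebraMap K L (2 * y₀ + W.a₁ * x₀ + W.a₃) + (y - algebraMap K L y₀) := by
      rw [hN]
      simp only [map_add, map_mul, map_ofNat]
      ring
    rw [this]
    exact hord.IsU_add_nonunit hY' S.hy
  set ℓ : L := N / τ with hℓ
  have hℓ0 : ℓ ≠ 0 := div_ne_zero hNU.1 hτ0
  have hℓord : ord ℓ = - ord τ := by
    rw [hℓ, hord.ord_div hNU.1 hτ0, hNU.2, zero_sub]
  have hsq0 : ℓ ^ 2 ≠ 0 := pow_ne_zero 2 hℓ0
  have hsqord : ord (ℓ ^ 2) = -2 * ord τ := by
    rw [hord.ord_sq hℓ0, hℓord]; ring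
  -- the remaining terms are smaller
  have hrest : Pole.Gt ord (ord (ℓ ^ 2))
      (algebraMap K L W.a₁ * ℓ - algebraMap K L W.a₂ - x - algebraMap K L x₀) := by
    rw [hsqord]
    have hA : ∀ {z : L}, z ∈ A → Pole.Gt ord (-2 * ord τ) z := by
      intro z hz
      exact (Pole.Ge.of_mem hord hz).gt (by linarith)
    refine Pole.Gt.sub hord (Pole.Gt.sub hord (Pole.Gt.sub hord ?_ (hA (S.hc.mem _))) (hA S.xA))
      (hA (S.hc.mem _))
    have h1 : Pole.Ge ord 0 (algebraMap K L W.a₁) := Pole.Ge.of_mem hord (S.hc.mem _)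
    have h2 : Pole.Ge ord (- ord τ) ℓ := Or.inr (by rw [hℓord])
    exact (h1.mul hord h2).gt (by linarith)
  have key := Pole.ord_add_of_gt hord hsq0 hrest
  have e : ℓ ^ 2 + algebraMap K L W.a₁ * ℓ - algebraMap K L W.a₂ - x - algebraMap K L x₀
      = ℓ ^ 2 + (algebraMap K L W.a₁ * ℓ - algebraMap K L W.a₂ - x - algebraMap K L x₀) := by
    ring
  rw [e]
  exact ⟨key.1, by rw [key.2, hsqord]⟩

/-- **T5 (c)**: if `n • Q₀ = 0` and `Q₀` is not `2`-torsion, `(X - x₀)² ∣ θ`. -/
theorem sq_dvd_denom (n : ℕ) (hn : 1 ≤ n) (hY : 2 * y₀ + W.a₁ * x₀ + W.a₃ ≠ 0)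
    (h0 : n • Point.some x₀ y₀ S.h₀ = 0) :
    (X - C x₀) ^ 2 ∣ (xs W n).denom := by
  have hord := S.hord
  set τ := x - algebraMap K L x₀ with hτ
  have hτ0 : τ ≠ 0 := S.hne
  have hτpos : 0 < ord τ := hord.pos_of_mem_nonunits hτ0 S.hx
  have hθ : (xs W n).denom.eval x₀ = 0 := S.denom_eval_eq_zero n hn h0
  obtain ⟨y', h', he⟩ := S.nsmul_gen n hn
  have hR := poleSet_nsmul_mem S.hord S.h2 S.hW (by linarith : -2 * ord τ < 0)
    (S.sub_mem_poleSet hY) n
  rw [smul_sub, ← map_nsmul, h0, map_zero, sub_zero, he] at hR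
  obtain ⟨hv0, hvord, hpos⟩ := S.val_pole n hθ
  have hle : 2 * ord τ ≤ ord (aeval x (xs W n).denom) := by
    rcases hR with h0' | ⟨u, v, hh, he', hu0, hule⟩
    · exact absurd h0' (Point.some_ne_zero h')
    · have hx : S.val n = u := by
        have := he'
        simp only [Point.some.injEq] at this
        exact this.1
      rw [← hx, hvord] at hule
      linarith
  -- first factor
  obtain ⟨θ₁, hθ₁⟩ := Polynomial.dvd_iff_isRoot.mpr hθ
  have hb0 := S.denom_aeval_ne_zero n
  have e1 : aeval x (xs W n).denom = τ * aeval x θ₁ := by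
    rw [hθ₁, map_mul, map_sub, aeval_X, aeval_C]
  have h10 : aeval x θ₁ ≠ 0 := by
    intro h; rw [e1, h, mul_zero] at hb0; exact hb0 rfl
  have hord1 : ord τ ≤ ord (aeval x θ₁) := by
    rw [e1, hord.map_mul hτ0 h10] at hle
    linarith
  have hθ₁0 : θ₁.eval x₀ = 0 := by
    by_contra hne
    have := aeval_not_mem_nonunits S.hc S.hx hne
    exact this (hord.mem_nonunits_of_pos (lt_of_lt_of_le hτpos hord1))
  obtain ⟨θ₂, hθ₂⟩ := Polynomial.dvd_iff_isRoot.mpr hθ₁0
  exact ⟨θ₂, by rw [hθ₁, hθ₂]; ring⟩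

end Spec

end core


/-! ### The Laurent series instance -/

section laurent

variable {K : Type*} [Field K] [CharZero K] [DecidableEq K] [DecidableEq (LaurentSeries K)]

theorem constUnits_laurent : ConstUnits K (TM.laurentVS K) where
  mem := TM.algebraMap_mem
  unit := fun _ hc =>
    ((TM.isOrd_lord (K := K)).isU_iff_mem_not_nonunits.1 (TM.isU_algebraMap hc)).2

theorem ne_zero_of_lord_eq_one {f : LaurentSeries K} (h : TM.lord K f = 1) : f ≠ 0 := by
  rintro rfl
  simp [TM.lord] at h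

/-- every point of `E(K)` is the specialisation of a point over `K((t))` with non-constant
`x`-coordinate. -/
theorem exists_spec (W : Affine K) (hΔ : W.Δ ≠ 0) {x₀ y₀ : K} (h₀ : W.Nonsingular x₀ y₀) :
    ∃ x y : LaurentSeries K, Spec W (TM.laurentVS K) (TM.lord K) x y x₀ y₀ := by
  obtain ⟨Xs, Ys, hX, hY, hns, h1, h2⟩ := TM.exists_local_point W h₀
  refine ⟨HahnSeries.ofPowerSeries ℤ K Xs, HahnSeries.ofPowerSeries ℤ K Ys, ?_⟩
  have hx := TM.ofPowerSeries_sub_mem_nonunits hX
  have hy := TM.ofPowerSeries_sub_mem_nonunits hY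
  refine ⟨TM.isOrd_lord, TM.isU_two, constUnits_laurent, hΔ, hns, h₀, hx, hy, ?_⟩
  by_cases hD : 2 * y₀ + W.a₁ * x₀ + W.a₃ = 0
  · -- the 2-torsion case: `y = y₀ + t`
    have hYs := h2 hD
    intro hx0
    have hx0' : HahnSeries.ofPowerSeries ℤ K Xs = algebraMap K (LaurentSeries K) x₀ :=
      sub_eq_zero.mp hx0
    have hτ : TM.lord K (HahnSeries.ofPowerSeries ℤ K Ys - algebraMap K (LaurentSeries K) y₀)
        = 1 := by
      rw [hYs]; exact TM.lord_ofPowerSeries_C_add_X_sub y₀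
    have hτ0 := ne_zero_of_lord_eq_one hτ
    have hE := hns.1
    have hE0 := (nonsingular_const (L := LaurentSeries K) W h₀).1
    rw [hx0'] at hE
    rw [Affine.equation_iff] at hE hE0
    have hprod : (HahnSeries.ofPowerSeries ℤ K Ys - algebraMap K (LaurentSeries K) y₀) *
        ((HahnSeries.ofPowerSeries ℤ K Ys - algebraMap K (LaurentSeries K) y₀)
          + algebraMap K (LaurentSeries K) (2 * y₀ + W.a₁ * x₀ + W.a₃)) = 0 := by
      simp only [Affine.baseChange, WeierstrassCurve.baseChange, WeierstrassCurve.map_a₁,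
        WeierstrassCurve.map_a₂, WeierstrassCurve.map_a₃, WeierstrassCurve.map_a₄,
        WeierstrassCurve.map_a₆] at hE hE0
      simp only [map_add, map_mul, map_ofNat]
      linear_combination hE - hE0
    rw [hD, map_zero, add_zero] at hprod
    exact hτ0 (mul_self_eq_zero.mp hprod)
  · have hXs := h1 hD
    have hτ : TM.lord K (HahnSeries.ofPowerSeries ℤ K Xs - algebraMap K (LaurentSeries K) x₀)
        = 1 := by
      rw [hXs]; exact TM.lord_ofPowerSeries_C_add_X_sub x₀
    exact ne_zero_of_lord_eq_one hτ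

end laurent

/-! ### The specialisation theorems over `K` -/

section final

variable {K : Type*} [Field K] [CharZero K] [DecidableEq K]

/-- **T5 (a)+(b), first half**: `n • Q₀ = 0 ↔ θ_n(x₀) = 0`. -/
theorem nsmul_some_eq_zero_iff (W : Affine K) (hΔ : W.Δ ≠ 0) {x₀ y₀ : K} (h₀ : W.Nonsingular x₀ y₀)
    (n : ℕ) (hn : 1 ≤ n) :
    n • Point.some x₀ y₀ h₀ = 0 ↔ (xs W n).denom.eval x₀ = 0 := by
  classical
  obtain ⟨x, y, S⟩ := exists_spec W hΔ h₀
  constructor
  · intro h
    exact S.denom_eval_eq_zero n hn h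
  · intro h
    by_contra hne
    rcases hQ : n • Point.some x₀ y₀ h₀ with _ | ⟨x', y', h'⟩
    · exact hne hQ
    · exact (S.x_nsmul n hn h' hQ).1 h

/-- **T5 (b)**: if `n • Q₀ = (x',y')` then `x' = φ_n(x₀)/θ_n(x₀)`. -/
theorem x_nsmul_eq (W : Affine K) (hΔ : W.Δ ≠ 0) {x₀ y₀ : K} (h₀ : W.Nonsingular x₀ y₀)
    (n : ℕ) (hn : 1 ≤ n) {x' y' : K} (h' : W.Nonsingular x' y')
    (hQ : n • Point.some x₀ y₀ h₀ = Point.some x' y' h') :
    (xs W n).denom.eval x₀ ≠ 0 ∧ x' = (xs W n).num.eval x₀ / (xs W n).denom.eval x₀ := by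
  classical
  obtain ⟨x, y, S⟩ := exists_spec W hΔ h₀
  exact S.x_nsmul n hn h' hQ

/-- **T5 (c)**: multiplicity `≥ 2` at the `x`-coordinates of the `n`-torsion points that are not
`2`-torsion. -/
theorem sq_dvd_denom (W : Affine K) (hΔ : W.Δ ≠ 0) {x₀ y₀ : K} (h₀ : W.Nonsingular x₀ y₀)
    (n : ℕ) (hn : 1 ≤ n) (hY : 2 * y₀ + W.a₁ * x₀ + W.a₃ ≠ 0)
    (h0 : n • Point.some x₀ y₀ h₀ = 0) : (X - C x₀) ^ 2 ∣ (xs W n).denom := by
  classical
  obtain ⟨x, y, S⟩ := exists_spec W hΔ h₀
  exact S.sq_dvd_denom n hn hY h0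

end final

end Fermat.Agent.S13.TS95
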