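/-
S13 (blueprint 7), package T-I = item T7 (helper95): INTEGRALITY of `p² θ_p`, where
`xs W p = φ/θ` in lowest terms: over every valuation ring `A` (with `IsOrd A ord`) over which the
curve is integral and in which `2` is a unit, `p² θ ∈ A[X]`.

Proof: for `c ∈ A` all roots `x₁` of `φ - cθ` lie in `A` (else `Q₁ = (x₁,·) ∈ E₁`, so
`pQ₁ ∈ E₁`, but `x(pQ₁) = c ∈ A`); `p²(φ - cθ)` is monic (package T-L), hence in `A[X]`; take
`c = 0, 1`.  No sorry in this file.
-/
import Mathlib
import Fermat.Agent.S13.Interface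
import Fermat.Agent.S13.TC29
import Fermat.Agent.S13.TL
import Fermat.Agent.S13.TS95

set_option autoImplicit false
set_option linter.unusedSectionVars false

namespace Fermat.Agent.S13.TI95

open WeierstrassCurve WeierstrassCurve.Affine Fermat.Agent.S05 Fermat.Agent.S13.XsDef
open Polynomial

section general

variable {K : Type*} [Field K]

/-- numerator and denominator of a rational function have no common root -/
theorem num_eval_ne_zero (r : RatFunc K) {x₀ : K} (h : r.denom.eval x₀ = 0) :
    r.num.eval x₀ ≠ 0 := by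
  intro h'
  obtain ⟨u, v, huv⟩ := RatFunc.isCoprime_num_denom r
  have := congrArg (Polynomial.eval x₀) huv
  rw [eval_add, eval_mul, eval_mul, h, h', mul_zero, mul_zero, add_zero, eval_one] at this
  exact zero_ne_one this

variable {A : ValuationSubring K}

theorem intCoeffs_X_sub_C_mul {r : K} (hr : r ∈ A) {g : K[X]} (hg : ∀ i, g.coeff i ∈ A) :
    ∀ i, ((X - C r) * g).coeff i ∈ A := by
  intro i
  rw [sub_mul, coeff_sub, coeff_C_mul]
  cases i with
  | zero =>
    rw [coeff_X_mul_zero, zero_sub]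
    exact neg_mem (mul_mem hr (hg 0))
  | succ k =>
    rw [coeff_X_mul]
    exact sub_mem (hg k) (mul_mem hr (hg _))

theorem intCoeffs_prod (s : Multiset K) (hs : ∀ r ∈ s, r ∈ A) :
    ∀ i, ((s.map fun r => X - C r).prod).coeff i ∈ A := by
  induction s using Multiset.induction_on with
  | empty =>
    intro i
    simp only [Multiset.map_zero, Multiset.prod_zero, coeff_one]
    split_ifs
    · exact A.one_mem
    · exact A.zero_mem
  | cons r s ih =>
    rw [Multiset.map_cons, Multiset.prod_cons]
    exact intCoeffs_X_sub_C_mul (hs r (Multiset.mem_cons_self r s))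
      (ih fun x hx => hs x (Multiset.mem_cons_of_mem hx))

/-- a monic polynomial over an algebraically closed field all of whose roots lie in `A` has
coefficients in `A`. -/
theorem intCoeffs_of_monic_of_roots [IsAlgClosed K] {g : K[X]} (hm : g.Monic)
    (hr : ∀ r, g.IsRoot r → r ∈ A) : ∀ i, g.coeff i ∈ A := by
  have hsplit : g.Splits := IsAlgClosed.splits g
  have heq := hsplit.eq_prod_roots_of_monic hm
  rw [heq]
  apply intCoeffs_prod
  intro r hr'
  exact hr r ((mem_roots hm.ne_zero).mp hr')

end general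

section curve

variable {K : Type*} [Field K] [DecidableEq K] {A : ValuationSubring K} {ord : K → ℚ}

theorem E1_nsmul_mem' (W : Affine K) (hord : IsOrd A ord) (h2 : IsU ord (2 : K))
    (hW : IsIntegralW W A) {P : W.Point} (hP : P ∈ E1 W ord) (n : ℕ) : n • P ∈ E1 W ord := by
  induction n with
  | zero => rw [zero_smul]; exact Or.inl rfl
  | succ k ih => rw [succ_nsmul]; exact E1_add_mem W hord h2 hW ih hP

/-- over an algebraically closed field every `x` is the `x`-coordinate of a point. -/
theorem exists_point [IsAlgClosed K] (W : Affine K) (hΔ : W.Δ ≠ 0) (x : K) :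
    ∃ y, W.Nonsingular x y := by
  have hdeg : (TC29.yPoly W x).degree ≠ 0 := by
    intro h
    have h2 := TC29.yPoly_natDegree W x
    rw [natDegree, h] at h2
    simp at h2
  obtain ⟨y, hy⟩ := IsAlgClosed.exists_root (TC29.yPoly W x) hdeg
  exact ⟨y, (W.equation_iff_nonsingular_of_Δ_ne_zero hΔ).mp ((TC29.yPoly_isRoot_iff W x y).mp hy)⟩

end curve

section main

variable {K : Type*} [Field K] [CharZero K] [IsAlgClosed K] [DecidableEq K]

/-- for `c ∈ A`, every root of `φ - cθ` is integral. -/
theorem root_mem (W : Affine K) (hΔ : W.Δ ≠ 0) {n : ℕ} (hn : 1 ≤ n)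
    {A : ValuationSubring K} {ord : K → ℚ} (hord : IsOrd A ord) (hW : IsIntegralW W A)
    (h2 : IsU ord (2 : K)) {c : K} (hc : c ∈ A) {r : K}
    (hr : ((xs W n).num - C c * (xs W n).denom).IsRoot r) : r ∈ A := by
  by_contra hrA
  rw [IsRoot.def, eval_sub, eval_mul, eval_C, sub_eq_zero] at hr
  have hθ : (xs W n).denom.eval r ≠ 0 := by
    intro h0
    have := num_eval_ne_zero (xs W n) h0
    rw [hr, h0, mul_zero] at this
    exact this rfl
  obtain ⟨s, h₁⟩ := exists_point W hΔ r
  have hne : n • Point.some r s h₁ ≠ 0 := by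
    intro h0
    exact hθ ((TS95.nsmul_some_eq_zero_iff W hΔ h₁ n hn).mp h0)
  rcases hQ : n • Point.some r s h₁ with _ | ⟨x', y', h'⟩
  · exact hne hQ
  · obtain ⟨_, hx'⟩ := TS95.x_nsmul_eq W hΔ h₁ n hn h' hQ
    have hx'c : x' = c := by
      rw [hx', hr]; field_simp
    have hr0 : r ≠ 0 := fun h => hrA (h ▸ A.zero_mem)
    have hE1 : Point.some r s h₁ ∈ E1 W ord :=
      Or.inr ⟨r, s, h₁, rfl, hr0, (hord.not_mem_iff hr0).mp hrA⟩
    have hnE1 := E1_nsmul_mem' W hord h2 hW hE1 n
    rw [hQ] at hnE1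
    rcases hnE1 with h0 | ⟨u, v, hh, he, hu0, hult⟩
    · exact Point.some_ne_zero h' h0
    · have hux : x' = u := by
        have := he
        simp only [Point.some.injEq] at this
        exact this.1
      rw [← hux, hx'c] at hu0 hult
      exact ((hord.not_mem_iff hu0).mpr hult) hc

/-- `n²(φ - cθ)` is monic. -/
theorem monic_comb (W : Affine K) {n : ℕ} (hn : 1 ≤ n) (c : K) :
    (C ((n : K) ^ 2) * ((xs W n).num - C c * (xs W n).denom)).Monic := by
  have h0 : ((n : K) ^ 2) ≠ 0 := pow_ne_zero 2 (Nat.cast_ne_zero.mpr (by omega))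
  have hdeg := TL.xs_natDegree_num W hn
  have hlc := TL.xs_leadingCoeff_num W hn
  have hlt : (C c * (xs W n).denom).degree < (xs W n).num.degree := by
    apply degree_lt_degree
    rw [hdeg]
    exact lt_of_le_of_lt (natDegree_C_mul_le _ _) (Nat.lt_succ_self _)
  unfold Polynomial.Monic
  rw [leadingCoeff_mul, leadingCoeff_C, leadingCoeff_sub_of_degree_lt hlt, hlc,
    mul_inv_cancel₀ h0]

/-- **T7**: `n² θ_n ∈ A[X]`. -/
theorem sq_mul_denom_coeff_mem (W : Affine K) (hΔ : W.Δ ≠ 0) {n : ℕ} (hn : 1 ≤ n)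
    {A : ValuationSubring K} {ord : K → ℚ} (hord : IsOrd A ord) (hW : IsIntegralW W A)
    (h2 : IsU ord (2 : K)) (i : ℕ) : (n : K) ^ 2 * (xs W n).denom.coeff i ∈ A := by
  have h0 := intCoeffs_of_monic_of_roots (A := A) (monic_comb W hn 0) (by
    intro r hr
    have hr' : ((xs W n).num - C 0 * (xs W n).denom).IsRoot r := by
      have h0 : ((n : K) ^ 2) ≠ 0 := pow_ne_zero 2 (Nat.cast_ne_zero.mpr (by omega))
      rw [IsRoot.def, eval_mul, eval_C] at hr
      exact (mul_eq_zero.mp hr).resolve_left h0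
    exact root_mem W hΔ hn hord hW h2 A.zero_mem hr') i
  have h1 := intCoeffs_of_monic_of_roots (A := A) (monic_comb W hn 1) (by
    intro r hr
    have hr' : ((xs W n).num - C 1 * (xs W n).denom).IsRoot r := by
      have h0 : ((n : K) ^ 2) ≠ 0 := pow_ne_zero 2 (Nat.cast_ne_zero.mpr (by omega))
      rw [IsRoot.def, eval_mul, eval_C] at hr
      exact (mul_eq_zero.mp hr).resolve_left h0
    exact root_mem W hΔ hn hord hW h2 A.one_mem hr') i
  have e : (n : K) ^ 2 * (xs W n).denom.coeff i
      = (C ((n : K) ^ 2) * ((xs W n).num - C 0 * (xs W n).denom)).coeff i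
        - (C ((n : K) ^ 2) * ((xs W n).num - C 1 * (xs W n).denom)).coeff i := by
    simp only [coeff_C_mul, coeff_sub, map_zero, zero_mul, sub_zero, map_one, one_mul]
    ring
  rw [e]
  exact sub_mem h0 h1

end main

end Fermat.Agent.S13.TI95
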