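/-
S13 (blueprint 7), heights route, final assembly of package [T] (helper95):
`theorem tDivPoly : Fermat.Agent.S13.TDivPolyStmt`, with `θ := (xs W p).denom`.
Inputs: T-U (helper28), T-D (helper35), T-H (helper51), T-L, T-S, T-I (helper95), T-M (helper46).
No sorry in this file.
-/
import Mathlib
import Fermat.Agent.S13.Interface
import Fermat.Agent.S13.TL
import Fermat.Agent.S13.TS95
import Fermat.Agent.S13.TI95

set_option autoImplicit false
set_option linter.unusedSectionVars false

namespace Fermat.Agent.S13.TDiv95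

open WeierstrassCurve WeierstrassCurve.Affine Fermat.Agent.S05 Fermat.Agent.S13.XsDef
open Polynomial

section generic

variable {K : Type*} [Field K] [CharZero K] [IsAlgClosed K] [DecidableEq K]

/-- a point of odd order is not `2`-torsion -/
theorem Yc_ne_zero_of_odd_torsion (W : Affine K) {x₀ y₀ : K} (h₀ : W.Nonsingular x₀ y₀)
    {n : ℕ} (hodd : Odd n) (h0 : n • Point.some x₀ y₀ h₀ = 0) :
    2 * y₀ + W.a₁ * x₀ + W.a₃ ≠ 0 := by
  intro hY
  have hneg : y₀ = W.negY x₀ y₀ := by
    simp only [Affine.negY]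
    linear_combination hY
  have h2 : (2 : ℕ) • Point.some x₀ y₀ h₀ = 0 := by
    rw [two_nsmul]
    exact Point.add_self_of_Y_eq hneg
  obtain ⟨k, rfl⟩ := hodd
  rw [add_nsmul, mul_nsmul, h2, smul_zero, zero_add, one_nsmul] at h0
  exact Point.some_ne_zero h₀ h0

/-- **[T]**: the denominator of `xs W p` is a `p`-division polynomial. -/
theorem isDivPoly (W : Affine K) (hΔ : W.Δ ≠ 0) (p : ℕ) (hp : p.Prime) (hp2 : p ≠ 2) :
    IsDivPoly W p (xs W p).denom := by
  have hp1 : 1 ≤ p := hp.one_lt.le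
  have hp3 : 2 < p := lt_of_le_of_ne hp.two_le (Ne.symm hp2)
  have hodd : Odd p := hp.odd_of_ne_two hp2
  have h2K : (2 : K) ≠ 0 := two_ne_zero
  have hh : TU.hdeg (xs W p) = p ^ 2 := TH.h_xs (TS95.heightAxioms W hΔ) h2K p hp1
  have hdeg := TL.xs_natDegree_of_height W hp1 hh
  have hroot : ∀ {x y : K} (h : W.Nonsingular x y),
      (p : ℤ) • (Point.some x y h) = 0 ↔ (xs W p).denom.IsRoot x := by
    intro x y h
    rw [natCast_zsmul, IsRoot.def]
    exact TS95.nsmul_some_eq_zero_iff W hΔ h p hp1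
  refine ⟨RatFunc.monic_denom _, hdeg.2, hroot, ?_, ?_⟩
  · intro x₀ hx₀
    obtain ⟨y₀, h₀⟩ := TI95.exists_point W hΔ x₀
    have h0 : p • Point.some x₀ y₀ h₀ = 0 := by
      have := (hroot h₀).mpr hx₀
      rwa [natCast_zsmul] at this
    exact TS95.sq_dvd_denom W hΔ h₀ p hp1 (Yc_ne_zero_of_odd_torsion W h₀ hodd h0) h0
  · intro A ord hord hW hU i
    have h2 : IsU ord (2 : K) := by
      have := hU 2 (by norm_num) hp3
      exact_mod_cast this
    exact TI95.sq_mul_denom_coeff_mem W hΔ hp1 hord hW h2 i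

end generic

/-- **`TDivPolyStmt`** (heights route). -/
theorem tDivPoly : TDivPolyStmt := by
  intro W hΔ p hp hp2
  exact ⟨(xs W p).denom, isDivPoly W hΔ p hp hp2⟩

end Fermat.Agent.S13.TDiv95
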