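import Fermat.Agent.S13.WrSymbol81

set_option autoImplicit false

/-!
# Wronskian route: the Wronskian of `L(nO)` and its leading term (helper81)
-/

namespace Fermat.Agent.S13.Wr81

open Polynomial WeierstrassCurve WeierstrassCurve.Affine
open scoped Polynomial.Bivariate

noncomputable section

variable {K : Type*} [Field K] (W : Affine K)

/-! ### basis monomials -/

/-- the monomial of pole order `m` (`m ≠ 1`): `x^(m/2)` or `x^((m-3)/2) y` -/
def bm (m : ℕ) : W.CoordinateRing :=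
  if 2 ∣ m then io W (X ^ (m / 2)) else io W (X ^ ((m - 3) / 2)) * Yc W

lemma sg_bm {m : ℕ} (hm : m ≠ 1) : sg W (bm W m) = X ^ m := by
  unfold bm
  split_ifs with h
  · have : io W (X ^ (m / 2)) = io W (X ^ (m / 2)) + io W 0 * Yc W := by simp
    rw [this, sg_rep]
    obtain ⟨k, rfl⟩ := h
    simp [map_pow, expand_X, ← pow_mul, mul_comm]
  · have : io W (X ^ ((m - 3) / 2)) * Yc W = io W 0 + io W (X ^ ((m - 3) / 2)) * Yc W := by simp
    rw [this, sg_rep]
    have h3 : 3 ≤ m := by omega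
    have : m = 3 + 2 * ((m - 3) / 2) := by omega
    conv_rhs => rw [this]
    simp [map_pow, expand_X, ← pow_mul, pow_add]

/-- the pole orders `0,2,3,…,n` -/
def mseq (j : ℕ) : ℕ := if j = 0 then 0 else j + 1

lemma mseq_ne_one (j : ℕ) : mseq j ≠ 1 := by
  unfold mseq; split_ifs <;> omega

lemma mseq_injective : Function.Injective mseq := by
  intro a b h
  unfold mseq at h
  split_ifs at h <;> omega

lemma mseq_le {n j : ℕ} (hj : j < n) : mseq j ≤ n := by
  unfold mseq; split_ifs <;> omega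

/-! ### iterated derivative -/

/-- rising factorial `m (m+1) ⋯ (m+i-1)` in `K` -/
def rf (m i : ℕ) : K := (ascPochhammer K i).eval (m : K)

lemma rf_zero (m : ℕ) : rf (K := K) m 0 = 1 := by simp [rf]

lemma rf_succ (m i : ℕ) : rf (K := K) m (i + 1) = rf m i * ((m + i : ℕ) : K) := by
  simp only [rf, ascPochhammer_succ_right, eval_mul, eval_add, eval_X, eval_natCast]
  push_cast
  ring

lemma sg_iter_le {f : W.CoordinateRing} {m : ℕ} (hf : (sg W f).natDegree ≤ m) (i : ℕ) :
    (sg W ((D W)^[i] f)).natDegree ≤ m + i ∧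
      (sg W ((D W)^[i] f)).coeff (m + i) = rf m i * (sg W f).coeff m := by
  induction i with
  | zero => simpa [rf_zero] using hf
  | succ i ih =>
    rw [Function.iterate_succ_apply']
    obtain ⟨h1, h2⟩ := sg_D_le W ih.1
    refine ⟨by simpa [add_assoc] using h1, ?_⟩
    have : m + (i + 1) = m + i + 1 := by ring
    rw [this, h2, ih.2, rf_succ]
    ring

/-! ### products -/

lemma sg_prod_le {ι : Type*} (s : Finset ι) (f : ι → W.CoordinateRing) (a : ι → ℕ)
    (h : ∀ i ∈ s, (sg W (f i)).natDegree ≤ a i) :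
    (sg W (∏ i ∈ s, f i)).natDegree ≤ ∑ i ∈ s, a i ∧
      (sg W (∏ i ∈ s, f i)).coeff (∑ i ∈ s, a i) = ∏ i ∈ s, (sg W (f i)).coeff (a i) := by
  classical
  induction s using Finset.induction_on with
  | empty => simp [sg_one]
  | insert i s hi ih =>
    have h1 := h i (Finset.mem_insert_self i s)
    have h2 := ih (fun j hj => h j (Finset.mem_insert_of_mem hj))
    rw [Finset.prod_insert hi, Finset.sum_insert hi, Finset.prod_insert hi]
    obtain ⟨h3, h4⟩ := sg_mul_le W h1 h2.1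
    exact ⟨h3, by rw [h4, h2.2]⟩

/-! ### the Wronskian -/

/-- the Wronskian matrix of `L(nO)` -/
def WrM (n : ℕ) : Matrix (Fin n) (Fin n) W.CoordinateRing :=
  Matrix.of fun i j => (D W)^[(i : ℕ)] (bm W (mseq (j : ℕ)))

/-- the Wronskian of `L(nO)` -/
def Wr (n : ℕ) : W.CoordinateRing := (WrM W n).det

/-- the total pole order -/
def Ntot (n : ℕ) : ℕ := ∑ i : Fin n, (mseq (i : ℕ) + (i : ℕ))

/-- the matrix of rising factorials -/
def rfM (n : ℕ) : Matrix (Fin n) (Fin n) K :=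
  Matrix.of fun i j => rf (mseq (j : ℕ)) (i : ℕ)

lemma sg_term_le (n : ℕ) (σ : Equiv.Perm (Fin n)) :
    (sg W (∏ i, WrM W n (σ i) i)).natDegree ≤ Ntot n ∧
      (sg W (∏ i, WrM W n (σ i) i)).coeff (Ntot n) = ∏ i, rfM (K := K) n (σ i) i := by
  have hsum : ∑ i : Fin n, (mseq (i : ℕ) + ((σ i : Fin n) : ℕ)) = Ntot n := by
    unfold Ntot
    rw [Finset.sum_add_distrib, Finset.sum_add_distrib]
    congr 1
    exact Equiv.sum_comp σ (fun i : Fin n => (i : ℕ))
  have key := sg_prod_le W Finset.univ (fun i : Fin n => WrM W n (σ i) i)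
    (fun i => mseq (i : ℕ) + ((σ i : Fin n) : ℕ))
    (fun i _ => by
      have hb : (sg W (bm W (mseq (i : ℕ)))).natDegree ≤ mseq (i : ℕ) := by
        rw [sg_bm W (mseq_ne_one _)]; exact natDegree_X_pow_le _
      exact (sg_iter_le W hb _).1)
  rw [hsum] at key
  refine ⟨key.1, ?_⟩
  rw [key.2]
  refine Finset.prod_congr rfl fun i _ => ?_
  have hb : (sg W (bm W (mseq (i : ℕ)))).natDegree ≤ mseq (i : ℕ) := by
    rw [sg_bm W (mseq_ne_one _)]; exact natDegree_X_pow_le _
  have := (sg_iter_le W hb ((σ i : Fin n) : ℕ)).2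
  simp only [WrM, Matrix.of_apply, rfM]
  rw [this, sg_bm W (mseq_ne_one _)]
  simp

lemma sg_Wr_le (n : ℕ) :
    (sg W (Wr W n)).natDegree ≤ Ntot n ∧ (sg W (Wr W n)).coeff (Ntot n) = (rfM (K := K) n).det := by
  have hlin : sg W (Wr W n) =
      ∑ σ : Equiv.Perm (Fin n), ((Equiv.Perm.sign σ : ℤ) : K) • sg W (∏ i, WrM W n (σ i) i) := by
    unfold Wr
    rw [Matrix.det_apply, ← sgl_apply, map_sum]
    refine Finset.sum_congr rfl fun σ _ => ?_
    rw [Units.smul_def, ← Int.cast_smul_eq_zsmul K, map_smul, sgl_apply]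
  rw [hlin]
  constructor
  · refine natDegree_sum_le_of_forall_le _ _ fun σ _ => ?_
    exact (natDegree_smul_le _ _).trans (sg_term_le W n σ).1
  · rw [finsetSum_coeff, Matrix.det_apply]
    refine Finset.sum_congr rfl fun σ _ => ?_
    rw [coeff_smul, (sg_term_le W n σ).2, Units.smul_def, ← Int.cast_smul_eq_zsmul K]

/-- the leading coefficient is a Vandermonde determinant -/
lemma det_rfM (n : ℕ) :
    (rfM (K := K) n).det = (Matrix.vandermonde fun i : Fin n => ((mseq (i : ℕ) : ℕ) : K)).det := by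
  have h := Matrix.det_eval_matrixOfPolynomials_eq_det_vandermonde
    (fun i : Fin n => ((mseq (i : ℕ) : ℕ) : K)) (fun k : Fin n => ascPochhammer K (k : ℕ))
    (fun i => ascPochhammer_natDegree K (i : ℕ)) (fun i => monic_ascPochhammer K (i : ℕ))
  rw [h, ← Matrix.det_transpose]
  rfl

lemma det_rfM_eq_prod (n : ℕ) :
    (rfM (K := K) n).det =
      ∏ i : Fin n, ∏ j ∈ Finset.Ioi i, (((mseq (j : ℕ) : ℕ) : K) - ((mseq (i : ℕ) : ℕ) : K)) := by
  rw [det_rfM, Matrix.det_vandermonde]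

lemma det_rfM_ne_zero [CharZero K] (n : ℕ) : (rfM (K := K) n).det ≠ 0 := by
  rw [det_rfM, Matrix.det_vandermonde_ne_zero_iff]
  intro a b h
  have := mseq_injective (Nat.cast_injective (R := K) h)
  exact Fin.ext this

lemma Ntot_eq {n : ℕ} (hn : 1 ≤ n) : Ntot n = n ^ 2 - 1 := by
  unfold Ntot
  rw [Fin.sum_univ_eq_sum_range (fun i => mseq i + i) n]
  induction n with
  | zero => omega
  | succ n ih =>
    rcases Nat.eq_zero_or_pos n with rfl | hpos
    · simp [mseq]
    · rw [Finset.sum_range_succ, ih hpos]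
      have : mseq n = n + 1 := by unfold mseq; rw [if_neg (by omega)]
      rw [this]
      have h1 : 1 ≤ n ^ 2 := Nat.one_le_pow _ _ hpos
      have h2 : (n + 1) ^ 2 = n ^ 2 + 2 * n + 1 := by ring
      omega

/-- **Leading term of the Wronskian**: pole order exactly `n² - 1`. -/
theorem natDegree_sg_Wr [CharZero K] {n : ℕ} (hn : 1 ≤ n) :
    (sg W (Wr W n)).natDegree = n ^ 2 - 1 := by
  obtain ⟨h1, h2⟩ := sg_Wr_le W n
  rw [Ntot_eq hn] at h1 h2
  refine le_antisymm h1 ?_
  refine le_natDegree_of_ne_zero ?_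
  rw [h2]
  exact det_rfM_ne_zero n

theorem leadingCoeff_sg_Wr [CharZero K] {n : ℕ} (hn : 1 ≤ n) :
    (sg W (Wr W n)).leadingCoeff =
      ∏ i : Fin n, ∏ j ∈ Finset.Ioi i, (((mseq (j : ℕ) : ℕ) : K) - ((mseq (i : ℕ) : ℕ) : K)) := by
  rw [leadingCoeff, natDegree_sg_Wr W hn, ← Ntot_eq hn, (sg_Wr_le W n).2, det_rfM_eq_prod]

end

end Fermat.Agent.S13.Wr81
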