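/-
S13, Wronskian route for [T] (helper86): the kernel step.

If the Wronskian `Wr W n` vanishes at an affine point `P`, the evaluated Wronskian matrix is
singular, so some nonzero `f = Σ c_j b_j ∈ L(nO)` has vanishing Taylor coefficients
`ev (D^i f) = 0` (`i < n`), hence `f ∈ I_P^n` (helper18's Taylor criterion).  Also
`natDegree (norm f) ≤ n` for every `f` of pole order `≤ n` (Mathlib `degree_norm_smul_basis`).
-/
import Mathlib
import Fermat.Agent.S13.WrDet81
import Fermat.Agent.S13.TorsW18.Bridge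

set_option autoImplicit false

namespace Fermat.Agent.S13.WrKer86

open Polynomial WeierstrassCurve WeierstrassCurve.Affine
open scoped Polynomial.Bivariate
open Fermat.Agent.S13

variable {K : Type*} [Field K] (W : Affine K)

/-- the element `Σ c_j b_j` of `L(nO)` with coordinates `c` in the monomial basis. -/
noncomputable def comb (n : ℕ) (c : Fin n → K) : W.CoordinateRing :=
  ∑ j : Fin n, c j • Wr81.bm W (Wr81.mseq (j : ℕ))

theorem sg_comb (n : ℕ) (c : Fin n → K) :
    Wr81.sg W (comb W n c) = ∑ j : Fin n, C (c j) * X ^ Wr81.mseq (j : ℕ) := by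
  unfold comb
  rw [← Wr81.sgl_apply, map_sum]
  refine Finset.sum_congr rfl fun j _ => ?_
  rw [Wr81.sgl_apply, Wr81.sg_smul, Wr81.sg_bm W (Wr81.mseq_ne_one _)]

theorem coeff_sg_comb (n : ℕ) (c : Fin n → K) (j₀ : Fin n) :
    (Wr81.sg W (comb W n c)).coeff (Wr81.mseq (j₀ : ℕ)) = c j₀ := by
  rw [sg_comb, finsetSum_coeff]
  rw [Finset.sum_eq_single j₀]
  · rw [coeff_C_mul, coeff_X_pow, if_pos rfl, mul_one]
  · intro j _ hj
    rw [coeff_C_mul, coeff_X_pow, if_neg, mul_zero]
    intro h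
    exact hj (Fin.ext (Wr81.mseq_injective h)).symm
  · intro h
    exact absurd (Finset.mem_univ _) h

theorem comb_ne_zero (n : ℕ) {c : Fin n → K} (hc : c ≠ 0) : comb W n c ≠ 0 := by
  intro h
  apply hc
  funext j
  have := coeff_sg_comb W n c j
  rw [h, Wr81.sg_zero, coeff_zero] at this
  exact this.symm

theorem natDegree_sg_comb_le (n : ℕ) (c : Fin n → K) :
    (Wr81.sg W (comb W n c)).natDegree ≤ n := by
  rw [sg_comb]
  apply natDegree_sum_le_of_forall_le
  intro j _
  refine (natDegree_C_mul_le _ _).trans ?_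
  rw [natDegree_X_pow]
  exact Wr81.mseq_le j.2

/-- iterated `D` is `K`-linear on combinations. -/
theorem iterate_D_comb (n : ℕ) (c : Fin n → K) (i : ℕ) :
    (TorsW18.D W)^[i] (comb W n c) =
      ∑ j : Fin n, c j • (TorsW18.D W)^[i] (Wr81.bm W (Wr81.mseq (j : ℕ))) := by
  have key : ∀ f : W.CoordinateRing,
      (TorsW18.D W)^[i] f = (((TorsW18.D W : W.CoordinateRing →ₗ[K] W.CoordinateRing)) ^ i) f := by
    intro f
    rw [Module.End.pow_apply]
    rfl
  rw [key]
  unfold comb
  rw [map_sum]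
  refine Finset.sum_congr rfl fun j _ => ?_
  rw [map_smul, key]

/-- **Kernel step.** A ring hom `ev` to `K` that is the identity on constants and kills the
Wronskian kills all Taylor coefficients of some nonzero `f = Σ c_j b_j`. -/
theorem exists_comb_of_ev_Wr_eq_zero (n : ℕ) (ev : W.CoordinateRing →+* K)
    (hev : ∀ a : K, ev (algebraMap K W.CoordinateRing a) = a)
    (h0 : ev (Wr81.Wr W n) = 0) :
    ∃ c : Fin n → K, c ≠ 0 ∧ ∀ i : Fin n, ev ((TorsW18.D W)^[(i : ℕ)] (comb W n c)) = 0 := by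
  set M : Matrix (Fin n) (Fin n) K := ev.mapMatrix (Wr81.WrM W n) with hM
  have hdet : M.det = 0 := by
    rw [hM, ← RingHom.map_det]
    exact h0
  obtain ⟨c, hc, hMc⟩ := Matrix.exists_mulVec_eq_zero_iff.2 hdet
  refine ⟨c, hc, fun i => ?_⟩
  have h1 := congrFun hMc i
  rw [iterate_D_comb, map_sum]
  rw [Matrix.mulVec, dotProduct] at h1
  simp only [Pi.zero_apply] at h1
  rw [← h1]
  refine Finset.sum_congr rfl fun j _ => ?_
  rw [Algebra.smul_def, map_mul, hev, mul_comm]
  congr 1
  rw [hM, RingHom.mapMatrix_apply, Matrix.map_apply, Wr81.WrM, Matrix.of_apply, TorsW18.D_eq]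

/-- **Kernel step, ideal form.** If the Wronskian vanishes at the nonsingular affine point
`(x₀, y₀)`, some nonzero `f ∈ L(nO)` lies in `I_P^n`. -/
theorem exists_mem_pow_of_evP_Wr_eq_zero [CharZero K] {x₀ y₀ : K} (h : W.Nonsingular x₀ y₀)
    (n : ℕ) (h0 : TorsW18.evP W h.1 (Wr81.Wr W n) = 0) :
    ∃ f : W.CoordinateRing, f ≠ 0 ∧ (Wr81.sg W f).natDegree ≤ n ∧
      f ∈ TorsW18.IP W x₀ y₀ ^ n := by
  obtain ⟨t, H⟩ := TorsW18.exists_localParam h
  obtain ⟨c, hc, hvan⟩ := exists_comb_of_ev_Wr_eq_zero W n (TorsW18.evP W h.1) H.ev_alg h0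
  refine ⟨comb W n c, comb_ne_zero W n hc, natDegree_sg_comb_le W n c, ?_⟩
  rw [H.mem_pow_iff]
  intro j hj
  exact hvan ⟨j, hj⟩

/-- pole order bounds the degree of the norm. -/
theorem natDegree_norm_le_of_natDegree_sg_le {f : W.CoordinateRing} {n : ℕ}
    (hf : (Wr81.sg W f).natDegree ≤ n) : (Algebra.norm K[X] f).natDegree ≤ n := by
  rw [Wr81.sg_le_iff] at hf
  obtain ⟨hp, hq⟩ := hf
  have hrep : f = Wr81.co0 W f • (1 : W.CoordinateRing) +
      Wr81.co1 W f • CoordinateRing.mk W Y := by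
    conv_lhs => rw [Wr81.rep_co W f]
    rw [Wr81.smul_eq_io, Wr81.smul_eq_io, mul_one]
    rfl
  rw [hrep, natDegree_le_iff_degree_le, CoordinateRing.degree_norm_smul_basis]
  apply max_le
  · by_cases hp0 : Wr81.co0 W f = 0
    · rw [hp0, degree_zero]
      simp
    · rw [degree_eq_natDegree hp0]
      have : (2 • ((Wr81.co0 W f).natDegree : WithBot ℕ)) =
          ((2 * (Wr81.co0 W f).natDegree : ℕ) : WithBot ℕ) := by
        rw [two_nsmul]; push_cast; ring
      rw [this]
      exact_mod_cast hp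
  · rcases hq with hq0 | hq
    · rw [hq0, degree_zero]
      simp
    · by_cases hq0' : Wr81.co1 W f = 0
      · rw [hq0', degree_zero]
        simp
      · rw [degree_eq_natDegree hq0']
        have : (2 • ((Wr81.co1 W f).natDegree : WithBot ℕ) + 3) =
            ((2 * (Wr81.co1 W f).natDegree + 3 : ℕ) : WithBot ℕ) := by
          rw [two_nsmul]; push_cast; ring
        rw [this]
        exact_mod_cast hq

end Fermat.Agent.S13.WrKer86
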