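import Fermat.Agent.S13.WrDet81

set_option autoImplicit false

/-!
# Wronskian route: conjugation, norm, evaluation at affine points, affine zeros (helper81)
-/

namespace Fermat.Agent.S13.Wr81

open Polynomial WeierstrassCurve WeierstrassCurve.Affine
open scoped Polynomial.Bivariate

noncomputable section

variable {K : Type*} [Field K] (W : Affine K)

/-! ### injectivity of the symbol map -/

lemma sg_eq_zero_iff (f : W.CoordinateRing) : sg W f = 0 ↔ f = 0 := by
  constructor
  · intro h
    obtain ⟨p, q, rfl⟩ := exists_rep W f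
    rw [sg_rep] at h
    have hp : p = 0 := by
      ext m
      have := congrArg (fun r => r.coeff (2 * m)) h
      simp only [coeff_add, coeff_expand_two, coeff_X3_expand_two, coeff_zero] at this
      rw [if_pos (Dvd.intro _ rfl), if_neg (by omega)] at this
      simpa using this
    have hq : q = 0 := by
      ext m
      have := congrArg (fun r => r.coeff (2 * m + 3)) h
      simp only [coeff_add, coeff_expand_two, coeff_X3_expand_two, coeff_zero] at this
      rw [if_neg (by omega), if_pos ⟨by omega, by simp⟩] at this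
      simpa using this
    simp [hp, hq]
  · rintro rfl; exact sg_zero W

lemma sg_ne_zero {f : W.CoordinateRing} (hf : f ≠ 0) : sg W f ≠ 0 :=
  fun h => hf ((sg_eq_zero_iff W f).mp h)

lemma sg_io (p : K[X]) : sg W (io W p) = expand K 2 p := by
  have : io W p = io W p + io W 0 * Yc W := by simp
  rw [this, sg_rep]; simp

/-! ### conjugation -/

/-- the conjugate `a - bL - bY` of `a + bY` -/
def cj (f : W.CoordinateRing) : W.CoordinateRing :=
  io W (co0 W f - co1 W f * Lp W) + io W (-co1 W f) * Yc W

lemma cj_rep (p q : K[X]) :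
    cj W (io W p + io W q * Yc W) = io W (p - q * Lp W) + io W (-q) * Yc W := by
  rw [cj, co0_rep, co1_rep]

lemma cj_add (f h : W.CoordinateRing) : cj W (f + h) = cj W f + cj W h := by
  obtain ⟨p, q, rfl⟩ := exists_rep W f
  obtain ⟨r, s, rfl⟩ := exists_rep W h
  have : io W p + io W q * Yc W + (io W r + io W s * Yc W) =
      io W (p + r) + io W (q + s) * Yc W := by
    simp only [map_add]; ring
  rw [this, cj_rep, cj_rep, cj_rep]
  simp only [map_add, map_sub, map_mul, map_neg]
  ring

lemma cj_mul (f h : W.CoordinateRing) : cj W (f * h) = cj W f * cj W h := by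
  obtain ⟨p, q, rfl⟩ := exists_rep W f
  obtain ⟨r, s, rfl⟩ := exists_rep W h
  rw [rep_mul, cj_rep, cj_rep, cj_rep, rep_mul]
  congr 2 <;> ring_nf

lemma cj_io (p : K[X]) : cj W (io W p) = io W p := by
  have : io W p = io W p + io W 0 * Yc W := by simp
  rw [this, cj_rep]; simp

lemma cj_one : cj W 1 = 1 := by
  have := cj_io W 1
  simpa using this

lemma cj_zero : cj W 0 = 0 := by
  have := cj_io W 0
  simpa using this

lemma cj_Yc : cj W (Yc W) = -Yc W - io W (Lp W) := by
  have : Yc W = io W 0 + io W 1 * Yc W := by simp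
  conv_lhs => rw [this]
  rw [cj_rep]; simp only [map_sub, map_zero, map_mul, map_one, map_neg]; ring

lemma cj_cj (f : W.CoordinateRing) : cj W (cj W f) = f := by
  obtain ⟨p, q, rfl⟩ := exists_rep W f
  rw [cj_rep, cj_rep]
  congr 2 <;> ring_nf

/-- conjugation as a ring automorphism -/
def cjEquiv : W.CoordinateRing ≃+* W.CoordinateRing where
  toFun := cj W
  invFun := cj W
  left_inv := cj_cj W
  right_inv := cj_cj W
  map_mul' := cj_mul W
  map_add' := cj_add W

lemma cjEquiv_apply (f : W.CoordinateRing) : cjEquiv W f = cj W f := rfl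

/-! ### the norm -/

/-- the norm polynomial `a² - abL - b²g` of `a + bY` -/
def nm (f : W.CoordinateRing) : K[X] :=
  co0 W f ^ 2 - co0 W f * co1 W f * Lp W - co1 W f ^ 2 * gp W

lemma nm_rep (p q : K[X]) :
    nm W (io W p + io W q * Yc W) = p ^ 2 - p * q * Lp W - q ^ 2 * gp W := by
  rw [nm, co0_rep, co1_rep]

lemma nm_eq_norm (f : W.CoordinateRing) : nm W f = Algebra.norm K[X] f := by
  conv_rhs => rw [rep_co W f]
  have h := CoordinateRing.norm_smul_basis (W' := W) (co0 W f) (co1 W f)
  rw [smul_eq_io, smul_eq_io, mul_one] at h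
  exact h.symm

lemma mul_cj (f : W.CoordinateRing) : f * cj W f = io W (nm W f) := by
  obtain ⟨p, q, rfl⟩ := exists_rep W f
  rw [cj_rep, nm_rep, rep_mul]
  have h0 : p * -q + q * (p - q * Lp W) - q * -q * Lp W = 0 := by ring
  rw [h0, map_zero, zero_mul, add_zero]
  congr 1; ring_nf

lemma nm_mul (f h : W.CoordinateRing) : nm W (f * h) = nm W f * nm W h := by
  rw [nm_eq_norm, nm_eq_norm, nm_eq_norm, map_mul]

lemma nm_io (p : K[X]) : nm W (io W p) = p ^ 2 := by
  have : io W p = io W p + io W 0 * Yc W := by simp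
  rw [this, nm_rep]; ring

/-- symbol of the conjugate -/
lemma sg_cj_le {f : W.CoordinateRing} {n : ℕ} (hf : (sg W f).natDegree ≤ n) :
    (sg W (cj W f)).natDegree ≤ n ∧
      (sg W (cj W f)).coeff n = (-1) ^ n * (sg W f).coeff n := by
  have hf' := (sg_le_iff W f n).mp hf
  obtain ⟨p, q, rfl⟩ := exists_rep W f
  rw [co0_rep, co1_rep] at hf'
  obtain ⟨hp, hq⟩ := hf'
  rw [cj_rep, sg_rep, sg_rep]
  have e1 : expand K 2 (p - q * Lp W) + X ^ 3 * expand K 2 (-q) =
      expand K 2 p + X ^ 3 * expand K 2 (-q) - expand K 2 q * expand K 2 (Lp W) := by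
    simp only [map_sub, map_mul, map_neg]; ring
  have hL : (expand K 2 q * expand K 2 (Lp W)).natDegree < n ∨ q = 0 := by
    rcases hq with rfl | hq
    · right; rfl
    · left
      calc (expand K 2 q * expand K 2 (Lp W)).natDegree
          ≤ (expand K 2 q).natDegree + (expand K 2 (Lp W)).natDegree := natDegree_mul_le
        _ ≤ q.natDegree * 2 + 2 := by
            rw [natDegree_expand]
            gcongr
            rw [expand_Lp]; compute_degree
        _ < n := by omega
  have hLle : (expand K 2 q * expand K 2 (Lp W)).natDegree ≤ n := by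
    rcases hL with h | rfl
    · exact h.le
    · simp
  have hLc : (expand K 2 q * expand K 2 (Lp W)).coeff n = 0 := by
    rcases hL with h | rfl
    · exact coeff_eq_zero_of_natDegree_lt h
    · simp
  have hA : (expand K 2 p + X ^ 3 * expand K 2 (-q)).natDegree ≤ n :=
    (sg_rep_le_iff p (-q) n).mpr ⟨hp, by
      rcases hq with rfl | hq
      · left; simp
      · right; rwa [natDegree_neg]⟩
  rw [e1]
  refine ⟨(natDegree_sub_le _ _).trans (max_le hA hLle), ?_⟩
  rw [coeff_sub, hLc, sub_zero, coeff_add, coeff_add, coeff_expand_two, coeff_X3_expand_two,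
    coeff_X3_expand_two, coeff_neg]
  rcases Nat.even_or_odd n with he | ho
  · have h2 : 2 ∣ n := he.two_dvd
    have h3 : ¬ (3 ≤ n ∧ 2 ∣ (n - 3)) := by
      rintro ⟨h3, h4⟩; omega
    simp only [if_pos h2, if_neg h3, he.neg_one_pow]; ring
  · have h2 : ¬ 2 ∣ n := fun h => (Nat.not_even_iff_odd.mpr ho) (even_iff_two_dvd.mpr h)
    simp only [if_neg h2, ho.neg_one_pow]
    split_ifs <;> ring

/-- **degree of the norm = pole order** -/
theorem natDegree_nm (f : W.CoordinateRing) : (nm W f).natDegree = (sg W f).natDegree := by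
  set n := (sg W f).natDegree with hn
  obtain ⟨h1, h2⟩ := sg_mul_le W (le_refl (sg W f).natDegree) (sg_cj_le W (le_refl _)).1
  rw [mul_cj, sg_io, ← hn] at h1
  rw [mul_cj, sg_io, (sg_cj_le W (le_refl _)).2, ← hn] at h2
  rw [natDegree_expand] at h1
  have hle : (nm W f).natDegree ≤ n := by omega
  have hco : (nm W f).coeff n = (-1) ^ n * (sg W f).coeff n ^ 2 := by
    rw [coeff_expand_two, if_pos (by omega : 2 ∣ n + n)] at h2
    have : (n + n) / 2 = n := by omega
    rw [this] at h2
    rw [h2]; ring
  by_cases h0 : (sg W f).coeff n = 0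
  · have : sg W f = 0 := leadingCoeff_eq_zero.mp h0
    have hn0 : n = 0 := by rw [hn, this, natDegree_zero]
    omega
  · refine le_antisymm hle (le_natDegree_of_ne_zero ?_)
    rw [hco]
    exact mul_ne_zero (pow_ne_zero _ (by norm_num)) (pow_ne_zero _ h0)

theorem leadingCoeff_nm (f : W.CoordinateRing) :
    (nm W f).leadingCoeff = (-1) ^ (sg W f).natDegree * (sg W f).leadingCoeff ^ 2 := by
  rw [leadingCoeff, natDegree_nm]
  set n := (sg W f).natDegree with hn
  obtain ⟨h1, h2⟩ := sg_mul_le W (le_refl (sg W f).natDegree) (sg_cj_le W (le_refl _)).1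
  rw [mul_cj, sg_io, (sg_cj_le W (le_refl _)).2, ← hn] at h2
  rw [coeff_expand_two, if_pos (by omega : 2 ∣ n + n)] at h2
  have : (n + n) / 2 = n := by omega
  rw [this] at h2
  rw [h2, leadingCoeff, ← hn]; ring

theorem natDegree_norm (f : W.CoordinateRing) :
    (Algebra.norm K[X] f).natDegree = (sg W f).natDegree := by
  rw [← nm_eq_norm, natDegree_nm]

theorem leadingCoeff_norm (f : W.CoordinateRing) :
    (Algebra.norm K[X] f).leadingCoeff =
      (-1) ^ (sg W f).natDegree * (sg W f).leadingCoeff ^ 2 := by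
  rw [← nm_eq_norm, leadingCoeff_nm]

/-! ### evaluation at an affine point -/

/-- evaluation at a point of the affine curve -/
def evalAt {x y : K} (h : W.Equation x y) : W.CoordinateRing →+* K :=
  AdjoinRoot.evalEval (show W.polynomial.evalEval x y = 0 from h)

lemma evalAt_mk {x y : K} (h : W.Equation x y) (g : K[X][Y]) :
    evalAt W h (CoordinateRing.mk W g) = g.evalEval x y :=
  AdjoinRoot.evalEval_mk (show W.polynomial.evalEval x y = 0 from h) g

lemma evalAt_io {x y : K} (h : W.Equation x y) (p : K[X]) : evalAt W h (io W p) = p.eval x := by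
  rw [io_apply, evalAt_mk, evalEval_C]

lemma evalAt_Yc {x y : K} (h : W.Equation x y) : evalAt W h (Yc W) = y := by
  rw [Yc, evalAt_mk, evalEval_X]

lemma evalAt_rep {x y : K} (h : W.Equation x y) (p q : K[X]) :
    evalAt W h (io W p + io W q * Yc W) = p.eval x + q.eval x * y := by
  rw [map_add, map_mul, evalAt_io, evalAt_io, evalAt_Yc]

lemma evalAt_algebraMap {x y : K} (h : W.Equation x y) (c : K) :
    evalAt W h (algebraMap K W.CoordinateRing c) = c := by
  rw [algebraMap_eq_io_C, evalAt_io, eval_C]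

/-- `evalAt` as a `K`-algebra map -/
def evalAtAlg {x y : K} (h : W.Equation x y) : W.CoordinateRing →ₐ[K] K :=
  { evalAt W h with commutes' := evalAt_algebraMap W h }

lemma evalAtAlg_apply {x y : K} (h : W.Equation x y) (f : W.CoordinateRing) :
    evalAtAlg W h f = evalAt W h f := rfl

lemma equation_negY {x y : K} (h : W.Equation x y) : W.Equation x (W.negY x y) :=
  (W.equation_neg x y).mpr h

lemma evalAt_cj {x y : K} (h : W.Equation x y) (f : W.CoordinateRing) :
    evalAt W h (cj W f) = evalAt W (equation_negY W h) f := by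
  obtain ⟨p, q, rfl⟩ := exists_rep W f
  rw [cj_rep, evalAt_rep, evalAt_rep, negY]
  simp only [eval_sub, eval_mul, eval_neg, Lp, eval_add, eval_C, eval_X]
  ring

/-- the kernel of `evalAt` is the maximal ideal of the point -/
lemma evalAt_eq_zero_iff {x y : K} (h : W.Equation x y) (f : W.CoordinateRing) :
    evalAt W h f = 0 ↔ f ∈ CoordinateRing.XYIdeal W x (C y) := by
  have hX : CoordinateRing.XClass W x = io W (X - C x) := rfl
  have hY : CoordinateRing.YClass W (C y) = Yc W - io W (C y) := by
    rw [CoordinateRing.YClass, map_sub]; rfl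
  constructor
  · intro hf
    obtain ⟨p, q, rfl⟩ := exists_rep W f
    rw [evalAt_rep] at hf
    obtain ⟨p', hp'⟩ : X - C x ∣ p - C (p.eval x) := by
      rw [dvd_iff_isRoot]; simp
    obtain ⟨q', hq'⟩ : X - C x ∣ q - C (q.eval x) := by
      rw [dvd_iff_isRoot]; simp
    have hp : p = C (p.eval x) + (X - C x) * p' := by rw [← hp']; ring
    have hq : q = C (q.eval x) + (X - C x) * q' := by rw [← hq']; ring
    have key : io W p + io W q * Yc W =
        (io W p' + io W q' * Yc W) * CoordinateRing.XClass W x +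
          io W (C (q.eval x)) * CoordinateRing.YClass W (C y) +
          io W (C (p.eval x + q.eval x * y)) := by
      rw [hX, hY]
      conv_lhs => rw [hp, hq]
      simp only [map_add, map_mul, map_sub]
      ring
    rw [key, hf, map_zero, map_zero, add_zero]
    refine Ideal.add_mem _ (Ideal.mul_mem_left _ _ (Ideal.subset_span (by simp)))
      (Ideal.mul_mem_left _ _ (Ideal.subset_span (by simp)))
  · intro hf
    have hle : CoordinateRing.XYIdeal W x (C y) ≤ RingHom.ker (evalAt W h) := by
      rw [CoordinateRing.XYIdeal, Ideal.span_le]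
      intro g hg
      rcases hg with rfl | rfl
      · show evalAt W h _ = 0
        rw [hX, evalAt_io]; simp
      · show evalAt W h _ = 0
        rw [hY, map_sub, evalAt_Yc, evalAt_io]; simp
    exact hle hf

/-! ### existence of an affine zero -/

/-- over an algebraically closed field, a function with a pole at `O` has an affine zero -/
theorem exists_evalAt_eq_zero [IsAlgClosed K] {f : W.CoordinateRing}
    (hf : 0 < (sg W f).natDegree) :
    ∃ (x y : K) (h : W.Equation x y), evalAt W h f = 0 := by
  have hN : (nm W f).degree ≠ 0 := by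
    intro h0
    have := natDegree_eq_of_degree_eq_some h0
    rw [natDegree_nm] at this
    rw [this] at hf
    exact lt_irrefl _ hf
  obtain ⟨x, hx⟩ := IsAlgClosed.exists_root (nm W f) hN
  -- a point above `x`
  have hq : (X ^ 2 + C ((Lp W).eval x) * X - C ((gp W).eval x) : K[X]).degree ≠ 0 := by
    have : (X ^ 2 + C ((Lp W).eval x) * X - C ((gp W).eval x) : K[X]).degree = 2 := by
      compute_degree!
    rw [this]; norm_num
  obtain ⟨y, hy⟩ := IsAlgClosed.exists_root _ hq
  have h : W.Equation x y := by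
    rw [Affine.equation_iff]
    simp only [IsRoot.def, eval_sub, eval_add, eval_pow, eval_X, eval_mul, eval_C, Lp, gp] at hy
    linear_combination hy
  have hmul := congrArg (evalAt W h) (mul_cj W f)
  rw [map_mul, evalAt_io, hx, evalAt_cj] at hmul
  rcases mul_eq_zero.mp hmul with h1 | h1
  · exact ⟨x, y, h, h1⟩
  · exact ⟨x, _, _, h1⟩

/-- nonsingular version -/
theorem exists_nonsingular_evalAt_eq_zero [IsAlgClosed K] (hΔ : W.Δ ≠ 0) {f : W.CoordinateRing}
    (hf : 0 < (sg W f).natDegree) :
    ∃ (x y : K) (h : W.Nonsingular x y), evalAt W h.1 f = 0 := by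
  obtain ⟨x, y, h, h0⟩ := exists_evalAt_eq_zero W hf
  exact ⟨x, y, (W.equation_iff_nonsingular_of_Δ_ne_zero hΔ).mp h, h0⟩

/-- **the Wronskian of `L(nO)` has an affine zero** (`n ≥ 2`, characteristic zero) -/
theorem exists_evalAt_Wr_eq_zero [IsAlgClosed K] [CharZero K] (hΔ : W.Δ ≠ 0) {n : ℕ}
    (hn : 2 ≤ n) :
    ∃ (x y : K) (h : W.Nonsingular x y), evalAt W h.1 (Wr W n) = 0 := by
  refine exists_nonsingular_evalAt_eq_zero W hΔ ?_
  rw [natDegree_sg_Wr W (by omega : 1 ≤ n)]
  have : 2 ^ 2 ≤ n ^ 2 := Nat.pow_le_pow_left hn 2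
  omega

/-- the Wronskian is nonzero -/
theorem Wr_ne_zero [CharZero K] {n : ℕ} (hn : 1 ≤ n) : Wr W n ≠ 0 := by
  intro h
  have h1 := leadingCoeff_sg_Wr W hn
  rw [h, sg_zero, leadingCoeff_zero, ← det_rfM_eq_prod] at h1
  exact det_rfM_ne_zero (K := K) n h1.symm

/-- degree of the norm of the Wronskian -/
theorem natDegree_norm_Wr [CharZero K] {n : ℕ} (hn : 1 ≤ n) :
    (Algebra.norm K[X] (Wr W n)).natDegree = n ^ 2 - 1 := by
  rw [natDegree_norm, natDegree_sg_Wr W hn]

/-- leading coefficient of the norm of the Wronskian -/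
theorem leadingCoeff_norm_Wr [CharZero K] {n : ℕ} (hn : 1 ≤ n) :
    (Algebra.norm K[X] (Wr W n)).leadingCoeff = (-1) ^ (n ^ 2 - 1) *
      (∏ i : Fin n, ∏ j ∈ Finset.Ioi i, (((mseq (j : ℕ) : ℕ) : K) - ((mseq (i : ℕ) : ℕ) : K))) ^ 2 := by
  rw [leadingCoeff_norm, natDegree_sg_Wr W hn, leadingCoeff_sg_Wr W hn]

end

end Fermat.Agent.S13.Wr81
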