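/-
S13, Wronskian route for [T] (helper86): from a function to a torsion point, and the final
existence statement `Asm.TNontrivStmt`.

* `span_eq_pow` : `f ≠ 0`, `f ∈ I_P^n`, `natDegree (norm f) ≤ n`, `1 ≤ n`  ⇒  `span {f} = I_P^n`
  (dimension count: `dim R/(f) = natDegree (norm f)` [Mathlib], `dim R/I_P^n = n` [helper18]).
* `zsmul_eq_zero_of_mem_pow` : then `n • P = 0` (Mathlib `toClass`).
* `exists_torsion` : `K` algebraically closed of characteristic `0`, `Δ ≠ 0`, `2 ≤ n`:
  there is an affine point `P` with `n • P = 0` (helper81: the Wronskian has an affine zero).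
-/
import Mathlib
import Fermat.Agent.S13.WrKer86
import Fermat.Agent.S13.WrNorm81

set_option autoImplicit false

namespace Fermat.Agent.S13.WrTors86

open Polynomial WeierstrassCurve WeierstrassCurve.Affine
open scoped Polynomial.Bivariate nonZeroDivisors
open Fermat.Agent.S13

variable {K : Type*} [Field K] (W : Affine K)

/-- an element with constant nonzero norm is a unit. -/
theorem isUnit_of_natDegree_nm_eq_zero {f : W.CoordinateRing} (hf0 : f ≠ 0)
    (hd : (Wr81.nm W f).natDegree = 0) : IsUnit f := by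
  have hne : Wr81.nm W f ≠ 0 := by
    intro h0
    have h1 := Wr81.mul_cj W f
    rw [h0, map_zero] at h1
    rcases mul_eq_zero.1 h1 with h2 | h2
    · exact hf0 h2
    · apply hf0
      have := congrArg (Wr81.cj W) h2
      rwa [Wr81.cj_cj, Wr81.cj_zero] at this
  obtain ⟨c, hc⟩ := natDegree_eq_zero.1 hd
  have hc0 : c ≠ 0 := by
    intro h0
    rw [h0, map_zero] at hc
    exact hne hc.symm
  have h1 := Wr81.mul_cj W f
  rw [← hc, ← Wr81.algebraMap_eq_io_C] at h1
  have hu : IsUnit (algebraMap K W.CoordinateRing c) := (IsUnit.mk0 c hc0).map _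
  rw [← h1] at hu
  exact isUnit_of_mul_isUnit_left hu

variable {W}

/-- **the function generates the `n`-th power of the point ideal.** -/
theorem span_eq_pow [CharZero K] {x₀ y₀ : K} (h : W.Nonsingular x₀ y₀) {n : ℕ} (hn : 1 ≤ n)
    {f : W.CoordinateRing} (hf0 : f ≠ 0) (hfI : f ∈ TorsW18.IP W x₀ y₀ ^ n)
    (hN : (Algebra.norm K[X] f).natDegree ≤ n) :
    Ideal.span {f} = TorsW18.IP W x₀ y₀ ^ n := by
  obtain ⟨t, H⟩ := TorsW18.exists_localParam h
  set I := TorsW18.IP W x₀ y₀ with hI
  have hle : Ideal.span {f} ≤ I ^ n := (Ideal.span_singleton_le_iff_mem _).2 hfI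
  -- `f` is not a unit
  have hInetop : I ≠ ⊤ := by
    intro htop
    have : (1 : W.CoordinateRing) ∈ I := htop ▸ Submodule.mem_top
    rw [H.ker, map_one] at this
    exact one_ne_zero this
  have hfmem : f ∈ I := Ideal.pow_le_self (by omega) hfI
  have hnotunit : ¬ IsUnit f := fun hu => hInetop (Ideal.eq_top_of_isUnit_mem _ hfmem hu)
  have hd1 : 1 ≤ (Algebra.norm K[X] f).natDegree := by
    by_contra hlt
    push Not at hlt
    apply hnotunit
    apply isUnit_of_natDegree_nm_eq_zero W hf0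
    rw [Wr81.nm_eq_norm]
    omega
  have hfin1 : Module.finrank K (W.CoordinateRing ⧸ Ideal.span {f}) =
      (Algebra.norm K[X] f).natDegree :=
    finrank_quotient_span_eq_natDegree_norm (CoordinateRing.basis W) hf0
  have hfin2 : Module.finrank K (W.CoordinateRing ⧸ I ^ n) = n := H.finrank_quot_pow n
  have : Module.Finite K (W.CoordinateRing ⧸ Ideal.span {f}) :=
    Module.finite_of_finrank_pos (by omega)
  have : Module.Finite K (W.CoordinateRing ⧸ I ^ n) :=
    Module.finite_of_finrank_pos (by omega)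
  set φ : (W.CoordinateRing ⧸ Ideal.span {f}) →ₗ[K] (W.CoordinateRing ⧸ I ^ n) :=
    (Ideal.Quotient.factorₐ K hle).toLinearMap with hφ
  have hsurj : Function.Surjective φ := Ideal.Quotient.factor_surjective hle
  have hge : n ≤ (Algebra.norm K[X] f).natDegree := by
    rw [← hfin1, ← hfin2]
    exact LinearMap.finrank_le_finrank_of_surjective hsurj
  have heq : Module.finrank K (W.CoordinateRing ⧸ Ideal.span {f}) =
      Module.finrank K (W.CoordinateRing ⧸ I ^ n) := by
    rw [hfin1, hfin2]; omega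
  have hinj : Function.Injective φ :=
    (LinearMap.injective_iff_surjective_of_finrank_eq_finrank heq).2 hsurj
  refine le_antisymm hle ?_
  intro g hg
  have h0 : φ (Ideal.Quotient.mk _ g) = 0 := by
    show Ideal.Quotient.factor hle (Ideal.Quotient.mk _ g) = 0
    rw [Ideal.Quotient.factor_mk, Ideal.Quotient.eq_zero_iff_mem]
    exact hg
  have h1 : (Ideal.Quotient.mk (Ideal.span {f}) g) = 0 := hinj (h0.trans (map_zero φ).symm)
  exact Ideal.Quotient.eq_zero_iff_mem.1 h1

/-- **from a function to a torsion point.** -/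
theorem zsmul_eq_zero_of_mem_pow [DecidableEq K] [CharZero K] {x₀ y₀ : K}
    (h : W.Nonsingular x₀ y₀) {n : ℕ} (hn : 1 ≤ n)
    {f : W.CoordinateRing} (hf0 : f ≠ 0) (hfI : f ∈ TorsW18.IP W x₀ y₀ ^ n)
    (hN : (Algebra.norm K[X] f).natDegree ≤ n) :
    (n : ℤ) • (Point.some x₀ y₀ h : W.Point) = 0 := by
  have hspan := span_eq_pow h hn hf0 hfI hN
  rw [natCast_zsmul, ← Point.toClass_eq_zero, map_nsmul, Point.toClass_some]
  have hcoe : (((CoordinateRing.XYIdeal' (W := W) h) ^ n :
      (FractionalIdeal W.CoordinateRing⁰ W.FunctionField)ˣ) :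
      FractionalIdeal W.CoordinateRing⁰ W.FunctionField) =
      ((TorsW18.IP W x₀ y₀ ^ n : Ideal W.CoordinateRing) :
        FractionalIdeal W.CoordinateRing⁰ W.FunctionField) := by
    rw [Units.val_pow_eq_pow_val, CoordinateRing.XYIdeal'_eq, FractionalIdeal.coeIdeal_pow]
    rfl
  have h1 : ClassGroup.mk W.FunctionField ((CoordinateRing.XYIdeal' (W := W) h) ^ n) = 1 :=
    (ClassGroup.mk_eq_one_of_coe_ideal hcoe).2 ⟨f, hf0, hspan.symm⟩
  rw [map_pow] at h1
  exact h1

/-- **existence of torsion** (Wronskian route). -/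
theorem exists_torsion [DecidableEq K] [IsAlgClosed K] [CharZero K] (hΔ : W.Δ ≠ 0) {n : ℕ}
    (hn : 2 ≤ n) :
    ∃ (x y : K) (h : W.Nonsingular x y), (n : ℤ) • (Point.some x y h : W.Point) = 0 := by
  obtain ⟨x, y, h, h0⟩ := Wr81.exists_evalAt_Wr_eq_zero W hΔ hn
  obtain ⟨f, hf0, hsg, hfI⟩ := WrKer86.exists_mem_pow_of_evP_Wr_eq_zero W h n h0
  exact ⟨x, y, h, zsmul_eq_zero_of_mem_pow h (by omega) hf0 hfI
    (WrKer86.natDegree_norm_le_of_natDegree_sg_le W hsg)⟩

end Fermat.Agent.S13.WrTors86
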