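/-
S13: `tNontriv : Asm.TNontrivStmt` — a nonzero `p`-torsion point exists on every Weierstrass curve
with `Δ ≠ 0` over `ℚ̄` (Wronskian route: helper81 WrDefs/WrSymbol/WrDet/WrNorm, helper18 Taylor
criterion, helper86 WrKer86/WrTors86).
-/
import Mathlib
import Fermat.Agent.S13.Assembly
import Fermat.Agent.S13.WrTors86

set_option autoImplicit false

namespace Fermat.Agent.S13.TNontriv86

open WeierstrassCurve WeierstrassCurve.Affine WeierstrassCurve.Affine.Point

/-- generic form: a nonzero `n`-torsion point exists (`K` algebraically closed, characteristic `0`,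
`Δ ≠ 0`, `2 ≤ n`). -/
theorem nontrivial_torsionBy {K : Type*} [Field K] [DecidableEq K] [IsAlgClosed K] [CharZero K]
    (W : Affine K) (hΔ : W.Δ ≠ 0) {n : ℕ} (hn : 2 ≤ n) :
    Nontrivial (Submodule.torsionBy ℤ W.Point n) := by
  obtain ⟨x, y, h, hP⟩ := WrTors86.exists_torsion (W := W) hΔ hn
  have hmem : (Point.some x y h : W.Point) ∈ Submodule.torsionBy ℤ W.Point n := by
    rw [Submodule.mem_torsionBy_iff]
    exact hP
  refine ⟨⟨⟨Point.some x y h, hmem⟩, 0, ?_⟩⟩
  intro h0
  have := congrArg Subtype.val h0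
  exact Point.some_ne_zero h this

/-- **[T-ex]** in the exact shape consumed by `Asm.s13_of_weak`. -/
theorem tNontriv : Asm.TNontrivStmt := by
  intro W hΔ p hp _
  exact nontrivial_torsionBy W hΔ hp.two_le

end Fermat.Agent.S13.TNontriv86
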