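/-
S13 (blueprint 7), heights route: the two Interface statements of package [T] consumed by the
assembly, `TCountStmt` and `MassStmt`, obtained from `TDiv95.tDivPoly : TDivPolyStmt` through
helper29's `TC29.tCount_of_tDivPoly` and helper86's `MassCount.massStmt_of_tDivPoly`.
No sorry in this file.
-/
import Fermat.Agent.S13.TDiv95
import Fermat.Agent.S13.TC29
import Fermat.Agent.S13.MassCount

set_option autoImplicit false

namespace Fermat.Agent.S13.TStmts95

/-- **[T-C]** `E[p]` is finite, nontrivial, of cardinality `< p³`. -/
theorem tCount : TCountStmt := TC29.tCount_of_tDivPoly TDiv95.tDivPoly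

/-- **[MASS]**. -/
theorem mass : MassStmt := MassCount.massStmt_of_tDivPoly TDiv95.tDivPoly

end Fermat.Agent.S13.TStmts95
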