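import Mathlib

set_option autoImplicit false

/-!
# Wronskian route to torsion points: basic definitions (helper81)

`R = W.CoordinateRing`, every element is uniquely `ι p + ι q * Y'`.
We define the invariant derivation `D` of `R` and prove the Leibniz rule.
-/

namespace Fermat.Agent.S13.Wr81

open Polynomial WeierstrassCurve WeierstrassCurve.Affine
open scoped Polynomial.Bivariate

noncomputable section

variable {K : Type*} [Field K] (W : Affine K)

/-- the class of `Y` in the coordinate ring -/
def Yc : W.CoordinateRing := CoordinateRing.mk W Y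

/-- the inclusion `K[X] → R` -/
def io : K[X] →+* W.CoordinateRing := algebraMap K[X] W.CoordinateRing

/-- `L = a₁X + a₃` -/
def Lp : K[X] := C W.a₁ * X + C W.a₃

/-- `g = X³ + a₂X² + a₄X + a₆` -/
def gp : K[X] := X ^ 3 + C W.a₂ * X ^ 2 + C W.a₄ * X + C W.a₆

/-- `g' = 3X² + 2a₂X + a₄` -/
def gp' : K[X] := 3 * X ^ 2 + 2 * C W.a₂ * X + C W.a₄

lemma derivative_Lp : derivative (Lp W) = C W.a₁ := by
  simp [Lp]

lemma derivative_gp : derivative (gp W) = gp' W := by
  simp only [gp, gp', derivative_add, derivative_mul, derivative_C, derivative_X_pow, derivative_X,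
    zero_mul, zero_add, mul_one]
  norm_num
  have h3 : (C 3 : K[X]) = 3 := map_ofNat C 3
  have h2 : (C 2 : K[X]) = 2 := map_ofNat C 2
  rw [h3, h2]; ring

lemma io_apply (p : K[X]) : io W p = CoordinateRing.mk W (C p) := rfl

lemma smul_eq_io (p : K[X]) (y : W.CoordinateRing) : p • y = io W p * y :=
  CoordinateRing.smul p y

lemma Yc_sq : Yc W ^ 2 = io W (gp W) - io W (Lp W) * Yc W := by
  have h := CoordinateRing.smul_basis_mul_Y (W' := W) 0 1
  simp only [zero_smul, one_smul, zero_add, one_mul, zero_sub] at h
  rw [sq]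
  show CoordinateRing.mk W Y * CoordinateRing.mk W Y = _
  rw [h, smul_eq_io, smul_eq_io, mul_one, gp, Lp, map_neg, Yc]
  ring

/-- every element is `io p + io q * Yc` -/
lemma exists_rep (f : W.CoordinateRing) : ∃ p q : K[X], f = io W p + io W q * Yc W := by
  obtain ⟨p, q, h⟩ := CoordinateRing.exists_smul_basis_eq (W' := W) f
  refine ⟨p, q, ?_⟩
  rw [← h, smul_eq_io, smul_eq_io, mul_one]
  rfl

lemma rep_unique {p q p' q' : K[X]}
    (h : io W p + io W q * Yc W = io W p' + io W q' * Yc W) : p = p' ∧ q = q' := by
  have h0 : (p - p') • (1 : W.CoordinateRing) + (q - q') • CoordinateRing.mk W Y = 0 := by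
    rw [smul_eq_io, smul_eq_io, mul_one, map_sub, map_sub]
    have : io W p - io W p' + (io W q - io W q') * Yc W = 0 := by
      linear_combination h
    exact this
  obtain ⟨h1, h2⟩ := CoordinateRing.smul_basis_eq_zero (W' := W) h0
  exact ⟨sub_eq_zero.mp h1, sub_eq_zero.mp h2⟩

/-- first coordinate -/
def co0 (f : W.CoordinateRing) : K[X] := (CoordinateRing.basis W).repr f 0
/-- second coordinate -/
def co1 (f : W.CoordinateRing) : K[X] := (CoordinateRing.basis W).repr f 1

lemma rep_co (f : W.CoordinateRing) : f = io W (co0 W f) + io W (co1 W f) * Yc W := by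
  have h := (CoordinateRing.basis W).sum_repr f
  rw [Fin.sum_univ_two, CoordinateRing.basis_zero, CoordinateRing.basis_one, smul_eq_io,
    smul_eq_io, mul_one] at h
  exact h.symm

lemma co0_rep (p q : K[X]) : co0 W (io W p + io W q * Yc W) = p :=
  ((rep_unique W (rep_co W (io W p + io W q * Yc W))).1).symm

lemma co1_rep (p q : K[X]) : co1 W (io W p + io W q * Yc W) = q :=
  ((rep_unique W (rep_co W (io W p + io W q * Yc W))).2).symm

lemma rep_mul (p q r s : K[X]) :
    (io W p + io W q * Yc W) * (io W r + io W s * Yc W) =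
      io W (p * r + q * s * gp W) + io W (p * s + q * r - q * s * Lp W) * Yc W := by
  have h := Yc_sq W
  simp only [map_add, map_sub, map_mul]
  linear_combination (io W q * io W s) * h

/-- the invariant derivation, in coordinates -/
def Dfun (f : W.CoordinateRing) : W.CoordinateRing :=
  io W (derivative (co0 W f) * Lp W + 2 * derivative (co1 W f) * gp W + co1 W f * gp' W) +
    io W (2 * derivative (co0 W f) - derivative (co1 W f) * Lp W - C W.a₁ * co1 W f) * Yc W

lemma Dfun_rep (p q : K[X]) : Dfun W (io W p + io W q * Yc W) =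
    io W (derivative p * Lp W + 2 * derivative q * gp W + q * gp' W) +
      io W (2 * derivative p - derivative q * Lp W - C W.a₁ * q) * Yc W := by
  rw [Dfun, co0_rep, co1_rep]

lemma Dfun_add (f h : W.CoordinateRing) : Dfun W (f + h) = Dfun W f + Dfun W h := by
  obtain ⟨p, q, rfl⟩ := exists_rep W f
  obtain ⟨r, s, rfl⟩ := exists_rep W h
  have : io W p + io W q * Yc W + (io W r + io W s * Yc W) =
      io W (p + r) + io W (q + s) * Yc W := by
    simp only [map_add]; ring
  rw [this, Dfun_rep, Dfun_rep, Dfun_rep]
  simp only [map_add, map_sub, map_mul, map_ofNat]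
  ring

lemma Dfun_mul (f h : W.CoordinateRing) : Dfun W (f * h) = f * Dfun W h + h * Dfun W f := by
  obtain ⟨p, q, rfl⟩ := exists_rep W f
  obtain ⟨r, s, rfl⟩ := exists_rep W h
  rw [rep_mul, Dfun_rep, Dfun_rep, Dfun_rep, rep_mul, rep_mul]
  have e1 : derivative (p * r + q * s * gp W) * Lp W +
        2 * derivative (p * s + q * r - q * s * Lp W) * gp W +
        (p * s + q * r - q * s * Lp W) * gp' W =
      (p * (derivative r * Lp W + 2 * derivative s * gp W + s * gp' W) +
        q * (2 * derivative r - derivative s * Lp W - C W.a₁ * s) * gp W) +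
      (r * (derivative p * Lp W + 2 * derivative q * gp W + q * gp' W) +
        s * (2 * derivative p - derivative q * Lp W - C W.a₁ * q) * gp W) := by
    simp only [derivative_add, derivative_sub, derivative_mul, derivative_Lp, derivative_gp]
    ring
  have e2 : 2 * derivative (p * r + q * s * gp W) -
        derivative (p * s + q * r - q * s * Lp W) * Lp W -
        C W.a₁ * (p * s + q * r - q * s * Lp W) =
      (p * (2 * derivative r - derivative s * Lp W - C W.a₁ * s) +
        q * (derivative r * Lp W + 2 * derivative s * gp W + s * gp' W) -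
        q * (2 * derivative r - derivative s * Lp W - C W.a₁ * s) * Lp W) +
      (r * (2 * derivative p - derivative q * Lp W - C W.a₁ * q) +
        s * (derivative p * Lp W + 2 * derivative q * gp W + q * gp' W) -
        s * (2 * derivative p - derivative q * Lp W - C W.a₁ * q) * Lp W) := by
    simp only [derivative_add, derivative_sub, derivative_mul, derivative_Lp, derivative_gp]
    ring
  rw [e1, e2]
  simp only [map_add, map_sub, map_mul]
  ring

/-! ### `D` as a derivation -/

lemma Dfun_io_C (c : K) : Dfun W (io W (C c)) = 0 := by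
  have : io W (C c) = io W (C c) + io W 0 * Yc W := by simp
  rw [this, Dfun_rep]
  simp

lemma algebraMap_eq_io_C (c : K) : algebraMap K W.CoordinateRing c = io W (C c) := by
  rw [IsScalarTower.algebraMap_apply K K[X] W.CoordinateRing]
  rfl

lemma Dfun_smul (c : K) (f : W.CoordinateRing) : Dfun W (c • f) = c • Dfun W f := by
  rw [Algebra.smul_def, Algebra.smul_def, Dfun_mul, algebraMap_eq_io_C, Dfun_io_C, mul_zero,
    add_zero]

/-- the invariant derivation of the coordinate ring -/
def D : Derivation K W.CoordinateRing W.CoordinateRing :=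
  Derivation.mk'
    { toFun := Dfun W
      map_add' := Dfun_add W
      map_smul' := fun c f => by simpa using Dfun_smul W c f }
    (fun a b => by
      show Dfun W (a * b) = a • Dfun W b + b • Dfun W a
      rw [Dfun_mul, smul_eq_mul, smul_eq_mul])

lemma D_apply (f : W.CoordinateRing) : D W f = Dfun W f := rfl

lemma D_rep (p q : K[X]) : D W (io W p + io W q * Yc W) =
    io W (derivative p * Lp W + 2 * derivative q * gp W + q * gp' W) +
      io W (2 * derivative p - derivative q * Lp W - C W.a₁ * q) * Yc W :=
  Dfun_rep W p q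

/-! ### The symbol map `sg : R → K[s]`, `x ↦ s²`, `y ↦ s³` -/

/-- `sg (p + qY) = p(s²) + s³ q(s²)`; its degree is the pole order at infinity -/
def sg (f : W.CoordinateRing) : K[X] := expand K 2 (co0 W f) + X ^ 3 * expand K 2 (co1 W f)

lemma sg_rep (p q : K[X]) : sg W (io W p + io W q * Yc W) = expand K 2 p + X ^ 3 * expand K 2 q := by
  rw [sg, co0_rep, co1_rep]

lemma sg_add (f h : W.CoordinateRing) : sg W (f + h) = sg W f + sg W h := by
  obtain ⟨p, q, rfl⟩ := exists_rep W f
  obtain ⟨r, s, rfl⟩ := exists_rep W h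
  have : io W p + io W q * Yc W + (io W r + io W s * Yc W) =
      io W (p + r) + io W (q + s) * Yc W := by
    simp only [map_add]; ring
  rw [this, sg_rep, sg_rep, sg_rep]
  simp only [map_add]
  ring

lemma sg_zero : sg W 0 = 0 := by
  have : (0 : W.CoordinateRing) = io W 0 + io W 0 * Yc W := by simp
  rw [this, sg_rep]; simp

lemma sg_one : sg W 1 = 1 := by
  have : (1 : W.CoordinateRing) = io W 1 + io W 0 * Yc W := by simp
  rw [this, sg_rep]; simp

lemma sg_neg (f : W.CoordinateRing) : sg W (-f) = - sg W f := by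
  have h := sg_add W f (-f)
  rw [add_neg_cancel, sg_zero] at h
  exact eq_neg_of_add_eq_zero_right h.symm

lemma sg_smul (c : K) (f : W.CoordinateRing) : sg W (c • f) = C c * sg W f := by
  obtain ⟨p, q, rfl⟩ := exists_rep W f
  have : c • (io W p + io W q * Yc W) = io W (C c * p) + io W (C c * q) * Yc W := by
    rw [Algebra.smul_def, algebraMap_eq_io_C]
    simp only [map_mul]; ring
  rw [this, sg_rep, sg_rep]
  simp only [map_mul, expand_C]
  ring

/-- `sg` as a `K`-linear map -/
def sgl : W.CoordinateRing →ₗ[K] K[X] where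
  toFun := sg W
  map_add' := sg_add W
  map_smul' := fun c f => by rw [sg_smul, RingHom.id_apply, Polynomial.smul_eq_C_mul]

lemma sgl_apply (f : W.CoordinateRing) : sgl W f = sg W f := rfl

/-- the lower-order correction polynomial in `sg (f*h)` -/
def Ep : K[X] := C W.a₂ * X ^ 4 + C W.a₄ * X ^ 2 + C W.a₆ - C W.a₁ * X ^ 5 - C W.a₃ * X ^ 3

lemma expand_gp : expand K 2 (gp W) = X ^ 6 + C W.a₂ * X ^ 4 + C W.a₄ * X ^ 2 + C W.a₆ := by
  simp only [gp, map_add, map_mul, map_pow, expand_X, expand_C]
  ring

lemma expand_Lp : expand K 2 (Lp W) = C W.a₁ * X ^ 2 + C W.a₃ := by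
  simp only [Lp, map_add, map_mul, expand_X, expand_C]

lemma sg_mul (f h : W.CoordinateRing) :
    sg W (f * h) = sg W f * sg W h + expand K 2 (co1 W f) * expand K 2 (co1 W h) * Ep W := by
  obtain ⟨p, q, rfl⟩ := exists_rep W f
  obtain ⟨r, s, rfl⟩ := exists_rep W h
  rw [rep_mul, sg_rep, sg_rep, sg_rep, co1_rep, co1_rep]
  simp only [map_add, map_sub, map_mul, expand_gp, expand_Lp, Ep]
  ring

end

end Fermat.Agent.S13.Wr81
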