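/-
S13 (blueprint 7), glue for the assembly (helper14): a Galois element acting unipotently on
`E[p]` (`(σ - 1)² = 0`, the output of `L2UnipotentStmt`) and preserving a line `N` acts trivially
on `N` and on `V/N`, when `dim V ≤ 2`.

* `LinAlg.map_eq_zero_of_sq_zero`, `LinAlg.map_mem_of_sq_zero` : abstract linear algebra;
* `mem_trivOn_of_unipotent`, `mem_trivOnQuot_of_unipotent` : in `Gal.trivOn` / `Gal.trivOnQuot`
  shape.
No sorry.
-/
import Fermat.Agent.S13.Gal
import Fermat.Agent.S13.Interface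

set_option autoImplicit false

open WeierstrassCurve WeierstrassCurve.Affine WeierstrassCurve.Affine.Point

namespace Fermat.Agent.S13.Unip14

namespace LinAlg

variable {k V : Type*} [Field k] [AddCommGroup V] [Module k V]

/-- a square-zero endomorphism preserving a line kills it. -/
theorem map_eq_zero_of_sq_zero (u : V →ₗ[k] V) (hu : ∀ x, u (u x) = 0) (N : Submodule k V)
    (hN : Module.finrank k N = 1) (hstab : ∀ x ∈ N, u x ∈ N) {x : V} (hx : x ∈ N) : u x = 0 := by
  obtain ⟨⟨v, hvN⟩, hv0, hv⟩ := finrank_eq_one_iff'.mp hN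
  have hv0' : v ≠ 0 := fun h => hv0 (Subtype.ext h)
  -- `u v = a • v`
  obtain ⟨a, ha⟩ := hv ⟨u v, hstab v hvN⟩
  have ha' : a • v = u v := congrArg Subtype.val ha
  have h2 : (a * a) • v = 0 := by
    have := hu v
    rw [← ha', map_smul, ← ha', smul_smul] at this
    exact this
  have ha0 : a = 0 := by
    rcases smul_eq_zero.mp h2 with h | h
    · exact mul_self_eq_zero.mp h
    · exact absurd h hv0'
  have huv : u v = 0 := by rw [← ha', ha0, zero_smul]
  obtain ⟨c, hc⟩ := hv ⟨x, hx⟩
  have hc' : c • v = x := congrArg Subtype.val hc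
  rw [← hc', map_smul, huv, smul_zero]

variable [FiniteDimensional k V]

/-- in dimension `≤ 2`, a square-zero endomorphism preserving a line maps everything into it. -/
theorem map_mem_of_sq_zero (h2 : Module.finrank k V ≤ 2) (u : V →ₗ[k] V)
    (hu : ∀ x, u (u x) = 0) (N : Submodule k V) (hN : Module.finrank k N = 1)
    (hstab : ∀ x ∈ N, u x ∈ N) (x : V) : u x ∈ N := by
  by_contra hnot
  set N' : Submodule k V := N ⊔ Submodule.span k {u x} with hN'
  have hlt : N < N' := by
    refine lt_of_le_of_ne le_sup_left ?_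
    intro heq
    apply hnot
    rw [heq]
    exact Submodule.mem_sup_right (Submodule.mem_span_singleton_self _)
  have h1 : Module.finrank k N < Module.finrank k N' := Submodule.finrank_lt_finrank_of_lt hlt
  have h3 : Module.finrank k N' ≤ Module.finrank k V := Submodule.finrank_le N'
  have htop : N' = ⊤ := Submodule.eq_top_of_finrank_eq (by omega)
  have hx : x ∈ N' := by rw [htop]; exact Submodule.mem_top
  obtain ⟨n, hn, w, hw, hnw⟩ := Submodule.mem_sup.mp hx
  obtain ⟨b, rfl⟩ := Submodule.mem_span_singleton.mp hw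
  have : u x = 0 := by
    conv_lhs => rw [← hnw]
    rw [map_add, map_smul, hu x, smul_zero, add_zero]
    exact map_eq_zero_of_sq_zero u hu N hN hstab hn
  exact hnot (this ▸ N.zero_mem)

end LinAlg

section galois

variable {W' : Affine ℚ} {p : ℕ} [Fact p.Prime]

/-- `x ↦ σ • x - x` as a `ZMod p`-linear endomorphism of `E[p]`. -/
noncomputable def subOne (σ : GQ) :
    Submodule.torsionBy ℤ (W'⁄Qb).Point p →ₗ[ZMod p] Submodule.torsionBy ℤ (W'⁄Qb).Point p where
  toFun x := σ • x - x
  map_add' x y := by rw [smul_add]; abel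
  map_smul' c x := by
    simp only [RingHom.id_apply]
    rw [Gal.smul_zmod_smul, smul_sub]

theorem subOne_apply (σ : GQ) (x : Submodule.torsionBy ℤ (W'⁄Qb).Point p) :
    subOne σ x = σ • x - x := rfl

/-- the Interface form of unipotence gives `(σ - 1)² = 0` on `E[p]`. -/
theorem subOne_sq (σ : GQ)
    (hσ : ∀ Q : (W'⁄Qb).Point, (p : ℤ) • Q = 0 → σ • (σ • Q - Q) = σ • Q - Q)
    (x : Submodule.torsionBy ℤ (W'⁄Qb).Point p) : subOne σ (subOne σ x) = 0 := by
  have hx : (p : ℤ) • (x : (W'⁄Qb).Point) = 0 := by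
    have := x.2
    rwa [Submodule.mem_torsionBy_iff] at this
  have h1 : σ • (σ • x - x) = σ • x - x := by
    apply Subtype.ext
    exact hσ (x : (W'⁄Qb).Point) hx
  rw [subOne_apply, subOne_apply, h1, sub_self]

variable (N : Submodule (ZMod p) (Submodule.torsionBy ℤ (W'⁄Qb).Point p))

theorem mem_trivOn_of_unipotent (hN : IsGaloisStable ℚ N)
    (hrank : Module.finrank (ZMod p) N = 1) (σ : GQ)
    (hσ : ∀ Q : (W'⁄Qb).Point, (p : ℤ) • Q = 0 → σ • (σ • Q - Q) = σ • Q - Q) :
    σ ∈ Gal.trivOn N := by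
  intro x hx
  have hstab : ∀ y ∈ N, subOne σ y ∈ N := fun y hy => N.sub_mem (hN σ y hy) hy
  have := LinAlg.map_eq_zero_of_sq_zero (subOne σ) (subOne_sq σ hσ) N hrank hstab hx
  rw [subOne_apply, sub_eq_zero] at this
  exact this

theorem mem_trivOnQuot_of_unipotent
    [FiniteDimensional (ZMod p) (Submodule.torsionBy ℤ (W'⁄Qb).Point p)]
    (h2 : Module.finrank (ZMod p) (Submodule.torsionBy ℤ (W'⁄Qb).Point p) ≤ 2)
    (hN : IsGaloisStable ℚ N)
    (hrank : Module.finrank (ZMod p) N = 1) (σ : GQ)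
    (hσ : ∀ Q : (W'⁄Qb).Point, (p : ℤ) • Q = 0 → σ • (σ • Q - Q) = σ • Q - Q) :
    σ ∈ Gal.trivOnQuot N := by
  intro x
  have hstab : ∀ y ∈ N, subOne σ y ∈ N := fun y hy => N.sub_mem (hN σ y hy) hy
  exact LinAlg.map_mem_of_sq_zero h2 (subOne σ) (subOne_sq σ hσ) N hrank hstab x

end galois

end Fermat.Agent.S13.Unip14
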