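/-
S13 / MASS-core (helper53): the Newton / Vieta bound.

`K` a field, `A` a valuation subring with a `ℚ`-valued additive valuation `ord` (`S05.IsOrd`).
If `f = c ∏_{r ∈ s} (X - r)` has all its coefficients in `A`, then the "big" roots (those with
`ord r < 0`) satisfy `∑ (-ord r) ≤ ord c`.  No Gauss norm needed: division by `X - r` in `A[X]`
(`r ∈ A`) resp. by `1 - r⁻¹ X` (`r⁻¹ ∈ 𝔪`).

Exports (namespace `Fermat.Agent.S13.Vieta`):
* `IntCoeffs A g`               : all coefficients of `g` lie in `A`;
* `intCoeffs_of_mul_X_sub_C_small`, `intCoeffs_of_mul_X_sub_C_big` : the two division steps;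
* `sum_neg_ord_le`              : multiset form;
* `sum_neg_ord_roots_le`        : for `f ≠ 0` over an algebraically closed field, `t ≤ f.roots`;
* `sum_finset_le`               : finset of distinct big roots, each of multiplicity `≥ m`.
-/
import Mathlib
import Fermat.Agent.S05.Defs
import Fermat.Agent.S05.OrdApi

set_option autoImplicit false

open Polynomial

namespace Fermat.Agent.S13.Vieta

open Fermat.Agent.S05

variable {K : Type*} [Field K] {A : ValuationSubring K} {ord : K → ℚ}

/-- all coefficients of `g` lie in the valuation ring `A` -/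
def IntCoeffs (A : ValuationSubring K) (g : K[X]) : Prop := ∀ i, g.coeff i ∈ A

theorem intCoeffs_C_mul {a : K} (ha : a ∈ A) {g : K[X]} (hg : IntCoeffs A g) :
    IntCoeffs A (C a * g) := by
  intro i
  rw [coeff_C_mul]
  exact A.mul_mem _ _ ha (hg i)

/-- division by the monic polynomial `X - r`, `r ∈ A`. -/
theorem intCoeffs_of_mul_X_sub_C_small {r : K} (hr : r ∈ A) {g : K[X]}
    (h : IntCoeffs A (g * (X - C r))) : IntCoeffs A g := by
  -- downward induction: `g_i = h_{i+1} + r g_{i+1}`
  have hrec : ∀ i, g.coeff i = (g * (X - C r)).coeff (i + 1) + r * g.coeff (i + 1) := by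
    intro i
    rw [mul_sub, coeff_sub, coeff_mul_X, coeff_mul_C]
    ring
  have key : ∀ n i, g.natDegree < i + n → g.coeff i ∈ A := by
    intro n
    induction n with
    | zero =>
      intro i hi
      rw [coeff_eq_zero_of_natDegree_lt (by simpa using hi)]
      exact A.zero_mem
    | succ n ih =>
      intro i hi
      rw [hrec i]
      exact A.add_mem _ _ (h (i + 1)) (A.mul_mem _ _ hr (ih (i + 1) (by omega)))
  intro i
  exact key (g.natDegree + 1) i (by omega)

/-- division by `X - r = -r (1 - r⁻¹ X)` when `r⁻¹ ∈ A`: the quotient times `r` is integral. -/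
theorem intCoeffs_of_mul_X_sub_C_big {r : K} (hr0 : r ≠ 0) (hr : r⁻¹ ∈ A) {g : K[X]}
    (h : IntCoeffs A (g * (X - C r))) : IntCoeffs A (C r * g) := by
  -- upward induction: `r g_i = r⁻¹ (r g_{i-1}) - h_i`
  have h0 : r * g.coeff 0 = -(g * (X - C r)).coeff 0 := by
    rw [mul_sub, coeff_sub, coeff_mul_C, mul_coeff_zero, coeff_X_zero]
    ring
  have hrec : ∀ i, r * g.coeff (i + 1) =
      r⁻¹ * (r * g.coeff i) - (g * (X - C r)).coeff (i + 1) := by
    intro i
    rw [mul_sub, coeff_sub, coeff_mul_X, coeff_mul_C]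
    field_simp
    ring
  intro i
  rw [coeff_C_mul]
  induction i with
  | zero =>
    rw [h0]
    exact A.neg_mem _ (h 0)
  | succ i ih =>
    rw [hrec i]
    exact A.sub_mem (A.mul_mem _ _ hr ih) (h (i + 1))

variable (hord : IsOrd A ord)
include hord

open Classical in
/-- product of the big roots of a multiset -/
theorem intCoeffs_prod_big (s : Multiset K) :
    ∀ g : K[X], IntCoeffs A (g * (s.map fun r => X - C r).prod) →
      IntCoeffs A (C ((s.filter fun r => r ≠ 0 ∧ ord r < 0).prod) * g) := by
  classical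
  induction s using Multiset.induction_on with
  | empty =>
    intro g hg
    simpa using hg
  | cons r s ih =>
    intro g hg
    rw [Multiset.map_cons, Multiset.prod_cons, ← mul_assoc] at hg
    have h1 := ih (g * (X - C r)) hg
    rw [← mul_assoc] at h1
    by_cases hbig : r ≠ 0 ∧ ord r < 0
    · rw [Multiset.filter_cons_of_pos (p := fun r => r ≠ 0 ∧ ord r < 0) s hbig, Multiset.prod_cons]
      have hinv : r⁻¹ ∈ A := by
        rw [hord.inv_mem_iff hbig.1]
        exact hbig.2.le
      have h2 := intCoeffs_of_mul_X_sub_C_big hbig.1 hinv h1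
      rw [← mul_assoc, ← C_mul] at h2
      exact h2
    · rw [Multiset.filter_cons_of_neg (p := fun r => r ≠ 0 ∧ ord r < 0) s hbig]
      have hmem : r ∈ A := by
        rw [hord.mem_iff_or]
        by_cases h0 : r = 0
        · exact Or.inl h0
        · right
          by_contra hlt
          exact hbig ⟨h0, not_le.mp hlt⟩
      exact intCoeffs_of_mul_X_sub_C_small hmem h1

theorem ord_multiset_prod (t : Multiset K) (ht : ∀ r ∈ t, r ≠ 0) :
    t.prod ≠ 0 ∧ ord t.prod = (t.map ord).sum := by
  induction t using Multiset.induction_on with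
  | empty =>
    simpa using hord.ord_one
  | cons r t ih =>
    have hr : r ≠ 0 := ht r (Multiset.mem_cons_self r t)
    obtain ⟨h1, h2⟩ := ih fun x hx => ht x (Multiset.mem_cons_of_mem hx)
    refine ⟨by rw [Multiset.prod_cons]; exact mul_ne_zero hr h1, ?_⟩
    rw [Multiset.prod_cons, hord.map_mul hr h1, h2, Multiset.map_cons, Multiset.sum_cons]

/-- **Newton / Vieta bound, multiset form.** If `c ∏_{r ∈ s} (X - r) ∈ A[X]`, `c ≠ 0`, then for
every sub-multiset `t ≤ s` of big roots, `∑_{r ∈ t} (-ord r) ≤ ord c`. -/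
theorem sum_neg_ord_le {c : K} (hc : c ≠ 0) (s : Multiset K)
    (hf : IntCoeffs A (C c * (s.map fun r => X - C r).prod))
    (t : Multiset K) (hts : t ≤ s) (ht : ∀ r ∈ t, r ≠ 0 ∧ ord r < 0) :
    (t.map fun r => -ord r).sum ≤ ord c := by
  classical
  set B := s.filter fun r => r ≠ 0 ∧ ord r < 0 with hB
  have h1 := intCoeffs_prod_big hord s (C c) hf
  rw [← C_mul] at h1
  have h2 : B.prod * c ∈ A := by
    have := h1 0
    rwa [coeff_C_zero] at this
  have hBne : ∀ r ∈ B, r ≠ 0 := fun r hr => (Multiset.mem_filter.mp hr).2.1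
  obtain ⟨hB0, hBord⟩ := ord_multiset_prod hord B hBne
  have h3 : 0 ≤ ord (B.prod * c) := hord.nonneg_of_mem (mul_ne_zero hB0 hc) h2
  rw [hord.map_mul hB0 hc, hBord] at h3
  -- `t ≤ B`
  have htB : t ≤ B := by
    rw [hB, Multiset.le_filter]
    exact ⟨hts, ht⟩
  obtain ⟨u, hu⟩ := Multiset.le_iff_exists_add.mp htB
  have huB : ∀ r ∈ u, ord r < 0 := by
    intro r hr
    have : r ∈ B := by rw [hu]; exact Multiset.mem_add.mpr (Or.inr hr)
    exact (Multiset.mem_filter.mp this).2.2
  have hu0 : (u.map ord).sum ≤ 0 := by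
    have h := Multiset.sum_nonneg (s := u.map fun r => -ord r) (by
      intro x hx
      obtain ⟨r, hr, rfl⟩ := Multiset.mem_map.mp hx
      have := huB r hr
      linarith)
    rw [Multiset.sum_map_neg] at h
    linarith
  have hneg : (t.map fun r => -ord r).sum = -(t.map ord).sum := by
    rw [Multiset.sum_map_neg]
  rw [hneg]
  rw [hu, Multiset.map_add, Multiset.sum_add] at h3
  linarith

/-- **Newton / Vieta bound** for a nonzero polynomial with coefficients in `A` over an
algebraically closed field: for every multiset `t ≤ f.roots` of big roots,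
`∑_{r ∈ t} (-ord r) ≤ ord (leading coefficient)`. -/
theorem sum_neg_ord_roots_le [IsAlgClosed K] {f : K[X]} (hf0 : f ≠ 0)
    (hf : IntCoeffs A f) (t : Multiset K) (ht : t ≤ f.roots)
    (hbig : ∀ r ∈ t, r ≠ 0 ∧ ord r < 0) :
    (t.map fun r => -ord r).sum ≤ ord f.leadingCoeff := by
  have hsplit : f.Splits := IsAlgClosed.splits f
  have heq : f = C f.leadingCoeff * (f.roots.map fun r => X - C r).prod :=
    hsplit.eq_prod_roots
  refine sum_neg_ord_le hord (leadingCoeff_ne_zero.mpr hf0) f.roots ?_ t ht hbig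
  rw [← heq]
  exact hf

/-- **Newton / Vieta bound, finset form with multiplicities.** If every `r` in the finite set `S`
is a big root of `f` of multiplicity at least `m`, then `∑_{r ∈ S} m * (-ord r) ≤ ord (lc f)`. -/
theorem sum_finset_le [IsAlgClosed K] {f : K[X]} (hf0 : f ≠ 0) (hf : IntCoeffs A f)
    (S : Finset K) (m : ℕ) (hm : ∀ r ∈ S, m ≤ f.rootMultiplicity r)
    (hbig : ∀ r ∈ S, r ≠ 0 ∧ ord r < 0) :
    ∑ r ∈ S, (m : ℚ) * (-ord r) ≤ ord f.leadingCoeff := by
  classical
  have hle : m • S.val ≤ f.roots := by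
    rw [Multiset.le_iff_count]
    intro a
    rw [Multiset.count_nsmul, count_roots]
    by_cases ha : a ∈ S
    · have h1 : Multiset.count a S.val = 1 :=
        Multiset.count_eq_one_of_mem S.nodup (Finset.mem_val.mpr ha)
      rw [h1, mul_one]
      exact hm a ha
    · have h0 : Multiset.count a S.val = 0 :=
        Multiset.count_eq_zero_of_notMem (fun h => ha (Finset.mem_val.mp h))
      rw [h0, mul_zero]
      exact Nat.zero_le _
  have hb : ∀ r ∈ m • S.val, r ≠ 0 ∧ ord r < 0 := by
    intro r hr
    have : r ∈ S.val := Multiset.mem_of_mem_nsmul hr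
    exact hbig r (Finset.mem_val.mp this)
  have h := sum_neg_ord_roots_le hord hf0 hf (m • S.val) hle hb
  have hsum : ((m • S.val).map fun r => -ord r).sum = ∑ r ∈ S, (m : ℚ) * (-ord r) := by
    rw [Multiset.map_nsmul, Multiset.sum_nsmul, ← Finset.mul_sum, nsmul_eq_mul]
    rfl
  rw [hsum] at h
  exact h

end Fermat.Agent.S13.Vieta
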