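import Fermat.Agent.S13.WrNorm81

set_option autoImplicit false

/-!
# Wronskian route: double roots of the norm (helper81)

If `f` vanishes at the two distinct points `(x, y)`, `(x, -y - a₁x - a₃)` above `x`, then
`(X - x)² ∣ norm f`.
-/

namespace Fermat.Agent.S13.Wr81

open Polynomial WeierstrassCurve WeierstrassCurve.Affine

noncomputable section

variable {K : Type*} [Field K] (W : Affine K)

/-- vanishing at both points above `x` means divisibility by `X - x` -/
theorem exists_eq_io_mul_of_evalAt {x y : K} (h : W.Equation x y) (hy : y ≠ W.negY x y)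
    {f : W.CoordinateRing} (h1 : evalAt W h f = 0)
    (h2 : evalAt W (equation_negY W h) f = 0) :
    ∃ f' : W.CoordinateRing, f = io W (X - C x) * f' := by
  obtain ⟨p, q, rfl⟩ := exists_rep W f
  rw [evalAt_rep] at h1 h2
  have hq : q.eval x = 0 := by
    have : q.eval x * (y - W.negY x y) = 0 := by linear_combination h1 - h2
    rcases mul_eq_zero.mp this with h3 | h3
    · exact h3
    · exact absurd (sub_eq_zero.mp h3) hy
  have hp : p.eval x = 0 := by
    rw [hq, zero_mul, add_zero] at h1
    exact h1
  obtain ⟨p', rfl⟩ : X - C x ∣ p := dvd_iff_isRoot.mpr hp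
  obtain ⟨q', rfl⟩ : X - C x ∣ q := dvd_iff_isRoot.mpr hq
  refine ⟨io W p' + io W q' * Yc W, ?_⟩
  simp only [map_mul]
  ring

/-- **double root of the norm** -/
theorem sq_dvd_norm_of_evalAt {x y : K} (h : W.Equation x y) (hy : y ≠ W.negY x y)
    {f : W.CoordinateRing} (h1 : evalAt W h f = 0)
    (h2 : evalAt W (equation_negY W h) f = 0) :
    (X - C x) ^ 2 ∣ Algebra.norm K[X] f := by
  obtain ⟨f', rfl⟩ := exists_eq_io_mul_of_evalAt W h hy h1 h2
  rw [← nm_eq_norm, nm_mul, nm_io]
  exact Dvd.intro _ rfl

/-- single root of the norm -/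
theorem dvd_norm_of_evalAt {x y : K} (h : W.Equation x y)
    {f : W.CoordinateRing} (h1 : evalAt W h f = 0) :
    (X - C x) ∣ Algebra.norm K[X] f := by
  rw [dvd_iff_isRoot, IsRoot.def, ← nm_eq_norm]
  have hmul := congrArg (evalAt W h) (mul_cj W f)
  rw [map_mul, evalAt_io, h1, zero_mul] at hmul
  exact hmul.symm

/-- the value of the norm at `x` is the product of the values at the two points above `x` -/
theorem eval_nm {x y : K} (h : W.Equation x y) (f : W.CoordinateRing) :
    (nm W f).eval x = evalAt W h f * evalAt W (equation_negY W h) f := by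
  have hmul := congrArg (evalAt W h) (mul_cj W f)
  rw [map_mul, evalAt_io, evalAt_cj] at hmul
  exact hmul.symm

section points

open WeierstrassCurve.Affine.Point

variable {W}

/-- a point of odd order is not its own negative -/
theorem ne_negY_of_odd_torsion [DecidableEq K] {x y : K} (h : W.Nonsingular x y) {n : ℕ}
    (hn : Odd n) (hP : (n : ℤ) • (Point.some x y h : W.Point) = 0) : y ≠ W.negY x y := by
  intro hy
  have hneg : -(Point.some x y h : W.Point) = Point.some x y h := by
    rw [Point.neg_some]
    congr 1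
    exact hy.symm
  have h2 : (2 : ℤ) • (Point.some x y h : W.Point) = 0 := by
    rw [two_zsmul]
    nth_rw 2 [← hneg]
    exact add_neg_cancel _
  obtain ⟨k, hk⟩ := hn
  have : (n : ℤ) • (Point.some x y h : W.Point) = Point.some x y h := by
    rw [hk]
    push_cast
    rw [add_zsmul, mul_comm, mul_zsmul, h2, smul_zero, zero_add, one_zsmul]
  rw [this] at hP
  exact Point.some_ne_zero h hP

/-- **double roots of `norm (Wr n)` at the `x`-coordinates of the `n`-torsion points** (`n` odd),
given the converse direction `n • P = 0 → Wr n (P) = 0`. -/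
theorem sq_dvd_norm_Wr_of_torsion [DecidableEq K] {n : ℕ} (hn : Odd n)
    (hconv : ∀ (x y : K) (h : W.Nonsingular x y), (n : ℤ) • (Point.some x y h : W.Point) = 0 →
      evalAt W h.1 (Wr W n) = 0)
    {x y : K} (h : W.Nonsingular x y) (hP : (n : ℤ) • (Point.some x y h : W.Point) = 0) :
    (X - C x) ^ 2 ∣ Algebra.norm K[X] (Wr W n) := by
  have hy := ne_negY_of_odd_torsion h hn hP
  have h' : W.Nonsingular x (W.negY x y) := (W.nonsingular_neg x y).mpr h
  have hP' : (n : ℤ) • (Point.some x (W.negY x y) h' : W.Point) = 0 := by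
    have : (Point.some x (W.negY x y) h' : W.Point) = -(Point.some x y h) := by
      rw [Point.neg_some]
    rw [this, smul_neg, hP, _root_.neg_zero]
  exact sq_dvd_norm_of_evalAt W h.1 hy (hconv x y h hP) (hconv x _ h' hP')

end points

end

end Fermat.Agent.S13.Wr81
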