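import Fermat.Agent.S13.WrNorm81
import Fermat.Agent.S05.Defs

set_option autoImplicit false

/-!
# Wronskian route: integrality of the Wronskian and of its norm (helper81)
-/

namespace Fermat.Agent.S13.Wr81

open Polynomial WeierstrassCurve WeierstrassCurve.Affine
open scoped Polynomial.Bivariate

noncomputable section

variable {K : Type*} [Field K]

/-- polynomials with coefficients in a subring -/
def polyIn (A : Subring K) : Subring K[X] where
  carrier := {p | ∀ i, p.coeff i ∈ A}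
  mul_mem' := by
    intro p q hp hq i
    rw [coeff_mul]
    exact A.sum_mem fun c _ => A.mul_mem (hp _) (hq _)
  one_mem' := by
    intro i
    rw [coeff_one]
    split_ifs
    exacts [A.one_mem, A.zero_mem]
  add_mem' := by
    intro p q hp hq i
    rw [coeff_add]
    exact A.add_mem (hp _) (hq _)
  zero_mem' := by
    intro i
    rw [coeff_zero]
    exact A.zero_mem
  neg_mem' := by
    intro p hp i
    rw [coeff_neg]
    exact A.neg_mem (hp _)

lemma mem_polyIn {A : Subring K} {p : K[X]} : p ∈ polyIn A ↔ ∀ i, p.coeff i ∈ A := Iff.rfl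

lemma C_mem_polyIn {A : Subring K} {a : K} (ha : a ∈ A) : C a ∈ polyIn A := by
  intro i
  rw [coeff_C]
  split_ifs
  exacts [ha, A.zero_mem]

lemma X_mem_polyIn (A : Subring K) : (X : K[X]) ∈ polyIn A := by
  intro i
  rw [coeff_X]
  split_ifs
  exacts [A.one_mem, A.zero_mem]

lemma derivative_mem_polyIn {A : Subring K} {p : K[X]} (hp : p ∈ polyIn A) :
    derivative p ∈ polyIn A := by
  intro i
  rw [coeff_derivative]
  exact A.mul_mem (hp _) (A.add_mem (natCast_mem A i) A.one_mem)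

variable (W : Affine K)

/-- the curve has coefficients in the subring `A` -/
def CoeffsIn (A : Subring K) : Prop :=
  W.a₁ ∈ A ∧ W.a₂ ∈ A ∧ W.a₃ ∈ A ∧ W.a₄ ∈ A ∧ W.a₆ ∈ A

variable {W}

lemma Lp_mem {A : Subring K} (hW : CoeffsIn W A) : Lp W ∈ polyIn A := by
  unfold Lp
  exact add_mem (mul_mem (C_mem_polyIn hW.1) (X_mem_polyIn A)) (C_mem_polyIn hW.2.2.1)

lemma gp_mem {A : Subring K} (hW : CoeffsIn W A) : gp W ∈ polyIn A := by
  unfold gp
  exact add_mem (add_mem (add_mem (pow_mem (X_mem_polyIn A) 3)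
    (mul_mem (C_mem_polyIn hW.2.1) (pow_mem (X_mem_polyIn A) 2)))
    (mul_mem (C_mem_polyIn hW.2.2.2.1) (X_mem_polyIn A))) (C_mem_polyIn hW.2.2.2.2)

lemma gp'_mem {A : Subring K} (hW : CoeffsIn W A) : gp' W ∈ polyIn A := by
  unfold gp'
  exact add_mem (add_mem (mul_mem (ofNat_mem _ 3) (pow_mem (X_mem_polyIn A) 2))
    (mul_mem (mul_mem (ofNat_mem _ 2) (C_mem_polyIn hW.2.1)) (X_mem_polyIn A)))
    (C_mem_polyIn hW.2.2.2.1)

variable (W)

/-- elements of the coordinate ring with both coordinates in `A[X]` -/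
def RIn (A : Subring K) (hW : CoeffsIn W A) : Subring W.CoordinateRing where
  carrier := {f | co0 W f ∈ polyIn A ∧ co1 W f ∈ polyIn A}
  mul_mem' := by
    intro f h hf hh
    obtain ⟨p, q, rfl⟩ := exists_rep W f
    obtain ⟨r, s, rfl⟩ := exists_rep W h
    simp only [Set.mem_ofPred_eq, co0_rep, co1_rep] at hf hh
    rw [rep_mul]
    simp only [Set.mem_ofPred_eq, co0_rep, co1_rep]
    exact ⟨add_mem (mul_mem hf.1 hh.1) (mul_mem (mul_mem hf.2 hh.2) (gp_mem hW)),
      sub_mem (add_mem (mul_mem hf.1 hh.2) (mul_mem hf.2 hh.1))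
        (mul_mem (mul_mem hf.2 hh.2) (Lp_mem hW))⟩
  one_mem' := by
    have : (1 : W.CoordinateRing) = io W 1 + io W 0 * Yc W := by simp
    simp only [Set.mem_ofPred_eq]
    rw [this, co0_rep, co1_rep]
    exact ⟨one_mem _, zero_mem _⟩
  add_mem' := by
    intro f h hf hh
    obtain ⟨p, q, rfl⟩ := exists_rep W f
    obtain ⟨r, s, rfl⟩ := exists_rep W h
    simp only [Set.mem_ofPred_eq, co0_rep, co1_rep] at hf hh
    have : io W p + io W q * Yc W + (io W r + io W s * Yc W) =
        io W (p + r) + io W (q + s) * Yc W := by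
      simp only [map_add]; ring
    simp only [Set.mem_ofPred_eq]
    rw [this, co0_rep, co1_rep]
    exact ⟨add_mem hf.1 hh.1, add_mem hf.2 hh.2⟩
  zero_mem' := by
    have : (0 : W.CoordinateRing) = io W 0 + io W 0 * Yc W := by simp
    simp only [Set.mem_ofPred_eq]
    rw [this, co0_rep, co1_rep]
    exact ⟨zero_mem _, zero_mem _⟩
  neg_mem' := by
    intro f hf
    obtain ⟨p, q, rfl⟩ := exists_rep W f
    simp only [Set.mem_ofPred_eq, co0_rep, co1_rep] at hf
    have : -(io W p + io W q * Yc W) = io W (-p) + io W (-q) * Yc W := by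
      simp only [map_neg]; ring
    simp only [Set.mem_ofPred_eq]
    rw [this, co0_rep, co1_rep]
    exact ⟨neg_mem hf.1, neg_mem hf.2⟩

variable {W}

lemma mem_RIn {A : Subring K} {hW : CoeffsIn W A} {f : W.CoordinateRing} :
    f ∈ RIn W A hW ↔ co0 W f ∈ polyIn A ∧ co1 W f ∈ polyIn A := Iff.rfl

lemma rep_mem_RIn {A : Subring K} {hW : CoeffsIn W A} {p q : K[X]} (hp : p ∈ polyIn A)
    (hq : q ∈ polyIn A) : io W p + io W q * Yc W ∈ RIn W A hW := by
  rw [mem_RIn, co0_rep, co1_rep]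
  exact ⟨hp, hq⟩

lemma io_mem_RIn {A : Subring K} {hW : CoeffsIn W A} {p : K[X]} (hp : p ∈ polyIn A) :
    io W p ∈ RIn W A hW := by
  have : io W p = io W p + io W 0 * Yc W := by simp
  rw [this]
  exact rep_mem_RIn hp (zero_mem _)

lemma Yc_mem_RIn {A : Subring K} {hW : CoeffsIn W A} : Yc W ∈ RIn W A hW := by
  have : Yc W = io W 0 + io W 1 * Yc W := by simp
  rw [this]
  exact rep_mem_RIn (zero_mem _) (one_mem _)

lemma D_mem_RIn {A : Subring K} {hW : CoeffsIn W A} {f : W.CoordinateRing}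
    (hf : f ∈ RIn W A hW) : D W f ∈ RIn W A hW := by
  obtain ⟨p, q, rfl⟩ := exists_rep W f
  rw [mem_RIn, co0_rep, co1_rep] at hf
  rw [D_rep]
  have h2 : (2 : K[X]) ∈ polyIn A := ofNat_mem _ 2
  refine rep_mem_RIn ?_ ?_
  · exact add_mem (add_mem (mul_mem (derivative_mem_polyIn hf.1) (Lp_mem hW))
      (mul_mem (mul_mem h2 (derivative_mem_polyIn hf.2)) (gp_mem hW)))
      (mul_mem hf.2 (gp'_mem hW))
  · exact sub_mem (sub_mem (mul_mem h2 (derivative_mem_polyIn hf.1))
      (mul_mem (derivative_mem_polyIn hf.2) (Lp_mem hW))) (mul_mem (C_mem_polyIn hW.1) hf.2)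

lemma D_iterate_mem_RIn {A : Subring K} {hW : CoeffsIn W A} {f : W.CoordinateRing}
    (hf : f ∈ RIn W A hW) (i : ℕ) : (D W)^[i] f ∈ RIn W A hW := by
  induction i with
  | zero => exact hf
  | succ i ih => rw [Function.iterate_succ_apply']; exact D_mem_RIn ih

lemma bm_mem_RIn {A : Subring K} {hW : CoeffsIn W A} (m : ℕ) : bm W m ∈ RIn W A hW := by
  unfold bm
  split_ifs
  · exact io_mem_RIn (pow_mem (X_mem_polyIn A) _)
  · exact mul_mem (io_mem_RIn (pow_mem (X_mem_polyIn A) _)) Yc_mem_RIn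

/-- **the Wronskian is integral** -/
theorem Wr_mem_RIn {A : Subring K} (hW : CoeffsIn W A) (n : ℕ) : Wr W n ∈ RIn W A hW := by
  unfold Wr
  rw [Matrix.det_apply]
  refine sum_mem fun σ _ => ?_
  refine zsmul_mem (prod_mem fun i _ => ?_) _
  simp only [WrM, Matrix.of_apply]
  exact D_iterate_mem_RIn (bm_mem_RIn _) _

lemma nm_mem_polyIn {A : Subring K} {hW : CoeffsIn W A} {f : W.CoordinateRing}
    (hf : f ∈ RIn W A hW) : nm W f ∈ polyIn A := by
  rw [mem_RIn] at hf
  unfold nm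
  exact sub_mem (sub_mem (pow_mem hf.1 2) (mul_mem (mul_mem hf.1 hf.2) (Lp_mem hW)))
    (mul_mem (pow_mem hf.2 2) (gp_mem hW))

/-- **the norm of the Wronskian has coefficients in `A`** -/
theorem norm_Wr_coeff_mem {A : Subring K} (hW : CoeffsIn W A) (n i : ℕ) :
    (Algebra.norm K[X] (Wr W n)).coeff i ∈ A := by
  rw [← nm_eq_norm]
  exact nm_mem_polyIn (Wr_mem_RIn hW n) i

/-- version for valuation subrings and `S05.IsIntegralW` -/
theorem norm_Wr_coeff_mem_of_isIntegralW {A : ValuationSubring K}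
    (hW : Fermat.Agent.S05.IsIntegralW W A) (n i : ℕ) :
    (Algebra.norm K[X] (Wr W n)).coeff i ∈ A :=
  norm_Wr_coeff_mem (A := A.toSubring) hW n i

end

end Fermat.Agent.S13.Wr81
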