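import Fermat.Agent.S13.WrInt81
import Fermat.Agent.S05.OrdApi

set_option autoImplicit false

/-!
# Wronskian route: valuation of the leading coefficient of `norm (Wr p)` (helper81)
-/

namespace Fermat.Agent.S13.Wr81

open Polynomial WeierstrassCurve WeierstrassCurve.Affine
open Fermat.Agent.S05 (IsOrd IsU)

noncomputable section

variable {K : Type*} [Field K] {A : ValuationSubring K} {ord : K → ℚ}

lemma ord_prod81 (hord : IsOrd A ord) {ι : Type*} (s : Finset ι) (g : ι → K)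
    (hg : ∀ i ∈ s, g i ≠ 0) : ord (∏ i ∈ s, g i) = ∑ i ∈ s, ord (g i) := by
  classical
  induction s using Finset.induction_on with
  | empty => simp [hord.ord_one]
  | insert a s ha ih =>
    rw [Finset.prod_insert ha, Finset.sum_insert ha,
      hord.ord_mul (hg a (Finset.mem_insert_self a s))
        (Finset.prod_ne_zero_iff.mpr fun i hi => hg i (Finset.mem_insert_of_mem hi)),
      ih fun i hi => hg i (Finset.mem_insert_of_mem hi)]

lemma mseq_strictMono : StrictMono mseq := by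
  intro a b h
  unfold mseq
  split_ifs <;> omega

lemma ord_mseq_diff (_hord : IsOrd A ord) {p : ℕ} (hp : p.Prime)
    (hU : ∀ k : ℕ, 0 < k → k < p → IsU ord (k : K)) (hp0 : (p : K) ≠ 0)
    (i j : Fin p) (hij : i < j) :
    (((mseq (j : ℕ) : ℕ) : K) - ((mseq (i : ℕ) : ℕ) : K)) ≠ 0 ∧
      ord (((mseq (j : ℕ) : ℕ) : K) - ((mseq (i : ℕ) : ℕ) : K)) =
        if (i : ℕ) = 0 ∧ (j : ℕ) = p - 1 then ord (p : K) else 0 := by
  have hlt : mseq (i : ℕ) < mseq (j : ℕ) := mseq_strictMono hij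
  have hcast : ((mseq (j : ℕ) : ℕ) : K) - ((mseq (i : ℕ) : ℕ) : K) =
      ((mseq (j : ℕ) - mseq (i : ℕ) : ℕ) : K) := by
    rw [Nat.cast_sub hlt.le]
  have h2p := hp.two_le
  have hi := i.isLt
  have hj := j.isLt
  rw [hcast]
  split_ifs with h
  · have : mseq (j : ℕ) - mseq (i : ℕ) = p := by
      obtain ⟨h1, h2⟩ := h
      rw [h1, h2]
      unfold mseq
      rw [if_pos rfl, if_neg (by omega)]
      omega
    rw [this]
    exact ⟨hp0, rfl⟩
  · have h1 : 0 < mseq (j : ℕ) - mseq (i : ℕ) := by omega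
    have h2 : mseq (j : ℕ) - mseq (i : ℕ) < p := by
      rw [not_and_or] at h
      have hij' : (i : ℕ) < (j : ℕ) := hij
      unfold mseq
      split_ifs <;> omega
    exact ⟨(hU _ h1 h2).1, (hU _ h1 h2).2⟩

/-- the Vandermonde product of the pole orders `0,2,3,…,p` has the valuation of `p` -/
theorem ord_vdm_mseq (hord : IsOrd A ord) {p : ℕ} (hp : p.Prime)
    (hU : ∀ k : ℕ, 0 < k → k < p → IsU ord (k : K)) (hp0 : (p : K) ≠ 0) :
    (∏ i : Fin p, ∏ j ∈ Finset.Ioi i,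
        (((mseq (j : ℕ) : ℕ) : K) - ((mseq (i : ℕ) : ℕ) : K))) ≠ 0 ∧
      ord (∏ i : Fin p, ∏ j ∈ Finset.Ioi i,
        (((mseq (j : ℕ) : ℕ) : K) - ((mseq (i : ℕ) : ℕ) : K))) = ord (p : K) := by
  have h2p := hp.two_le
  have hne : ∀ i : Fin p, ∀ j ∈ Finset.Ioi i,
      (((mseq (j : ℕ) : ℕ) : K) - ((mseq (i : ℕ) : ℕ) : K)) ≠ 0 := fun i j hj =>
    (ord_mseq_diff hord hp hU hp0 i j (Finset.mem_Ioi.mp hj)).1
  have hne' : ∀ i ∈ (Finset.univ : Finset (Fin p)), (∏ j ∈ Finset.Ioi i,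
      (((mseq (j : ℕ) : ℕ) : K) - ((mseq (i : ℕ) : ℕ) : K))) ≠ 0 := fun i _ =>
    Finset.prod_ne_zero_iff.mpr (hne i)
  refine ⟨Finset.prod_ne_zero_iff.mpr hne', ?_⟩
  rw [ord_prod81 hord _ _ hne']
  have hin : ∀ i : Fin p, ord (∏ j ∈ Finset.Ioi i,
      (((mseq (j : ℕ) : ℕ) : K) - ((mseq (i : ℕ) : ℕ) : K))) =
        if (i : ℕ) = 0 then ord (p : K) else 0 := by
    intro i
    rw [ord_prod81 hord _ _ (hne i),
      Finset.sum_congr rfl fun j hj => (ord_mseq_diff hord hp hU hp0 i j (Finset.mem_Ioi.mp hj)).2]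
    split_ifs with hi
    · rw [Finset.sum_eq_single (⟨p - 1, by omega⟩ : Fin p)]
      · rw [if_pos ⟨hi, rfl⟩]
      · intro j _ hj
        rw [if_neg]
        rintro ⟨_, h⟩
        exact hj (Fin.ext h)
      · intro h
        exfalso
        apply h
        rw [Finset.mem_Ioi, Fin.lt_def]
        show (i : ℕ) < p - 1
        omega
    · exact Finset.sum_eq_zero fun j _ => by
        rw [if_neg]
        rintro ⟨h, _⟩
        exact hi h
  rw [Finset.sum_congr rfl fun i _ => hin i, Finset.sum_eq_single (⟨0, by omega⟩ : Fin p)]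
  · rw [if_pos rfl]
  · intro i _ hi
    rw [if_neg]
    intro h
    exact hi (Fin.ext h)
  · intro h
    exact absurd (Finset.mem_univ _) h

variable (W : Affine K)

/-- **the leading coefficient of `norm (Wr p)` has valuation `2 ord p`** -/
theorem ord_leadingCoeff_norm_Wr [CharZero K] (hord : IsOrd A ord) {p : ℕ} (hp : p.Prime)
    (hU : ∀ k : ℕ, 0 < k → k < p → IsU ord (k : K)) :
    ord (Algebra.norm K[X] (Wr W p)).leadingCoeff = 2 * ord (p : K) := by
  have hp0 : (p : K) ≠ 0 := Nat.cast_ne_zero.mpr hp.ne_zero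
  obtain ⟨h1, h2⟩ := ord_vdm_mseq hord hp hU hp0
  rw [leadingCoeff_norm_Wr W hp.one_le]
  have hs : ((-1 : K) ^ (p ^ 2 - 1)) ≠ 0 := pow_ne_zero _ (neg_ne_zero.mpr one_ne_zero)
  rw [hord.ord_mul hs (pow_ne_zero 2 h1), hord.ord_pow (neg_ne_zero.mpr one_ne_zero),
    hord.ord_neg_one, hord.ord_sq h1, h2]
  ring

theorem norm_Wr_ne_zero [CharZero K] {n : ℕ} (hn : 1 ≤ n) : Algebra.norm K[X] (Wr W n) ≠ 0 := by
  rw [← nm_eq_norm]
  intro h
  have h1 := mul_cj W (Wr W n)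
  rw [h, map_zero] at h1
  rcases mul_eq_zero.mp h1 with h2 | h2
  · exact Wr_ne_zero W hn h2
  · have := congrArg (cj W) h2
    rw [cj_cj, cj_zero] at this
    exact Wr_ne_zero W hn this

end

end Fermat.Agent.S13.Wr81
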