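import Fermat.Agent.S13.WrNorm81
import Fermat.Agent.S13.WrKer86

set_option autoImplicit false

/-!
# Wronskian route: `L(nO)` is spanned by the basis monomials (helper81)
-/

namespace Fermat.Agent.S13.Wr81

open Polynomial WeierstrassCurve WeierstrassCurve.Affine

noncomputable section

variable {K : Type*} [Field K] (W : Affine K)

lemma sg_injective : Function.Injective (sg W) := by
  intro f h hfh
  have : sg W (f + -h) = 0 := by rw [sg_add, sg_neg, hfh, add_neg_cancel]
  rw [sg_eq_zero_iff] at this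
  exact add_neg_eq_zero.mp this

lemma sg_coeff_one (f : W.CoordinateRing) : (sg W f).coeff 1 = 0 := by
  unfold sg
  rw [coeff_add, coeff_expand_two, coeff_X3_expand_two, if_neg (by norm_num), if_neg (by omega),
    add_zero]

/-- **`L(nO)` is spanned by the monomials of pole order `0,2,3,…,n`** -/
theorem exists_comb_eq {f : W.CoordinateRing} {n : ℕ} (hn : 1 ≤ n)
    (hf : (sg W f).natDegree ≤ n) :
    f = WrKer86.comb W n (fun j : Fin n => (sg W f).coeff (mseq (j : ℕ))) := by
  apply sg_injective W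
  ext m
  by_cases hm : ∃ j : Fin n, mseq (j : ℕ) = m
  · obtain ⟨j, rfl⟩ := hm
    rw [WrKer86.coeff_sg_comb]
  · have hR : (sg W (WrKer86.comb W n
        (fun j : Fin n => (sg W f).coeff (mseq (j : ℕ))))).coeff m = 0 := by
      rw [WrKer86.sg_comb, finsetSum_coeff]
      refine Finset.sum_eq_zero fun j _ => ?_
      rw [coeff_C_mul, coeff_X_pow, if_neg (fun h => hm ⟨j, h.symm⟩), mul_zero]
    rw [hR]
    rcases Nat.lt_or_ge n m with h1 | h1
    · exact coeff_eq_zero_of_natDegree_lt (lt_of_le_of_lt hf h1)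
    · rcases Nat.eq_zero_or_pos m with rfl | h0
      · exact absurd ⟨⟨0, by omega⟩, by simp [mseq]⟩ hm
      · rcases Nat.eq_or_lt_of_le (Nat.succ_le_of_lt h0) with h2 | h2
        · rw [← h2]; exact sg_coeff_one W f
        · refine absurd ⟨⟨m - 1, by omega⟩, ?_⟩ hm
          show mseq (m - 1) = m
          unfold mseq
          rw [if_neg (by omega)]
          omega

theorem exists_comb_eq' {f : W.CoordinateRing} {n : ℕ} (hn : 1 ≤ n)
    (hf : (sg W f).natDegree ≤ n) : ∃ c : Fin n → K, f = WrKer86.comb W n c :=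
  ⟨_, exists_comb_eq W hn hf⟩

/-- **Converse kernel step.** A ring hom `ev` to `K` that is the identity on constants and kills
all Taylor coefficients `ev (D^i f)`, `i < n`, of some nonzero `f ∈ L(nO)` kills the Wronskian. -/
theorem ev_Wr_eq_zero_of_taylor {n : ℕ} (hn : 1 ≤ n) (ev : W.CoordinateRing →+* K)
    (hev : ∀ a : K, ev (algebraMap K W.CoordinateRing a) = a)
    {f : W.CoordinateRing} (hf0 : f ≠ 0) (hdeg : (sg W f).natDegree ≤ n)
    (hvan : ∀ i : Fin n, ev ((TorsW18.D W)^[(i : ℕ)] f) = 0) : ev (Wr W n) = 0 := by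
  set c : Fin n → K := fun j : Fin n => (sg W f).coeff (mseq (j : ℕ)) with hc
  have hfc : f = WrKer86.comb W n c := exists_comb_eq W hn hdeg
  have hc0 : c ≠ 0 := by
    intro h
    apply hf0
    rw [hfc, h]
    unfold WrKer86.comb
    simp
  set M : Matrix (Fin n) (Fin n) K := ev.mapMatrix (WrM W n) with hM
  have hMc : M.mulVec c = 0 := by
    funext i
    rw [Matrix.mulVec, dotProduct]
    simp only [Pi.zero_apply]
    have h1 := hvan i
    rw [hfc, WrKer86.iterate_D_comb, map_sum] at h1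
    rw [← h1]
    refine Finset.sum_congr rfl fun j _ => ?_
    rw [Algebra.smul_def, map_mul, hev, mul_comm]
    congr 1
    rw [hM, RingHom.mapMatrix_apply, Matrix.map_apply, WrM, Matrix.of_apply, TorsW18.D_eq]
  have hdet : M.det = 0 := Matrix.exists_mulVec_eq_zero_iff.1 ⟨c, hc0, hMc⟩
  rw [hM, ← RingHom.map_det] at hdet
  exact hdet

/-- **Converse kernel step, ideal form.** If some nonzero `f ∈ L(nO)` lies in `I_P^n`, the
Wronskian vanishes at `P`. -/
theorem evP_Wr_eq_zero_of_mem_pow [CharZero K] {x₀ y₀ : K} (h : W.Nonsingular x₀ y₀) {n : ℕ}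
    (hn : 1 ≤ n) {f : W.CoordinateRing} (hf0 : f ≠ 0) (hdeg : (sg W f).natDegree ≤ n)
    (hmem : f ∈ TorsW18.IP W x₀ y₀ ^ n) : TorsW18.evP W h.1 (Wr W n) = 0 := by
  obtain ⟨t, H⟩ := TorsW18.exists_localParam h
  refine ev_Wr_eq_zero_of_taylor W hn (TorsW18.evP W h.1) H.ev_alg hf0 hdeg fun i => ?_
  exact (H.mem_pow_iff n f).mp hmem i i.2

end

end Fermat.Agent.S13.Wr81
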