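import Fermat.Agent.S13.WrDefs81

set_option autoImplicit false

/-!
# Wronskian route: symbol calculus at infinity (helper81)
-/

namespace Fermat.Agent.S13.Wr81

open Polynomial WeierstrassCurve WeierstrassCurve.Affine
open scoped Polynomial.Bivariate

noncomputable section

variable {K : Type*} [Field K] (W : Affine K)

lemma coeff_expand_two (p : K[X]) (m : ℕ) :
    (expand K 2 p).coeff m = if 2 ∣ m then p.coeff (m / 2) else 0 :=
  coeff_expand (by norm_num) p m

lemma coeff_X3_expand_two (q : K[X]) (m : ℕ) :
    (X ^ 3 * expand K 2 q).coeff m = if 3 ≤ m ∧ 2 ∣ (m - 3) then q.coeff ((m - 3) / 2) else 0 := by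
  rw [coeff_X_pow_mul', coeff_expand_two]
  by_cases h : 3 ≤ m
  · simp [h]
  · simp [h]

/-- the even and odd parts do not interact -/
lemma coeff_parts (p q : K[X]) (m : ℕ) :
    (expand K 2 p).coeff m = 0 ∨ (X ^ 3 * expand K 2 q).coeff m = 0 := by
  rw [coeff_expand_two, coeff_X3_expand_two]
  by_cases h2 : 2 ∣ m
  · right
    rw [if_neg]
    rintro ⟨h3, h4⟩
    omega
  · left
    rw [if_neg h2]

lemma sg_rep_le_iff (p q : K[X]) (n : ℕ) :
    (expand K 2 p + X ^ 3 * expand K 2 q).natDegree ≤ n ↔
      2 * p.natDegree ≤ n ∧ (q = 0 ∨ 2 * q.natDegree + 3 ≤ n) := by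
  constructor
  · intro h
    rw [natDegree_le_iff_coeff_eq_zero] at h
    have hp : (expand K 2 p).natDegree ≤ n := by
      rw [natDegree_le_iff_coeff_eq_zero]
      intro m hm
      have := h m hm
      rw [coeff_add] at this
      rcases coeff_parts p q m with h1 | h1
      · exact h1
      · rw [h1, add_zero] at this; exact this
    have hq : (X ^ 3 * expand K 2 q).natDegree ≤ n := by
      rw [natDegree_le_iff_coeff_eq_zero]
      intro m hm
      have := h m hm
      rw [coeff_add] at this
      rcases coeff_parts p q m with h1 | h1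
      · rw [h1, zero_add] at this; exact this
      · exact h1
    refine ⟨by rw [natDegree_expand] at hp; omega, ?_⟩
    by_cases hq0 : q = 0
    · exact Or.inl hq0
    · right
      have hne : expand K 2 q ≠ 0 := by
        intro h0
        apply hq0
        exact (expand_eq_zero (by norm_num)).mp h0
      rw [natDegree_X_pow_mul 3 hne, natDegree_expand] at hq
      omega
  · rintro ⟨hp, hq⟩
    refine (natDegree_add_le _ _).trans (max_le ?_ ?_)
    · rw [natDegree_expand]; omega
    · rcases hq with rfl | hq
      · simp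
      · refine (natDegree_mul_le).trans ?_
        rw [natDegree_X_pow, natDegree_expand]; omega

lemma sg_le_iff (f : W.CoordinateRing) (n : ℕ) :
    (sg W f).natDegree ≤ n ↔
      2 * (co0 W f).natDegree ≤ n ∧ (co1 W f = 0 ∨ 2 * (co1 W f).natDegree + 3 ≤ n) :=
  sg_rep_le_iff _ _ n

lemma natDegree_Ep_le : (Ep W).natDegree ≤ 5 := by
  unfold Ep
  compute_degree

/-- multiplicativity of symbols -/
lemma sg_mul_le {f h : W.CoordinateRing} {a b : ℕ}
    (hf : (sg W f).natDegree ≤ a) (hh : (sg W h).natDegree ≤ b) :
    (sg W (f * h)).natDegree ≤ a + b ∧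
      (sg W (f * h)).coeff (a + b) = (sg W f).coeff a * (sg W h).coeff b := by
  have hf' := (sg_le_iff W f a).mp hf
  have hh' := (sg_le_iff W h b).mp hh
  set Qf := expand K 2 (co1 W f) with hQf
  set Qh := expand K 2 (co1 W h) with hQh
  have hcorr : (Qf * Qh * Ep W).natDegree ≤ a + b ∧ (Qf * Qh * Ep W).coeff (a + b) = 0 := by
    rcases hf'.2 with h0 | h1
    · simp [hQf, h0]
    rcases hh'.2 with h0 | h2
    · simp [hQh, h0]
    have hlt : (Qf * Qh * Ep W).natDegree < a + b := by
      refine lt_of_le_of_lt (natDegree_mul_le) ?_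
      have := natDegree_Ep_le W
      have h3 : (Qf * Qh).natDegree ≤ Qf.natDegree + Qh.natDegree := natDegree_mul_le
      have h4 : Qf.natDegree = (co1 W f).natDegree * 2 := natDegree_expand 2 _
      have h5 : Qh.natDegree = (co1 W h).natDegree * 2 := natDegree_expand 2 _
      omega
    exact ⟨hlt.le, coeff_eq_zero_of_natDegree_lt hlt⟩
  rw [sg_mul]
  refine ⟨(natDegree_add_le _ _).trans (max_le (natDegree_mul_le_of_le hf hh) hcorr.1), ?_⟩
  rw [coeff_add, hcorr.2, add_zero, coeff_mul_add_eq_of_natDegree_le hf hh]

/-! ### symbols and the derivation -/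

/-- lower order part of `sg (D f)` -/
def restp (p q : K[X]) : K[X] :=
  expand K 2 (derivative p) * (C W.a₁ * X ^ 2 + C W.a₃) +
    2 * expand K 2 (derivative q) * (C W.a₂ * X ^ 4 + C W.a₄ * X ^ 2 + C W.a₆) +
    expand K 2 q * (2 * C W.a₂ * X ^ 2 + C W.a₄) -
    X ^ 3 * expand K 2 (derivative q) * (C W.a₁ * X ^ 2 + C W.a₃) -
    C W.a₁ * X ^ 3 * expand K 2 q

lemma expand_gp' : expand K 2 (gp' W) = 3 * X ^ 4 + 2 * C W.a₂ * X ^ 2 + C W.a₄ := by
  simp only [gp', map_add, map_mul, map_pow, expand_X, expand_C, map_ofNat]
  ring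

lemma sg_D_rep (p q : K[X]) :
    sg W (D W (io W p + io W q * Yc W)) =
      X ^ 2 * derivative (expand K 2 p + X ^ 3 * expand K 2 q) + restp W p q := by
  rw [D_rep, sg_rep]
  simp only [map_add, map_sub, map_mul, expand_gp, expand_Lp, expand_gp',
    derivative_mul, derivative_expand, derivative_X_pow, map_ofNat, expand_C, restp]
  norm_num
  have h3 : (C 3 : K[X]) = 3 := map_ofNat C 3
  rw [h3]
  ring

lemma natDegree_restp_le {p q : K[X]} {n : ℕ} (hp : 2 * p.natDegree ≤ n)
    (hq : q = 0 ∨ 2 * q.natDegree + 3 ≤ n) : (restp W p q).natDegree ≤ n := by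
  have e1 : (expand K 2 (derivative p)).natDegree = (derivative p).natDegree * 2 :=
    natDegree_expand 2 _
  have e2 : (expand K 2 (derivative q)).natDegree = (derivative q).natDegree * 2 :=
    natDegree_expand 2 _
  have e3 : (expand K 2 q).natDegree = q.natDegree * 2 := natDegree_expand 2 _
  have d1 : (derivative p).natDegree ≤ p.natDegree - 1 := natDegree_derivative_le p
  have d2 : (derivative q).natDegree ≤ q.natDegree - 1 := natDegree_derivative_le q
  have l1 : (C W.a₁ * X ^ 2 + C W.a₃ : K[X]).natDegree ≤ 2 := by compute_degree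
  have l2 : (C W.a₂ * X ^ 4 + C W.a₄ * X ^ 2 + C W.a₆ : K[X]).natDegree ≤ 4 := by compute_degree
  have l3 : (2 * C W.a₂ * X ^ 2 + C W.a₄ : K[X]).natDegree ≤ 2 := by compute_degree
  -- term 1
  have t1 : (expand K 2 (derivative p) * (C W.a₁ * X ^ 2 + C W.a₃)).natDegree ≤ n := by
    by_cases h0 : derivative p = 0
    · simp [h0]
    · have hpos : 0 < p.natDegree := by
        by_contra hcon
        apply h0
        have : p.natDegree = 0 := by omega
        rw [eq_C_of_natDegree_eq_zero this, derivative_C]
      refine natDegree_mul_le.trans ?_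
      omega
  have t2 : (2 * expand K 2 (derivative q) *
      (C W.a₂ * X ^ 4 + C W.a₄ * X ^ 2 + C W.a₆)).natDegree ≤ n := by
    by_cases h0 : derivative q = 0
    · simp [h0]
    · have hpos : 0 < q.natDegree := by
        by_contra hcon
        apply h0
        have : q.natDegree = 0 := by omega
        rw [eq_C_of_natDegree_eq_zero this, derivative_C]
      have hq0 : q ≠ 0 := by
        rintro rfl; simp at hpos
      have hq' := hq.resolve_left hq0
      refine natDegree_mul_le.trans ?_
      have : (2 * expand K 2 (derivative q)).natDegree ≤ (expand K 2 (derivative q)).natDegree := by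
        refine natDegree_mul_le.trans ?_
        have h2 : (2 : K[X]).natDegree = 0 := natDegree_ofNat 2
        omega
      omega
  have t3 : (expand K 2 q * (2 * C W.a₂ * X ^ 2 + C W.a₄)).natDegree ≤ n := by
    by_cases h0 : q = 0
    · simp [h0]
    · have hq' := hq.resolve_left h0
      refine natDegree_mul_le.trans ?_
      omega
  have t4 : (X ^ 3 * expand K 2 (derivative q) * (C W.a₁ * X ^ 2 + C W.a₃)).natDegree ≤ n := by
    by_cases h0 : derivative q = 0
    · simp [h0]
    · have hpos : 0 < q.natDegree := by
        by_contra hcon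
        apply h0
        have : q.natDegree = 0 := by omega
        rw [eq_C_of_natDegree_eq_zero this, derivative_C]
      have hq0 : q ≠ 0 := by
        rintro rfl; simp at hpos
      have hq' := hq.resolve_left hq0
      refine natDegree_mul_le.trans ?_
      have : (X ^ 3 * expand K 2 (derivative q)).natDegree ≤
          3 + (expand K 2 (derivative q)).natDegree := by
        refine natDegree_mul_le.trans ?_
        rw [natDegree_X_pow]
      omega
  have t5 : (C W.a₁ * X ^ 3 * expand K 2 q).natDegree ≤ n := by
    by_cases h0 : q = 0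
    · simp [h0]
    · have hq' := hq.resolve_left h0
      refine natDegree_mul_le.trans ?_
      have : (C W.a₁ * X ^ 3 : K[X]).natDegree ≤ 3 := by compute_degree
      omega
  unfold restp
  refine (natDegree_sub_le _ _).trans (max_le ?_ t5)
  refine (natDegree_sub_le _ _).trans (max_le ?_ t4)
  refine (natDegree_add_le _ _).trans (max_le ?_ t3)
  exact (natDegree_add_le _ _).trans (max_le t1 t2)

/-- symbols and the derivation: `D` raises the pole order by one and multiplies the
leading coefficient by the pole order -/
lemma sg_D_le {f : W.CoordinateRing} {n : ℕ} (hf : (sg W f).natDegree ≤ n) :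
    (sg W (D W f)).natDegree ≤ n + 1 ∧
      (sg W (D W f)).coeff (n + 1) = (n : K) * (sg W f).coeff n := by
  have hf' := (sg_le_iff W f n).mp hf
  have hrep := rep_co W f
  have hsg : sg W f = expand K 2 (co0 W f) + X ^ 3 * expand K 2 (co1 W f) := rfl
  have hD : sg W (D W f) = X ^ 2 * derivative (sg W f) + restp W (co0 W f) (co1 W f) := by
    conv_lhs => rw [hrep]
    rw [sg_D_rep, ← hsg]
  have hr := natDegree_restp_le W hf'.1 hf'.2
  have hder : (derivative (sg W f)).natDegree ≤ n - 1 :=
    (natDegree_derivative_le _).trans (by omega)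
  rw [hD]
  constructor
  · refine (natDegree_add_le _ _).trans (max_le ?_ (hr.trans (by omega)))
    by_cases h0 : derivative (sg W f) = 0
    · simp [h0]
    · have hpos : 0 < (sg W f).natDegree := by
        by_contra hcon
        apply h0
        have : (sg W f).natDegree = 0 := by omega
        rw [eq_C_of_natDegree_eq_zero this, derivative_C]
      refine natDegree_mul_le.trans ?_
      rw [natDegree_X_pow]
      omega
  · rw [coeff_add, coeff_eq_zero_of_natDegree_lt (lt_of_le_of_lt hr (Nat.lt_succ_self n)),
      add_zero, coeff_X_pow_mul']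
    rcases Nat.eq_zero_or_pos n with rfl | hn
    · simp
    · rw [if_pos (by omega)]
      have : n + 1 - 2 = (n - 1) := by omega
      rw [this, coeff_derivative]
      have h1 : n - 1 + 1 = n := by omega
      rw [h1]
      have h2 : ((n - 1 : ℕ) : K) + 1 = (n : K) := by
        have : ((n - 1 + 1 : ℕ) : K) = (n : K) := by rw [h1]
        rw [← this]; push_cast; ring
      rw [h2]; ring

end

end Fermat.Agent.S13.Wr81
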